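import Fermat.Agent.Lib.RiemannThm
import Fermat.Agent.S24.ResidueField
import Fermat.Agent.S24.PrincipalDiv

/-!
# Package R (TRACK 3): the hypotheses `RR_Hyp` hold in characteristic zero

`K` algebraically closed of characteristic `0`, `x : F` transcendental, `F / K(x)` finite.
-/

set_option autoImplicit false

open AlgebraicCurve IntermediateField

namespace Fermat.Agent.Lib

open Fermat.Agent.S24

variable {K F : Type*} [Field K] [Field F] [Algebra K F]

/-- `RR_Hyp` from its three ingredients, with the pole sum given for the finset of all poles. -/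
theorem RR_hyp_of_zeros (hdeg : ∀ v : Place K F, v.deg = 1) (hP : HasPrincipalDivisors K F)
    (x : F) [FiniteDimensional K⟮x⟯ F] (Z : Finset (Place K F)) (hZ : ∀ v, v ∈ Z ↔ v.ord x < 0)
    (hne : Z.Nonempty) (hsum : ∑ v ∈ Z, (-v.ord x) ≤ (Module.finrank K⟮x⟯ F : ℤ)) :
    RR_Hyp K F where
  deg_one := hdeg
  principal := hP
  exists_x := by
    obtain ⟨v₀, hv₀⟩ := hne
    refine ⟨x, ⟨v₀, (hZ v₀).1 hv₀⟩, inferInstance, fun s hs => ?_⟩
    refine le_trans (Finset.sum_le_sum_of_subset_of_nonneg (fun v hv => (hZ v).2 (hs v hv))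
      fun v hv _ => ?_) hsum
    have := (hZ v).1 hv
    omega

/-- `RR_Hyp` in characteristic zero (from the S24 package BG). -/
theorem RR_hyp_of_charZero [IsAlgClosed K] [CharZero K] {x : F} (hx : Transcendental K x)
    [hfin : FiniteDimensional K⟮x⟯ F] : RR_Hyp K F := by
  have hF : S24_IsFunctionField1 K F :=
    S24_isFunctionField1_of_isAlgebraic x (Algebra.IsAlgebraic.of_finite _ _)
  have htr' : Transcendental K x⁻¹ := BG_transcendental_inv hx
  have h2 : FiniteDimensional K⟮x⁻¹⟯ F := BL_finite_of_transcendental hfin htr'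
  have hfr : Module.finrank K⟮x⁻¹⟯ F = Module.finrank K⟮x⟯ F :=
    congrArg (fun E : IntermediateField K F => Module.finrank E F) (BG_adjoin_inv x)
  have hZ : ∀ v, v ∈ BG_zeros htr' ↔ v.ord x < 0 := by
    intro v
    rw [BG_mem_zeros htr', v.ord_inv]
    omega
  have hsum : ∑ v ∈ BG_zeros htr', (-v.ord x) = (Module.finrank K⟮x⟯ F : ℤ) := by
    rw [← hfr, ← BG_sum_zeros htr']
    exact Finset.sum_congr rfl fun v _ => (v.ord_inv x).symm
  have hpos : 0 < Module.finrank K⟮x⟯ F := Module.finrank_pos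
  refine RR_hyp_of_zeros (fun v => S24_deg_eq_one hF v) (BG_hasPrincipalDivisors hx) x
    (BG_zeros htr') hZ ?_ hsum.le
  by_contra hempty
  rw [Finset.not_nonempty_iff_eq_empty] at hempty
  rw [hempty, Finset.sum_empty] at hsum
  have : (0 : ℤ) < Module.finrank K⟮x⟯ F := by exact_mod_cast hpos
  omega

end Fermat.Agent.Lib
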