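import Mathlib.RingTheory.Valuation.LocalSubring
import Mathlib.RingTheory.Polynomial.Content
import Mathlib.Tactic
import Fermat.Prelude.Def_FLTPrelim_Ramification

set_option autoImplicit false

namespace Fermat.Agent.Lib

open Polynomial

variable {K : Type*} [Field K]

/-- An element lying in every valuation subring is integral over `ℤ`. -/
lemma isIntegral_int_of_forall_mem_valuationSubring (x : K)
    (h : ∀ V : ValuationSubring K, x ∈ V) : IsIntegral ℤ x := by
  have h1 : x ∈ (⨅ V : {V : ValuationSubring K // (∅ : Set K) ⊆ V.toSubring}, V.1.toSubring) := by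
    rw [Subring.mem_iInf]
    intro V
    exact h V.1
  rw [iInf_valuationSubring_superset] at h1
  have h2 : IsIntegral (Subring.closure (∅ : Set K)) x := h1
  have : Algebra.IsIntegral ℤ (Subring.closure (∅ : Set K)) := by
    constructor
    rintro ⟨y, hy⟩
    rw [Subring.closure_empty, Subring.mem_bot] at hy
    obtain ⟨n, rfl⟩ := hy
    have : (⟨(n : K), hy⟩ : Subring.closure (∅ : Set K)) = algebraMap ℤ _ n := by
      ext; simp
    rw [this]
    exact isIntegral_algebraMap
  exact isIntegral_trans x h2

/-- Values of integer polynomials at elements of a valuation subring stay in it. -/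
lemma aeval_int_mem_valuationSubring (V : ValuationSubring K) {x : K} (hx : x ∈ V)
    (g : ℤ[X]) : aeval x g ∈ V := by
  rw [aeval_eq_sum_range]
  refine Subring.sum_mem V.toSubring fun i _ => ?_
  rw [zsmul_eq_mul]
  exact V.mul_mem _ _ (intCast_mem V.toSubring _) (V.toSubring.pow_mem hx i)

/-- The "Horner tails" `a_n x^(n-j) + ⋯ + a_j` of an integer polynomial vanishing at `x`
lie in every valuation subring. -/
lemma aeval_divX_iterate_mem_valuationSubring (V : ValuationSubring K) {x : K} (g : ℤ[X])
    (hg : aeval x g = 0) (j : ℕ) : aeval x (divX^[j] g) ∈ V := by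
  by_cases hx : x ∈ V
  · exact aeval_int_mem_valuationSubring V hx _
  · have hx0 : x ≠ 0 := fun h => hx (h ▸ V.zero_mem)
    have hxinv : x⁻¹ ∈ V := (V.mem_or_inv_mem x).resolve_left hx
    induction j with
    | zero => simp [hg]
    | succ j ih =>
      rw [Function.iterate_succ_apply']
      set p := divX^[j] g with hp
      have h1 : aeval x p = aeval x (divX p) * x + (p.coeff 0 : K) := by
        conv_lhs => rw [← divX_mul_X_add p]
        simp
      have h2 : aeval x (divX p) = x⁻¹ * (aeval x p - (p.coeff 0 : K)) := by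
        rw [h1]; field_simp; ring
      rw [h2]
      exact V.mul_mem _ _ hxinv (V.toSubring.sub_mem ih (intCast_mem V.toSubring _))

/-- The Horner tails are integral over `ℤ`. -/
lemma isIntegral_aeval_divX_iterate {x : K} (g : ℤ[X]) (hg : aeval x g = 0) (j : ℕ) :
    IsIntegral ℤ (aeval x (divX^[j] g)) :=
  isIntegral_int_of_forall_mem_valuationSubring _ fun V =>
    aeval_divX_iterate_mem_valuationSubring V g hg j

lemma coeff_divX_iterate (g : ℤ[X]) (j n : ℕ) : (divX^[j] g).coeff n = g.coeff (n + j) := by
  induction j generalizing n with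
  | zero => simp
  | succ j ih =>
    rw [Function.iterate_succ_apply', coeff_divX, ih]
    congr 1; ring

lemma aeval_divX_iterate_succ {x : K} (g : ℤ[X]) (j : ℕ) :
    aeval x (divX^[j] g) = aeval x (divX^[j + 1] g) * x + (g.coeff j : K) := by
  rw [Function.iterate_succ_apply']
  conv_lhs => rw [← divX_mul_X_add (divX^[j] g)]
  simp [coeff_divX_iterate]

/-- **Valuation subrings over `ℓ` are localizations of the ring of algebraic integers.**
Every element `x` (algebraic over `ℤ`) of a valuation subring `A` in which the prime `ℓ` is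
a non-unit is a fraction `y / s` of algebraic integers with `s` a unit of `A`. -/
theorem exists_integral_fraction_of_mem_valuationSubring [CharZero K] {ℓ : ℕ} (hℓ : ℓ.Prime)
    (A : ValuationSubring K) (hA : (ℓ : K) ∈ A.nonunits) {x : K} (hxalg : IsAlgebraic ℤ x)
    (hx : x ∈ A) :
    ∃ s y : K, IsIntegral ℤ s ∧ IsIntegral ℤ y ∧ s ∈ A ∧ s ∉ A.nonunits ∧ s * x = y := by
  obtain ⟨f, hf0, hfx⟩ := hxalg
  -- pass to the primitive part
  set g := f.primPart with hg
  have hgx : aeval x g = 0 := by
    have h1 : f = C f.content * g := f.eq_C_content_mul_primPart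
    rw [h1, map_mul, aeval_C] at hfx
    rcases mul_eq_zero.mp hfx with h | h
    · exfalso
      have : f.content = 0 := by
        have h' : ((f.content : ℤ) : K) = 0 := by simpa using h
        exact_mod_cast h'
      exact hf0 (content_eq_zero_iff.mp this)
    · exact h
  have hprim : g.IsPrimitive := f.isPrimitive_primPart
  -- some coefficient is prime to `ℓ`
  have hex : ∃ i, ¬ (ℓ : ℤ) ∣ g.coeff i := by
    by_contra hcon
    push Not at hcon
    have hdvd : C (ℓ : ℤ) ∣ g := (C_dvd_iff_dvd_coeff _ _).mpr hcon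
    have hu : IsUnit (ℓ : ℤ) := hprim _ hdvd
    exact (Nat.prime_iff_prime_int.mp hℓ).not_isUnit hu
  have hle : ∀ i, ¬ (ℓ : ℤ) ∣ g.coeff i → i ≤ g.natDegree := by
    intro i hi
    by_contra hlt
    exact hi (by rw [coeff_eq_zero_of_natDegree_lt (not_le.mp hlt)]; exact dvd_zero _)
  classical
  set r := Nat.findGreatest (fun i => ¬ (ℓ : ℤ) ∣ g.coeff i) g.natDegree with hr
  have hr1 : ¬ (ℓ : ℤ) ∣ g.coeff r := by
    obtain ⟨i, hi⟩ := hex
    exact Nat.findGreatest_spec (P := fun i => ¬ (ℓ : ℤ) ∣ g.coeff i) (hle i hi) hi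
  have hr2 : ∀ i, r < i → (ℓ : ℤ) ∣ g.coeff i := by
    intro i hi
    by_contra hcon
    exact Nat.findGreatest_is_greatest (P := fun i => ¬ (ℓ : ℤ) ∣ g.coeff i) hi (hle i hcon) hcon
  -- the tail beyond `r` is divisible by `ℓ`
  have htail : aeval x (divX^[r + 1] g) ∈ A.nonunits := by
    have hdvd : C (ℓ : ℤ) ∣ divX^[r + 1] g := by
      rw [C_dvd_iff_dvd_coeff]
      intro i
      rw [coeff_divX_iterate]
      exact hr2 _ (by omega)
    obtain ⟨q, hq⟩ := hdvd
    rw [hq, map_mul, aeval_C]
    have h1 : aeval x q ∈ A := aeval_int_mem_valuationSubring A hx q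
    have h2 : (algebraMap ℤ K) (ℓ : ℤ) = (ℓ : K) := by simp
    rw [h2]
    rw [A.mem_nonunits_iff] at hA ⊢
    rw [map_mul]
    calc A.valuation (ℓ : K) * A.valuation (aeval x q)
        ≤ A.valuation (ℓ : K) * 1 := by
          gcongr
          exact (A.valuation_le_one_iff _).mpr h1
      _ < 1 := by rw [mul_one]; exact hA
  -- `a_r` is a unit of `A`
  have hcop : IsCoprime (g.coeff r) (ℓ : ℤ) := by
    rw [isCoprime_comm]
    exact (Nat.prime_iff_prime_int.mp hℓ).coprime_iff_not_dvd.mpr hr1
  have har : ((g.coeff r : ℤ) : K) ∉ A.nonunits := by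
    intro hcon
    obtain ⟨u, v, huv⟩ := hcop
    have h1 : ((u : ℤ) : K) * (g.coeff r : K) + (v : K) * (ℓ : K) = 1 := by
      exact_mod_cast congrArg (Int.cast : ℤ → K) huv
    have h2 : (1 : K) ∈ A.nonunits := by
      rw [← h1]
      refine A.nonunits.add_mem ?_ ?_
      · rw [A.mem_nonunits_iff] at hcon ⊢
        rw [map_mul]
        calc A.valuation (u : K) * A.valuation (g.coeff r : K)
            ≤ 1 * A.valuation (g.coeff r : K) := by
              gcongr
              exact (A.valuation_le_one_iff _).mpr (intCast_mem A.toSubring u)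
          _ < 1 := by rw [one_mul]; exact hcon
      · rw [A.mem_nonunits_iff] at hA ⊢
        rw [map_mul]
        calc A.valuation (v : K) * A.valuation (ℓ : K)
            ≤ 1 * A.valuation (ℓ : K) := by
              gcongr
              exact (A.valuation_le_one_iff _).mpr (intCast_mem A.toSubring v)
          _ < 1 := by rw [one_mul]; exact hA
    rw [A.mem_nonunits_iff, map_one] at h2
    exact lt_irrefl _ h2
  set s := aeval x (divX^[r] g) with hs
  have hsA : s ∈ A := aeval_int_mem_valuationSubring A hx _
  have hs_eq : s = aeval x (divX^[r + 1] g) * x + (g.coeff r : K) := aeval_divX_iterate_succ g r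
  have hsnon : s ∉ A.nonunits := by
    intro hcon
    apply har
    have : ((g.coeff r : ℤ) : K) = s - aeval x (divX^[r + 1] g) * x := by rw [hs_eq]; ring
    rw [this]
    refine A.nonunits.sub_mem hcon ?_
    rw [A.mem_nonunits_iff] at htail ⊢
    rw [map_mul]
    calc A.valuation (aeval x (divX^[r + 1] g)) * A.valuation x
        ≤ A.valuation (aeval x (divX^[r + 1] g)) * 1 := by
          gcongr
          exact (A.valuation_le_one_iff _).mpr hx
      _ < 1 := by rw [mul_one]; exact htail
  have hr0 : r ≠ 0 := by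
    intro h0
    apply hsnon
    have : s = 0 := by rw [hs, h0]; simpa using hgx
    rw [this]
    exact A.nonunits.zero_mem
  obtain ⟨r', hr'⟩ := Nat.exists_eq_succ_of_ne_zero hr0
  refine ⟨s, s * x, isIntegral_aeval_divX_iterate g hgx r, ?_, hsA, hsnon, rfl⟩
  have h3 : aeval x (divX^[r'] g) = s * x + (g.coeff r' : K) := by
    rw [hs, hr']
    exact aeval_divX_iterate_succ g r'
  have h4 : s * x = aeval x (divX^[r'] g) - (g.coeff r' : K) := by rw [h3]; ring
  rw [h4]
  exact (isIntegral_aeval_divX_iterate g hgx r').sub isIntegral_algebraMap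

end Fermat.Agent.Lib
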