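import Mathlib.RingTheory.Valuation.RamificationGroup
import Mathlib.RingTheory.Valuation.LocalSubring
import Mathlib.Tactic
import Fermat.Prelude.Def_EllipticCurve_FrobeniusTrace
import Fermat.Prelude.Def_FLTPrelim_Ramification
import Fermat.Agent.Lib.ValFraction

set_option autoImplicit false

namespace Fermat.Agent.Lib

open scoped Pointwise

variable {K L : Type*} [Field K] [Field L] [Algebra K L]

/-- Algebraic integers lie in every valuation subring. -/
lemma mem_valuationSubring_of_isIntegral_int (A : ValuationSubring L) {x : L}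
    (hx : IsIntegral ℤ x) : x ∈ A := by
  have h : IsIntegral A x := hx.tower_top
  obtain ⟨y, hy⟩ := IsIntegrallyClosed.algebraMap_eq_of_integral h
  rw [← hy]
  exact y.2

/-- **Transfer lemma.** If `σ` satisfies the Frobenius congruence `σ x ≡ x ^ ℓ` modulo the maximal
ideal of the valuation subring `A` (lying over `ℓ`) for all algebraic integers `x`, then `σ` is a
Frobenius element at `ℓ` for `A` in the sense of the prelude. -/
theorem isFrobeniusAt_of_forall_isIntegral [CharZero L] (hLalg : ∀ x : L, IsAlgebraic ℤ x)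
    {ℓ : ℕ} (hℓ : ℓ.Prime) (A : ValuationSubring L) (hA : A.LiesOverPrime ℓ) (σ : L ≃ₐ[K] L)
    (hσ : ∀ x : L, IsIntegral ℤ x → σ x - x ^ ℓ ∈ A.nonunits) : A.IsFrobeniusAt σ ℓ := by
  set v := A.valuation with hv
  have hv_int : ∀ x : L, IsIntegral ℤ x → v x ≤ 1 := fun x hx =>
    (A.valuation_le_one_iff x).mpr (mem_valuationSubring_of_isIntegral_int A hx)
  have hσ' : ∀ x : L, IsIntegral ℤ x → v (σ x - x ^ ℓ) < 1 := fun x hx =>
    A.mem_nonunits_iff.mp (hσ x hx)
  have hσint : ∀ x : L, IsIntegral ℤ x → IsIntegral ℤ (σ x) := fun x hx => hx.map σ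
  have hσsint : ∀ x : L, IsIntegral ℤ x → IsIntegral ℤ (σ.symm x) := fun x hx => hx.map σ.symm
  -- units among the integers are preserved by `σ` and `σ⁻¹`
  have hunit : ∀ s : L, IsIntegral ℤ s → v s = 1 → v (σ s) = 1 := by
    intro s hs h1
    have h2 : v (s ^ ℓ) = 1 := by rw [map_pow, h1, one_pow]
    have h3 : σ s = s ^ ℓ + (σ s - s ^ ℓ) := by ring
    rw [h3, Valuation.map_add_eq_of_lt_left _ (by rw [h2]; exact hσ' s hs), h2]
  have hunit' : ∀ s : L, IsIntegral ℤ s → v s = 1 → v (σ.symm s) = 1 := by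
    intro s hs h1
    refine le_antisymm (hv_int _ (hσsint s hs)) ?_
    by_contra hlt
    rw [not_le] at hlt
    have h2 : v ((σ.symm s) ^ ℓ) < 1 := by
      rw [map_pow]
      exact pow_lt_one₀ zero_le hlt hℓ.ne_zero
    have h3 : s = (σ.symm s) ^ ℓ + (σ (σ.symm s) - (σ.symm s) ^ ℓ) := by
      rw [AlgEquiv.apply_symm_apply]; ring
    have h4 : v s < 1 := by
      rw [h3]
      exact lt_of_le_of_lt (Valuation.map_add _ _ _) (max_lt h2 (hσ' _ (hσsint s hs)))
    rw [h1] at h4
    exact lt_irrefl _ h4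
  have key : ∀ x ∈ A, σ x ∈ A ∧ σ x - x ^ ℓ ∈ A.nonunits := by
    intro x hx
    obtain ⟨s, y, hs, hy, hsA, hsn, hsxy⟩ :=
      exists_integral_fraction_of_mem_valuationSubring hℓ A hA (hLalg x) hx
    have hs1 : v s = 1 := by
      refine le_antisymm ((A.valuation_le_one_iff s).mpr hsA) ?_
      by_contra hlt
      exact hsn (A.mem_nonunits_iff.mpr (not_le.mp hlt))
    have hs0 : s ≠ 0 := by
      rintro rfl
      rw [map_zero] at hs1
      exact zero_ne_one hs1
    have hσs1 : v (σ s) = 1 := hunit s hs hs1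
    have hσs0 : σ s ≠ 0 := by
      intro h0
      rw [h0, map_zero] at hσs1
      exact zero_ne_one hσs1
    have hx_eq : x = y / s := by rw [← hsxy]; field_simp
    have hσx_eq : σ x = σ y / σ s := by rw [hx_eq, map_div₀]
    have hvx : v x ≤ 1 := (A.valuation_le_one_iff x).mpr hx
    constructor
    · rw [← A.valuation_le_one_iff, hσx_eq, map_div₀, hσs1, div_one]
      exact hv_int _ (hσint y hy)
    · rw [A.mem_nonunits_iff]
      have h5 : σ x - x ^ ℓ = ((σ y - y ^ ℓ) * s ^ ℓ - y ^ ℓ * (σ s - s ^ ℓ)) / (σ s * s ^ ℓ) := by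
        rw [hσx_eq, hx_eq, div_pow]
        have hsl : s ^ ℓ ≠ 0 := pow_ne_zero _ hs0
        field_simp
        ring
      have h6 : v (σ s * s ^ ℓ) = 1 := by rw [map_mul, map_pow, hσs1, hs1, one_pow, mul_one]
      rw [h5, map_div₀, h6, div_one]
      refine lt_of_le_of_lt (Valuation.map_sub _ _ _) (max_lt ?_ ?_)
      · rw [map_mul, map_pow, hs1, one_pow, mul_one]
        exact hσ' y hy
      · rw [map_mul, map_pow]
        calc v y ^ ℓ * v (σ s - s ^ ℓ) ≤ 1 * v (σ s - s ^ ℓ) := by
              gcongr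
              exact pow_le_one₀ zero_le (hv_int y hy)
          _ < 1 := by rw [one_mul]; exact hσ' s hs
  have key' : ∀ x ∈ A, σ.symm x ∈ A := by
    intro x hx
    obtain ⟨s, y, hs, hy, hsA, hsn, hsxy⟩ :=
      exists_integral_fraction_of_mem_valuationSubring hℓ A hA (hLalg x) hx
    have hs1 : v s = 1 := by
      refine le_antisymm ((A.valuation_le_one_iff s).mpr hsA) ?_
      by_contra hlt
      exact hsn (A.mem_nonunits_iff.mpr (not_le.mp hlt))
    have hs0 : s ≠ 0 := by
      rintro rfl
      rw [map_zero] at hs1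
      exact zero_ne_one hs1
    have hx_eq : x = y / s := by rw [← hsxy]; field_simp
    rw [← A.valuation_le_one_iff, hx_eq, map_div₀, map_div₀, hunit' s hs hs1, div_one]
    exact hv_int _ (hσsint y hy)
  have hmem : σ ∈ A.decompositionSubgroup K := by
    rw [MulAction.mem_stabilizer_iff]
    ext x
    rw [ValuationSubring.mem_pointwise_smul_iff_inv_smul_mem]
    constructor
    · intro h
      have := (key _ h).1
      rwa [AlgEquiv.smul_def, AlgEquiv.aut_inv, AlgEquiv.apply_symm_apply] at this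
    · intro h
      exact key' x h
  refine ⟨hmem, fun xbar => ?_⟩
  obtain ⟨x, rfl⟩ := IsLocalRing.residue_surjective xbar
  rw [← IsLocalRing.ResidueField.residue_smul, ← map_pow, ← sub_eq_zero, ← map_sub,
    IsLocalRing.residue_eq_zero_iff, ← A.coe_mem_nonunits_iff]
  exact (key x x.2).2

end Fermat.Agent.Lib
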