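import Mathlib
import Fermat.Prelude.Def_EllipticCurve_FrobeniusTrace
import Fermat.Prelude.Def_FLTPrelim_Ramification
import Fermat.Agent.Lib.FrobTransfer

/-!
# Existence of Frobenius elements in `Gal(ℚ̄/ℚ)`

For every prime `ℓ` there is a valuation subring `A` of `ℚ̄` lying over `ℓ` and an element
`σ` of the absolute Galois group which is a Frobenius at `A`.
-/

set_option autoImplicit false

open scoped Pointwise

namespace Fermat.Agent.Lib

noncomputable section

/-- `ℚ̄` is an algebraic closure of `ℚ` (for the default `ℚ`-algebra structure). -/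
theorem frobExists_isAlgClosure : IsAlgClosure ℚ (AlgebraicClosure ℚ) :=
  ⟨inferInstance, AlgebraicClosure.isAlgebraic ℚ⟩

theorem frobExists_isGalois : IsGalois ℚ (AlgebraicClosure ℚ) :=
  have := frobExists_isAlgClosure
  IsAlgClosure.isGalois ℚ (AlgebraicClosure ℚ)

/-- The ring of all algebraic integers. -/
abbrev FrobExistsZbar : Subalgebra ℤ (AlgebraicClosure ℚ) := integralClosure ℤ (AlgebraicClosure ℚ)

/-- The Galois action on algebraic integers. -/
local instance frobExistsMulSemiringAction :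
    MulSemiringAction (AlgebraicClosure ℚ ≃ₐ[ℚ] AlgebraicClosure ℚ) FrobExistsZbar where
  smul σ b := ⟨σ b.1, b.2.map (σ.toAlgHom.restrictScalars ℤ)⟩
  one_smul _ := rfl
  mul_smul _ _ _ := rfl
  smul_zero σ := Subtype.ext (map_zero σ)
  smul_add σ _ _ := Subtype.ext (map_add σ _ _)
  smul_one σ := Subtype.ext (map_one σ)
  smul_mul σ _ _ := Subtype.ext (map_mul σ _ _)

theorem frobExists_coe_smul (σ : AlgebraicClosure ℚ ≃ₐ[ℚ] AlgebraicClosure ℚ)
    (b : FrobExistsZbar) : ((σ • b : FrobExistsZbar) : AlgebraicClosure ℚ) = σ b.1 := rfl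

local instance frobExistsSMulCommClass :
    SMulCommClass (AlgebraicClosure ℚ ≃ₐ[ℚ] AlgebraicClosure ℚ) ℤ FrobExistsZbar where
  smul_comm σ n b := Subtype.ext (by
    show σ ((n • b : FrobExistsZbar) : AlgebraicClosure ℚ) = n • σ b.1
    rw [Subalgebra.coe_smul, map_zsmul])

local instance frobExistsTopologicalSpace : TopologicalSpace FrobExistsZbar := ⊥

local instance frobExistsDiscreteTopology : DiscreteTopology FrobExistsZbar := ⟨rfl⟩

local instance frobExistsContinuousSMul :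
    ContinuousSMul (AlgebraicClosure ℚ ≃ₐ[ℚ] AlgebraicClosure ℚ) FrobExistsZbar := by
  have : Algebra.IsAlgebraic ℚ (AlgebraicClosure ℚ) := AlgebraicClosure.isAlgebraic ℚ
  have : Algebra.IsIntegral ℚ (AlgebraicClosure ℚ) := Algebra.IsAlgebraic.isIntegral
  rw [continuousSMul_iff_stabilizer_isOpen]
  intro b
  convert stabilizer_isOpen_of_isIntegral (K := ℚ) (L := AlgebraicClosure ℚ) b.1 using 1
  ext σ
  simp only [SetLike.mem_coe, MulAction.mem_stabilizer_iff]
  exact ⟨fun h => congrArg Subtype.val h, fun h => Subtype.ext h⟩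

local instance frobExistsIsInvariant :
    Algebra.IsInvariant ℤ FrobExistsZbar (AlgebraicClosure ℚ ≃ₐ[ℚ] AlgebraicClosure ℚ) := by
  have := frobExists_isGalois
  refine ⟨fun b hb => ?_⟩
  have hb' : (b : AlgebraicClosure ℚ) ∈
      IntermediateField.fixedField (⊤ : Subgroup (AlgebraicClosure ℚ ≃ₐ[ℚ] AlgebraicClosure ℚ)) := by
    rintro ⟨g, -⟩
    exact congrArg Subtype.val (hb g)
  rw [InfiniteGalois.fixedField_bot, IntermediateField.mem_bot] at hb'
  obtain ⟨k, hk⟩ := hb'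
  have hint : IsIntegral ℤ (algebraMap ℚ (AlgebraicClosure ℚ) k) := hk ▸ b.2
  rw [isIntegral_algebraMap_iff (FaithfulSMul.algebraMap_injective ℚ (AlgebraicClosure ℚ))] at hint
  obtain ⟨a, rfl⟩ := IsIntegrallyClosed.algebraMap_eq_of_integral hint
  refine ⟨a, Subtype.ext ?_⟩
  rw [← hk]
  simp

/-- Algebraic integers lie in every valuation subring. -/
theorem frobExists_mem_of_isIntegral (A : ValuationSubring (AlgebraicClosure ℚ))
    {x : AlgebraicClosure ℚ} (hx : IsIntegral ℤ x) : x ∈ A := by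
  have h1 : IsIntegral A x := hx.tower_top
  obtain ⟨y, hy⟩ := IsIntegrallyClosed.algebraMap_eq_of_integral (R := A) (K := AlgebraicClosure ℚ) h1
  rw [← hy]
  exact y.2

/-- There is a valuation subring of `ℚ̄` in which `ℓ` is a non-unit. -/
theorem frobExists_exists_valuationSubring (ℓ : ℕ) (hℓ : ℓ.Prime) :
    ∃ A : ValuationSubring (AlgebraicClosure ℚ), (ℓ : AlgebraicClosure ℚ) ∈ A.nonunits := by
  let R : Subring (AlgebraicClosure ℚ) := ⊥
  have hmem : (ℓ : AlgebraicClosure ℚ) ∈ R := natCast_mem R ℓ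
  let I : Ideal R := Ideal.span {⟨(ℓ : AlgebraicClosure ℚ), hmem⟩}
  have hI : I ≠ ⊤ := by
    intro h
    rw [Ideal.span_singleton_eq_top] at h
    obtain ⟨u, hu⟩ := h.exists_right_inv
    obtain ⟨n, hn⟩ := Subring.mem_bot.mp u.2
    have h1 : ((ℓ : AlgebraicClosure ℚ)) * (u : AlgebraicClosure ℚ) = 1 :=
      congrArg Subtype.val hu
    rw [← hn] at h1
    have h2 : ((ℓ : ℤ) * n : ℤ) = 1 := by
      have : (((ℓ : ℤ) * n : ℤ) : AlgebraicClosure ℚ) = ((1 : ℤ) : AlgebraicClosure ℚ) := by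
        push_cast; exact h1
      exact Int.cast_injective this
    have h3 : (ℓ : ℤ) ∣ 1 := ⟨n, h2.symm⟩
    have h4 := Int.le_of_dvd one_pos h3
    have := hℓ.two_le
    omega
  obtain ⟨A, -, hA⟩ := Ideal.image_subset_nonunits_valuationSubring I hI
  exact ⟨A, hA ⟨⟨_, hmem⟩, Ideal.subset_span rfl, rfl⟩⟩

/-- Core statement: a valuation subring `A` over `ℓ` together with a Galois element which is
congruent to the `ℓ`-th power map on all algebraic integers modulo the maximal ideal of `A`. -/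
theorem frobExists_core (ℓ : ℕ) (hℓ : ℓ.Prime) :
    ∃ (A : ValuationSubring (AlgebraicClosure ℚ))
      (σ : AlgebraicClosure ℚ ≃ₐ[ℚ] AlgebraicClosure ℚ),
      (ℓ : AlgebraicClosure ℚ) ∈ A.nonunits ∧
      ∀ x : AlgebraicClosure ℚ, IsIntegral ℤ x → σ x - x ^ ℓ ∈ A.nonunits := by
  obtain ⟨A, hA⟩ := frobExists_exists_valuationSubring ℓ hℓ
  haveI : Fact ℓ.Prime := ⟨hℓ⟩
  haveI := frobExists_isGalois
  haveI : Algebra.IsAlgebraic ℚ (AlgebraicClosure ℚ) := AlgebraicClosure.isAlgebraic ℚ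
  haveI : Algebra.IsIntegral ℚ (AlgebraicClosure ℚ) := Algebra.IsAlgebraic.isIntegral
  -- the inclusion of the algebraic integers into `A`
  let ι : FrobExistsZbar →+* A :=
    { toFun := fun b => ⟨b.1, frobExists_mem_of_isIntegral A b.2⟩
      map_one' := rfl
      map_mul' := fun _ _ => rfl
      map_zero' := rfl
      map_add' := fun _ _ => rfl }
  let Q : Ideal FrobExistsZbar := Ideal.comap ι (IsLocalRing.maximalIdeal A)
  have hQmem : ∀ b : FrobExistsZbar, b ∈ Q ↔ (b : AlgebraicClosure ℚ) ∈ A.nonunits := by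
    intro b
    rw [Ideal.mem_comap, ← ValuationSubring.coe_mem_nonunits_iff]
    rfl
  haveI hQprime : Q.IsPrime := Ideal.comap_isPrime ι _
  let P : Ideal ℤ := Ideal.span {(ℓ : ℤ)}
  haveI hPmax : P.IsMaximal := Int.ideal_span_isMaximal_of_prime ℓ
  haveI hQP : Q.LiesOver P := by
    constructor
    refine hPmax.eq_of_le Ideal.IsPrime.ne_top' ?_
    rw [Ideal.span_singleton_le_iff_mem, Ideal.under_def, Ideal.mem_comap, hQmem]
    simpa using hA
  haveI hQmax : Q.IsMaximal := Ideal.IsMaximal.of_liesOver_isMaximal Q P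
  letI := Ideal.Quotient.field P
  letI := Ideal.Quotient.field Q
  have hℓQ : ((ℓ : ℕ) : FrobExistsZbar ⧸ Q) = 0 := by
    have h1 : ((ℓ : ℕ) : FrobExistsZbar) ∈ Q := by
      rw [hQmem]
      simpa using hA
    have h2 := Ideal.Quotient.eq_zero_iff_mem.mpr h1
    simpa using h2
  haveI : CharP (FrobExistsZbar ⧸ Q) ℓ := (CharP.charP_iff_prime_eq_zero hℓ).mpr hℓQ
  let φ₀ : (FrobExistsZbar ⧸ Q) →ₐ[ℤ ⧸ P] (FrobExistsZbar ⧸ Q) :=
    { frobenius (FrobExistsZbar ⧸ Q) ℓ with
      commutes' := by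
        intro r
        obtain ⟨n, rfl⟩ := Ideal.Quotient.mk_surjective r
        have : algebraMap (ℤ ⧸ P) (FrobExistsZbar ⧸ Q) (Ideal.Quotient.mk P n) =
            ((n : ℤ) : FrobExistsZbar ⧸ Q) := by
          rw [← Ideal.Quotient.algebraMap_eq, ← IsScalarTower.algebraMap_apply]
          simp
        simp only [RingHom.toMonoidHom_eq_coe, OneHom.toFun_eq_coe, MonoidHom.toOneHom_coe,
          MonoidHom.coe_coe]
        rw [this, map_intCast] }
  have hbij : Function.Bijective φ₀ := Algebra.IsAlgebraic.algHom_bijective φ₀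
  let φ : (FrobExistsZbar ⧸ Q) ≃ₐ[ℤ ⧸ P] (FrobExistsZbar ⧸ Q) := AlgEquiv.ofBijective φ₀ hbij
  obtain ⟨σ, hσ⟩ := Ideal.Quotient.stabilizerHom_surjective_of_profinite
    (G := AlgebraicClosure ℚ ≃ₐ[ℚ] AlgebraicClosure ℚ) P Q φ
  refine ⟨A, σ.1, hA, fun x hx => ?_⟩
  have h1 := DFunLike.congr_fun hσ (Ideal.Quotient.mk Q ⟨x, hx⟩)
  rw [Ideal.Quotient.stabilizerHom_apply] at h1
  have h2 : φ (Ideal.Quotient.mk Q ⟨x, hx⟩) = Ideal.Quotient.mk Q (⟨x, hx⟩ ^ ℓ) := by
    rw [map_pow]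
    rfl
  rw [h2, Ideal.Quotient.eq, hQmem] at h1
  exact h1

/-- **Existence of Frobenius elements**: for every prime `ℓ` there are a valuation subring `A`
of `ℚ̄` lying over `ℓ` and an element of `Gal(ℚ̄/ℚ)` which is a Frobenius at `A`. -/
theorem exists_isFrobeniusAt (ℓ : ℕ) (hℓ : ℓ.Prime) :
    ∃ (A : ValuationSubring (AlgebraicClosure ℚ))
      (σ : AlgebraicClosure ℚ ≃ₐ[ℚ] AlgebraicClosure ℚ),
      A.LiesOverPrime ℓ ∧ A.IsFrobeniusAt σ ℓ := by
  obtain ⟨A, σ, hA, hσ⟩ := frobExists_core ℓ hℓ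
  have halg : ∀ x : AlgebraicClosure ℚ, IsAlgebraic ℤ x := fun x =>
    (IsFractionRing.isAlgebraic_iff ℤ ℚ (AlgebraicClosure ℚ)).mpr
      ((AlgebraicClosure.isAlgebraic ℚ).isAlgebraic x)
  exact ⟨A, σ, hA, isFrobeniusAt_of_forall_isIntegral halg hℓ A hA σ hσ⟩

end

end Fermat.Agent.Lib
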