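import Mathlib

/-!
# Frobenius density theorem (pillar G, package FD): shared definitions

* `FDN_degOne K t` : the primes of `𝓞 K` of absolute degree one (= prime absolute norm), prime
  to `t`.
* `FDN_D K t s` : the sum of `N(v) ^ (-s)` over these primes.
* `FDN_DStmt K` : `FDN_D K t s = log (1 / (s - 1)) + O(1)` on `(1, 2]`, for every `t ≠ 0`.
-/

namespace Fermat.Agent.Lib

open NumberField IsDedekindDomain

/-- primes of absolute degree one, prime to `t`. -/
def FDN_degOne (K : Type*) [Field K] [NumberField K] (t : ℕ) :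
    Set (HeightOneSpectrum (𝓞 K)) :=
  {v | (Ideal.absNorm v.asIdeal).Prime ∧ ¬ Ideal.absNorm v.asIdeal ∣ t}

/-- the sum of `N(v) ^ (-s)` over the primes of absolute degree one prime to `t`. -/
noncomputable def FDN_D (K : Type*) [Field K] [NumberField K] (t : ℕ) (s : ℝ) : ℝ :=
  ∑' v : FDN_degOne K t, (Ideal.absNorm v.1.asIdeal : ℝ) ^ (-s)

/-- The analytic input: `∑_{deg v = 1, v ∤ t} N(v)^(-s) = log (1 / (s - 1)) + O(1)`. -/
def FDN_DStmt (K : Type*) [Field K] [NumberField K] : Prop :=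
  ∀ t : ℕ, t ≠ 0 →
    (∀ s : ℝ, 1 < s →
      Summable (fun v : FDN_degOne K t ↦ (Ideal.absNorm v.1.asIdeal : ℝ) ^ (-s))) ∧
    ∃ B : ℝ, ∀ s : ℝ, 1 < s → s ≤ 2 → |FDN_D K t s - Real.log (1 / (s - 1))| ≤ B

end Fermat.Agent.Lib
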