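/-
Pillar G, package DENS (FD-ALG support): three pure Möbius / cyclic-group lemmas used by
the inclusion–exclusion step of the Frobenius density theorem `FDN_frobenius`.
Mathlib only.
-/
import Mathlib

namespace Fermat.Agent.Lib

open ArithmeticFunction

/-- In a finite group, for `d ∣ orderOf g` the cyclic group generated by `g ^ d` has
`orderOf g / d` elements. -/
theorem FDN_card_zpowers_pow {G : Type*} [Group G] [Finite G] (g : G) {d : ℕ}
    (hd : d ∣ orderOf g) :
    Nat.card (Subgroup.zpowers (g ^ d)) = orderOf g / d := by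
  have hn : 0 < orderOf g := orderOf_pos g
  have hd0 : d ≠ 0 := by
    rintro rfl
    rw [zero_dvd_iff] at hd
    omega
  rw [Nat.card_zpowers]
  exact orderOf_pow_of_dvd hd0 hd

/-- `∑_{d ∣ n} μ(d) · (n / d) = φ(n)`. -/
theorem FDN_sum_moebius_mul_div (n : ℕ) (hn : 0 < n) :
    ∑ d ∈ n.divisors, (ArithmeticFunction.moebius d : ℝ) * ((n / d : ℕ) : ℝ)
      = (Nat.totient n : ℝ) := by
  have key := (sum_eq_iff_sum_mul_moebius_eq (R := ℝ)
    (f := fun m => (Nat.totient m : ℝ)) (g := fun m => (m : ℝ))).1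
    (fun m _ => by
      have := Nat.sum_totient m
      have h2 : ((∑ i ∈ m.divisors, Nat.totient i : ℕ) : ℝ) = (m : ℝ) := by
        exact_mod_cast this
      rw [← h2]
      push_cast
      rfl) n hn
  rw [← key]
  exact (Nat.sum_divisorsAntidiagonal
    (fun a b => ((ArithmeticFunction.moebius a : ℤ) : ℝ) * ((b : ℕ) : ℝ))).symm

/-- For `d ∣ orderOf g`, `g ^ k ∈ ⟨g ^ d⟩ ↔ d ∣ k`. -/
theorem FDN_pow_mem_zpowers_pow_iff {G : Type*} [Group G] (g : G) {d : ℕ}
    (hd : d ∣ orderOf g) (k : ℕ) :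
    g ^ k ∈ Subgroup.zpowers (g ^ d) ↔ d ∣ k := by
  constructor
  · intro h
    obtain ⟨m, hm⟩ := Subgroup.mem_zpowers_iff.1 h
    have h1 : g ^ ((k : ℤ) - (d : ℤ) * m) = 1 := by
      rw [zpow_sub, zpow_mul, zpow_natCast, zpow_natCast, hm, mul_inv_cancel]
    have h2 : (orderOf g : ℤ) ∣ (k : ℤ) - (d : ℤ) * m := orderOf_dvd_iff_zpow_eq_one.2 h1
    have h3 : (d : ℤ) ∣ (k : ℤ) - (d : ℤ) * m := (Int.natCast_dvd_natCast.2 hd).trans h2
    have h4 : (d : ℤ) ∣ (k : ℤ) := by
      have := dvd_add h3 (dvd_mul_right (d : ℤ) m)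
      simpa using this
    exact Int.natCast_dvd_natCast.1 h4
  · rintro ⟨j, rfl⟩
    rw [pow_mul]
    exact Subgroup.pow_mem _ (Subgroup.mem_zpowers _) _

/-- `⟨g ^ k⟩ = ⟨g⟩ ↔ gcd (orderOf g, k) = 1`. -/
theorem FDN_zpowers_pow_eq_iff {G : Type*} [Group G] (g : G) (k : ℕ) :
    Subgroup.zpowers (g ^ k) = Subgroup.zpowers g ↔ Nat.gcd (orderOf g) k = 1 := by
  rw [Nat.gcd_comm, ← mem_zpowers_pow_iff]
  constructor
  · intro h
    rw [h]
    exact Subgroup.mem_zpowers g
  · intro h
    apply le_antisymm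
    · rw [Subgroup.zpowers_le]
      exact Subgroup.pow_mem _ (Subgroup.mem_zpowers _) _
    · rw [Subgroup.zpowers_le]
      exact h

/-- Möbius inversion over the subgroup lattice of a finite cyclic group:
`∑_{d ∣ ord g} μ(d) · 1_{h ∈ ⟨g^d⟩} = 1_{⟨h⟩ = ⟨g⟩}`.  Stated for arbitrary decidability
instances, so that it applies whatever instances the caller's `if`s elaborate to. -/
theorem FDN_moebius_indicator {G : Type*} [Group G] [Finite G] (g h : G)
    [∀ d : ℕ, Decidable (h ∈ Subgroup.zpowers (g ^ d))]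
    [Decidable (Subgroup.zpowers h = Subgroup.zpowers g)] :
    ∑ d ∈ (orderOf g).divisors, (ArithmeticFunction.moebius d : ℝ) *
        (if h ∈ Subgroup.zpowers (g ^ d) then (1 : ℝ) else 0)
      = if Subgroup.zpowers h = Subgroup.zpowers g then 1 else 0 := by
  have hn : 0 < orderOf g := orderOf_pos g
  by_cases hmem : h ∈ Subgroup.zpowers g
  · -- h = g ^ k
    obtain ⟨k, hk⟩ : ∃ k : ℕ, g ^ k = h := by
      have := (mem_powers_iff_mem_zpowers (x := g) (y := h)).2 hmem
      exact Submonoid.mem_powers_iff _ _ |>.1 this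
    have h1 : ∑ d ∈ (orderOf g).divisors, (ArithmeticFunction.moebius d : ℝ) *
        (if h ∈ Subgroup.zpowers (g ^ d) then (1 : ℝ) else 0)
        = ∑ d ∈ (orderOf g).divisors with d ∣ k, (ArithmeticFunction.moebius d : ℝ) := by
      rw [Finset.sum_filter]
      refine Finset.sum_congr rfl (fun d hd => ?_)
      have key := FDN_pow_mem_zpowers_pow_iff g (Nat.dvd_of_mem_divisors hd) k
      rw [hk] at key
      by_cases hdk : d ∣ k
      · rw [if_pos (key.2 hdk), if_pos hdk, mul_one]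
      · rw [if_neg (fun h' => hdk (key.1 h')), if_neg hdk, mul_zero]
    rw [h1]
    have h2 : (orderOf g).divisors.filter (fun d => d ∣ k)
        = (Nat.gcd (orderOf g) k).divisors := by
      ext d
      simp only [Finset.mem_filter, Nat.mem_divisors, Nat.dvd_gcd_iff]
      constructor
      · rintro ⟨⟨h1, h2⟩, h3⟩
        exact ⟨⟨h1, h3⟩, Nat.gcd_ne_zero_left hn.ne'⟩
      · rintro ⟨⟨h1, h3⟩, -⟩
        exact ⟨⟨h1, hn.ne'⟩, h3⟩
    rw [h2]
    have h3 : ∑ d ∈ (Nat.gcd (orderOf g) k).divisors, (ArithmeticFunction.moebius d : ℝ)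
        = ((ArithmeticFunction.moebius : ArithmeticFunction ℝ) *
            (ArithmeticFunction.zeta : ArithmeticFunction ℝ)) (Nat.gcd (orderOf g) k) := by
      rw [coe_mul_zeta_apply]
      rfl
    rw [h3, coe_moebius_mul_coe_zeta, one_apply]
    have h4 := FDN_zpowers_pow_eq_iff g k
    rw [hk] at h4
    by_cases hg : Nat.gcd (orderOf g) k = 1
    · rw [if_pos hg, if_pos (h4.2 hg)]
    · rw [if_neg hg, if_neg (fun h' => hg (h4.1 h'))]
  · -- both sides vanish
    rw [if_neg]
    · refine Finset.sum_eq_zero (fun d _ => ?_)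
      rw [if_neg, mul_zero]
      intro hh
      apply hmem
      have hle : Subgroup.zpowers (g ^ d) ≤ Subgroup.zpowers g := by
        rw [Subgroup.zpowers_le]
        exact Subgroup.pow_mem _ (Subgroup.mem_zpowers _) _
      exact hle hh
    · intro hh
      apply hmem
      rw [← hh]
      exact Subgroup.mem_zpowers h

end Fermat.Agent.Lib
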