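import Mathlib

/-!
# Frobenius density theorem (pillar G, package FD-ALG): good primes and Frobenius elements

For a finite Galois extension `F / ℚ`:

* `FDN_exists_good` : there is `t₀ ≠ 0` such that the inertia group (in `Gal(F/ℚ)`) of every prime
  `P` of `𝓞 F` not containing `t₀` is trivial;
* `FDN_exists_frob` : every nonzero prime of `𝓞 F` has a Frobenius element;
* `FDN_frob_unique` : Frobenius elements are unique when the inertia group is trivial.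
-/

namespace Fermat.Agent.Lib

open NumberField
open scoped Pointwise

variable (F : Type*) [Field F] [NumberField F] [IsGalois ℚ F]

/-- There is a nonzero natural number `t₀` such that every prime of `𝓞 F` not containing `t₀` has
trivial inertia group. -/
theorem FDN_exists_good : ∃ t₀ : ℕ, t₀ ≠ 0 ∧ ∀ P : Ideal (𝓞 F), P.IsPrime → (t₀ : 𝓞 F) ∉ P →
    ∀ σ : F ≃ₐ[ℚ] F, (∀ x : 𝓞 F, σ • x - x ∈ P) → σ = 1 := by
  classical
  have hfaith : FaithfulSMul (F ≃ₐ[ℚ] F) (𝓞 F) := IsGaloisGroup.faithful ℤ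
  have hex : ∀ σ : F ≃ₐ[ℚ] F, ∃ y : 𝓞 F, y ≠ 0 ∧ (σ ≠ 1 → ∃ x : 𝓞 F, y = σ • x - x) := by
    intro σ
    by_cases hσ : σ = 1
    · exact ⟨1, one_ne_zero, fun h => (h hσ).elim⟩
    · have : ∃ x : 𝓞 F, σ • x ≠ x := by
        by_contra hcon
        push_neg at hcon
        exact hσ (eq_of_smul_eq_smul (fun a : 𝓞 F => by rw [hcon a, one_smul]))
      obtain ⟨x, hx⟩ := this
      exact ⟨σ • x - x, sub_ne_zero.mpr hx, fun _ => ⟨x, rfl⟩⟩
  choose y hy0 hy using hex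
  set Δ : 𝓞 F := ∏ σ : F ≃ₐ[ℚ] F, y σ with hΔ
  have hΔ0 : Δ ≠ 0 := Finset.prod_ne_zero_iff.mpr (fun σ _ => hy0 σ)
  refine ⟨Ideal.absNorm (Ideal.span {Δ}), ?_, ?_⟩
  · rw [Ne, Ideal.absNorm_eq_zero_iff, Ideal.span_singleton_eq_bot]
    exact hΔ0
  · intro P hP ht σ hσ
    by_contra hne
    apply ht
    obtain ⟨x, hx⟩ := hy σ hne
    have hyP : y σ ∈ P := by rw [hx]; exact hσ x
    have hΔP : Δ ∈ P :=
      Ideal.mem_of_dvd P (Finset.dvd_prod_of_mem y (Finset.mem_univ σ)) hyP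
    have hle : Ideal.span {Δ} ≤ P := (Ideal.span_singleton_le_iff_mem P).mpr hΔP
    exact hle (Ideal.absNorm_mem _)

/-- Every nonzero prime of `𝓞 F` has a Frobenius element. -/
theorem FDN_exists_frob (P : Ideal (𝓞 F)) [P.IsPrime] (hP : P ≠ ⊥) :
    ∃ σ : F ≃ₐ[ℚ] F, ∀ x : 𝓞 F, σ • x - x ^ (Ideal.absNorm (P.under ℤ)) ∈ P := by
  have hfin : Finite (𝓞 F ⧸ P) := Ideal.finiteQuotientOfFreeOfNeBot P hP
  obtain ⟨σ, hσ⟩ := IsArithFrobAt.exists_of_isInvariant ℤ (F ≃ₐ[ℚ] F) P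
  refine ⟨σ, fun x => ?_⟩
  have h := hσ x
  have hc : Nat.card (ℤ ⧸ P.under ℤ) = Ideal.absNorm (P.under ℤ) := by
    rw [Ideal.absNorm_apply, Submodule.cardQuot_apply]
  rw [hc] at h
  exact h

variable {F}

omit [IsGalois ℚ F] in
/-- Two Frobenius elements at a prime with trivial inertia group are equal. -/
theorem FDN_frob_unique (P : Ideal (𝓞 F))
    (hin : ∀ σ : F ≃ₐ[ℚ] F, (∀ x : 𝓞 F, σ • x - x ∈ P) → σ = 1) {σ τ : F ≃ₐ[ℚ] F} {n : ℕ}
    (hσ : ∀ x : 𝓞 F, σ • x - x ^ n ∈ P) (hτ : ∀ x : 𝓞 F, τ • x - x ^ n ∈ P) : σ = τ := by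
  have h1 : σ * τ⁻¹ = 1 := by
    apply hin
    intro x
    have h := sub_mem (hσ (τ⁻¹ • x)) (hτ (τ⁻¹ • x))
    simpa [mul_smul] using h
  exact mul_inv_eq_one.mp h1

end Fermat.Agent.Lib
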