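import Mathlib
import Fermat.Agent.Lib.FrobDensityGood

/-!
# Frobenius density theorem (package FD-ALG): primes of a fixed field

Let `F / ℚ` be a finite Galois extension, `H` a subgroup of `Gal(F/ℚ)` and `K = F ^ H`.
For a nonzero prime `P` of `𝓞 F` with trivial inertia group and Frobenius element `h`:

* `FDN_frob_mem_iff` : `h ∈ H` iff the prime of `K` below `P` has absolute degree one;
* `FDN_ncard_mul_inertiaDeg` : if the prime `q` of `K` below `P` has absolute degree one then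
  `#{primes over q} * f(P / ℚ) = #H`.
-/

namespace Fermat.Agent.Lib

open NumberField
open scoped Pointwise

variable {F : Type*} [Field F] [NumberField F] [IsGalois ℚ F]

/-- The fixed field of a subgroup, as an intermediate field. -/
noncomputable abbrev FDN_fix (H : Subgroup (F ≃ₐ[ℚ] F)) : IntermediateField ℚ F :=
  FixedPoints.intermediateField H

/-- `H` is a Galois group for `𝓞 F` over the ring of integers of the fixed field. -/
theorem FDN_isGaloisGroup (H : Subgroup (F ≃ₐ[ℚ] F)) :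
    IsGaloisGroup H (𝓞 (FDN_fix H)) (𝓞 F) :=
  IsGaloisGroup.of_isFractionRing H (𝓞 (FDN_fix H)) (𝓞 F) (FDN_fix H) F

omit [IsGalois ℚ F] [NumberField F] in
/-- The rational prime below a nonzero prime of a ring of integers. -/
theorem FDN_char_prime (P : Ideal (𝓞 F)) [P.IsPrime] (hP : P ≠ ⊥) :
    (Ideal.absNorm (P.under ℤ)).Prime :=
  have : NeZero P := ⟨hP⟩
  Nat.absNorm_under_prime P

/-- In a finite field in which every element satisfies `y ^ ℓ = y`, there are at most `ℓ`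
elements. -/
theorem FDN_card_le_of_forall_pow_eq {Q : Type*} [CommRing Q] [IsDomain Q] [Finite Q] {ℓ : ℕ}
    (hℓ : 1 < ℓ) (h : ∀ y : Q, y ^ ℓ = y) : Nat.card Q ≤ ℓ := by
  classical
  have := Fintype.ofFinite Q
  have hdeg : (Polynomial.X ^ ℓ - Polynomial.X : Polynomial Q).natDegree = ℓ := by
    rw [Polynomial.natDegree_sub_eq_left_of_natDegree_lt]
    · exact Polynomial.natDegree_X_pow ℓ
    · rw [Polynomial.natDegree_X_pow, Polynomial.natDegree_X]
      exact hℓ
  have hne : (Polynomial.X ^ ℓ - Polynomial.X : Polynomial Q) ≠ 0 := by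
    intro h0
    rw [h0, Polynomial.natDegree_zero] at hdeg
    omega
  have hsub : (Finset.univ : Finset Q).val ⊆ (Polynomial.X ^ ℓ - Polynomial.X : Polynomial Q).roots := by
    intro y _
    rw [Polynomial.mem_roots hne]
    simp [h y]
  have := Polynomial.card_le_degree_of_subset_roots hsub
  rw [hdeg] at this
  rw [Nat.card_eq_fintype_card]
  simpa using this

variable (H : Subgroup (F ≃ₐ[ℚ] F))

/-- The prime below `P` in the fixed field of `H` has absolute degree one iff the Frobenius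
element of `P` lies in `H` (for `P` with trivial inertia group). -/
theorem FDN_frob_mem_iff (P : Ideal (𝓞 F)) [P.IsPrime] (hP : P ≠ ⊥)
    (hin : ∀ σ : F ≃ₐ[ℚ] F, (∀ x : 𝓞 F, σ • x - x ∈ P) → σ = 1)
    (h : F ≃ₐ[ℚ] F) (hh : ∀ x : 𝓞 F, h • x - x ^ (Ideal.absNorm (P.under ℤ)) ∈ P) :
    h ∈ H ↔ Ideal.absNorm (P.under (𝓞 (FDN_fix H))) = Ideal.absNorm (P.under ℤ) := by
  have hGG : IsGaloisGroup H (𝓞 (FDN_fix H)) (𝓞 F) := FDN_isGaloisGroup H
  have hcomm : SMulCommClass H (𝓞 (FDN_fix H)) (𝓞 F) := IsGaloisGroup.commutes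
  have hinv : Algebra.IsInvariant (𝓞 (FDN_fix H)) (𝓞 F) H := IsGaloisGroup.isInvariant
  have hfinP : Finite (𝓞 F ⧸ P) := Ideal.finiteQuotientOfFreeOfNeBot P hP
  set q : Ideal (𝓞 (FDN_fix H)) := P.under (𝓞 (FDN_fix H)) with hq
  have hℓ : (Ideal.absNorm (P.under ℤ)).Prime := FDN_char_prime P hP
  set ℓ : ℕ := Ideal.absNorm (P.under ℤ) with hℓdef
  have hqu : q.under ℤ = P.under ℤ := Ideal.under_under (A := ℤ) (B := 𝓞 (FDN_fix H)) P
  have hqne : q ≠ ⊥ := by
    intro h0
    have : P.under ℤ = ⊥ := by rw [← hqu, h0]; exact Ideal.under_bot ℤ _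
    rw [hℓdef, this, Ideal.absNorm_bot] at hℓ
    exact Nat.not_prime_zero hℓ
  have hfinq : Finite (𝓞 (FDN_fix H) ⧸ q) := Ideal.finiteQuotientOfFreeOfNeBot q hqne
  have hcard : Nat.card (𝓞 (FDN_fix H) ⧸ q) = Ideal.absNorm q := by
    rw [Ideal.absNorm_apply, Submodule.cardQuot_apply]
  constructor
  · intro hmem
    -- every element of the residue field of `q` satisfies `y ^ ℓ = y`
    have hpow : ∀ y : 𝓞 (FDN_fix H) ⧸ q, y ^ ℓ = y := by
      intro y
      obtain ⟨x, rfl⟩ := Ideal.Quotient.mk_surjective y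
      rw [← map_pow, Ideal.Quotient.eq]
      show x ^ ℓ - x ∈ P.under (𝓞 (FDN_fix H))
      rw [Ideal.under_def, Ideal.mem_comap, map_sub, map_pow]
      have h1 := hh (algebraMap (𝓞 (FDN_fix H)) (𝓞 F) x)
      have h2 : h • (algebraMap (𝓞 (FDN_fix H)) (𝓞 F) x) = algebraMap (𝓞 (FDN_fix H)) (𝓞 F) x :=
        smul_algebraMap (⟨h, hmem⟩ : H) x
      rw [h2] at h1
      have := neg_mem h1
      rwa [neg_sub] at this
    have hle : Nat.card (𝓞 (FDN_fix H) ⧸ q) ≤ ℓ :=
      FDN_card_le_of_forall_pow_eq hℓ.one_lt hpow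
    rw [hcard] at hle
    have hpowN := Ideal.absNorm_pow_inertiaDeg (q.under ℤ) q
    rw [hqu] at hpowN
    have hpos : 0 < q.inertiaDeg ℤ := Ideal.inertiaDeg_pos q ℤ
    have hge : ℓ ≤ Ideal.absNorm q := by
      rw [← hpowN]
      exact Nat.le_self_pow hpos.ne' ℓ
    exact le_antisymm hle hge
  · intro hN
    obtain ⟨σ, hσ⟩ := IsArithFrobAt.exists_of_isInvariant (𝓞 (FDN_fix H)) H P
    have hσ' : ∀ x : 𝓞 F, (σ : F ≃ₐ[ℚ] F) • x - x ^ ℓ ∈ P := by
      intro x
      have := hσ x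
      rw [hcard, hN] at this
      exact this
    have : h = σ := FDN_frob_unique P hin hh hσ'
    rw [this]
    exact σ.2

/-- If the prime `q` of the fixed field of `H` has absolute degree one and `P` is a prime of `F`
over `q` with trivial inertia, then `#{primes over q} * f(P / ℚ) = #H`. -/
theorem FDN_ncard_mul_inertiaDeg (q : Ideal (𝓞 (FDN_fix H))) [q.IsPrime] (hq : q ≠ ⊥)
    (hq1 : Ideal.absNorm q = Ideal.absNorm (q.under ℤ))
    (P : Ideal (𝓞 F)) [P.IsPrime] [P.LiesOver q]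
    (hin : ∀ σ : F ≃ₐ[ℚ] F, (∀ x : 𝓞 F, σ • x - x ∈ P) → σ = 1) :
    (q.primesOver (𝓞 F)).ncard * P.inertiaDeg ℤ = Nat.card H := by
  have hGG : IsGaloisGroup H (𝓞 (FDN_fix H)) (𝓞 F) := FDN_isGaloisGroup H
  have hfinq : Finite (𝓞 (FDN_fix H) ⧸ q) := Ideal.finiteQuotientOfFreeOfNeBot q hq
  have h1 := Ideal.ncard_primesOver_mul_card_inertia_mul_finrank (G := H) q P
  have hbot : P.inertia H = ⊥ := by
    rw [Subgroup.eq_bot_iff_forall]
    intro σ hσ
    have : (σ : F ≃ₐ[ℚ] F) = 1 := hin σ (fun x => hσ x)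
    exact Subtype.ext this
  rw [hbot, Subgroup.card_bot, mul_one] at h1
  have h2 := Ideal.inertiaDeg_tower (R := ℤ) q P
  have hℓ : (Ideal.absNorm (q.under ℤ)).Prime := FDN_char_prime q hq
  have h3 := Ideal.absNorm_pow_inertiaDeg (q.under ℤ) q
  have h4 : q.inertiaDeg ℤ = 1 := by
    have : Ideal.absNorm (q.under ℤ) ^ q.inertiaDeg ℤ = Ideal.absNorm (q.under ℤ) ^ 1 := by
      rw [h3, pow_one, hq1]
    exact Nat.pow_right_injective hℓ.two_le this
  rw [h2, h4, one_mul]
  exact h1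

end Fermat.Agent.Lib
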