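import Mathlib
import Fermat.Agent.Lib.FrobDensityDefs
import Fermat.Agent.Lib.FrobDensityFiber

/-!
# Frobenius density theorem (package FD-ALG): the weighted sum over primes with Frobenius in `H`

Let `F / ℚ` be a finite Galois extension, `H` a subgroup of `Gal(F/ℚ)` with fixed field `K`.
With the weight `FDN_wt s P = f(P / ℚ) * ℓ ^ (-s)` (`ℓ` the residue characteristic of `P`),

`∑_{P good, Frob P ∈ H} FDN_wt s P = #H * ∑_{v of degree one in K, v ∤ t} N(v) ^ (-s)`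

(`FDN_sum_frobSet`).
-/

namespace Fermat.Agent.Lib

open NumberField IsDedekindDomain
open scoped Pointwise

/-- Summation over the fibers of a map, for nonnegative functions. -/
theorem FDN_tsum_fiberwise {α β : Type*} (π : α → β) (a : α → ℝ) (c : β → ℝ) (ha : ∀ x, 0 ≤ a x)
    (hfib : ∀ b, HasSum (fun x : {x // π x = b} ↦ a x.1) (c b)) (hc : Summable c) :
    Summable a ∧ ∑' x, a x = ∑' b, c b := by
  let e : (Σ b, {x // π x = b}) ≃ α := Equiv.sigmaFiberEquiv π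
  have hsum : Summable (fun p : (Σ b, {x // π x = b}) => a (e p)) := by
    rw [summable_sigma_of_nonneg (fun p => ha _)]
    refine ⟨fun b => (hfib b).summable, ?_⟩
    have : (fun b => ∑' y : {x // π x = b}, a (e ⟨b, y⟩)) = c := by
      funext b
      exact (hfib b).tsum_eq
    rw [this]
    exact hc
  refine ⟨(e.summable_iff (f := a)).mp hsum, ?_⟩
  rw [← e.tsum_eq a, hsum.tsum_sigma' (fun b => (hfib b).summable)]
  exact tsum_congr (fun b => (hfib b).tsum_eq)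

variable (F : Type*) [Field F] [NumberField F] [IsGalois ℚ F]

/-- The good primes of `F` at level `t`: nonzero primes of residue characteristic prime to `t`. -/
def FDN_good (t : ℕ) : Set (Ideal (𝓞 F)) :=
  {P | P.IsPrime ∧ P ≠ ⊥ ∧ ¬ (Ideal.absNorm (P.under ℤ) ∣ t)}

/-- `t` is a level for `F` if it is nonzero and all good primes at level `t` have trivial
inertia group. -/
def FDN_IsLevel (t : ℕ) : Prop :=
  t ≠ 0 ∧ ∀ P ∈ FDN_good F t, ∀ σ : F ≃ₐ[ℚ] F, (∀ x : 𝓞 F, σ • x - x ∈ P) → σ = 1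

theorem FDN_exists_level : ∃ t₀ : ℕ, t₀ ≠ 0 ∧ ∀ t : ℕ, t ≠ 0 → t₀ ∣ t → FDN_IsLevel F t := by
  obtain ⟨t₀, ht₀, h⟩ := FDN_exists_good F
  refine ⟨t₀, ht₀, fun t ht hdvd => ⟨ht, fun P hP σ hσ => h P hP.1 ?_ σ hσ⟩⟩
  intro hmem
  apply hP.2.2
  have h1 : ((t₀ : ℤ) : 𝓞 F) ∈ P := by exact_mod_cast hmem
  rw [Int.cast_mem_ideal_iff, Int.natCast_dvd_natCast] at h1
  exact h1.trans hdvd

variable {F}

open Classical in
/-- A choice of a Frobenius element at `P`. -/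
noncomputable def FDN_frob (P : Ideal (𝓞 F)) : F ≃ₐ[ℚ] F :=
  if h : ∃ σ : F ≃ₐ[ℚ] F, ∀ x : 𝓞 F, σ • x - x ^ (Ideal.absNorm (P.under ℤ)) ∈ P
  then h.choose else 1

theorem FDN_frob_spec (P : Ideal (𝓞 F)) [P.IsPrime] (hP : P ≠ ⊥) (x : 𝓞 F) :
    FDN_frob P • x - x ^ (Ideal.absNorm (P.under ℤ)) ∈ P := by
  have h := FDN_exists_frob F P hP
  unfold FDN_frob
  rw [dif_pos h]
  exact h.choose_spec x

/-- The good primes at level `t` whose Frobenius element lies in `S`. -/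
def FDN_frobSet (t : ℕ) (S : Set (F ≃ₐ[ℚ] F)) : Set (Ideal (𝓞 F)) :=
  {P | P ∈ FDN_good F t ∧ FDN_frob P ∈ S}

/-- The weight `f(P / ℚ) * ℓ ^ (-s)` of a prime `P` of residue characteristic `ℓ`. -/
noncomputable def FDN_wt (s : ℝ) (P : Ideal (𝓞 F)) : ℝ :=
  (P.inertiaDeg ℤ : ℝ) * (Ideal.absNorm (P.under ℤ) : ℝ) ^ (-s)

omit [NumberField F] [IsGalois ℚ F] in
theorem FDN_wt_nonneg (s : ℝ) (P : Ideal (𝓞 F)) : 0 ≤ FDN_wt s P :=
  mul_nonneg (Nat.cast_nonneg _) (Real.rpow_nonneg (Nat.cast_nonneg _) _)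

omit [IsGalois ℚ F] in
/-- A prime of absolute degree one: its norm is the residue characteristic. -/
theorem FDN_absNorm_under_of_prime (q : Ideal (𝓞 F)) [q.IsPrime]
    (hq : (Ideal.absNorm q).Prime) : Ideal.absNorm (q.under ℤ) = Ideal.absNorm q := by
  have h3 := Ideal.absNorm_pow_inertiaDeg (q.under ℤ) q
  exact ((Nat.Prime.pow_eq_iff hq).mp h3).1

section fiber

variable (H : Subgroup (F ≃ₐ[ℚ] F)) {t : ℕ} (ht : FDN_IsLevel F t)

include ht

/-- The prime below a prime with Frobenius in `H`, in the fixed field of `H`. -/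
theorem FDN_under_mem (P : Ideal (𝓞 F)) (hP : P ∈ FDN_frobSet t (H : Set (F ≃ₐ[ℚ] F))) :
    (P.under (𝓞 (FDN_fix H))).IsPrime ∧ P.under (𝓞 (FDN_fix H)) ≠ ⊥ ∧
      Ideal.absNorm (P.under (𝓞 (FDN_fix H))) = Ideal.absNorm (P.under ℤ) := by
  have hPp : P.IsPrime := hP.1.1
  have hne : P ≠ ⊥ := hP.1.2.1
  have h3 : Ideal.absNorm (P.under (𝓞 (FDN_fix H))) = Ideal.absNorm (P.under ℤ) :=
    (FDN_frob_mem_iff H P hne (ht.2 P hP.1) (FDN_frob P) (FDN_frob_spec P hne)).mp hP.2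
  refine ⟨inferInstance, ?_, h3⟩
  intro h0
  rw [h0, Ideal.absNorm_bot] at h3
  exact Nat.not_prime_zero (h3 ▸ FDN_char_prime P hne)

/-- The primes over a good prime of degree one of the fixed field of `H` have Frobenius in `H`. -/
theorem FDN_mem_of_liesOver (q : Ideal (𝓞 (FDN_fix H))) [q.IsPrime]
    (hq : (Ideal.absNorm q).Prime) (hqt : ¬ Ideal.absNorm q ∣ t)
    (P : Ideal (𝓞 F)) [P.IsPrime] [hPq : P.LiesOver q] :
    P ∈ FDN_frobSet t (H : Set (F ≃ₐ[ℚ] F)) ∧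
      Ideal.absNorm (P.under ℤ) = Ideal.absNorm q ∧
      ((q.primesOver (𝓞 F)).ncard : ℝ) * (P.inertiaDeg ℤ : ℝ) = Nat.card H := by
  have hqu : P.under (𝓞 (FDN_fix H)) = q := hPq.over.symm
  have hPu : P.under ℤ = q.under ℤ := by
    rw [← hqu]
    exact (Ideal.under_under (A := ℤ) (B := 𝓞 (FDN_fix H)) P).symm
  have hq1 : Ideal.absNorm (q.under ℤ) = Ideal.absNorm q := FDN_absNorm_under_of_prime q hq
  have hqne : q ≠ ⊥ := by
    intro h0
    rw [h0, Ideal.absNorm_bot] at hq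
    exact Nat.not_prime_zero hq
  have hPne : P ≠ ⊥ := by
    intro h0
    apply hqne
    rw [← hqu, h0]
    exact Ideal.under_bot _ _
  have hgood : P ∈ FDN_good F t := ⟨inferInstance, hPne, by rw [hPu, hq1]; exact hqt⟩
  have hin := ht.2 P hgood
  refine ⟨⟨hgood, ?_⟩, by rw [hPu, hq1], ?_⟩
  · refine (FDN_frob_mem_iff H P hPne hin (FDN_frob P) (FDN_frob_spec P hPne)).mpr ?_
    rw [hqu, hPu, hq1]
  · have := FDN_ncard_mul_inertiaDeg H q hqne hq1.symm P hin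
    exact_mod_cast this

/-- The sum of the weights over the primes above a good prime of degree one of the fixed field
of `H`. -/
theorem FDN_fiber_hasSum (s : ℝ) (v : FDN_degOne (FDN_fix H) t)
    (π : FDN_frobSet t (H : Set (F ≃ₐ[ℚ] F)) → FDN_degOne (FDN_fix H) t)
    (hπ : ∀ P, (π P).1.asIdeal = P.1.under (𝓞 (FDN_fix H))) :
    HasSum (fun x : {P // π P = v} ↦ FDN_wt s x.1.1)
      (Nat.card H * (Ideal.absNorm v.1.asIdeal : ℝ) ^ (-s)) := by
  classical
  set q : Ideal (𝓞 (FDN_fix H)) := v.1.asIdeal with hqdef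
  have hqp : q.IsPrime := v.1.isPrime
  have hq : (Ideal.absNorm q).Prime := v.2.1
  have hqt : ¬ Ideal.absNorm q ∣ t := v.2.2
  -- the fiber is in bijection with the primes over `q`
  let e : {P // π P = v} ≃ q.primesOver (𝓞 F) :=
    { toFun := fun x => ⟨x.1.1, x.1.2.1.1,
        ⟨((hπ x.1).symm.trans
          (congrArg (fun w : FDN_degOne (FDN_fix H) t => w.1.asIdeal) x.2)).symm⟩⟩
      invFun := fun Q =>
        ⟨⟨Q.1, (@FDN_mem_of_liesOver F _ _ _ H t ht q hqp hq hqt Q.1 Q.2.1 Q.2.2).1⟩,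
          Subtype.ext (HeightOneSpectrum.ext (by rw [hπ]; exact (Q.2.2.over).symm))⟩
      left_inv := fun x => rfl
      right_inv := fun Q => rfl }
  have hsum : HasSum (fun Q : q.primesOver (𝓞 F) ↦ FDN_wt s Q.1)
      (∑ Q : q.primesOver (𝓞 F), FDN_wt s Q.1) := hasSum_fintype _
  have hval : ∑ Q : q.primesOver (𝓞 F), FDN_wt s Q.1 =
      Nat.card H * (Ideal.absNorm q : ℝ) ^ (-s) := by
    have hn0 : ((q.primesOver (𝓞 F)).ncard : ℝ) ≠ 0 := by
      have := IsDedekindDomain.primesOver_ncard_ne_zero q (𝓞 F)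
      exact_mod_cast this
    have hterm : ∀ Q : q.primesOver (𝓞 F), FDN_wt s Q.1 =
        (Nat.card H : ℝ) / ((q.primesOver (𝓞 F)).ncard : ℝ) * (Ideal.absNorm q : ℝ) ^ (-s) := by
      intro Q
      obtain ⟨-, h2, h3⟩ := @FDN_mem_of_liesOver F _ _ _ H t ht q hqp hq hqt Q.1 Q.2.1 Q.2.2
      unfold FDN_wt
      rw [h2, ← h3]
      field_simp
    rw [Finset.sum_congr rfl (fun Q _ => hterm Q), Finset.sum_const, Finset.card_univ,
      nsmul_eq_mul, ← Nat.card_eq_fintype_card, Nat.card_coe_set_eq]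
    field_simp
  rw [hval] at hsum
  exact (e.hasSum_iff (f := fun Q : q.primesOver (𝓞 F) ↦ FDN_wt s Q.1)).mpr hsum

/-- **The weighted sum over the primes with Frobenius in `H`** equals `#H` times the sum over
the primes of degree one of the fixed field of `H`. -/
theorem FDN_sum_frobSet (s : ℝ)
    (hs : Summable (fun v : FDN_degOne (FDN_fix H) t ↦ (Ideal.absNorm v.1.asIdeal : ℝ) ^ (-s))) :
    Summable (fun P : FDN_frobSet t (H : Set (F ≃ₐ[ℚ] F)) ↦ FDN_wt s P.1) ∧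
      ∑' P : FDN_frobSet t (H : Set (F ≃ₐ[ℚ] F)), FDN_wt s P.1 =
        Nat.card H * FDN_D (FDN_fix H) t s := by
  let π : FDN_frobSet t (H : Set (F ≃ₐ[ℚ] F)) → FDN_degOne (FDN_fix H) t := fun P =>
    ⟨⟨P.1.under (𝓞 (FDN_fix H)), (FDN_under_mem H ht P.1 P.2).1,
        (FDN_under_mem H ht P.1 P.2).2.1⟩,
      ⟨by
        show (Ideal.absNorm (P.1.under (𝓞 (FDN_fix H)))).Prime
        rw [(FDN_under_mem H ht P.1 P.2).2.2]
        exact @FDN_char_prime F _ P.1 P.2.1.1 P.2.1.2.1,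
       by
        show ¬ Ideal.absNorm (P.1.under (𝓞 (FDN_fix H))) ∣ t
        rw [(FDN_under_mem H ht P.1 P.2).2.2]
        exact P.2.1.2.2⟩⟩
  have hπ : ∀ P, (π P).1.asIdeal = P.1.under (𝓞 (FDN_fix H)) := fun P => rfl
  obtain ⟨h1, h2⟩ := FDN_tsum_fiberwise π (fun P => FDN_wt s P.1)
    (fun v => Nat.card H * (Ideal.absNorm v.1.asIdeal : ℝ) ^ (-s))
    (fun P => FDN_wt_nonneg s P.1) (fun v => FDN_fiber_hasSum H ht s v π hπ) (hs.mul_left _)
  refine ⟨h1, ?_⟩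
  rw [h2, tsum_mul_left]
  rfl

end fiber

end Fermat.Agent.Lib
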