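import Mathlib
import Fermat.Agent.Lib.FrobDensityDefs
import Fermat.Agent.S14.IdealSum
import Fermat.Agent.S14.IdealEuler

/-!
# Frobenius density theorem, analytic core (pillar G, package FD-AN)

For a number field `K`:  `∑_{v prime of 𝓞 K, N v prime, N v ∤ t} N(v)^(-s) = log (1/(s-1)) + O(1)`
on `(1, 2]` (`FDN_dstmt : FDN_DStmt K`).

Steps: Euler product for `ζ_K` (S14/IdealEuler) ⇒ `log ζ_K(s) = ∑_v -log (1 - N v^(-s))`;
`x ≤ -log (1 - x) ≤ x + 2 x²` on `[0, 1/2]`; simple pole of `ζ_K` at `1` (Mathlib) ⇒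
`log ζ_K(s) = log (1/(s-1)) + O(1)`; the primes of degree `≥ 2` and the primes dividing `t`
contribute `O(1)`.
-/

set_option autoImplicit false
set_option linter.unusedSectionVars false
set_option linter.unusedVariables false
set_option linter.style.haveILetI false
set_option linter.deprecated false

namespace Fermat.Agent.Lib

open NumberField IsDedekindDomain nonZeroDivisors Filter Topology
open Fermat.Agent.S14
open scoped Classical

section basic

variable (K : Type*) [Field K] [NumberField K]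

/-- the term `N(v)^(-s)`. -/
noncomputable def FDN_x (s : ℝ) (v : HeightOneSpectrum (𝓞 K)) : ℝ :=
  (Ideal.absNorm v.asIdeal : ℝ) ^ (-s)

variable {K}

lemma FDN_x_eq (s : ℝ) (v : HeightOneSpectrum (𝓞 K)) :
    FDN_x K s v = S14_normPow K s (S14_primeNZ v) := rfl

lemma FDN_primeNZ_injective :
    Function.Injective (S14_primeNZ : HeightOneSpectrum (𝓞 K) → (Ideal (𝓞 K))⁰) := by
  intro v w h
  apply HeightOneSpectrum.ext
  have := congrArg (fun x : (Ideal (𝓞 K))⁰ ↦ (x : Ideal (𝓞 K))) h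
  simpa using this

lemma FDN_x_nonneg (s : ℝ) (v : HeightOneSpectrum (𝓞 K)) : 0 ≤ FDN_x K s v :=
  S14_normPow_nonneg (K := K) s (S14_primeNZ v)

lemma FDN_x_pos (s : ℝ) (v : HeightOneSpectrum (𝓞 K)) : 0 < FDN_x K s v :=
  S14_normPow_pos (K := K) s (S14_primeNZ v)

lemma FDN_two_le_absNorm (v : HeightOneSpectrum (𝓞 K)) : 2 ≤ Ideal.absNorm v.asIdeal := by
  have h0 : Ideal.absNorm v.asIdeal ≠ 0 := fun h ↦ v.ne_bot (Ideal.absNorm_eq_zero_iff.mp h)
  have h1 : Ideal.absNorm v.asIdeal ≠ 1 := fun h ↦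
    v.isPrime.ne_top (Ideal.absNorm_eq_one_iff.mp h)
  omega

lemma FDN_x_le_half {s : ℝ} (hs : 1 ≤ s) (v : HeightOneSpectrum (𝓞 K)) :
    FDN_x K s v ≤ 1 / 2 := by
  have h2 : (2 : ℝ) ≤ Ideal.absNorm v.asIdeal := by exact_mod_cast FDN_two_le_absNorm v
  calc FDN_x K s v = (Ideal.absNorm v.asIdeal : ℝ) ^ (-s) := rfl
    _ ≤ (2 : ℝ) ^ (-s) := Real.rpow_le_rpow_of_nonpos (by norm_num) h2 (by linarith)
    _ ≤ (2 : ℝ) ^ (-1 : ℝ) := Real.rpow_le_rpow_of_exponent_le (by norm_num) (by linarith)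
    _ = 1 / 2 := by rw [Real.rpow_neg_one]; norm_num

lemma FDN_x_summable {s : ℝ} (hs : 1 < s) : Summable (FDN_x K s) := by
  have h := (S14_idealZeta_summable K hs).comp_injective (FDN_primeNZ_injective (K := K))
  exact h

lemma FDN_x_sq (s : ℝ) (v : HeightOneSpectrum (𝓞 K)) :
    FDN_x K s v ^ 2 = FDN_x K (2 * s) v := by
  unfold FDN_x
  rw [← Real.rpow_natCast, ← Real.rpow_mul (Nat.cast_nonneg _)]
  congr 1
  push_cast
  ring

lemma FDN_x_anti {s t : ℝ} (hst : s ≤ t) (v : HeightOneSpectrum (𝓞 K)) :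
    FDN_x K t v ≤ FDN_x K s v :=
  S14_normPow_anti (K := K) hst (S14_primeNZ v)

/-- `∑_v N v^(-s) ≤ ζ_K(s)`. -/
lemma FDN_tsum_x_le {s : ℝ} (hs : 1 < s) : ∑' v, FDN_x K s v ≤ S14_idealZeta K s := by
  have h := tsum_comp_le_tsum_of_inj (S14_idealZeta_summable K hs)
    (fun I ↦ S14_normPow_nonneg (K := K) s I) (FDN_primeNZ_injective (K := K))
  exact h

end basic

section log

/-- `x ≤ -log (1 - x)` for `0 ≤ x < 1`. -/
lemma FDN_le_neg_log {x : ℝ} (h0 : 0 ≤ x) (h1 : x < 1) : x ≤ -Real.log (1 - x) := by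
  have h := Real.log_le_sub_one_of_pos (show 0 < 1 - x by linarith)
  linarith

/-- `-log (1 - x) ≤ x + 2 x²` for `0 ≤ x ≤ 1/2`. -/
lemma FDN_neg_log_le {x : ℝ} (h0 : 0 ≤ x) (h1 : x ≤ 1 / 2) :
    -Real.log (1 - x) ≤ x + 2 * x ^ 2 := by
  have hpos : 0 < 1 - x := by linarith
  have h := Real.one_sub_inv_le_log_of_pos hpos
  -- `1 - 1/(1-x) ≤ log (1 - x)`
  have h2 : (1 - x)⁻¹ - 1 ≤ x + 2 * x ^ 2 := by
    rw [sub_le_iff_le_add, inv_le_iff_one_le_mul₀ hpos]
    nlinarith [sq_nonneg x, mul_nonneg h0 (sq_nonneg x)]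
  linarith

end log

section euler

variable (K : Type*) [Field K] [NumberField K]

/-- the logarithm of the Euler product. -/
theorem FDN_hasSum_log {s : ℝ} (hs : 1 < s) :
    HasSum (fun v : HeightOneSpectrum (𝓞 K) ↦ -Real.log (1 - FDN_x K s v))
      (Real.log (S14_idealZeta K s)) := by
  have hsum : Summable (fun I ↦ ‖S14_normPowHom K s I‖) := by
    have := S14_idealZeta_summable K hs
    refine this.congr (fun I ↦ ?_)
    rw [S14_normPowHom_apply, Real.norm_of_nonneg (S14_normPow_nonneg s I)]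
  have h1 := S14_euler_tendsto (S14_normPowHom K s) hsum
  have hpos : 0 < S14_idealZeta K s := S14_idealZeta_pos K hs
  have h2 := (Real.continuousAt_log hpos.ne').tendsto.comp h1
  unfold HasSum
  refine h2.congr (fun U ↦ ?_)
  simp only [Function.comp_apply]
  rw [Real.log_prod]
  · refine Finset.sum_congr rfl (fun v _ ↦ ?_)
    rw [Real.log_inv, S14_normPowHom_apply, ← FDN_x_eq]
  · intro v _
    have hx := FDN_x_le_half hs.le v
    rw [S14_normPowHom_apply, ← FDN_x_eq]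
    have : 0 < 1 - FDN_x K s v := by linarith
    exact (inv_pos.mpr this).ne'

/-- `∑_v N v^(-s) ≤ log ζ_K(s) ≤ ∑_v N v^(-s) + 2 ζ_K(2)`. -/
theorem FDN_P_bound {s : ℝ} (hs : 1 < s) :
    ∑' v, FDN_x K s v ≤ Real.log (S14_idealZeta K s) ∧
      Real.log (S14_idealZeta K s) ≤ ∑' v, FDN_x K s v + 2 * S14_idealZeta K 2 := by
  have hlog := FDN_hasSum_log K hs
  have hx := FDN_x_summable (K := K) hs
  have hx2 : Summable (fun v ↦ FDN_x K s v ^ 2) := by
    have := FDN_x_summable (K := K) (show 1 < 2 * s by linarith)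
    exact this.congr (fun v ↦ (FDN_x_sq s v).symm)
  constructor
  · rw [← hlog.tsum_eq]
    exact hx.tsum_le_tsum
      (fun v ↦ FDN_le_neg_log (FDN_x_nonneg s v) (by linarith [FDN_x_le_half hs.le v]))
      hlog.summable
  · rw [← hlog.tsum_eq]
    have h1 : ∑' v, -Real.log (1 - FDN_x K s v) ≤ ∑' v, (FDN_x K s v + 2 * FDN_x K s v ^ 2) :=
      hlog.summable.tsum_le_tsum
        (fun v ↦ FDN_neg_log_le (FDN_x_nonneg s v) (FDN_x_le_half hs.le v))
        (hx.add (hx2.mul_left 2))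
    rw [hx.tsum_add (hx2.mul_left 2), tsum_mul_left] at h1
    have h2 : ∑' v, FDN_x K s v ^ 2 ≤ S14_idealZeta K 2 := by
      have h3 : ∑' v, FDN_x K s v ^ 2 = ∑' v, FDN_x K (2 * s) v :=
        tsum_congr (fun v ↦ FDN_x_sq s v)
      rw [h3]
      have h4 : ∑' v, FDN_x K (2 * s) v ≤ ∑' v, FDN_x K 2 v :=
        (FDN_x_summable (by linarith)).tsum_le_tsum (fun v ↦ FDN_x_anti (by linarith) v)
          (FDN_x_summable (by norm_num))
      exact h4.trans (FDN_tsum_x_le (by norm_num))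
    linarith

end euler

section pole

variable (K : Type*) [Field K] [NumberField K]

lemma FDN_idealZeta_anti {s t : ℝ} (hs : 1 < s) (hst : s ≤ t) :
    S14_idealZeta K t ≤ S14_idealZeta K s :=
  (S14_idealZeta_summable K (lt_of_lt_of_le hs hst)).tsum_le_tsum
    (fun I ↦ S14_normPow_anti (K := K) hst I) (S14_idealZeta_summable K hs)

/-- `log ζ_K(s) = log (1/(s-1)) + O(1)` on `(1, 2]`. -/
theorem FDN_log_zeta_bound :
    ∃ B : ℝ, ∀ s : ℝ, 1 < s → s ≤ 2 →
      |Real.log (S14_idealZeta K s) - Real.log (1 / (s - 1))| ≤ B := by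
  have hρ := dedekindZeta_residue_pos K
  have h1 := S14_idealZeta_residue K
  have h2 : Tendsto (fun s : ℝ ↦ Real.log ((s - 1) * S14_idealZeta K s)) (𝓝[>] 1)
      (𝓝 (Real.log (dedekindZeta_residue K))) :=
    (Real.continuousAt_log hρ.ne').tendsto.comp h1
  have h3 : ∀ᶠ s in 𝓝[>] (1 : ℝ),
      |Real.log ((s - 1) * S14_idealZeta K s) - Real.log (dedekindZeta_residue K)| < 1 := by
    have := (tendsto_order.mp ((h2.sub_const (Real.log (dedekindZeta_residue K))).abs)).2 1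
      (by rw [sub_self, abs_zero]; exact one_pos)
    exact this
  obtain ⟨u, hu1, hu⟩ := (mem_nhdsGT_iff_exists_Ioo_subset).mp h3
  -- `δ = min (u - 1) 1`
  set δ : ℝ := min (u - 1) 1 with hδ
  have hu1' : (1 : ℝ) < u := hu1
  have hδ0 : 0 < δ := lt_min (by linarith) one_pos
  have hδ1 : δ ≤ 1 := min_le_right _ _
  have hδu : 1 + δ ≤ u := by
    have := min_le_left (u - 1) 1
    linarith
  have hζδ : 1 ≤ S14_idealZeta K (1 + δ) := S14_one_le_idealZeta K (by linarith)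
  refine ⟨|Real.log (dedekindZeta_residue K)| + 1 + |Real.log δ| +
    Real.log (S14_idealZeta K (1 + δ)), fun s hs hs2 ↦ ?_⟩
  have hs0 : 0 < s - 1 := by linarith
  have hζ0 : 0 < S14_idealZeta K s := S14_idealZeta_pos K hs
  have hrew : Real.log (S14_idealZeta K s) - Real.log (1 / (s - 1)) =
      Real.log ((s - 1) * S14_idealZeta K s) := by
    rw [Real.log_mul hs0.ne' hζ0.ne', one_div, Real.log_inv]
    ring
  rw [hrew]
  have hlogζδ : 0 ≤ Real.log (S14_idealZeta K (1 + δ)) := Real.log_nonneg hζδ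
  by_cases hsu : s < u
  · have := hu (show s ∈ Set.Ioo 1 u from ⟨hs, hsu⟩)
    have h4 : |Real.log ((s - 1) * S14_idealZeta K s) - Real.log (dedekindZeta_residue K)| < 1 :=
      this
    have h5 := abs_sub_abs_le_abs_sub (Real.log ((s - 1) * S14_idealZeta K s))
      (Real.log (dedekindZeta_residue K))
    have := abs_nonneg (Real.log δ)
    linarith
  · have hsu' : u ≤ s := not_lt.mp hsu
    have hδs : δ ≤ s - 1 := by linarith
    have hζs1 : 1 ≤ S14_idealZeta K s := S14_one_le_idealZeta K hs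
    have hζs2 : S14_idealZeta K s ≤ S14_idealZeta K (1 + δ) :=
      FDN_idealZeta_anti K (by linarith) (by linarith)
    have hlow : δ ≤ (s - 1) * S14_idealZeta K s := by
      calc δ ≤ s - 1 := hδs
        _ = (s - 1) * 1 := (mul_one _).symm
        _ ≤ (s - 1) * S14_idealZeta K s := mul_le_mul_of_nonneg_left hζs1 hs0.le
    have hupp : (s - 1) * S14_idealZeta K s ≤ S14_idealZeta K (1 + δ) := by
      calc (s - 1) * S14_idealZeta K s ≤ 1 * S14_idealZeta K s :=
            mul_le_mul_of_nonneg_right (by linarith) hζ0.le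
        _ = S14_idealZeta K s := one_mul _
        _ ≤ _ := hζs2
    have hl1 : Real.log δ ≤ Real.log ((s - 1) * S14_idealZeta K s) :=
      Real.log_le_log hδ0 hlow
    have hl2 : Real.log ((s - 1) * S14_idealZeta K s) ≤ Real.log (S14_idealZeta K (1 + δ)) :=
      Real.log_le_log (lt_of_lt_of_le hδ0 hlow) hupp
    have h6 : |Real.log ((s - 1) * S14_idealZeta K s)| ≤
        |Real.log δ| + Real.log (S14_idealZeta K (1 + δ)) := by
      rw [abs_le]
      constructor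
      · have := neg_abs_le (Real.log δ)
        linarith
      · have := abs_nonneg (Real.log δ)
        linarith
    have := abs_nonneg (Real.log (dedekindZeta_residue K))
    linarith

end pole

section exceptional

variable (K : Type*) [Field K] [NumberField K]

/-- the rational prime below `v`, with the degree. -/
lemma FDN_exists_prime (v : HeightOneSpectrum (𝓞 K)) :
    ∃ p n : ℕ, 0 < n ∧ (p : 𝓞 K) ∈ v.asIdeal ∧ p.Prime ∧ Ideal.absNorm v.asIdeal = p ^ n := by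
  haveI : v.asIdeal.IsMaximal := v.isPrime.isMaximal v.ne_bot
  exact Ideal.exists_prime_and_absNorm_eq_pow v.asIdeal

/-- the rational prime below `v`. -/
noncomputable def FDN_below (v : HeightOneSpectrum (𝓞 K)) : ℕ :=
  (FDN_exists_prime K v).choose

lemma FDN_below_spec (v : HeightOneSpectrum (𝓞 K)) :
    ∃ n : ℕ, 0 < n ∧ (FDN_below K v : 𝓞 K) ∈ v.asIdeal ∧ (FDN_below K v).Prime ∧
      Ideal.absNorm v.asIdeal = FDN_below K v ^ n :=
  (FDN_exists_prime K v).choose_spec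

lemma FDN_below_prime (v : HeightOneSpectrum (𝓞 K)) : (FDN_below K v).Prime := by
  obtain ⟨n, -, -, h, -⟩ := FDN_below_spec K v
  exact h

/-- the number of primes over a rational prime is at most the degree. -/
lemma FDN_fiber_card_le (U : Finset (HeightOneSpectrum (𝓞 K))) (p : ℕ) :
    (U.filter (fun v ↦ FDN_below K v = p)).card ≤ Module.finrank ℚ K := by
  by_cases hp : p.Prime
  · have hpZ : Prime (p : ℤ) := Nat.prime_iff_prime_int.mp hp
    have hp0 : (Ideal.span {(p : ℤ)}) ≠ ⊥ := by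
      rw [Ne, Ideal.span_singleton_eq_bot]
      exact_mod_cast hp.ne_zero
    haveI hmax : (Ideal.span {(p : ℤ)}).IsMaximal :=
      ((Ideal.span_singleton_prime hpZ.ne_zero).mpr hpZ).isMaximal hp0
    refine le_trans ?_ (Ideal.card_primesOverFinset_le_finrank (𝓞 K) ℚ K hp0)
    refine Finset.card_le_card_of_injOn (fun w ↦ w.asIdeal) ?_ ?_
    · intro w hw
      have hw' := (Finset.mem_filter.mp hw).2
      rw [Finset.mem_coe, IsDedekindDomain.mem_primesOverFinset_iff hp0]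
      refine ⟨w.isPrime, ⟨?_⟩⟩
      obtain ⟨n, -, hmem, -, -⟩ := FDN_below_spec K w
      rw [hw'] at hmem
      refine hmax.eq_of_le ?_ ?_
      · haveI := w.isPrime
        exact (Ideal.IsPrime.under ℤ w.asIdeal).ne_top
      · rw [Ideal.span_singleton_le_iff_mem, Ideal.mem_comap]
        simpa using hmem
    · intro w _ w' _ h
      exact HeightOneSpectrum.ext h
  · have : U.filter (fun v ↦ FDN_below K v = p) = ∅ := by
      rw [Finset.filter_eq_empty_iff]
      intro v _ hv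
      exact hp (hv ▸ FDN_below_prime K v)
    rw [this, Finset.card_empty]
    exact Nat.zero_le _

/-- a prime of degree `≥ 2`: `N v ^ (-s) ≤ p ^ (-2)`. -/
lemma FDN_x_le_of_not_prime {s : ℝ} (hs : 1 ≤ s) (v : HeightOneSpectrum (𝓞 K))
    (hv : ¬ (Ideal.absNorm v.asIdeal).Prime) :
    FDN_x K s v ≤ ((FDN_below K v : ℝ) ^ 2)⁻¹ := by
  obtain ⟨n, hn, -, hp, hN⟩ := FDN_below_spec K v
  have hn2 : 2 ≤ n := by
    by_contra h
    have h1 : n = 1 := by omega
    rw [h1, pow_one] at hN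
    exact hv (hN ▸ hp)
  have hp1 : (1 : ℝ) ≤ FDN_below K v := by exact_mod_cast hp.one_le
  have hpos : (0 : ℝ) < FDN_below K v := by linarith
  have h1 : ((FDN_below K v : ℝ)) ^ 2 ≤ (Ideal.absNorm v.asIdeal : ℝ) := by
    rw [hN]
    push_cast
    exact pow_le_pow_right₀ hp1 hn2
  have hN1 : (1 : ℝ) ≤ Ideal.absNorm v.asIdeal := le_trans (one_le_pow₀ hp1) h1
  calc FDN_x K s v = (Ideal.absNorm v.asIdeal : ℝ) ^ (-s) := rfl
    _ ≤ (Ideal.absNorm v.asIdeal : ℝ) ^ (-1 : ℝ) :=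
        Real.rpow_le_rpow_of_exponent_le hN1 (by linarith)
    _ = ((Ideal.absNorm v.asIdeal : ℝ))⁻¹ := Real.rpow_neg_one _
    _ ≤ ((FDN_below K v : ℝ) ^ 2)⁻¹ := inv_anti₀ (pow_pos hpos 2) h1

lemma FDN_summable_inv_sq : Summable (fun m : ℕ ↦ ((m : ℝ) ^ 2)⁻¹) :=
  (Real.summable_nat_pow_inv (p := 2)).mpr (by norm_num)

/-- the primes of degree `≥ 2` contribute `O(1)`: finite sums. -/
lemma FDN_sum_not_prime_le {s : ℝ} (hs : 1 ≤ s) (U : Finset (HeightOneSpectrum (𝓞 K)))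
    (hU : ∀ v ∈ U, ¬ (Ideal.absNorm v.asIdeal).Prime) :
    ∑ v ∈ U, FDN_x K s v ≤ Module.finrank ℚ K * ∑' m : ℕ, ((m : ℝ) ^ 2)⁻¹ := by
  have h1 : ∑ v ∈ U, FDN_x K s v ≤ ∑ v ∈ U, ((FDN_below K v : ℝ) ^ 2)⁻¹ :=
    Finset.sum_le_sum (fun v hv ↦ FDN_x_le_of_not_prime K hs v (hU v hv))
  have h2 : ∑ v ∈ U, ((FDN_below K v : ℝ) ^ 2)⁻¹ =
      ∑ p ∈ U.image (FDN_below K),
        (U.filter (fun v ↦ FDN_below K v = p)).card • (((p : ℝ) ^ 2)⁻¹) :=
    Finset.sum_comp (fun p : ℕ ↦ ((p : ℝ) ^ 2)⁻¹) (FDN_below K)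
  have h3 : ∑ p ∈ U.image (FDN_below K),
        (U.filter (fun v ↦ FDN_below K v = p)).card • (((p : ℝ) ^ 2)⁻¹) ≤
      ∑ p ∈ U.image (FDN_below K), (Module.finrank ℚ K : ℝ) * (((p : ℝ) ^ 2)⁻¹) := by
    refine Finset.sum_le_sum (fun p _ ↦ ?_)
    rw [nsmul_eq_mul]
    refine mul_le_mul_of_nonneg_right ?_ (inv_nonneg.mpr (sq_nonneg _))
    exact_mod_cast FDN_fiber_card_le K U p
  have h4 : ∑ p ∈ U.image (FDN_below K), (Module.finrank ℚ K : ℝ) * (((p : ℝ) ^ 2)⁻¹) ≤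
      Module.finrank ℚ K * ∑' m : ℕ, ((m : ℝ) ^ 2)⁻¹ := by
    rw [← Finset.mul_sum]
    refine mul_le_mul_of_nonneg_left ?_ (Nat.cast_nonneg _)
    exact FDN_summable_inv_sq.sum_le_tsum _ (fun m _ ↦ inv_nonneg.mpr (sq_nonneg _))
  linarith

/-- the primes of norm `≤ t` contribute `O(1)`: finite sums. -/
lemma FDN_sum_small_le (t : ℕ) :
    ∃ C : ℝ, ∀ s : ℝ, 0 ≤ s → ∀ U : Finset (HeightOneSpectrum (𝓞 K)),
      (∀ v ∈ U, Ideal.absNorm v.asIdeal ≤ t) → ∑ v ∈ U, FDN_x K s v ≤ C := by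
  have hfin : {v : HeightOneSpectrum (𝓞 K) | Ideal.absNorm v.asIdeal ≤ t}.Finite := by
    have h1 : {I : Ideal (𝓞 K) | Ideal.absNorm I ≤ t}.Finite :=
      Ideal.finite_setOf_absNorm_le t
    refine Set.Finite.of_injOn (f := fun v : HeightOneSpectrum (𝓞 K) ↦ v.asIdeal) ?_ ?_ h1
    · intro v hv
      exact hv
    · intro v _ w _ h
      exact HeightOneSpectrum.ext h
  refine ⟨(hfin.toFinset.card : ℝ), fun s hs U hU ↦ ?_⟩
  have h1 : U ⊆ hfin.toFinset := by
    intro v hv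
    rw [Set.Finite.mem_toFinset]
    exact hU v hv
  calc ∑ v ∈ U, FDN_x K s v ≤ ∑ v ∈ U, (1 : ℝ) :=
        Finset.sum_le_sum (fun v _ ↦ S14_normPow_le_one (K := K) hs (S14_primeNZ v))
    _ = U.card := by simp
    _ ≤ hfin.toFinset.card := by exact_mod_cast Finset.card_le_card h1

/-- all exceptional primes together: finite sums. -/
lemma FDN_sum_exc_le (t : ℕ) (ht : t ≠ 0) :
    ∃ C : ℝ, ∀ s : ℝ, 1 ≤ s → ∀ U : Finset (HeightOneSpectrum (𝓞 K)),
      (∀ v ∈ U, v ∉ FDN_degOne K t) → ∑ v ∈ U, FDN_x K s v ≤ C := by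
  obtain ⟨C, hC⟩ := FDN_sum_small_le K t
  refine ⟨Module.finrank ℚ K * ∑' m : ℕ, ((m : ℝ) ^ 2)⁻¹ + C, fun s hs U hU ↦ ?_⟩
  rw [← Finset.sum_filter_add_sum_filter_not U (fun v ↦ ¬ (Ideal.absNorm v.asIdeal).Prime)]
  refine add_le_add ?_ ?_
  · refine FDN_sum_not_prime_le K hs _ (fun v hv ↦ (Finset.mem_filter.mp hv).2)
  · refine hC s (by linarith) _ (fun v hv ↦ ?_)
    obtain ⟨hvU, hvp⟩ := Finset.mem_filter.mp hv
    rw [not_not] at hvp
    have h1 := hU v hvU
    have h2 : Ideal.absNorm v.asIdeal ∣ t := by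
      by_contra h
      exact h1 ⟨hvp, h⟩
    exact Nat.le_of_dvd (Nat.pos_of_ne_zero ht) h2

end exceptional

section main

variable (K : Type*) [Field K] [NumberField K]

/-- **Analytic core of the Frobenius density theorem**: the sum of `N(v)^(-s)` over the primes of
absolute degree one (prime to `t`) is `log (1/(s-1)) + O(1)` on `(1, 2]`. -/
theorem FDN_dstmt : FDN_DStmt K := by
  intro t ht
  have hsummable : ∀ s : ℝ, 1 < s →
      Summable (fun v : FDN_degOne K t ↦ (Ideal.absNorm v.1.asIdeal : ℝ) ^ (-s)) := by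
    intro s hs
    exact (FDN_x_summable (K := K) hs).subtype (FDN_degOne K t)
  refine ⟨hsummable, ?_⟩
  obtain ⟨B₁, hB₁⟩ := FDN_log_zeta_bound K
  obtain ⟨C, hC⟩ := FDN_sum_exc_le K t ht
  refine ⟨2 * S14_idealZeta K 2 + B₁ + |C|, fun s hs hs2 ↦ ?_⟩
  have hx := FDN_x_summable (K := K) hs
  have hP := FDN_P_bound K hs
  have hB := hB₁ s hs hs2
  -- split the sum
  have hsplit := hx.tsum_subtype_add_tsum_subtype_compl (FDN_degOne K t)
  have hD : FDN_D K t s = ∑' v : FDN_degOne K t, FDN_x K s v := rfl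
  -- the exceptional part
  have hE0 : 0 ≤ ∑' v : ((FDN_degOne K t)ᶜ : Set _), FDN_x K s v :=
    tsum_nonneg (fun v ↦ FDN_x_nonneg s v.1)
  have hE1 : ∑' v : ((FDN_degOne K t)ᶜ : Set _), FDN_x K s v ≤ C := by
    have hsum : Summable (fun v : ((FDN_degOne K t)ᶜ : Set _) ↦ FDN_x K s v) :=
      hx.subtype _
    refine hsum.tsum_le_of_sum_le (fun U ↦ ?_)
    have h1 : ∑ v ∈ U, FDN_x K s v.1 = ∑ v ∈ U.map (Function.Embedding.subtype _), FDN_x K s v := by
      rw [Finset.sum_map]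
      rfl
    rw [h1]
    refine hC s hs.le _ (fun v hv ↦ ?_)
    obtain ⟨w, -, rfl⟩ := Finset.mem_map.mp hv
    exact w.2
  have hZ0 : 0 ≤ S14_idealZeta K 2 := (S14_idealZeta_pos K (by norm_num)).le
  have hCabs := le_abs_self C
  rw [hD, abs_le]
  rw [abs_le] at hB
  constructor <;> linarith [hP.1, hP.2, hB.1, hB.2]

end main

end Fermat.Agent.Lib
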