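import Mathlib
import Fermat.Agent.Lib.FrobDensityDefs
import Fermat.Agent.Lib.FrobDensitySum
import Fermat.Agent.Lib.FrobDensityMoebius
import Fermat.Agent.Lib.FrobDensityZeta

/-!
# The Frobenius density theorem (package FD-ALG), number field form

`FDN_frobenius` : let `F / ℚ` be a finite Galois extension, `g ∈ Gal(F/ℚ)` and `T` a finite set
of primes.  Then there are a prime `ℓ ∉ T`, a prime `𝔏` of `𝓞 F` over `ℓ` with trivial inertia
group and an `h` generating the same cyclic subgroup as `g` such that `h` is the Frobenius element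
of `𝔏`.  The analytic input is `FDN_DStmt K` (`FDN_dstmt`, package FD-AN) for the intermediate
fields `K` of `F / ℚ`; `FDN_frobenius_of` is the version with this input as a hypothesis.
-/

namespace Fermat.Agent.Lib

open NumberField IsDedekindDomain
open scoped Pointwise

variable {F : Type*} [Field F] [NumberField F] [IsGalois ℚ F]

open Classical in
omit [IsGalois ℚ F] in
theorem FDN_indicator_frobSet (t : ℕ) (S : Set (F ≃ₐ[ℚ] F)) (s : ℝ) (P : Ideal (𝓞 F)) :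
    (FDN_frobSet t S).indicator (FDN_wt s) P =
      (FDN_good F t).indicator (FDN_wt s) P * (if FDN_frob P ∈ S then 1 else 0) := by
  by_cases h1 : P ∈ FDN_good F t <;> by_cases h2 : FDN_frob P ∈ S <;>
    simp [FDN_frobSet, Set.indicator, h1, h2]

/-- The sum over the primes with Frobenius in a subgroup, as a sum over all ideals. -/
theorem FDN_sum_indicator (H : Subgroup (F ≃ₐ[ℚ] F)) {t : ℕ} (ht : FDN_IsLevel F t) (s : ℝ)
    (hs : Summable (fun v : FDN_degOne (FDN_fix H) t ↦ (Ideal.absNorm v.1.asIdeal : ℝ) ^ (-s))) :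
    Summable ((FDN_frobSet t (H : Set (F ≃ₐ[ℚ] F))).indicator (FDN_wt s)) ∧
      ∑' P : Ideal (𝓞 F), (FDN_frobSet t (H : Set (F ≃ₐ[ℚ] F))).indicator (FDN_wt s) P =
        Nat.card H * FDN_D (FDN_fix H) t s := by
  obtain ⟨h1, h2⟩ := FDN_sum_frobSet H ht s hs
  refine ⟨summable_subtype_iff_indicator.mp h1, ?_⟩
  rw [← tsum_subtype, h2]

/-- The Möbius formula for the sum over the primes whose Frobenius generates `⟨g⟩`. -/
theorem FDN_gen_sum (hD : ∀ K : IntermediateField ℚ F, FDN_DStmt K) (g : F ≃ₐ[ℚ] F) {t : ℕ}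
    (ht : FDN_IsLevel F t) (s : ℝ) (hs : 1 < s) :
    ∑' P : Ideal (𝓞 F),
        (FDN_frobSet t {h | Subgroup.zpowers h = Subgroup.zpowers g}).indicator (FDN_wt s) P =
      ∑ d ∈ (orderOf g).divisors, (ArithmeticFunction.moebius d : ℝ) *
        (((orderOf g / d : ℕ) : ℝ) * FDN_D (FDN_fix (Subgroup.zpowers (g ^ d))) t s) := by
  classical
  have key : ∀ d : ℕ,
      Summable ((FDN_frobSet t ((Subgroup.zpowers (g ^ d) : Subgroup (F ≃ₐ[ℚ] F)) :
        Set (F ≃ₐ[ℚ] F))).indicator (FDN_wt s)) ∧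
      ∑' P : Ideal (𝓞 F), (FDN_frobSet t ((Subgroup.zpowers (g ^ d) : Subgroup (F ≃ₐ[ℚ] F)) :
        Set (F ≃ₐ[ℚ] F))).indicator (FDN_wt s) P =
        Nat.card (Subgroup.zpowers (g ^ d)) * FDN_D (FDN_fix (Subgroup.zpowers (g ^ d))) t s :=
    fun d => FDN_sum_indicator _ ht s ((hD _ t ht.1).1 s hs)
  have hpt : ∀ P : Ideal (𝓞 F),
      (FDN_frobSet t {h | Subgroup.zpowers h = Subgroup.zpowers g}).indicator (FDN_wt s) P =
      ∑ d ∈ (orderOf g).divisors, (ArithmeticFunction.moebius d : ℝ) *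
        (FDN_frobSet t ((Subgroup.zpowers (g ^ d) : Subgroup (F ≃ₐ[ℚ] F)) :
          Set (F ≃ₐ[ℚ] F))).indicator (FDN_wt s) P := by
    intro P
    rw [FDN_indicator_frobSet]
    simp_rw [FDN_indicator_frobSet t (((Subgroup.zpowers (g ^ _) : Subgroup (F ≃ₐ[ℚ] F))) :
      Set (F ≃ₐ[ℚ] F))]
    have := FDN_moebius_indicator g (FDN_frob P)
    simp only [Set.mem_ofPred_eq, SetLike.mem_coe]
    rw [← this, Finset.mul_sum]
    refine Finset.sum_congr rfl (fun d _ => ?_)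
    ring
  rw [tsum_congr hpt, Summable.tsum_finsetSum (fun d _ => (key d).1.mul_left _)]
  refine Finset.sum_congr rfl (fun d hd => ?_)
  rw [tsum_mul_left, (key d).2, FDN_card_zpowers_pow g (Nat.dvd_of_mem_divisors hd)]

/-- **Frobenius density theorem** (existence form), assuming the analytic input `FDN_DStmt` for
the intermediate fields of `F / ℚ`. -/
theorem FDN_frobenius_of (hD : ∀ K : IntermediateField ℚ F, FDN_DStmt K) (g : F ≃ₐ[ℚ] F)
    (T : Finset ℕ) :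
    ∃ (ℓ : ℕ) (𝔏 : Ideal (𝓞 F)) (h : F ≃ₐ[ℚ] F), ℓ.Prime ∧ ℓ ∉ T ∧ 𝔏.IsPrime ∧ (ℓ : 𝓞 F) ∈ 𝔏 ∧
      (∀ σ : F ≃ₐ[ℚ] F, (∀ x : 𝓞 F, σ • x - x ∈ 𝔏) → σ = 1) ∧
      (∀ x : 𝓞 F, h • x - x ^ ℓ ∈ 𝔏) ∧ Subgroup.zpowers h = Subgroup.zpowers g := by
  classical
  obtain ⟨t₀, ht₀, hlev⟩ := FDN_exists_level F
  set t : ℕ := t₀ * ∏ p ∈ T.filter Nat.Prime, p with htdef
  have htne : t ≠ 0 := mul_ne_zero ht₀
    (Finset.prod_ne_zero_iff.mpr (fun p hp => (Finset.mem_filter.mp hp).2.ne_zero))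
  have ht : FDN_IsLevel F t := hlev t htne (Dvd.intro _ rfl)
  suffices hne : (FDN_frobSet t
      {h : F ≃ₐ[ℚ] F | Subgroup.zpowers h = Subgroup.zpowers g}).Nonempty by
    obtain ⟨P, hP⟩ := hne
    have hPp : P.IsPrime := hP.1.1
    refine ⟨Ideal.absNorm (P.under ℤ), P, FDN_frob P, FDN_char_prime P hP.1.2.1, ?_, hPp,
      Int.absNorm_under_mem P, ht.2 P hP.1, FDN_frob_spec P hP.1.2.1, hP.2⟩
    intro hT
    apply hP.1.2.2
    exact Dvd.dvd.mul_left (Finset.dvd_prod_of_mem _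
      (Finset.mem_filter.mpr ⟨hT, FDN_char_prime P hP.1.2.1⟩)) t₀
  by_contra hempty
  rw [Set.not_nonempty_iff_eq_empty] at hempty
  set n : ℕ := orderOf g with hndef
  have hn : 0 < n := orderOf_pos g
  have hzero : ∀ s : ℝ, 1 < s →
      ∑ d ∈ n.divisors, (ArithmeticFunction.moebius d : ℝ) *
        (((n / d : ℕ) : ℝ) * FDN_D (FDN_fix (Subgroup.zpowers (g ^ d))) t s) = 0 := by
    intro s hs
    rw [← FDN_gen_sum hD g ht s hs, hempty]
    simp
  have hB : ∀ d : ℕ, ∃ B : ℝ, ∀ s : ℝ, 1 < s → s ≤ 2 →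
      |FDN_D (FDN_fix (Subgroup.zpowers (g ^ d))) t s - Real.log (1 / (s - 1))| ≤ B :=
    fun d => (hD _ t htne).2
  choose B hB using hB
  set C : ℝ := ∑ d ∈ n.divisors, |(ArithmeticFunction.moebius d : ℝ)| * ((n / d : ℕ) : ℝ) * B d
    with hCdef
  have hineq : ∀ s : ℝ, 1 < s → s ≤ 2 → (Nat.totient n : ℝ) * Real.log (1 / (s - 1)) ≤ C := by
    intro s hs hs2
    have h0 := hzero s hs
    have h1 := FDN_sum_moebius_mul_div n hn
    have h2 : (Nat.totient n : ℝ) * Real.log (1 / (s - 1)) =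
        ∑ d ∈ n.divisors, (ArithmeticFunction.moebius d : ℝ) * ((n / d : ℕ) : ℝ) *
          (Real.log (1 / (s - 1)) - FDN_D (FDN_fix (Subgroup.zpowers (g ^ d))) t s) := by
      have h3 : ∑ d ∈ n.divisors, (ArithmeticFunction.moebius d : ℝ) * ((n / d : ℕ) : ℝ) *
          (Real.log (1 / (s - 1)) - FDN_D (FDN_fix (Subgroup.zpowers (g ^ d))) t s) =
          (∑ d ∈ n.divisors, (ArithmeticFunction.moebius d : ℝ) * ((n / d : ℕ) : ℝ)) *
            Real.log (1 / (s - 1)) -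
          ∑ d ∈ n.divisors, (ArithmeticFunction.moebius d : ℝ) *
            (((n / d : ℕ) : ℝ) * FDN_D (FDN_fix (Subgroup.zpowers (g ^ d))) t s) := by
        rw [Finset.sum_mul, ← Finset.sum_sub_distrib]
        refine Finset.sum_congr rfl (fun d _ => ?_)
        ring
      rw [h3, h0, sub_zero, h1]
    rw [h2, hCdef]
    refine Finset.sum_le_sum (fun d _ => ?_)
    have hb := hB d s hs hs2
    rw [abs_sub_comm] at hb
    calc (ArithmeticFunction.moebius d : ℝ) * ((n / d : ℕ) : ℝ) *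
          (Real.log (1 / (s - 1)) - FDN_D (FDN_fix (Subgroup.zpowers (g ^ d))) t s)
        ≤ |(ArithmeticFunction.moebius d : ℝ) * ((n / d : ℕ) : ℝ) *
          (Real.log (1 / (s - 1)) - FDN_D (FDN_fix (Subgroup.zpowers (g ^ d))) t s)| :=
          le_abs_self _
      _ = |(ArithmeticFunction.moebius d : ℝ)| * ((n / d : ℕ) : ℝ) *
          |Real.log (1 / (s - 1)) - FDN_D (FDN_fix (Subgroup.zpowers (g ^ d))) t s| := by
          rw [abs_mul, abs_mul, abs_of_nonneg (Nat.cast_nonneg (n / d) : (0 : ℝ) ≤ ((n / d : ℕ) : ℝ))]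
      _ ≤ |(ArithmeticFunction.moebius d : ℝ)| * ((n / d : ℕ) : ℝ) * B d := by
          gcongr
  set M : ℝ := max C 0 + 1 with hMdef
  have hM0 : 0 < M := by
    have := le_max_right C 0
    linarith
  have hs1 : 1 < 1 + Real.exp (-M) := by
    have := Real.exp_pos (-M)
    linarith
  have hs2 : 1 + Real.exp (-M) ≤ 2 := by
    have : Real.exp (-M) ≤ 1 := Real.exp_le_one_iff.mpr (by linarith)
    linarith
  have hL : Real.log (1 / (1 + Real.exp (-M) - 1)) = M := by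
    rw [add_sub_cancel_left, one_div, Real.log_inv, Real.log_exp, neg_neg]
  have h := hineq _ hs1 hs2
  rw [hL] at h
  have hφ : (1 : ℝ) ≤ Nat.totient n := by
    have := Nat.totient_pos.mpr hn
    exact_mod_cast this
  have hC : C < M := by
    have := le_max_left C 0
    linarith
  nlinarith

/-- **Frobenius density theorem** (existence form): for a finite Galois extension `F / ℚ`,
`g ∈ Gal(F/ℚ)` and a finite set `T` of primes there are a prime `ℓ ∉ T`, a prime `𝔏` of `𝓞 F`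
over `ℓ` with trivial inertia group, and a Frobenius element `h` at `𝔏` generating the same
cyclic subgroup as `g`. -/
theorem FDN_frobenius (F : Type*) [Field F] [NumberField F] [IsGalois ℚ F] (g : F ≃ₐ[ℚ] F)
    (T : Finset ℕ) :
    ∃ (ℓ : ℕ) (𝔏 : Ideal (𝓞 F)) (h : F ≃ₐ[ℚ] F), ℓ.Prime ∧ ℓ ∉ T ∧ 𝔏.IsPrime ∧ (ℓ : 𝓞 F) ∈ 𝔏 ∧
      (∀ σ : F ≃ₐ[ℚ] F, (∀ x : 𝓞 F, σ • x - x ∈ 𝔏) → σ = 1) ∧
      (∀ x : 𝓞 F, h • x - x ^ ℓ ∈ 𝔏) ∧ Subgroup.zpowers h = Subgroup.zpowers g :=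
  FDN_frobenius_of (fun K => FDN_dstmt K) g T

end Fermat.Agent.Lib
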