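import Mathlib

/-!
# Somos-4 relation and its invariant for Mathlib's `normEDS`

For `W = normEDS b c d` over any commutative ring we prove, from the even/odd recursion only,

* `edsSomos_somos` : `W(n+2) W(n-2) = b² W(n+1) W(n-1) - c W(n)²`,
* `edsSomos_invar` : `c (W(n+2) W(n-1)² + W(n-2) W(n+1)² + b² W(n)³) = (d + b⁴) W(n+1) W(n) W(n-1)`.

Both are first proved in the universal ring `ℤ[b, c, d]` (a domain, in which no `W(n)`, `n ≠ 0`,
vanishes because `normEDS 2 3 2 n = n`) and then mapped to an arbitrary ring.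
-/

set_option autoImplicit false

namespace Fermat.Agent.Lib

/-- the identity sequence is `normEDS 2 3 2` -/
theorem edsSomos_normEDS_id_nat (n : ℕ) : normEDS (2 : ℤ) 3 2 (n : ℤ) = (n : ℤ) := by
  induction n using normEDSRec with
  | zero => simp
  | one => simp
  | two => simp
  | three => simp
  | four => simp
  | even m h1 h2 h3 h4 h5 =>
    have h := normEDS_even (2 : ℤ) 3 2 ((m : ℤ) + 3)
    have e1 : ((m : ℤ) + 3 - 1) = ((m + 2 : ℕ) : ℤ) := by push_cast; ring
    have e2 : ((m : ℤ) + 3) = ((m + 3 : ℕ) : ℤ) := by push_cast; ring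
    have e3 : ((m : ℤ) + 3 + 2) = ((m + 5 : ℕ) : ℤ) := by push_cast; ring
    have e4 : ((m : ℤ) + 3 - 2) = ((m + 1 : ℕ) : ℤ) := by push_cast; ring
    have e5 : ((m : ℤ) + 3 + 1) = ((m + 4 : ℕ) : ℤ) := by push_cast; ring
    rw [e1, e3, e4, e5, e2, h1, h2, h3, h4, h5] at h
    have e6 : ((2 * (m + 3) : ℕ) : ℤ) = 2 * ((m + 3 : ℕ) : ℤ) := by push_cast; ring
    rw [e6]
    push_cast at h ⊢
    have h' : normEDS 2 3 2 (2 * ((m : ℤ) + 3)) * 2 = (2 * ((m : ℤ) + 3)) * 2 := by
      rw [h]; ring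
    exact mul_right_cancel₀ two_ne_zero h'
  | odd m h1 h2 h3 h4 =>
    have h := normEDS_odd (2 : ℤ) 3 2 ((m : ℤ) + 2)
    have e1 : ((m : ℤ) + 2 - 1) = ((m + 1 : ℕ) : ℤ) := by push_cast; ring
    have e2 : ((m : ℤ) + 2) = ((m + 2 : ℕ) : ℤ) := by push_cast; ring
    have e3 : ((m : ℤ) + 2 + 2) = ((m + 4 : ℕ) : ℤ) := by push_cast; ring
    have e5 : ((m : ℤ) + 2 + 1) = ((m + 3 : ℕ) : ℤ) := by push_cast; ring
    rw [e1, e3, e5, e2, h1, h2, h3, h4] at h
    have e6 : ((2 * (m + 2) + 1 : ℕ) : ℤ) = 2 * ((m + 2 : ℕ) : ℤ) + 1 := by push_cast; ring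
    rw [e6, h]
    push_cast
    ring

/-- the identity sequence is `normEDS 2 3 2` -/
theorem edsSomos_normEDS_id (n : ℤ) : normEDS (2 : ℤ) 3 2 n = n := by
  obtain ⟨k, rfl | rfl⟩ := n.eq_nat_or_neg
  · exact edsSomos_normEDS_id_nat k
  · rw [normEDS_neg, edsSomos_normEDS_id_nat]

section
variable {R : Type*} [CommRing R] (b c d : R)

/-- The Somos-4 relation at index `n`. -/
def edsSomos_S (n : ℤ) : Prop :=
  normEDS b c d (n + 2) * normEDS b c d (n - 2) =
    b ^ 2 * normEDS b c d (n + 1) * normEDS b c d (n - 1) - c * normEDS b c d n ^ 2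

/-- The invariant relation at index `n`. -/
def edsSomos_I (n : ℤ) : Prop :=
  c * (normEDS b c d (n + 2) * normEDS b c d (n - 1) ^ 2 +
      normEDS b c d (n - 2) * normEDS b c d (n + 1) ^ 2 + b ^ 2 * normEDS b c d n ^ 3) =
    (d + b ^ 4) * normEDS b c d (n + 1) * normEDS b c d n * normEDS b c d (n - 1)

theorem edsSomos_S_neg (n : ℤ) (h : edsSomos_S b c d n) : edsSomos_S b c d (-n) := by
  unfold edsSomos_S at h ⊢
  rw [show -n + 2 = -(n - 2) by ring, show -n - 2 = -(n + 2) by ring,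
    show -n + 1 = -(n - 1) by ring, show -n - 1 = -(n + 1) by ring]
  simp only [normEDS_neg]
  linear_combination h

theorem edsSomos_I_neg (n : ℤ) (h : edsSomos_I b c d n) : edsSomos_I b c d (-n) := by
  unfold edsSomos_I at h ⊢
  rw [show -n + 2 = -(n - 2) by ring, show -n - 2 = -(n + 2) by ring,
    show -n + 1 = -(n - 1) by ring, show -n - 1 = -(n + 1) by ring]
  simp only [normEDS_neg]
  linear_combination -h

theorem edsSomos_odd_step (m : ℤ) (hm : edsSomos_S b c d m) (hm1 : edsSomos_S b c d (m + 1)) :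
    edsSomos_S b c d (2 * m + 1) := by
  unfold edsSomos_S at hm hm1 ⊢
  have o1 := normEDS_odd b c d (m + 1)
  have o0 := normEDS_odd b c d m
  have o_1 := normEDS_odd b c d (m - 1)
  have e1 := normEDS_even b c d (m + 1)
  have e0 := normEDS_even b c d m
  rw [show m + 1 + 2 = m + 3 by ring, show m + 1 - 1 = m by ring,
    show m + 1 + 1 = m + 2 by ring] at o1 e1 hm1
  rw [show m + 1 - 2 = m - 1 by ring] at e1 hm1
  rw [show m - 1 + 2 = m + 1 by ring, show m - 1 - 1 = m - 2 by ring,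
    show m - 1 + 1 = m by ring] at o_1
  rw [show 2 * m + 1 + 2 = 2 * (m + 1) + 1 by ring, show 2 * m + 1 - 2 = 2 * (m - 1) + 1 by ring,
    show 2 * m + 1 + 1 = 2 * (m + 1) by ring, show 2 * m + 1 - 1 = 2 * m by ring, o1, o0, o_1]
  generalize normEDS b c d (m - 2) = A at *
  generalize normEDS b c d (m - 1) = B at *
  generalize normEDS b c d m = C at *
  generalize normEDS b c d (m + 1) = D at *
  generalize normEDS b c d (m + 2) = E at *
  generalize normEDS b c d (m + 3) = F at *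
  generalize normEDS b c d (2 * (m + 1)) = X1 at *
  generalize normEDS b c d (2 * m) = X0 at *
  linear_combination (B * D ^ 3 - C ^ 3 * E) * B * D * hm1 - (B * D ^ 3 - C ^ 3 * E) * C * E * hm
    - (X0 * b) * e1 - (C ^ 2 * D * F - B * D * E ^ 2) * e0

theorem edsSomos_even_step_mul (m : ℤ) (hm_1 : edsSomos_S b c d (m - 1))
    (hm : edsSomos_S b c d m) (hm1 : edsSomos_S b c d (m + 1)) :
    b ^ 2 * (normEDS b c d (2 * m + 2) * normEDS b c d (2 * m - 2)) =
      b ^ 2 * (b ^ 2 * normEDS b c d (2 * m + 1) * normEDS b c d (2 * m - 1) -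
        c * normEDS b c d (2 * m) ^ 2) := by
  unfold edsSomos_S at hm hm1 hm_1
  have o0 := normEDS_odd b c d m
  have o_1 := normEDS_odd b c d (m - 1)
  have e1 := normEDS_even b c d (m + 1)
  have e0 := normEDS_even b c d m
  have e_1 := normEDS_even b c d (m - 1)
  rw [show m + 1 + 2 = m + 3 by ring, show m + 1 - 1 = m by ring,
    show m + 1 + 1 = m + 2 by ring] at e1 hm1
  rw [show m + 1 - 2 = m - 1 by ring] at e1 hm1
  rw [show m - 1 + 2 = m + 1 by ring, show m - 1 - 1 = m - 2 by ring,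
    show m - 1 + 1 = m by ring] at o_1 e_1 hm_1
  rw [show m - 1 - 2 = m - 3 by ring] at e_1 hm_1
  rw [show 2 * m - 1 = 2 * (m - 1) + 1 by ring, show 2 * m + 2 = 2 * (m + 1) by ring,
    show 2 * m - 2 = 2 * (m - 1) by ring, o0, o_1]
  generalize normEDS b c d (m - 3) = Z at *
  generalize normEDS b c d (m - 2) = A at *
  generalize normEDS b c d (m - 1) = B at *
  generalize normEDS b c d m = C at *
  generalize normEDS b c d (m + 1) = D at *
  generalize normEDS b c d (m + 2) = E at *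
  generalize normEDS b c d (m + 3) = F at *
  generalize normEDS b c d (2 * (m + 1)) = X1 at *
  generalize normEDS b c d (2 * m) = X0 at *
  generalize normEDS b c d (2 * (m - 1)) = Y1 at *
  linear_combination (A ^ 2 * C ^ 2 * D ^ 2 - (D * Z) * C ^ 4) * hm1
    + (B ^ 2 * C ^ 2 * E ^ 2 - (b ^ 2 * E * C - c * D ^ 2) * C ^ 4) * hm_1
    + (-(B ^ 2 * D ^ 2 * (E * A + (b ^ 2 * D * B - c * C ^ 2)))
        + C ^ 2 * (b ^ 2 * A * C * D ^ 2 + b ^ 2 * B ^ 2 * C * E - 2 * c * B ^ 2 * D ^ 2)) * hm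
    + (Y1 * b) * e1 + (C ^ 2 * D * F - B * D * E ^ 2) * e_1
    + c * (X0 * b + (B ^ 2 * C * E - A * C * D ^ 2)) * e0

/-- `W(k-1) · I(k+1) = W(k+2) · I(k)` modulo Somos-4. -/
theorem edsSomos_invar_step_mul (k : ℤ) (hk : edsSomos_S b c d k)
    (hk1 : edsSomos_S b c d (k + 1)) (hI : edsSomos_I b c d k) :
    normEDS b c d (k - 1) *
        (c * (normEDS b c d (k + 1 + 2) * normEDS b c d (k + 1 - 1) ^ 2 +
          normEDS b c d (k + 1 - 2) * normEDS b c d (k + 1 + 1) ^ 2 +
            b ^ 2 * normEDS b c d (k + 1) ^ 3)) =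
      normEDS b c d (k - 1) *
        ((d + b ^ 4) * normEDS b c d (k + 1 + 1) * normEDS b c d (k + 1) *
          normEDS b c d (k + 1 - 1)) := by
  unfold edsSomos_S at hk hk1
  unfold edsSomos_I at hI
  rw [show k + 1 + 2 = k + 3 by ring, show k + 1 - 1 = k by ring,
    show k + 1 + 1 = k + 2 by ring, show k + 1 - 2 = k - 1 by ring] at hk1 ⊢
  generalize normEDS b c d (k - 2) = A at *
  generalize normEDS b c d (k - 1) = B at *
  generalize normEDS b c d k = C at *
  generalize normEDS b c d (k + 1) = D at *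
  generalize normEDS b c d (k + 2) = E at *
  generalize normEDS b c d (k + 3) = F at *
  linear_combination E * hI - c * D ^ 2 * hk + c * C ^ 2 * hk1

end

section domain

variable {R : Type*} [CommRing R] [IsDomain R] (b c d : R)

theorem edsSomos_somos_nat_of_domain (hb : b ≠ 0) (n : ℕ) : edsSomos_S b c d (n : ℤ) := by
  induction n using Nat.strong_induction_on with
  | _ n ih =>
    rcases Nat.lt_or_ge n 3 with h3 | h3
    · interval_cases n
      · unfold edsSomos_S
        rw [show ((0 : ℕ) : ℤ) + 2 = 2 by norm_num, show ((0 : ℕ) : ℤ) - 2 = -2 by norm_num,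
          show ((0 : ℕ) : ℤ) + 1 = 1 by norm_num, show ((0 : ℕ) : ℤ) - 1 = -1 by norm_num,
          show ((0 : ℕ) : ℤ) = 0 by norm_num]
        simp only [normEDS_neg, normEDS_zero, normEDS_one, normEDS_two]
        ring
      · unfold edsSomos_S
        rw [show ((1 : ℕ) : ℤ) + 2 = 3 by norm_num, show ((1 : ℕ) : ℤ) - 2 = -1 by norm_num,
          show ((1 : ℕ) : ℤ) + 1 = 2 by norm_num, show ((1 : ℕ) : ℤ) - 1 = 0 by norm_num,
          show ((1 : ℕ) : ℤ) = 1 by norm_num]
        simp only [normEDS_neg, normEDS_zero, normEDS_one, normEDS_two, normEDS_three]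
        ring
      · unfold edsSomos_S
        rw [show ((2 : ℕ) : ℤ) + 2 = 4 by norm_num, show ((2 : ℕ) : ℤ) - 2 = 0 by norm_num,
          show ((2 : ℕ) : ℤ) + 1 = 3 by norm_num, show ((2 : ℕ) : ℤ) - 1 = 1 by norm_num,
          show ((2 : ℕ) : ℤ) = 2 by norm_num]
        simp only [normEDS_zero, normEDS_one, normEDS_two, normEDS_three, normEDS_four]
        ring
    · rcases Nat.even_or_odd' n with ⟨m, rfl | rfl⟩
      · -- n = 2m, m ≥ 2
        have hm2 : 2 ≤ m := by omega
        have h_1 := ih (m - 1) (by omega)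
        have h0 := ih m (by omega)
        have h1 := ih (m + 1) (by omega)
        rw [show ((m - 1 : ℕ) : ℤ) = (m : ℤ) - 1 by omega] at h_1
        rw [show ((m + 1 : ℕ) : ℤ) = (m : ℤ) + 1 by omega] at h1
        have key := edsSomos_even_step_mul b c d (m : ℤ) h_1 h0 h1
        have hb2 : b ^ 2 ≠ 0 := pow_ne_zero 2 hb
        have := mul_left_cancel₀ hb2 key
        unfold edsSomos_S
        rw [show ((2 * m : ℕ) : ℤ) = 2 * (m : ℤ) by omega]
        exact this
      · -- n = 2m+1, m ≥ 1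
        have h0 := ih m (by omega)
        have h1 := ih (m + 1) (by omega)
        rw [show ((m + 1 : ℕ) : ℤ) = (m : ℤ) + 1 by omega] at h1
        have key := edsSomos_odd_step b c d (m : ℤ) h0 h1
        rw [show ((2 * m + 1 : ℕ) : ℤ) = 2 * (m : ℤ) + 1 by omega]
        exact key

theorem edsSomos_somos_of_domain (hb : b ≠ 0) (n : ℤ) : edsSomos_S b c d n := by
  obtain ⟨k, rfl | rfl⟩ := n.eq_nat_or_neg
  · exact edsSomos_somos_nat_of_domain b c d hb k
  · exact edsSomos_S_neg b c d _ (edsSomos_somos_nat_of_domain b c d hb k)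

theorem edsSomos_invar_nat_of_domain (hW : ∀ n : ℤ, n ≠ 0 → normEDS b c d n ≠ 0) (n : ℕ) :
    edsSomos_I b c d (n : ℤ) := by
  have hb : b ≠ 0 := by simpa using hW 2 (by norm_num)
  induction n with
  | zero =>
    unfold edsSomos_I
    rw [show ((0 : ℕ) : ℤ) + 2 = 2 by norm_num, show ((0 : ℕ) : ℤ) - 2 = -2 by norm_num,
      show ((0 : ℕ) : ℤ) + 1 = 1 by norm_num, show ((0 : ℕ) : ℤ) - 1 = -1 by norm_num,
      show ((0 : ℕ) : ℤ) = 0 by norm_num]
    simp only [normEDS_neg, normEDS_zero, normEDS_one, normEDS_two]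
    ring
  | succ k ih =>
    rcases Nat.lt_or_ge k 2 with h2 | h2
    · interval_cases k
      · unfold edsSomos_I
        rw [show ((0 + 1 : ℕ) : ℤ) + 2 = 3 by norm_num, show ((0 + 1 : ℕ) : ℤ) - 2 = -1 by norm_num,
          show ((0 + 1 : ℕ) : ℤ) + 1 = 2 by norm_num, show ((0 + 1 : ℕ) : ℤ) - 1 = 0 by norm_num,
          show ((0 + 1 : ℕ) : ℤ) = 1 by norm_num]
        simp only [normEDS_neg, normEDS_zero, normEDS_one, normEDS_two, normEDS_three]
        ring
      · unfold edsSomos_I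
        rw [show ((1 + 1 : ℕ) : ℤ) + 2 = 4 by norm_num, show ((1 + 1 : ℕ) : ℤ) - 2 = 0 by norm_num,
          show ((1 + 1 : ℕ) : ℤ) + 1 = 3 by norm_num, show ((1 + 1 : ℕ) : ℤ) - 1 = 1 by norm_num,
          show ((1 + 1 : ℕ) : ℤ) = 2 by norm_num]
        simp only [normEDS_zero, normEDS_one, normEDS_two, normEDS_three, normEDS_four]
        ring
    · have hk := edsSomos_somos_of_domain b c d hb (k : ℤ)
      have hk1 := edsSomos_somos_of_domain b c d hb ((k : ℤ) + 1)
      have key := edsSomos_invar_step_mul b c d (k : ℤ) hk hk1 ih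
      have hne : normEDS b c d ((k : ℤ) - 1) ≠ 0 := hW _ (by omega)
      have := mul_left_cancel₀ hne key
      unfold edsSomos_I
      rw [show ((k + 1 : ℕ) : ℤ) = (k : ℤ) + 1 by omega]
      exact this

theorem edsSomos_invar_of_domain (hW : ∀ n : ℤ, n ≠ 0 → normEDS b c d n ≠ 0) (n : ℤ) :
    edsSomos_I b c d n := by
  obtain ⟨k, rfl | rfl⟩ := n.eq_nat_or_neg
  · exact edsSomos_invar_nat_of_domain b c d hW k
  · exact edsSomos_I_neg b c d _ (edsSomos_invar_nat_of_domain b c d hW k)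

end domain

section universal

open MvPolynomial

/-- the universal ring `ℤ[b, c, d]` -/
abbrev EdsSomosU : Type := MvPolynomial (Fin 3) ℤ

theorem edsSomos_univ_ne_zero (n : ℤ) (hn : n ≠ 0) :
    normEDS (X 0 : EdsSomosU) (X 1) (X 2) n ≠ 0 := by
  intro h
  have h2 := congrArg (MvPolynomial.eval₂Hom (RingHom.id ℤ) ![2, 3, 2]) h
  rw [map_normEDS, map_zero] at h2
  simp only [MvPolynomial.coe_eval₂Hom, MvPolynomial.eval₂_X] at h2
  simp only [Matrix.cons_val_zero, Matrix.cons_val_one, Matrix.cons_val] at h2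
  rw [edsSomos_normEDS_id] at h2
  exact hn h2

variable {R : Type*} [CommRing R] (b c d : R)

/-- **Somos-4 relation** for `normEDS`. -/
theorem edsSomos_somos (n : ℤ) :
    normEDS b c d (n + 2) * normEDS b c d (n - 2) =
      b ^ 2 * normEDS b c d (n + 1) * normEDS b c d (n - 1) - c * normEDS b c d n ^ 2 := by
  have hU : edsSomos_S (X 0 : EdsSomosU) (X 1) (X 2) n :=
    edsSomos_somos_of_domain _ _ _ (MvPolynomial.X_ne_zero 0) n
  unfold edsSomos_S at hU
  have h2 := congrArg (MvPolynomial.eval₂Hom (Int.castRingHom R) ![b, c, d]) hU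
  simp only [map_mul, map_sub, map_pow, map_normEDS] at h2
  simp only [MvPolynomial.coe_eval₂Hom, MvPolynomial.eval₂_X] at h2
  simpa using h2

/-- **Invariant of the Somos-4 recursion** for `normEDS`. -/
theorem edsSomos_invar (n : ℤ) :
    c * (normEDS b c d (n + 2) * normEDS b c d (n - 1) ^ 2 +
        normEDS b c d (n - 2) * normEDS b c d (n + 1) ^ 2 + b ^ 2 * normEDS b c d n ^ 3) =
      (d + b ^ 4) * normEDS b c d (n + 1) * normEDS b c d n * normEDS b c d (n - 1) := by
  have hU : edsSomos_I (X 0 : EdsSomosU) (X 1) (X 2) n :=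
    edsSomos_invar_of_domain _ _ _ edsSomos_univ_ne_zero n
  unfold edsSomos_I at hU
  have h2 := congrArg (MvPolynomial.eval₂Hom (Int.castRingHom R) ![b, c, d]) hU
  simp only [map_mul, map_add, map_pow, map_normEDS] at h2
  simp only [MvPolynomial.coe_eval₂Hom, MvPolynomial.eval₂_X] at h2
  simpa using h2

end universal

end Fermat.Agent.Lib
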