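import Mathlib
import Fermat.Agent.Lib.EDSSomos

/-!
# Values of the division polynomials at a point (package DP2 of S13)

For a Weierstrass curve `W` over a field `F` and `x y : F`, `dpW W x y n` is the value of the
bivariate division polynomial `ψ_n` at `(x, y)`.  On top of `edsSomos_somos`, `edsSomos_invar`
(package DP1) we prove, at a point of the curve,

* `dp_somos` : `w(n+2) w(n-2) = w(2)² w(n+1) w(n-1) - Ψ₃(x) w(n)²`,
* `dp_invar` : `w(n+2) w(n-1)² + w(n-2) w(n+1)² = (6x² + b₂x + b₄) w(n+1) w(n) w(n-1) - w(2)² w(n)³`,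

and the small values, `w(2)² = Ψ₂Sq(x)`, `w(n) = preΨ_n(x)` (`n` odd),
`w(n) = preΨ_n(x) w(2)` (`n` even), `w(n)² = ΨSq_n(x)`.

The invariant is first proved division-free over an arbitrary commutative ring
(`dps_invar_e`, with `d = c e - b⁴`), so that no cancellation of `Ψ₃(x)` is needed.
-/

set_option autoImplicit false

namespace Fermat.Agent.Lib

open WeierstrassCurve Polynomial

section universal

open MvPolynomial in
/-- the invariant in the universal ring `ℤ[b, c, e]`, with `d = c e - b⁴`. -/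
theorem dps_invar_e_univ (n : ℤ) :
    normEDS (X 0 : MvPolynomial (Fin 3) ℤ) (X 1) (X 1 * X 2 - X 0 ^ 4) (n + 2) *
          normEDS (X 0 : MvPolynomial (Fin 3) ℤ) (X 1) (X 1 * X 2 - X 0 ^ 4) (n - 1) ^ 2 +
        normEDS (X 0 : MvPolynomial (Fin 3) ℤ) (X 1) (X 1 * X 2 - X 0 ^ 4) (n - 2) *
          normEDS (X 0 : MvPolynomial (Fin 3) ℤ) (X 1) (X 1 * X 2 - X 0 ^ 4) (n + 1) ^ 2 +
        (X 0 : MvPolynomial (Fin 3) ℤ) ^ 2 *
          normEDS (X 0 : MvPolynomial (Fin 3) ℤ) (X 1) (X 1 * X 2 - X 0 ^ 4) n ^ 3 =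
      X 2 * normEDS (X 0 : MvPolynomial (Fin 3) ℤ) (X 1) (X 1 * X 2 - X 0 ^ 4) (n + 1) *
        normEDS (X 0 : MvPolynomial (Fin 3) ℤ) (X 1) (X 1 * X 2 - X 0 ^ 4) n *
        normEDS (X 0 : MvPolynomial (Fin 3) ℤ) (X 1) (X 1 * X 2 - X 0 ^ 4) (n - 1) := by
  have h := edsSomos_invar (X 0 : MvPolynomial (Fin 3) ℤ) (X 1) (X 1 * X 2 - X 0 ^ 4) n
  have hc : (X 1 : MvPolynomial (Fin 3) ℤ) ≠ 0 := MvPolynomial.X_ne_zero 1
  refine mul_left_cancel₀ hc ?_
  rw [h]
  ring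

variable {R : Type*} [CommRing R]

/-- **Division-free invariant** of `normEDS b c d` when `d = c e - b⁴`, over any commutative
ring. -/
theorem dps_invar_e (b c e : R) (n : ℤ) :
    normEDS b c (c * e - b ^ 4) (n + 2) * normEDS b c (c * e - b ^ 4) (n - 1) ^ 2 +
        normEDS b c (c * e - b ^ 4) (n - 2) * normEDS b c (c * e - b ^ 4) (n + 1) ^ 2 +
        b ^ 2 * normEDS b c (c * e - b ^ 4) n ^ 3 =
      e * normEDS b c (c * e - b ^ 4) (n + 1) * normEDS b c (c * e - b ^ 4) n *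
        normEDS b c (c * e - b ^ 4) (n - 1) := by
  have h2 := congrArg (MvPolynomial.eval₂Hom (Int.castRingHom R) ![b, c, e]) (dps_invar_e_univ n)
  simp only [map_mul, map_add, map_sub, map_pow, map_normEDS] at h2
  simp only [MvPolynomial.coe_eval₂Hom, MvPolynomial.eval₂_X] at h2
  simpa using h2

/-- variant of `dps_invar_e` with the hypothesis `d + b⁴ = c e`. -/
theorem dps_invar_of_eq (b c d e : R) (hd : d + b ^ 4 = c * e) (n : ℤ) :
    normEDS b c d (n + 2) * normEDS b c d (n - 1) ^ 2 +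
        normEDS b c d (n - 2) * normEDS b c d (n + 1) ^ 2 + b ^ 2 * normEDS b c d n ^ 3 =
      e * normEDS b c d (n + 1) * normEDS b c d n * normEDS b c d (n - 1) := by
  have hd' : d = c * e - b ^ 4 := eq_sub_of_add_eq hd
  rw [hd']
  exact dps_invar_e b c e n

end universal

section DP

variable {F : Type*} [Field F] (W : WeierstrassCurve.Affine F)

/-- value of the bivariate division polynomial `ψ_n` at `(x, y)`. -/
noncomputable def dpW (x y : F) (n : ℤ) : F := (W.ψ n).evalEval x y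

/-- `dpW` is the normalised EDS with parameters `ψ₂(x, y)`, `Ψ₃(x)`, `preΨ₄(x)`. -/
theorem dps_dpW_eq_normEDS (x y : F) (n : ℤ) :
    dpW W x y n = normEDS (2 * y + W.a₁ * x + W.a₃) (W.Ψ₃.eval x) (W.preΨ₄.eval x) n := by
  have h := map_normEDS (Polynomial.evalEvalRingHom x y) W.ψ₂ (C W.Ψ₃) (C W.preΨ₄) n
  simp only [Polynomial.coe_evalEvalRingHom, Polynomial.evalEval_C] at h
  rw [dpW, WeierstrassCurve.ψ, h, WeierstrassCurve.ψ₂, Affine.evalEval_polynomialY]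

/-- small values -/
theorem dpW_zero (x y : F) : dpW W x y 0 = 0 := by
  rw [dps_dpW_eq_normEDS, normEDS_zero]

theorem dpW_one (x y : F) : dpW W x y 1 = 1 := by
  rw [dps_dpW_eq_normEDS, normEDS_one]

theorem dpW_two (x y : F) : dpW W x y 2 = 2 * y + W.a₁ * x + W.a₃ := by
  rw [dps_dpW_eq_normEDS, normEDS_two]

theorem dpW_three (x y : F) : dpW W x y 3 = W.Ψ₃.eval x := by
  rw [dps_dpW_eq_normEDS, normEDS_three]

theorem dpW_four (x y : F) :
    dpW W x y 4 = W.preΨ₄.eval x * (2 * y + W.a₁ * x + W.a₃) := by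
  rw [dps_dpW_eq_normEDS, normEDS_four]

theorem dpW_neg (x y : F) (n : ℤ) : dpW W x y (-n) = -dpW W x y n := by
  rw [dps_dpW_eq_normEDS, dps_dpW_eq_normEDS, normEDS_neg]

/-- on the curve, `ψ₂² = Ψ₂Sq` -/
theorem dpW_two_sq {x y : F} (h : W.Equation x y) : dpW W x y 2 ^ 2 = W.Ψ₂Sq.eval x := by
  rw [dpW_two]
  have h' := (Affine.equation_iff x y).1 h
  simp only [WeierstrassCurve.Ψ₂Sq, WeierstrassCurve.b₂, WeierstrassCurve.b₄,
    WeierstrassCurve.b₆, eval_add, eval_mul, eval_pow, eval_C, eval_X]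
  linear_combination 4 * h'

/-- the polynomial identity `preΨ₄ + Ψ₂Sq² = Ψ₃ (6X² + b₂X + b₄)`, evaluated at `x`. -/
theorem dps_preΨ₄_add (x : F) :
    W.preΨ₄.eval x + W.Ψ₂Sq.eval x ^ 2 =
      W.Ψ₃.eval x * (6 * x ^ 2 + W.b₂ * x + W.b₄) := by
  simp only [WeierstrassCurve.preΨ₄, WeierstrassCurve.Ψ₂Sq, WeierstrassCurve.Ψ₃, eval_add,
    eval_mul, eval_pow, eval_C, eval_X, eval_ofNat]
  linear_combination x ^ 2 * W.b_relation

theorem dp_somos {x y : F} (_h : W.Equation x y) (n : ℤ) :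
    dpW W x y (n + 2) * dpW W x y (n - 2) =
      dpW W x y 2 ^ 2 * dpW W x y (n + 1) * dpW W x y (n - 1) -
        W.Ψ₃.eval x * dpW W x y n ^ 2 := by
  rw [dpW_two]
  simp only [dps_dpW_eq_normEDS]
  exact edsSomos_somos _ _ _ n

theorem dp_invar {x y : F} (h : W.Equation x y) (n : ℤ) :
    dpW W x y (n + 2) * dpW W x y (n - 1) ^ 2 + dpW W x y (n - 2) * dpW W x y (n + 1) ^ 2 =
      (6 * x ^ 2 + W.b₂ * x + W.b₄) * dpW W x y (n + 1) * dpW W x y n * dpW W x y (n - 1) -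
        dpW W x y 2 ^ 2 * dpW W x y n ^ 3 := by
  have h2 := dpW_two_sq W h
  rw [dpW_two] at h2 ⊢
  have hd : W.preΨ₄.eval x + (2 * y + W.a₁ * x + W.a₃) ^ 4 =
      W.Ψ₃.eval x * (6 * x ^ 2 + W.b₂ * x + W.b₄) := by
    rw [← dps_preΨ₄_add, ← h2]
    ring
  have key := dps_invar_of_eq (2 * y + W.a₁ * x + W.a₃) (W.Ψ₃.eval x) (W.preΨ₄.eval x)
    (6 * x ^ 2 + W.b₂ * x + W.b₄) hd n
  simp only [dps_dpW_eq_normEDS]
  linear_combination key

/-- `preΨ_n(x)` as a `preNormEDS`. -/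
theorem dps_eval_preΨ (x : F) (n : ℤ) :
    (W.preΨ n).eval x =
      preNormEDS (W.Ψ₂Sq.eval x ^ 2) (W.Ψ₃.eval x) (W.preΨ₄.eval x) n := by
  have h := map_preNormEDS (Polynomial.evalRingHom x) (W.Ψ₂Sq ^ 2) W.Ψ₃ W.preΨ₄ n
  simp only [Polynomial.coe_evalRingHom, eval_pow] at h
  rw [WeierstrassCurve.preΨ, h]

/-- on the curve, `ψ_n = preΨ_n · (ψ₂ if n is even, else 1)`. -/
theorem dps_dpW_eq_preΨ_mul {x y : F} (h : W.Equation x y) (n : ℤ) :
    dpW W x y n = (W.preΨ n).eval x * if Even n then dpW W x y 2 else 1 := by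
  have h2 := dpW_two_sq W h
  rw [dpW_two] at h2 ⊢
  rw [dps_dpW_eq_normEDS, normEDS, dps_eval_preΨ, ← h2, ← pow_mul]

/-- odd index: `ψ_n = preΨ_n` (on the curve) -/
theorem dpW_odd {x y : F} (h : W.Equation x y) {n : ℤ} (hn : Odd n) :
    dpW W x y n = (W.preΨ n).eval x := by
  rw [dps_dpW_eq_preΨ_mul W h, if_neg (Int.not_even_iff_odd.2 hn), mul_one]

/-- even index: `ψ_n = preΨ_n ψ₂` (on the curve) -/
theorem dpW_even {x y : F} (h : W.Equation x y) {n : ℤ} (hn : Even n) :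
    dpW W x y n = (W.preΨ n).eval x * dpW W x y 2 := by
  rw [dps_dpW_eq_preΨ_mul W h n, if_pos hn]

/-- on the curve, `ψ_n² = ΨSq_n`. -/
theorem dpW_sq {x y : F} (h : W.Equation x y) (n : ℤ) :
    dpW W x y n ^ 2 = (W.ΨSq n).eval x := by
  rw [dps_dpW_eq_preΨ_mul W h n, WeierstrassCurve.ΨSq, mul_pow, eval_mul, eval_pow]
  congr 1
  split_ifs
  · exact dpW_two_sq W h
  · simp

/-- value of `φ_n` at `(x, y)`. -/
theorem dps_evalEval_φ (x y : F) (n : ℤ) :
    (W.φ n).evalEval x y = x * dpW W x y n ^ 2 - dpW W x y (n + 1) * dpW W x y (n - 1) := by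
  rw [WeierstrassCurve.φ, ← Polynomial.coe_evalEvalRingHom]
  simp only [map_sub, map_mul, map_pow]
  simp only [Polynomial.coe_evalEvalRingHom, Polynomial.evalEval_C, eval_X, dpW]

end DP

end Fermat.Agent.Lib
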