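import Mathlib
import Fermat.Agent.S05.Identities
import Fermat.Agent.S51.TorsCount

/-!
# Division polynomials and torsion points (block DP3 of the S13 plan)

Let `P` be an affine point with `X`-coordinate `x` on a Weierstrass curve over a field (of
any characteristic), and let `w : ℤ → K` be a sequence with `w 0 = 0`, `w 1 = 1`,
`w 2 ^ 2 = Ψ₂Sq(x)`, `w 3 = Ψ₃(x)` satisfying the two relations

* (Somos)      `w (n+2) w (n-2) = w 2 ^ 2 w (n+1) w (n-1) - w 3 w n ^ 2`
* (invariant)  `w (n+2) w (n-1)^2 + w (n-2) w (n+1)^2 =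
                  (6x² + b₂x + b₄) w (n+1) w n w (n-1) - w 2 ^ 2 w n ^ 3`

(this is the case for `w n = ψ_n(P)`).  Then for every `n`

* `n • P = 0 ↔ w n = 0`,
* if `n • P` is affine with `X`-coordinate `x'`, then `x' w n ^ 2 = x w n ^ 2 - w (n+1) w (n-1)`.

Main statement: `dpt_nat`. The version for `w n = ψ_n(P)` is in `DivPolyTorsion.lean`.
-/

set_option autoImplicit false
set_option linter.unusedSectionVars false
set_option linter.unusedVariables false

namespace Fermat.Agent.Lib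

open WeierstrassCurve Polynomial Fermat.Agent.S51 Fermat.Agent.S05

/-- the algebra behind case A of the division polynomial theorem. -/
theorem dpt_algA {K : Type*} [Field K] (x xk xk1 x' b2 b4 b6 wk2 wk1 wk wk' wk'' w2sq : K)
    (hk : wk ≠ 0) (hk1 : wk1 ≠ 0)
    (h1 : xk * wk ^ 2 = x * wk ^ 2 - wk' * wk1)
    (h2 : xk1 * wk1 ^ 2 = x * wk1 ^ 2 - wk * wk2)
    (h3 : (x' + xk1) * (xk - x) ^ 2 =
      2 * xk * x * (xk + x) + b2 * xk * x + b4 * (xk + x) + b6)
    (h4 : w2sq = 4 * x ^ 3 + b2 * x ^ 2 + 2 * b4 * x + b6)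
    (hI : wk'' * wk1 ^ 2 + wk2 * wk' ^ 2 =
      (6 * x ^ 2 + b2 * x + b4) * wk' * wk * wk1 - w2sq * wk ^ 3) :
    x' * wk' ^ 2 = x * wk' ^ 2 - wk'' * wk := by
  have hxk : xk = x - wk' * wk1 / wk ^ 2 := by
    field_simp
    linear_combination h1
  have hxk1 : xk1 = x - wk * wk2 / wk1 ^ 2 := by
    field_simp
    linear_combination h2
  subst hxk hxk1 h4
  have hu : x - wk' * wk1 / wk ^ 2 - x = - (wk' * wk1 / wk ^ 2) := by ring
  rw [hu] at h3
  have key : (x' * wk' ^ 2 - (x * wk' ^ 2 - wk'' * wk)) * wk1 ^ 2 = 0 := by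
    field_simp at h3
    linear_combination h3 + wk * hI
  have := (mul_eq_zero.mp key).resolve_right (pow_ne_zero 2 hk1)
  linear_combination this

variable {K : Type*} [Field K] [DecidableEq K] {W : WeierstrassCurve.Affine K}

/-- `Ψ₂Sq(x)` written out. -/
theorem dpt_eval_Ψ₂Sq (x : K) :
    W.Ψ₂Sq.eval x = 4 * x ^ 3 + W.b₂ * x ^ 2 + 2 * W.b₄ * x + W.b₆ := by
  simp only [Ψ₂Sq, eval_add, eval_mul, eval_pow, eval_C, eval_X]

/-- `Ψ₃(x)` written out. -/
theorem dpt_eval_Ψ₃ (x : K) :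
    W.Ψ₃.eval x = 3 * x ^ 4 + W.b₂ * x ^ 3 + 3 * W.b₄ * x ^ 2 + 3 * W.b₆ * x + W.b₈ := by
  simp only [Ψ₃, eval_add, eval_mul, eval_pow, eval_C, eval_X, eval_ofNat]

/-- `Φ₂ = X Ψ₂Sq - Ψ₃`. -/
theorem dpt_eval_Φ_two (x : K) :
    (W.Φ 2).eval x = x * W.Ψ₂Sq.eval x - W.Ψ₃.eval x := by
  rw [dpt_eval_Ψ₂Sq, dpt_eval_Ψ₃, Φ_two]
  simp only [eval_sub, eval_mul, eval_pow, eval_C, eval_X]
  ring

/-- At a nonzero `2`-torsion point, `Ψ₃` does not vanish (any characteristic):
`Ψ₃ = -F_x² + F_y (…) - F (…)`. -/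
theorem dpt_Ψ₃_ne_zero {P : W.Point} {x : K} (hP : S51_c_IsX P x)
    (hPP : P + P = 0) : W.Ψ₃.eval x ≠ 0 := by
  obtain ⟨y, hy, rfl⟩ := hP
  have h0 : W.Ψ₂Sq.eval x = 0 := (S51_c_IsX.add_self_eq_zero_iff ⟨y, hy, rfl⟩).mp hPP
  have hY : y = W.negY x y := (S51_c_eval_Ψ₂Sq_eq_zero_iff hy.1).mp h0
  have hFy : 2 * y + W.a₁ * x + W.a₃ = 0 := by
    simp only [Affine.negY] at hY
    linear_combination hY
  have hF := (Affine.equation_iff _ _).mp hy.1
  have hX : W.a₁ * y - (3 * x ^ 2 + 2 * W.a₂ * x + W.a₄) ≠ 0 := by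
    rcases (W.nonsingular_iff x y).mp hy with ⟨-, h' | h'⟩
    · exact sub_ne_zero.mpr h'
    · exact absurd hY h'
  have key : W.Ψ₃.eval x = -(W.a₁ * y - (3 * x ^ 2 + 2 * W.a₂ * x + W.a₄)) ^ 2 := by
    rw [dpt_eval_Ψ₃]
    simp only [WeierstrassCurve.b₂, WeierstrassCurve.b₄, WeierstrassCurve.b₆,
      WeierstrassCurve.b₈]
    linear_combination
      ((3 * x + W.a₂) * (2 * y + W.a₁ * x + W.a₃) + W.a₁ ^ 2 * y -
        W.a₁ * (3 * x ^ 2 + 2 * W.a₂ * x + W.a₄)) * hFy -
      (4 * (3 * x + W.a₂) + W.a₁ ^ 2) * hF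
  rw [key]
  exact neg_ne_zero.mpr (pow_ne_zero 2 hX)

section Main

variable {P : W.Point} {x : K} (hP : S51_c_IsX P x) (w : ℤ → K)
  (w0 : w 0 = 0) (w1 : w 1 = 1) (w2 : w 2 ^ 2 = W.Ψ₂Sq.eval x) (w3 : w 3 = W.Ψ₃.eval x)
  (hS : ∀ n : ℤ, w (n + 2) * w (n - 2) = w 2 ^ 2 * w (n + 1) * w (n - 1) - w 3 * w n ^ 2)
  (hI : ∀ n : ℤ, w (n + 2) * w (n - 1) ^ 2 + w (n - 2) * w (n + 1) ^ 2 =
      (6 * x ^ 2 + W.b₂ * x + W.b₄) * w (n + 1) * w n * w (n - 1) - w 2 ^ 2 * w n ^ 3)

include hP w0 w1 w2 w3 hS hI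

/-- the statement for `2 • P`. -/
theorem dpt_two :
    (P + P = 0 ↔ w 2 = 0) ∧
      ∀ x', S51_c_IsX (P + P) x' → x' * w 2 ^ 2 = x * w 2 ^ 2 - w 3 := by
  refine ⟨?_, fun x' hx' => ?_⟩
  · rw [hP.add_self_eq_zero_iff, ← w2, sq_eq_zero_iff]
  · have := hP.add_self_mul hx'
    rw [dpt_eval_Φ_two, ← w2, ← w3] at this
    exact this

/-- **Division polynomial theorem**, natural number version. -/
theorem dpt_nat (n : ℕ) :
    (n • P = 0 ↔ w n = 0) ∧
      ∀ x', S51_c_IsX (n • P) x' → x' * w n ^ 2 = x * w n ^ 2 - w (n + 1) * w (n - 1) := by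
  induction n using Nat.strong_induction_on with
  | _ n ih =>
  match n, ih with
  | 0, _ =>
    refine ⟨by simp [w0], fun x' hx' => ?_⟩
    rw [zero_smul] at hx'
    exact absurd rfl hx'.ne_zero
  | 1, _ =>
    refine ⟨?_, fun x' hx' => ?_⟩
    · rw [one_smul]
      simp only [Nat.cast_one, w1, one_ne_zero, iff_false]
      exact hP.ne_zero
    · rw [one_smul] at hx'
      have := hP.unique hx'
      subst this
      simp [w1, w0]
  | 2, _ =>
    have h := dpt_two hP w w0 w1 w2 w3 hS hI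
    refine ⟨?_, fun x' hx' => ?_⟩
    · rw [two_smul]
      exact_mod_cast h.1
    · rw [two_smul] at hx'
      have := h.2 x' hx'
      have e1 : ((2 : ℕ) : ℤ) + 1 = 3 := by norm_num
      have e2 : ((2 : ℕ) : ℤ) - 1 = 1 := by norm_num
      rw [e1, e2, w1, mul_one]
      exact_mod_cast this
  | k + 3, ih =>
    -- the three previous cases
    obtain ⟨hT0, hTx⟩ := ih k (by omega)
    obtain ⟨hR0, hRx⟩ := ih (k + 1) (by omega)
    obtain ⟨hQ0, hQx⟩ := ih (k + 2) (by omega)
    -- names for the values of `w`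
    have c0 : ((k : ℕ) : ℤ) = (k : ℤ) := rfl
    have c1 : ((k + 1 : ℕ) : ℤ) = (k : ℤ) + 1 := by push_cast; ring
    have c2 : ((k + 2 : ℕ) : ℤ) = (k : ℤ) + 2 := by push_cast; ring
    have c3 : ((k + 3 : ℕ) : ℤ) = (k : ℤ) + 3 := by push_cast; ring
    rw [c1] at hR0 hRx
    rw [c2] at hQ0 hQx
    rw [c3]
    have e1 : (k : ℤ) + 1 + 1 = k + 2 := by ring
    have e2 : (k : ℤ) + 1 - 1 = k := by ring
    have e3 : (k : ℤ) + 2 + 1 = k + 3 := by ring
    have e4 : (k : ℤ) + 2 - 1 = k + 1 := by ring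
    have e5 : (k : ℤ) + 3 + 1 = k + 4 := by ring
    have e6 : (k : ℤ) + 3 - 1 = k + 2 := by ring
    rw [e1, e2] at hRx
    rw [e3, e4] at hQx
    rw [e5, e6]
    -- relations
    have hS1 : w (k + 3) * w (k - 1) = w 2 ^ 2 * w (k + 2) * w k - w 3 * w (k + 1) ^ 2 := by
      have := hS ((k : ℤ) + 1)
      rwa [show (k : ℤ) + 1 + 2 = k + 3 by ring, show (k : ℤ) + 1 - 2 = k - 1 by ring, e1, e2]
        at this
    have hI1 : w (k + 3) * w k ^ 2 + w (k - 1) * w (k + 2) ^ 2 =
        (6 * x ^ 2 + W.b₂ * x + W.b₄) * w (k + 2) * w (k + 1) * w k - w 2 ^ 2 * w (k + 1) ^ 3 := by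
      have := hI ((k : ℤ) + 1)
      rwa [show (k : ℤ) + 1 + 2 = k + 3 by ring, show (k : ℤ) + 1 - 2 = k - 1 by ring, e1, e2]
        at this
    have hS2 : w (k + 4) * w k = w 2 ^ 2 * w (k + 3) * w (k + 1) - w 3 * w (k + 2) ^ 2 := by
      have := hS ((k : ℤ) + 2)
      rwa [show (k : ℤ) + 2 + 2 = k + 4 by ring, show (k : ℤ) + 2 - 2 = k by ring, e3, e4]
        at this
    have hI2 : w (k + 4) * w (k + 1) ^ 2 + w k * w (k + 3) ^ 2 =
        (6 * x ^ 2 + W.b₂ * x + W.b₄) * w (k + 3) * w (k + 2) * w (k + 1) -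
          w 2 ^ 2 * w (k + 2) ^ 3 := by
      have := hI ((k : ℤ) + 2)
      rwa [show (k : ℤ) + 2 + 2 = k + 4 by ring, show (k : ℤ) + 2 - 2 = k by ring, e3, e4]
        at this
    -- the points
    have hQP : (k + 3) • P = (k + 2) • P + P := succ_nsmul P (k + 2)
    have hRP : (k + 2) • P = (k + 1) • P + P := succ_nsmul P (k + 1)
    have hTP : (k + 1) • P = k • P + P := succ_nsmul P k
    have h22 := dpt_two hP w w0 w1 w2 w3 hS hI
    rw [hQP]
    by_cases hwQ : w (k + 2) = 0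
    · -- case B : `(k+2) • P = 0`
      have hQ : (k + 2) • P = 0 := hQ0.mpr hwQ
      have hR : (k + 1) • P ≠ 0 := by
        intro hR
        rw [hRP, hR, zero_add] at hQ
        exact hP.ne_zero hQ
      have hwR : w (k + 1) ≠ 0 := fun h => hR (hR0.mpr h)
      rw [hQ, zero_add]
      have hw3 : w (k + 3) ≠ 0 := by
        intro hw3
        rw [hw3, hwQ] at hS1
        rw [hw3, hwQ] at hI1
        have h3 : w 3 = 0 := by
          have : w 3 * w (k + 1) ^ 2 = 0 := by linear_combination hS1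
          exact (mul_eq_zero.mp this).resolve_right (pow_ne_zero 2 hwR)
        have h2' : w 2 = 0 := by
          have : w 2 ^ 2 * w (k + 1) ^ 3 = 0 := by linear_combination hI1
          exact sq_eq_zero_iff.mp ((mul_eq_zero.mp this).resolve_right (pow_ne_zero 3 hwR))
        have hPP : P + P = 0 := h22.1.mpr h2'
        exact dpt_Ψ₃_ne_zero hP hPP (w3 ▸ h3)
      refine ⟨⟨fun h => absurd h hP.ne_zero, fun h => absurd h hw3⟩, fun x' hx' => ?_⟩
      have := hP.unique hx'
      subst this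
      rw [hwQ, mul_zero, sub_zero]
    · -- `(k+2) • P ≠ 0`
      have hQ : (k + 2) • P ≠ 0 := fun h => hwQ (hQ0.mp h)
      obtain ⟨xQ, hxQ⟩ := S51_c_exists_isX_of_ne_zero hQ
      have hQf := hQx xQ hxQ
      by_cases hwR : w (k + 1) = 0
      · -- case C : `(k+1) • P = 0`, so `(k+2) • P = P`
        have hR : (k + 1) • P = 0 := hR0.mpr hwR
        have hQeq : (k + 2) • P = P := by rw [hRP, hR, zero_add]
        have hT : k • P ≠ 0 := by
          intro hT
          rw [hTP, hT, zero_add] at hR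
          exact hP.ne_zero hR
        have hwT : w k ≠ 0 := fun h => hT (hT0.mpr h)
        rw [hQeq]
        rw [hwR] at hS2 hI2
        have hA : w k * w (k + 3) ^ 2 = - (w 2 ^ 2 * w (k + 2) ^ 3) := by
          linear_combination hI2
        have hB : w (k + 4) * w k = - (w 3 * w (k + 2) ^ 2) := by
          linear_combination hS2
        refine ⟨?_, fun x' hx' => ?_⟩
        · rw [h22.1]
          constructor
          · intro h
            rw [h] at hA
            have : w k * w (k + 3) ^ 2 = 0 := by rw [hA]; ring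
            exact sq_eq_zero_iff.mp ((mul_eq_zero.mp this).resolve_left hwT)
          · intro h
            rw [h] at hA
            have : w 2 ^ 2 * w (k + 2) ^ 3 = 0 := by linear_combination hA
            exact sq_eq_zero_iff.mp ((mul_eq_zero.mp this).resolve_right (pow_ne_zero 3 hwQ))
        · have h2x := h22.2 x' hx'
          have hw2 : w 2 ≠ 0 := fun h => hx'.ne_zero (h22.1.mpr h)
          have key : (x' * w (k + 3) ^ 2 - (x * w (k + 3) ^ 2 - w (k + 4) * w (k + 2))) *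
              (w 2 ^ 2 * w k) = 0 := by
            linear_combination (-(w 2 ^ 2 * w (k + 2) ^ 3)) * h2x + (x' - x) * w 2 ^ 2 * hA +
              w 2 ^ 2 * w (k + 2) * hB
          have := (mul_eq_zero.mp key).resolve_right
            (mul_ne_zero (pow_ne_zero 2 hw2) hwT)
          linear_combination this
      · -- case A
        have hR : (k + 1) • P ≠ 0 := fun h => hwR (hR0.mp h)
        obtain ⟨xR, hxR⟩ := S51_c_exists_isX_of_ne_zero hR
        have hRf := hRx xR hxR
        have hQneP : (k + 2) • P ≠ P := by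
          intro h
          rw [hRP] at h
          exact hR (by simpa using h)
        have hsub : (k + 2) • P - P = (k + 1) • P := by rw [hRP]; abel
        by_cases hw3 : w (k + 3) = 0
        · -- then `x((k+2)P) = x`, so `(k+2) P = -P`
          have hxx : xQ = x := by
            rw [hw3, zero_mul, sub_zero] at hQf
            exact mul_right_cancel₀ (pow_ne_zero 2 hwQ) hQf
          subst hxx
          have hneg : (k + 2) • P = -P := (hxQ.eq_or_eq_neg hP).resolve_left hQneP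
          have hzero : (k + 2) • P + P = 0 := by rw [hneg]; abel
          refine ⟨⟨fun _ => hw3, fun _ => hzero⟩, fun x' hx' => ?_⟩
          rw [hzero] at hx'
          exact absurd rfl hx'.ne_zero
        · have hxx : xQ ≠ x := by
            intro h
            subst h
            have : w (k + 3) * w (k + 1) = 0 := by linear_combination hQf
            rcases mul_eq_zero.mp this with h | h
            · exact hw3 h
            · exact hwR h
          have hne0 : (k + 2) • P + P ≠ 0 := by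
            intro h
            have hneg : (k + 2) • P = -P := eq_neg_of_add_eq_zero_left h
            rw [hneg] at hxQ
            exact hxx (hxQ.unique hP.neg)
          refine ⟨⟨fun h => absurd h hne0, fun h => absurd h hw3⟩, fun x' hx' => ?_⟩
          have hSig := S05_add_identity hxQ hP hxx hx' (hsub ▸ hxR)
          exact dpt_algA x xQ xR x' W.b₂ W.b₄ W.b₆ (w k) (w (k + 1)) (w (k + 2)) (w (k + 3))
            (w (k + 4)) (w 2 ^ 2) hwQ hwR hQf hRf hSig (by rw [w2, dpt_eval_Ψ₂Sq]) hI2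

end Main

end Fermat.Agent.Lib
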