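import Mathlib
import Fermat.Agent.Lib.DivPolySomos
import Fermat.Agent.Lib.DivPolyTorsionCore

/-!
# Division polynomials and torsion points: Theorem T (block DP3 of the S13 plan)

For a nonsingular point `P = (x, y)` of a Weierstrass curve over a field (any characteristic)
and `n : ℤ`:

* `dp_zsmul_eq_zero_iff` : `n • P = 0 ↔ ψ_n(x, y) = 0`;
* `dp_isX_zsmul` : if `n • P` is affine with `X`-coordinate `x'`, then
  `x' ψ_n² = x ψ_n² - ψ_{n+1} ψ_{n-1}` (values at `(x, y)`).
-/

set_option autoImplicit false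

namespace Fermat.Agent.Lib

open WeierstrassCurve Fermat.Agent.S51

section DP

variable {F : Type*} [Field F] (W : WeierstrassCurve.Affine F) [DecidableEq F]

/-- the natural number version of Theorem T for `dpW`. -/
theorem dpt_nat_dpW {x y : F} (h : W.Nonsingular x y) (n : ℕ) :
    (n • (Affine.Point.some x y h : W.Point) = 0 ↔ dpW W x y n = 0) ∧
      ∀ x', S51_c_IsX (n • (Affine.Point.some x y h : W.Point)) x' →
        x' * dpW W x y n ^ 2 = x * dpW W x y n ^ 2 - dpW W x y (n + 1) * dpW W x y (n - 1) :=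
  dpt_nat (W := W) (P := Affine.Point.some x y h) (x := x) ⟨y, h, rfl⟩ (dpW W x y)
    (dpW_zero W x y) (dpW_one W x y) (dpW_two_sq W h.1) (dpW_three W x y)
    (fun m => by rw [dpW_three]; exact dp_somos W h.1 m) (fun m => dp_invar W h.1 m) n

/-- THEOREM T, part 1. -/
theorem dp_zsmul_eq_zero_iff {x y : F} (h : W.Nonsingular x y) (n : ℤ) :
    n • (Affine.Point.some x y h : W.Point) = 0 ↔ dpW W x y n = 0 := by
  obtain ⟨m, rfl | rfl⟩ := Int.eq_nat_or_neg n
  · rw [natCast_zsmul]
    exact (dpt_nat_dpW W h m).1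
  · rw [neg_zsmul, natCast_zsmul, neg_eq_zero, dpW_neg, neg_eq_zero]
    exact (dpt_nat_dpW W h m).1

/-- THEOREM T, part 2: the `X`-coordinate of `n • P`. -/
theorem dp_isX_zsmul {x y : F} (h : W.Nonsingular x y) (n : ℤ) {x' : F}
    (hx' : S51_c_IsX (n • (Affine.Point.some x y h : W.Point)) x') :
    x' * dpW W x y n ^ 2 = x * dpW W x y n ^ 2 - dpW W x y (n + 1) * dpW W x y (n - 1) := by
  obtain ⟨m, rfl | rfl⟩ := Int.eq_nat_or_neg n
  · rw [natCast_zsmul] at hx'
    exact (dpt_nat_dpW W h m).2 x' hx'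
  · rw [neg_zsmul, natCast_zsmul, S51_c_isX_neg_iff] at hx'
    have := (dpt_nat_dpW W h m).2 x' hx'
    have e1 : -(m : ℤ) + 1 = -((m : ℤ) - 1) := by ring
    have e2 : -(m : ℤ) - 1 = -((m : ℤ) + 1) := by ring
    rw [e1, e2, dpW_neg, dpW_neg, dpW_neg]
    linear_combination this

end DP

end Fermat.Agent.Lib
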