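import Mathlib
import Fermat.Agent.Lib.DivPolyTorsion

/-!
# Counting torsion points with division polynomials (block DP4 of the S13 plan)

For a Weierstrass curve `W` over a field `F`:

* `dp_preΨ_eval_eq_zero` : the `X`-coordinate of a point killed by an odd `p` is a root of
  `preΨ_p`;
* `dp_preΨ_data` : in characteristic zero, `preΨ_p` has degree `(p² - 1) / 2` and leading
  coefficient `p` (`p` odd);
* `dp_exists_torsion` : over an algebraically closed field of characteristic zero, with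
  `Δ ≠ 0`, there is a nonzero point killed by `p` (`p` an odd prime);
* `dp_card_torsion_le` : in characteristic zero there are at most `p²` points killed by `p`.
-/

set_option autoImplicit false

namespace Fermat.Agent.Lib

open WeierstrassCurve Fermat.Agent.S51

section DP

variable {F : Type*} [Field F] (W : WeierstrassCurve.Affine F) [DecidableEq F]

/-- `x`-coordinates of points of odd order `p` are roots of `preΨ_p`. -/
theorem dp_preΨ_eval_eq_zero {x y : F} (h : W.Nonsingular x y) {p : ℕ} (hp : Odd p)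
    (hQ : p • (Affine.Point.some x y h : W.Point) = 0) : (W.preΨ (p : ℤ)).eval x = 0 := by
  have h1 : (p : ℤ) • (Affine.Point.some x y h : W.Point) = 0 := by
    rw [natCast_zsmul]; exact hQ
  rw [dp_zsmul_eq_zero_iff] at h1
  rw [← dpW_odd W h.1 (show Odd (p : ℤ) by exact_mod_cast hp)]
  exact h1

/-- conversely, a nonsingular point whose `X`-coordinate is a root of `preΨ_p` (`p` odd) is
killed by `p`. -/
theorem dpc_nsmul_eq_zero_of_eval {x y : F} (h : W.Nonsingular x y) {p : ℕ} (hp : Odd p)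
    (hx : (W.preΨ (p : ℤ)).eval x = 0) : p • (Affine.Point.some x y h : W.Point) = 0 := by
  have h1 : (p : ℤ) • (Affine.Point.some x y h : W.Point) = 0 := by
    rw [dp_zsmul_eq_zero_iff, dpW_odd W h.1 (show Odd (p : ℤ) by exact_mod_cast hp)]
    exact hx
  rwa [natCast_zsmul] at h1

omit [DecidableEq F] in
/-- the leading coefficient of `preΨ_p` (Mathlib `DivisionPolynomial/Degree`), for use at `p`. -/
theorem dp_preΨ_data [CharZero F] {p : ℕ} (hp : Odd p) :
    (W.preΨ (p : ℤ)).natDegree = (p ^ 2 - 1) / 2 ∧ (W.preΨ (p : ℤ)).leadingCoeff = p := by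
  have hp0 : ((p : ℤ) : F) ≠ 0 := by
    have h0 : p ≠ 0 := by
      rintro rfl
      exact absurd hp (by decide)
    have : (p : F) ≠ 0 := Nat.cast_ne_zero.2 h0
    exact_mod_cast this
  have hodd : ¬ Even (p : ℤ) := by
    rw [Int.not_even_iff_odd]
    exact_mod_cast hp
  refine ⟨?_, ?_⟩
  · rw [W.natDegree_preΨ hp0, if_neg hodd, Int.natAbs_natCast]
  · rw [W.leadingCoeff_preΨ hp0, if_neg hodd, Int.cast_natCast]

/-- existence of a point of order `p`. -/
theorem dp_exists_torsion [IsAlgClosed F] [CharZero F] (hΔ : W.Δ ≠ 0) {p : ℕ} (hp : p.Prime)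
    (hp2 : p ≠ 2) : ∃ Q : W.Point, Q ≠ 0 ∧ p • Q = 0 := by
  have hodd : Odd p := hp.odd_of_ne_two hp2
  have hp0 : ((p : ℤ) : F) ≠ 0 := by
    have : (p : F) ≠ 0 := Nat.cast_ne_zero.2 hp.ne_zero
    exact_mod_cast this
  have hp3 : 2 < p := lt_of_le_of_ne hp.two_le (Ne.symm hp2)
  have hdeg : 0 < (W.preΨ (p : ℤ)).natDegree :=
    W.natDegree_preΨ_pos (by rw [Int.natAbs_natCast]; exact hp3) hp0
  obtain ⟨x, hx⟩ := IsAlgClosed.exists_root (W.preΨ (p : ℤ))
    (Polynomial.natDegree_pos_iff_degree_pos.1 hdeg).ne'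
  obtain ⟨Q, y, h, rfl⟩ := S51_c_exists_isX (W := W) hΔ x
  exact ⟨_, Affine.Point.some_ne_zero h, dpc_nsmul_eq_zero_of_eval W h hodd hx⟩

/-- at most `p²` points of `p`-torsion. -/
theorem dp_card_torsion_le [CharZero F] {p : ℕ} (hp : p.Prime) (hp2 : p ≠ 2) :
    {Q : W.Point | p • Q = 0}.Finite ∧ {Q : W.Point | p • Q = 0}.ncard ≤ p ^ 2 := by
  classical
  have hodd : Odd p := hp.odd_of_ne_two hp2
  have hp0 : ((p : ℤ) : F) ≠ 0 := by
    have : (p : F) ≠ 0 := Nat.cast_ne_zero.2 hp.ne_zero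
    exact_mod_cast this
  have hne : W.preΨ (p : ℤ) ≠ 0 := W.preΨ_ne_zero hp0
  have hRcard : (W.preΨ (p : ℤ)).roots.toFinset.card ≤ (p ^ 2 - 1) / 2 := by
    calc (W.preΨ (p : ℤ)).roots.toFinset.card
        ≤ Multiset.card (W.preΨ (p : ℤ)).roots := Multiset.toFinset_card_le _
      _ ≤ (W.preΨ (p : ℤ)).natDegree := Polynomial.card_roots' _
      _ = (p ^ 2 - 1) / 2 := (dp_preΨ_data W hodd).1
  let T : F → Finset W.Point := fun x =>
    if h : ∃ Q : W.Point, S51_c_IsX Q x then {h.choose, -h.choose} else ∅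
  have hT : ∀ x, (T x).card ≤ 2 := by
    intro x
    simp only [T]
    split_ifs with h
    · exact Finset.card_le_two
    · simp
  have hsub : {Q : W.Point | p • Q = 0} ⊆
      ↑(insert (0 : W.Point) ((W.preΨ (p : ℤ)).roots.toFinset.biUnion T)) := by
    intro Q hQ
    change p • Q = 0 at hQ
    simp only [Finset.coe_insert, Finset.coe_biUnion, Set.mem_insert_iff, Set.mem_iUnion,
      Finset.mem_coe]
    by_cases hQ0 : Q = 0
    · exact Or.inl hQ0
    · right
      obtain ⟨x, y, h, rfl⟩ := S51_c_exists_isX_of_ne_zero hQ0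
      have hx : (W.preΨ (p : ℤ)).eval x = 0 := dp_preΨ_eval_eq_zero W h hodd hQ
      refine ⟨x, ?_, ?_⟩
      · rw [Multiset.mem_toFinset, Polynomial.mem_roots hne]
        exact hx
      · have hex : ∃ Q : W.Point, S51_c_IsX Q x := ⟨_, y, h, rfl⟩
        simp only [T, dif_pos hex]
        have := S51_c_IsX.eq_or_eq_neg (P := Affine.Point.some x y h) ⟨y, h, rfl⟩
          hex.choose_spec
        simpa using this
  have hfin : {Q : W.Point | p • Q = 0}.Finite := (Finset.finite_toSet _).subset hsub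
  refine ⟨hfin, ?_⟩
  calc {Q : W.Point | p • Q = 0}.ncard
      ≤ (↑(insert (0 : W.Point) ((W.preΨ (p : ℤ)).roots.toFinset.biUnion T)) :
          Set W.Point).ncard := Set.ncard_le_ncard hsub (Finset.finite_toSet _)
    _ = (insert (0 : W.Point) ((W.preΨ (p : ℤ)).roots.toFinset.biUnion T)).card :=
        Set.ncard_coe_finset _
    _ ≤ ((W.preΨ (p : ℤ)).roots.toFinset.biUnion T).card + 1 := Finset.card_insert_le _ _
    _ ≤ (W.preΨ (p : ℤ)).roots.toFinset.card * 2 + 1 := by
        gcongr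
        exact Finset.card_biUnion_le_card_mul _ _ _ (fun x _ => hT x)
    _ ≤ (p ^ 2 - 1) / 2 * 2 + 1 := by gcongr
    _ ≤ p ^ 2 := by
        have h1 : 1 ≤ p ^ 2 := Nat.one_le_pow _ _ hp.pos
        have := Nat.div_mul_le_self (p ^ 2 - 1) 2
        omega

end DP

end Fermat.Agent.Lib
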