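import Mathlib
import Fermat.Agent.S24.Global
import Fermat.Agent.S24.PrincipalDiv

/-!
# Function fields, package P0 (generic half): zeros of a SEPARATING element `x`

The S24 package BG (helper13) with `[CharZero K]` replaced by `[Algebra.IsSeparable K⟮x⟯ F]`
(helper2, TRACK 3).  `K` algebraically closed, `x : F` transcendental over `K`, `F / K(x)` finite
separable.

* `FFS_finite_zeros`     : `{v | 0 < v.ord x}` is finite.
* `FFS_sum_ord_zeros`    : `∑_{v, 0 < ord_v x} ord_v x = [F : K(x)]`.
* `FFS_exists_principal_divisor` : `div x` exists and has degree `0`.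
-/

set_option autoImplicit false

open AlgebraicCurve IntermediateField IsDedekindDomain
open scoped IntermediateField.algebraAdjoinAdjoin

universe u v

namespace Fermat.Agent.Lib

open Fermat.Agent.S24

variable {K : Type u} {F : Type v} [Field K] [Field F] [Algebra K F]

section

variable {x : F} (hx : Transcendental K x) [FiniteDimensional K⟮x⟯ F]
  [Algebra.IsSeparable K⟮x⟯ F]

include hx in
/-- the integral closure of `K[x]` in `F` is a Dedekind domain. -/
theorem FFS_isDedekindDomain :
    IsDedekindDomain (integralClosure (Algebra.adjoin K ({x} : Set F)) F) := by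
  have := BG_isPrincipalIdealRing hx
  exact integralClosure.isDedekindDomain (Algebra.adjoin K ({x} : Set F)) K⟮x⟯ F

include hx in
theorem FFS_finite : Module.Finite (Algebra.adjoin K ({x} : Set F))
    (integralClosure (Algebra.adjoin K ({x} : Set F)) F) := by
  have := BG_isPrincipalIdealRing hx
  exact IsIntegralClosure.finite (Algebra.adjoin K ({x} : Set F)) K⟮x⟯ F _

include hx in
theorem FFS_free : Module.Free (Algebra.adjoin K ({x} : Set F))
    (integralClosure (Algebra.adjoin K ({x} : Set F)) F) := by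
  have := BG_isPrincipalIdealRing hx
  exact IsIntegralClosure.module_free (Algebra.adjoin K ({x} : Set F)) K⟮x⟯ F _

include hx in
theorem FFS_finrank : Module.finrank (Algebra.adjoin K ({x} : Set F))
    (integralClosure (Algebra.adjoin K ({x} : Set F)) F) = Module.finrank K⟮x⟯ F := by
  have := BG_isPrincipalIdealRing hx
  exact IsIntegralClosure.rank (Algebra.adjoin K ({x} : Set F)) K⟮x⟯ F _

end

section Places

variable {x : F} (hx : Transcendental K x) [FiniteDimensional K⟮x⟯ F]
  [Algebra.IsSeparable K⟮x⟯ F]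

include hx in
/-- **G1a**: every place with `0 < ord x` is the place of a height one prime of `B` containing
`x`. -/
theorem FFS_exists_prime (v : Place K F) (hv : 0 < v.ord x) :
    letI := FFS_isDedekindDomain hx
    letI := BG_isFractionRing (K := K) (x := x)
    ∃ w : HeightOneSpectrum (integralClosure (Algebra.adjoin K ({x} : Set F)) F),
      Place.ofHeightOneSpectrum (K := K) (F := F) w = v := by
  let := FFS_isDedekindDomain hx
  let := BG_isFractionRing (K := K) (x := x)
  have hx0 : x ≠ 0 := by rintro rfl; simp at hv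
  have hxv : x ∈ v.toValuationSubring := (BG_mem_iff_ord_nonneg v hx0).mpr hv.le
  exact BG_exists_heightOneSpectrum v (fun b => BL_mem_of_isIntegral v hxv b.2)

include hx in
/-- **G1 + G2**: the places with `0 < ord x` form a finite set, and the orders of `x` at these
places add up to `[F : K(x)]`. -/
theorem FFS_zeros_main [IsAlgClosed K] :
    ∃ s : Finset (Place K F), (∀ v, v ∈ s ↔ 0 < v.ord x) ∧
      ∑ v ∈ s, v.ord x = (Module.finrank K⟮x⟯ F : ℤ) := by
  classical
  have := BG_isPrincipalIdealRing hx
  have := FFS_isDedekindDomain hx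
  have := BG_isFractionRing (K := K) (x := x)
  have := FFS_finite hx
  have := FFS_free hx
  have := BG_p_isMaximal hx
  have hx0 : x ≠ 0 := fun h => hx (h ▸ isAlgebraic_zero)
  have hF : S24_IsFunctionField1 K F :=
    S24_isFunctionField1_of_isAlgebraic x (Algebra.IsAlgebraic.of_finite _ _)
  -- `x` as an element of `B`
  set xB : integralClosure (Algebra.adjoin K ({x} : Set F)) F :=
    algebraMap (Algebra.adjoin K ({x} : Set F)) _ (BL_gen (K := K) x) with hxB
  have hxBF : algebraMap (integralClosure (Algebra.adjoin K ({x} : Set F)) F) F xB = x := rfl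
  have hxB0 : xB ≠ 0 := by
    intro h
    apply hx0
    rw [← hxBF, h, map_zero]
  have hxmem : ∀ q : (BG_p K x).primesOver (integralClosure (Algebra.adjoin K ({x} : Set F)) F),
      xB ∈ q.1 := by
    intro q
    have hlo : q.1.LiesOver (BG_p K x) := q.2.2
    have : BL_gen (K := K) x ∈ BG_p K x := Ideal.subset_span rfl
    rw [hlo.over, Ideal.mem_comap] at this
    exact this
  have hne : ∀ q : (BG_p K x).primesOver (integralClosure (Algebra.adjoin K ({x} : Set F)) F),
      q.1 ≠ ⊥ := by
    intro q h
    have := hxmem q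
    rw [h, Ideal.mem_bot] at this
    exact hxB0 this
  let W : (BG_p K x).primesOver (integralClosure (Algebra.adjoin K ({x} : Set F)) F) →
      HeightOneSpectrum (integralClosure (Algebra.adjoin K ({x} : Set F)) F) :=
    fun q => ⟨q.1, q.2.1, hne q⟩
  let g : (BG_p K x).primesOver (integralClosure (Algebra.adjoin K ({x} : Set F)) F) →
      Place K F := fun q => Place.ofHeightOneSpectrum (K := K) (F := F) (W q)
  have hg : Function.Injective g := by
    intro q q' h
    have := BG_ofHeightOneSpectrum_injective (K := K) (F := F) h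
    exact Subtype.ext (congrArg HeightOneSpectrum.asIdeal this)
  have hpos : ∀ q, 0 < (g q).ord x := by
    intro q
    rw [← BG_mem_nonunits_iff_ord_pos _ hx0, ← hxBF]
    exact (BG_mem_asIdeal_iff (K := K) (F := F) (W q) xB).mp (hxmem q)
  refine ⟨Finset.univ.map ⟨g, hg⟩, ?_, ?_⟩
  · intro v
    simp only [Finset.mem_map, Finset.mem_univ, true_and, Function.Embedding.coeFn_mk]
    constructor
    · rintro ⟨q, rfl⟩
      exact hpos q
    · intro hv
      obtain ⟨w, hw⟩ := FFS_exists_prime hx v hv
      have hxw : xB ∈ w.asIdeal := by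
        rw [BG_mem_asIdeal_iff (K := K) (F := F) w, hw, hxBF, BG_mem_nonunits_iff_ord_pos _ hx0]
        exact hv
      have hle : BG_p K x ≤ w.asIdeal.under (Algebra.adjoin K ({x} : Set F)) := by
        rw [BG_p, Ideal.span_le, Set.singleton_subset_iff]
        exact hxw
      have hprime : w.asIdeal.IsPrime := w.isPrime
      have hunder : (w.asIdeal.under (Algebra.adjoin K ({x} : Set F))).IsPrime :=
        Ideal.IsPrime.under _ _
      have heq : BG_p K x = w.asIdeal.under (Algebra.adjoin K ({x} : Set F)) :=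
        Ideal.IsMaximal.eq_of_le inferInstance hunder.ne_top hle
      refine ⟨⟨w.asIdeal, hprime, ⟨heq⟩⟩, ?_⟩
      exact hw
  · rw [Finset.sum_map]
    simp only [Function.Embedding.coeFn_mk]
    have hsum := Ideal.sum_ramification_inertia_eq_finrank (BG_p K x)
      (integralClosure (Algebra.adjoin K ({x} : Set F)) F)
    rw [FFS_finrank hx] at hsum
    rw [← hsum]
    push_cast
    apply Finset.sum_congr rfl
    intro q _
    have hlo : (W q).asIdeal.LiesOver (Ideal.span {BL_gen (K := K) x}) := q.2.2
    have he := BG_ramificationIdx_eq_ord (K := K) (F := F) (BL_gen (K := K) x) hxB0 (W q)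
    have hmax : q.1.IsMaximal := Ideal.IsPrime.isMaximal q.2.1 (hne q)
    have hlo' : q.1.LiesOver (BG_p K x) := q.2.2
    have hf := BG_inertiaDeg_eq_one (K := K) (BG_p K x) q.1
      (BG_quotient_surjective (K := K) (F := F) (W q) (S24_residue_surjective hF _))
    rw [hf]
    show (g q).ord x = _
    rw [Nat.cast_one, mul_one]
    exact he.symm

include hx in
/-- **G1**: finitely many places with `0 < ord x`. -/
theorem FFS_finite_zeros [IsAlgClosed K] : {v : Place K F | 0 < v.ord x}.Finite := by
  obtain ⟨s, hs, -⟩ := FFS_zeros_main hx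
  exact s.finite_toSet.subset fun v hv => (hs v).mpr hv

include hx in
/-- **G2**: `∑_{v, 0 < ord_v x} ord_v x = [F : K(x)]`. -/
theorem FFS_sum_ord_zeros [IsAlgClosed K] :
    ∑ v ∈ (FFS_finite_zeros hx).toFinset, v.ord x = (Module.finrank K⟮x⟯ F : ℤ) := by
  obtain ⟨s, hs, hsum⟩ := FFS_zeros_main hx
  rw [← hsum]
  apply Finset.sum_congr _ (fun _ _ => rfl)
  ext v
  simp [hs v]

end Places

section Principal

variable [IsAlgClosed K]

/-- zeros of a transcendental separating `f`, as a finset. -/
noncomputable def FFS_zeros {f : F} (hf : Transcendental K f) [FiniteDimensional K⟮f⟯ F]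
    [Algebra.IsSeparable K⟮f⟯ F] : Finset (Place K F) := (FFS_finite_zeros hf).toFinset

theorem FFS_mem_zeros {f : F} (hf : Transcendental K f) [FiniteDimensional K⟮f⟯ F]
    [Algebra.IsSeparable K⟮f⟯ F] (v : Place K F) : v ∈ FFS_zeros hf ↔ 0 < v.ord f := by
  simp [FFS_zeros]

theorem FFS_sum_zeros {f : F} (hf : Transcendental K f) [FiniteDimensional K⟮f⟯ F]
    [Algebra.IsSeparable K⟮f⟯ F] :
    ∑ v ∈ FFS_zeros hf, v.ord f = (Module.finrank K⟮f⟯ F : ℤ) :=
  FFS_sum_ord_zeros hf

/-- separability of `F / K(f⁻¹)` from that of `F / K(f)`. -/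
theorem FFS_isSeparable_inv (f : F) [h : Algebra.IsSeparable K⟮f⟯ F] :
    Algebra.IsSeparable K⟮f⁻¹⟯ F := by
  have e : K⟮f⁻¹⟯ = K⟮f⟯ := BG_adjoin_inv f
  exact e ▸ h

theorem FFS_finite_inv (f : F) [h : FiniteDimensional K⟮f⟯ F] :
    FiniteDimensional K⟮f⁻¹⟯ F := by
  have e : K⟮f⁻¹⟯ = K⟮f⟯ := BG_adjoin_inv f
  exact e ▸ h

/-- poles of a transcendental separating `f`, as a finset. -/
noncomputable def FFS_poles {f : F} (hf : Transcendental K f) [FiniteDimensional K⟮f⟯ F]
    [Algebra.IsSeparable K⟮f⟯ F] : Finset (Place K F) :=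
  haveI := FFS_isSeparable_inv (K := K) f
  haveI := FFS_finite_inv (K := K) f
  FFS_zeros (BG_transcendental_inv hf)

theorem FFS_mem_poles {f : F} (hf : Transcendental K f) [FiniteDimensional K⟮f⟯ F]
    [Algebra.IsSeparable K⟮f⟯ F] (v : Place K F) : v ∈ FFS_poles hf ↔ v.ord f < 0 := by
  haveI := FFS_isSeparable_inv (K := K) f
  haveI := FFS_finite_inv (K := K) f
  rw [FFS_poles, FFS_mem_zeros, v.ord_inv]
  omega

/-- `∑_{v pole of f} ord_v f = -[F : K(f)]`. -/
theorem FFS_sum_poles {f : F} (hf : Transcendental K f) [FiniteDimensional K⟮f⟯ F]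
    [Algebra.IsSeparable K⟮f⟯ F] :
    ∑ v ∈ FFS_poles hf, v.ord f = -(Module.finrank K⟮f⟯ F : ℤ) := by
  haveI := FFS_isSeparable_inv (K := K) f
  haveI := FFS_finite_inv (K := K) f
  have h := FFS_sum_zeros (BG_transcendental_inv hf)
  have hfr : Module.finrank K⟮f⁻¹⟯ F = Module.finrank K⟮f⟯ F :=
    congrArg (fun E : IntermediateField K F => Module.finrank E F) (BG_adjoin_inv f)
  rw [hfr] at h
  rw [← h, ← Finset.sum_neg_distrib]
  apply Finset.sum_congr rfl
  intro v _
  rw [v.ord_inv, neg_neg]

/-- **P0, generic**: a transcendental `f` with `F / K(f)` finite separable has a divisor, and it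
has degree zero. -/
theorem FFS_exists_principal_divisor {f : F} (hf : Transcendental K f)
    [FiniteDimensional K⟮f⟯ F] [Algebra.IsSeparable K⟮f⟯ F] :
    ∃ D : Divisor K F, (∀ v : Place K F, D v = v.ord f) ∧ Divisor.degree D = 0 := by
  classical
  have hF : S24_IsFunctionField1 K F :=
    S24_isFunctionField1_of_isAlgebraic f (Algebra.IsAlgebraic.of_finite _ _)
  set Z := FFS_zeros hf with hZ
  set P := FFS_poles hf with hP
  have hZmem : ∀ v, v ∈ Z ↔ 0 < v.ord f := FFS_mem_zeros hf
  have hPmem : ∀ v, v ∈ P ↔ v.ord f < 0 := FFS_mem_poles hf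
  have hdisj : Disjoint Z P := by
    rw [Finset.disjoint_left]
    intro v hvZ hvP
    rw [hZmem] at hvZ
    rw [hPmem] at hvP
    omega
  have hsZ : ∑ v ∈ Z, v.ord f = (Module.finrank K⟮f⟯ F : ℤ) := FFS_sum_zeros hf
  have hsP : ∑ v ∈ P, v.ord f = -(Module.finrank K⟮f⟯ F : ℤ) := FFS_sum_poles hf
  refine ⟨∑ v ∈ Z ∪ P, Finsupp.single v (v.ord f), fun w => ?_, ?_⟩
  · rw [Finsupp.finsetSum_apply]
    simp only [Finsupp.single_apply]
    rw [Finset.sum_ite_eq']
    split_ifs with h
    · rfl
    · rw [Finset.mem_union, hZmem, hPmem] at h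
      omega
  · rw [map_sum]
    simp only [Divisor.degree_single, S24_deg_eq_one hF, Nat.cast_one, mul_one]
    rw [Finset.sum_union hdisj, hsZ, hsP]
    ring

end Principal

end Fermat.Agent.Lib
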