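import Mathlib
import Fermat.Agent.Lib.FFSep
import Fermat.Agent.S24.PlaceCount
import Fermat.Agent.S24.CyclicCusp

/-!
# TRACK 3, package CUSP (abstract part A): the place count over `x = 0` for a SEPARATING `x`

`K` a field, `x : F` transcendental over `K`, `F / K(x)` finite separable (any characteristic).

* `CU_norm`, `CU_approx` : the S24 inputs `BG_norm`, `BG_approx` with `[CharZero K]` replaced by
  `[Algebra.IsSeparable K⟮x⟯ F]`.
* `CU_exists_place_eq` : every place over `x = 0` is the place of one of the valuations `w γ`.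
* `CU_placeCount` : the abstract place count `#{v | 0 < ord_v x} = #(X / G)`, together with
  `ord_v x = |orbit|`.
-/

set_option autoImplicit false

open AlgebraicCurve IntermediateField IsDedekindDomain
open scoped IntermediateField.algebraAdjoinAdjoin

universe u v

namespace Fermat.Agent.Lib

open Fermat.Agent.S24

section Ports

variable {K : Type u} {F : Type v} [Field K] [Field F] [Algebra K F]
variable {x : F} (hx : Transcendental K x) [FiniteDimensional K⟮x⟯ F]
  [Algebra.IsSeparable K⟮x⟯ F]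

include hx in
/-- every place with `0 < ord x` is the place of a height one prime `w` of `B` lying over `(x)`. -/
theorem CU_exists_prime_over (v : Place K F) (hv : 0 < v.ord x) :
    letI := FFS_isDedekindDomain hx
    letI := BG_isFractionRing (K := K) (x := x)
    ∃ w : HeightOneSpectrum (integralClosure (Algebra.adjoin K ({x} : Set F)) F),
      Place.ofHeightOneSpectrum (K := K) (F := F) w = v ∧
      w.asIdeal.under (Algebra.adjoin K ({x} : Set F)) = BG_p K x := by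
  let := FFS_isDedekindDomain hx
  let := BG_isFractionRing (K := K) (x := x)
  have := BG_p_isMaximal hx
  have hx0 : x ≠ 0 := fun h => hx (h ▸ isAlgebraic_zero)
  obtain ⟨w, hw⟩ := FFS_exists_prime hx v hv
  refine ⟨w, hw, ?_⟩
  have hxw : algebraMap (Algebra.adjoin K ({x} : Set F)) _ (BL_gen (K := K) x) ∈ w.asIdeal := by
    rw [BG_mem_asIdeal_iff (K := K) (F := F) w, hw]
    exact (BG_mem_nonunits_iff_ord_pos _ hx0).mpr hv
  have hle : BG_p K x ≤ w.asIdeal.under (Algebra.adjoin K ({x} : Set F)) := by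
    rw [BG_p, Ideal.span_le, Set.singleton_subset_iff]
    exact hxw
  have hprime : w.asIdeal.IsPrime := w.isPrime
  have hunder : (w.asIdeal.under (Algebra.adjoin K ({x} : Set F))).IsPrime :=
    Ideal.IsPrime.under _ _
  exact (Ideal.IsMaximal.eq_of_le inferInstance hunder.ne_top hle).symm

include hx in
/-- **norm** (separable version of `BG_norm`). -/
theorem CU_norm (v : Place K F) (hv : 0 < v.ord x) (b : F)
    (hb : IsIntegral (Algebra.adjoin K ({x} : Set F)) b) (hbv : 0 < v.ord b) :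
    ∃ p : Polynomial K,
      algebraMap K⟮x⟯ F (Algebra.norm K⟮x⟯ b) = x * Polynomial.aeval x p := by
  have := BG_isPrincipalIdealRing hx
  let := FFS_isDedekindDomain hx
  let := BG_isFractionRing (K := K) (x := x)
  have := FFS_finite hx
  have := FFS_free hx
  have hb0 : b ≠ 0 := by rintro rfl; simp at hbv
  obtain ⟨w, hw, hunder⟩ := CU_exists_prime_over hx v hv
  set b' : integralClosure (Algebra.adjoin K ({x} : Set F)) F := ⟨b, hb⟩ with hb'
  have hbw : b' ∈ w.asIdeal := by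
    rw [BG_mem_asIdeal_iff (K := K) (F := F) w, hw]
    exact (BG_mem_nonunits_iff_ord_pos _ hb0).mpr hbv
  set N := Algebra.intNorm (Algebra.adjoin K ({x} : Set F))
    (integralClosure (Algebra.adjoin K ({x} : Set F)) F) b' with hN
  have h1 : algebraMap (Algebra.adjoin K ({x} : Set F)) K⟮x⟯ N = Algebra.norm K⟮x⟯ b :=
    Algebra.algebraMap_intNorm (A := Algebra.adjoin K ({x} : Set F)) (K := K⟮x⟯) (L := F) b'
  have h2 : b' ∣ algebraMap (Algebra.adjoin K ({x} : Set F)) _ N :=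
    Algebra.dvd_algebraMap_intNorm_self (Algebra.adjoin K ({x} : Set F))
      (integralClosure (Algebra.adjoin K ({x} : Set F)) F) b'
  have hNw : algebraMap (Algebra.adjoin K ({x} : Set F))
      (integralClosure (Algebra.adjoin K ({x} : Set F)) F) N ∈ w.asIdeal :=
    Ideal.mem_of_dvd _ h2 hbw
  have hNp : N ∈ BG_p K x := by
    rw [← hunder]
    exact hNw
  rw [BG_p, Ideal.mem_span_singleton'] at hNp
  obtain ⟨a, ha⟩ := hNp
  obtain ⟨p, rfl⟩ := BL_exists_aeval x a
  refine ⟨p, ?_⟩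
  rw [← h1, ← ha]
  rw [← IsScalarTower.algebraMap_apply (Algebra.adjoin K ({x} : Set F)) K⟮x⟯ F]
  show ((Polynomial.aeval (BL_gen (K := K) x) p * BL_gen (K := K) x :
    Algebra.adjoin K ({x} : Set F)) : F) = _
  rw [Subalgebra.coe_mul, BL_aeval_gen_coe, mul_comm]
  rfl

include hx in
/-- **approx** (separable version of `BG_approx`). -/
theorem CU_approx (v₀ : Place K F) (s : Finset (Place K F)) (hv₀ : 0 < v₀.ord x)
    (hs : ∀ v ∈ s, 0 < v.ord x) (hv₀s : v₀ ∉ s) :
    ∃ b : F, b ≠ 0 ∧ IsIntegral (Algebra.adjoin K ({x} : Set F)) b ∧ 0 < v₀.ord b ∧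
      ∀ v ∈ s, v.ord b = 0 := by
  classical
  let := FFS_isDedekindDomain hx
  let := BG_isFractionRing (K := K) (x := x)
  have hx0 : x ≠ 0 := fun h => hx (h ▸ isAlgebraic_zero)
  obtain ⟨w₀, hw₀⟩ := FFS_exists_prime hx v₀ hv₀
  have hex : ∀ v : Place K F, ∃ w : HeightOneSpectrum
      (integralClosure (Algebra.adjoin K ({x} : Set F)) F),
      v ∈ s → Place.ofHeightOneSpectrum (K := K) (F := F) w = v := by
    intro v
    by_cases hvs : v ∈ s
    · obtain ⟨w, hw⟩ := FFS_exists_prime hx v (hs v hvs)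
      exact ⟨w, fun _ => hw⟩
    · exact ⟨w₀, fun h => absurd h hvs⟩
  choose W hW using hex
  have key : ∃ b : integralClosure (Algebra.adjoin K ({x} : Set F)) F,
      b ≠ 0 ∧ b ∈ w₀.asIdeal ∧ ∀ v ∈ s, b ∉ (W v).asIdeal := by
    rcases s.eq_empty_or_nonempty with hse | ⟨v₁, hv₁⟩
    · obtain ⟨b, hbw, hb0⟩ := Submodule.exists_mem_ne_zero_of_ne_bot w₀.ne_bot
      exact ⟨b, hb0, hbw, by simp [hse]⟩
    · have hnot : ¬ ((w₀.asIdeal : Set (integralClosure (Algebra.adjoin K ({x} : Set F)) F)) ⊆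
          ⋃ i ∈ (↑s : Set (Place K F)),
            ((W i).asIdeal : Set (integralClosure (Algebra.adjoin K ({x} : Set F)) F))) := by
        rw [Ideal.subset_union_prime v₁ v₁ (fun i _ _ _ => (W i).isPrime)]
        rintro ⟨v, hvs, hle⟩
        have hmax : w₀.asIdeal.IsMaximal := w₀.isMaximal
        have heq : w₀.asIdeal = (W v).asIdeal :=
          Ideal.IsMaximal.eq_of_le hmax (W v).isPrime.ne_top hle
        have : w₀ = W v := HeightOneSpectrum.ext heq
        apply hv₀s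
        rw [← hw₀, this, hW v hvs]
        exact hvs
      rw [Set.not_subset] at hnot
      obtain ⟨b, hbw, hbn⟩ := hnot
      have hbn' : ∀ v ∈ s, b ∉ (W v).asIdeal := by
        intro v hv hmem
        apply hbn
        simp only [Set.mem_iUnion, SetLike.mem_coe]
        exact ⟨v, hv, hmem⟩
      refine ⟨b, ?_, hbw, hbn'⟩
      rintro rfl
      exact hbn' v₁ hv₁ (Ideal.zero_mem _)
  obtain ⟨b, hb0, hbw, hbn⟩ := key
  have hbF : (b : F) ≠ 0 := fun h => hb0 (Subtype.ext h)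
  refine ⟨b, hbF, b.2, ?_, ?_⟩
  · rw [← BG_mem_nonunits_iff_ord_pos _ hbF, ← hw₀]
    exact (BG_mem_asIdeal_iff (K := K) (F := F) w₀ b).mp hbw
  · intro v hv
    have hvx : x ∈ v.toValuationSubring := (BG_mem_iff_ord_nonneg v hx0).mpr (hs v hv).le
    have h1 : 0 ≤ v.ord (b : F) :=
      (BG_mem_iff_ord_nonneg v hbF).mp (BL_mem_of_isIntegral v hvx b.2)
    have h2 : ¬ 0 < v.ord (b : F) := by
      rw [← BG_mem_nonunits_iff_ord_pos _ hbF]
      intro hmem
      apply hbn v hv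
      rw [BG_mem_asIdeal_iff (K := K) (F := F) (W v) b, hW v hv]
      exact hmem
    omega

end Ports

section Count

variable {K F : Type*} [Field K] [Field F] [Algebra K F]

/-- every place over `x = 0` is the place of one of the valuations `w γ`
(Step 2 of `S24_placeCount_of`, separable version). -/
theorem CU_exists_place_eq {x : F} (hx : Transcendental K x) [FiniteDimensional K⟮x⟯ F]
    [Algebra.IsSeparable K⟮x⟯ F]
    {X : Type*} [Finite X] [Nonempty X]
    (w : X → F → ℤ) (hw : ∀ γ, IsVal (K := K) (w γ)) (hwx : ∀ γ, 0 < w γ x)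
    (hnorm : ∀ f : F, f ≠ 0 → ∀ γ₀,
      ∑ᶠ γ, w γ f = w γ₀ (algebraMap K⟮x⟯ F (Algebra.norm K⟮x⟯ f)))
    (v : Place K F) (hv : 0 < v.ord x) :
    ∃ γ, (hw γ).place x (fun h => hx (h ▸ isAlgebraic_zero)) (hwx γ) = v := by
  classical
  have hx0 : x ≠ 0 := fun h => hx (h ▸ isAlgebraic_zero)
  have : Fintype X := Fintype.ofFinite X
  set pl : X → Place K F := fun γ => (hw γ).place x hx0 (hwx γ) with hpl
  have hm : ∀ γ, ∃ m : ℤ, 0 < m ∧ (∃ π : F, π ≠ 0 ∧ w γ π = m) ∧
      ∀ f : F, f ≠ 0 → w γ f = m * (pl γ).ord f := fun γ =>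
    (hw γ).exists_mul_ord x hx0 (hwx γ)
  have hplx : ∀ γ, 0 < (pl γ).ord x := by
    intro γ
    obtain ⟨m, hm0, -, hmf⟩ := hm γ
    have h := hwx γ
    rw [hmf x hx0] at h
    exact (mul_pos_iff_of_pos_left hm0).mp h
  by_contra hcon
  push Not at hcon
  have hnotin : v ∉ Finset.univ.image pl := by
    intro h
    obtain ⟨γ, -, hγ⟩ := Finset.mem_image.mp h
    exact hcon γ hγ
  obtain ⟨b, hb0, hbint, hbv, hbs⟩ := CU_approx hx v (Finset.univ.image pl) hv
    (fun u hu => by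
      obtain ⟨γ, -, rfl⟩ := Finset.mem_image.mp hu
      exact hplx γ) hnotin
  have hwb : ∀ γ, w γ b = 0 := by
    intro γ
    obtain ⟨m, -, -, hmf⟩ := hm γ
    rw [hmf b hb0, hbs (pl γ) (Finset.mem_image_of_mem pl (Finset.mem_univ γ)), mul_zero]
  obtain ⟨p, hp⟩ := CU_norm hx v hv b hbint hbv
  obtain ⟨γ₀⟩ := ‹Nonempty X›
  have hN := hnorm b hb0 γ₀
  rw [finsum_eq_zero_of_forall_eq_zero hwb, hp] at hN
  have hnm0 : algebraMap K⟮x⟯ F (Algebra.norm K⟮x⟯ b) ≠ 0 := by
    rw [Ne, map_eq_zero_iff _ (algebraMap K⟮x⟯ F).injective, Algebra.norm_eq_zero_iff]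
    exact hb0
  rw [hp] at hnm0
  have hp0 : Polynomial.aeval x p ≠ 0 := right_ne_zero_of_mul hnm0
  rw [(hw γ₀).mul x _ hx0 hp0] at hN
  have hpmem : Polynomial.aeval x p ∈ (hw γ₀).valuationSubring :=
    S24_aeval_mem_valuationSubring _ (pl γ₀).algebraMap_mem'
      (((hw γ₀).mem_valuationSubring_of_ne hx0).mpr (hwx γ₀).le) p
  have hpnn : 0 ≤ w γ₀ (Polynomial.aeval x p) :=
    ((hw γ₀).mem_valuationSubring_of_ne hp0).mp hpmem
  have := hwx γ₀
  omega

/-- **The abstract place count, separable version, with the ramification indices.**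
`#{v | 0 < ord_v x} = #(X / G)`, and the place attached to `γ` has `ord x = |G γ|`. -/
theorem CU_placeCount_full {x : F} (hx : Transcendental K x) [FiniteDimensional K⟮x⟯ F]
    [Algebra.IsSeparable K⟮x⟯ F] [IsAlgClosed K]
    {G X : Type} [Group G] [MulAction G X] [Finite X]
    (w : X → F → ℤ) (hw : ∀ γ, IsVal (K := K) (w γ)) (hwx : ∀ γ, 0 < w γ x)
    (horb : ∀ (g : G) γ, w (g • γ) = w γ)
    (hdiv : ∀ γ f, f ≠ 0 → w γ x ∣ (Nat.card (MulAction.orbit G γ) : ℤ) * w γ f)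
    (hcard : Nat.card X = Module.finrank K⟮x⟯ F)
    (hnorm : ∀ f : F, f ≠ 0 → ∀ γ₀,
      ∑ᶠ γ, w γ f = w γ₀ (algebraMap K⟮x⟯ F (Algebra.norm K⟮x⟯ f))) :
    Nat.card {v : Place K F // 0 < v.ord x} = Nat.card (MulAction.orbitRel.Quotient G X) ∧
    ∀ γ, ((hw γ).place x (fun h => hx (h ▸ isAlgebraic_zero)) (hwx γ)).ord x =
      Nat.card (MulAction.orbit G γ) := by
  classical
  have hx0 : x ≠ 0 := fun h => hx (h ▸ isAlgebraic_zero)
  have : Fintype X := Fintype.ofFinite X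
  set pl : X → Place K F := fun γ => (hw γ).place x hx0 (hwx γ) with hpl
  have hm : ∀ γ, ∃ m : ℤ, 0 < m ∧ (∃ π : F, π ≠ 0 ∧ w γ π = m) ∧
      ∀ f : F, f ≠ 0 → w γ f = m * (pl γ).ord f := fun γ =>
    (hw γ).exists_mul_ord x hx0 (hwx γ)
  have hplx : ∀ γ, 0 < (pl γ).ord x := by
    intro γ
    obtain ⟨m, hm0, -, hmf⟩ := hm γ
    have h := hwx γ
    rw [hmf x hx0] at h
    exact (mul_pos_iff_of_pos_left hm0).mp h
  obtain ⟨s, hs, hssum⟩ := FFS_zeros_main hx
  have hXpos : 0 < Nat.card X := by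
    rw [hcard]; exact Module.finrank_pos
  have hXne : Nonempty X := (Nat.card_pos_iff.mp hXpos).1
  have hsurj : ∀ v : Place K F, 0 < v.ord x → ∃ γ, pl γ = v :=
    fun v hv => CU_exists_place_eq hx w hw hwx hnorm v hv
  let P := {v : Place K F // 0 < v.ord x}
  have hPfin : Finite P := by
    have : Finite {v : Place K F // v ∈ s} := Finite.of_fintype _
    exact Finite.of_equiv {v : Place K F // v ∈ s}
      (Equiv.subtypeEquivRight (fun v => hs v))
  let φ : X → P := fun γ => ⟨pl γ, hplx γ⟩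
  let e : P → ℕ := fun v => (v.1.ord x).toNat
  have hφ : Function.Surjective φ := by
    rintro ⟨v, hv⟩
    obtain ⟨γ, hγ⟩ := hsurj v hv
    exact ⟨γ, Subtype.ext hγ⟩
  have hinv : ∀ (g : G) (γ : X), φ (g • γ) = φ γ := by
    intro g γ
    apply Subtype.ext
    exact S24_place_congr (hw (g • γ)) (hw γ) (horb g γ) x hx0 (hwx _) (hwx _)
  have hle : ∀ γ : X, e (φ γ) ≤ Nat.card (MulAction.orbit G γ) := by
    intro γ
    obtain ⟨m, hm0, ⟨π, hπ0, hπ⟩, hmf⟩ := hm γ
    have h1 := hdiv γ π hπ0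
    rw [hmf x hx0, hπ, mul_comm _ m] at h1
    have h2 : (pl γ).ord x ∣ (Nat.card (MulAction.orbit G γ) : ℤ) :=
      Int.dvd_of_mul_dvd_mul_left hm0.ne' h1
    have hOpos : 0 < Nat.card (MulAction.orbit G γ) := by
      have : Nonempty (MulAction.orbit G γ) := ⟨⟨γ, MulAction.mem_orbit_self γ⟩⟩
      exact Nat.card_pos
    have h3 : (pl γ).ord x ≤ (Nat.card (MulAction.orbit G γ) : ℤ) :=
      Int.le_of_dvd (by exact_mod_cast hOpos) h2
    show ((pl γ).ord x).toNat ≤ _
    omega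
  have hsumle : Nat.card X ≤ ∑ᶠ v, e v := by
    have h1 : ∑ᶠ v : P, e v = ∑ v ∈ s, (v.ord x).toNat := by
      have hset : {v : Place K F | 0 < v.ord x} = ↑s := by
        ext v; simp [hs v]
      calc ∑ᶠ v : P, e v
          = ∑ᶠ v : ({v : Place K F | 0 < v.ord x} : Set (Place K F)), (v.1.ord x).toNat := rfl
        _ = ∑ᶠ v ∈ ({v : Place K F | 0 < v.ord x} : Set (Place K F)), (v.ord x).toNat :=
            finsum_set_coe_eq_finsum_mem (f := fun v : Place K F => (v.ord x).toNat)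
              {v : Place K F | 0 < v.ord x}
        _ = ∑ v ∈ s, (v.ord x).toNat := by rw [hset, finsum_mem_coe_finset]
    rw [h1]
    have h2 : ((∑ v ∈ s, (v.ord x).toNat : ℕ) : ℤ) = ∑ v ∈ s, v.ord x := by
      push_cast
      refine Finset.sum_congr rfl (fun v hv => ?_)
      have := (hs v).mp hv
      omega
    have h3 : ((∑ v ∈ s, (v.ord x).toNat : ℕ) : ℤ) = (Nat.card X : ℤ) := by
      rw [h2, hssum, hcard]
    have h4 : (∑ v ∈ s, (v.ord x).toNat) = Nat.card X := by exact_mod_cast h3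
    omega
  obtain ⟨h1, h2⟩ := S24_counting (G := G) e φ hφ hinv hle hsumle
  refine ⟨h1, fun γ => ?_⟩
  have h3 := h2 γ
  have h4 := hplx γ
  show (pl γ).ord x = _
  have h5 : ((pl γ).ord x).toNat = Nat.card (MulAction.orbit G γ) := h3
  omega

/-- **Export form** (no `place` in the statement): every place `v` over `x = 0` comes from some
`γ`, with `w γ x • ord_v f = ord_v x • w γ f` for all `f ≠ 0` and `ord_v x = |G γ|`. -/
theorem CU_place_of_zero {x : F} (hx : Transcendental K x) [FiniteDimensional K⟮x⟯ F]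
    [Algebra.IsSeparable K⟮x⟯ F] [IsAlgClosed K]
    {G X : Type} [Group G] [MulAction G X] [Finite X]
    (w : X → F → ℤ) (hw : ∀ γ, IsVal (K := K) (w γ)) (hwx : ∀ γ, 0 < w γ x)
    (horb : ∀ (g : G) γ, w (g • γ) = w γ)
    (hdiv : ∀ γ f, f ≠ 0 → w γ x ∣ (Nat.card (MulAction.orbit G γ) : ℤ) * w γ f)
    (hcard : Nat.card X = Module.finrank K⟮x⟯ F)
    (hnorm : ∀ f : F, f ≠ 0 → ∀ γ₀,
      ∑ᶠ γ, w γ f = w γ₀ (algebraMap K⟮x⟯ F (Algebra.norm K⟮x⟯ f)))
    (v : Place K F) (hv : 0 < v.ord x) :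
    ∃ γ, (∀ f : F, f ≠ 0 → w γ x * v.ord f = v.ord x * w γ f) ∧
      v.ord x = Nat.card (MulAction.orbit G γ) := by
  have hx0 : x ≠ 0 := fun h => hx (h ▸ isAlgebraic_zero)
  have hXpos : 0 < Nat.card X := by
    rw [hcard]; exact Module.finrank_pos
  have hXne : Nonempty X := (Nat.card_pos_iff.mp hXpos).1
  obtain ⟨γ, hγ⟩ := CU_exists_place_eq hx w hw hwx hnorm v hv
  obtain ⟨m, hm0, -, hmf⟩ := (hw γ).exists_mul_ord x hx0 (hwx γ)
  have h2 := (CU_placeCount_full hx w hw hwx horb hdiv hcard hnorm).2 γ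
  rw [hγ] at hmf h2
  refine ⟨γ, fun f hf => ?_, h2⟩
  rw [hmf f hf, hmf x hx0]
  ring

/-- the place attached to `γ` (export form): there is a place `v` over `x = 0` with
`w γ x • ord_v f = ord_v x • w γ f` and `ord_v x = |G γ|`. -/
theorem CU_place_of_index {x : F} (hx : Transcendental K x) [FiniteDimensional K⟮x⟯ F]
    [Algebra.IsSeparable K⟮x⟯ F] [IsAlgClosed K]
    {G X : Type} [Group G] [MulAction G X] [Finite X]
    (w : X → F → ℤ) (hw : ∀ γ, IsVal (K := K) (w γ)) (hwx : ∀ γ, 0 < w γ x)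
    (horb : ∀ (g : G) γ, w (g • γ) = w γ)
    (hdiv : ∀ γ f, f ≠ 0 → w γ x ∣ (Nat.card (MulAction.orbit G γ) : ℤ) * w γ f)
    (hcard : Nat.card X = Module.finrank K⟮x⟯ F)
    (hnorm : ∀ f : F, f ≠ 0 → ∀ γ₀,
      ∑ᶠ γ, w γ f = w γ₀ (algebraMap K⟮x⟯ F (Algebra.norm K⟮x⟯ f)))
    (γ : X) :
    ∃ v : Place K F, 0 < v.ord x ∧ (∀ f : F, f ≠ 0 → w γ x * v.ord f = v.ord x * w γ f) ∧
      v.ord x = Nat.card (MulAction.orbit G γ) := by
  have hx0 : x ≠ 0 := fun h => hx (h ▸ isAlgebraic_zero)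
  obtain ⟨m, hm0, -, hmf⟩ := (hw γ).exists_mul_ord x hx0 (hwx γ)
  have h2 := (CU_placeCount_full hx w hw hwx horb hdiv hcard hnorm).2 γ
  refine ⟨(hw γ).place x hx0 (hwx γ), ?_, fun f hf => ?_, h2⟩
  · have h := hwx γ
    rw [hmf x hx0] at h
    exact (mul_pos_iff_of_pos_left hm0).mp h
  · rw [hmf f hf, hmf x hx0]
    ring

end Count

end Fermat.Agent.Lib
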