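import Mathlib
import Fermat.Agent.Lib.CuspSep

/-!
# TRACK 3, package CUSP (abstract part B): places over `x = 0` from Laurent embeddings

`K` algebraically closed, `E / K(x)` finite separable, `L / K` any field extension,
`emb γ : E →ₐ[K] L((t))` (`γ : X`) a family of `Nat.card X = [E : K(x)]` pairwise distinct
embeddings with `emb γ x = x₀`, `ord_t x₀ = M > 0`, stable under the twist `t ↦ ζ t`
(`ζ : L` a primitive `M`-th root of unity) through a permutation `τ` of `X`.
Then the places of `E` over `x = 0` are in bijection with the `⟨τ⟩`-orbits on `X`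
(`CU_emb_count`), `ord_v x = |orbit|`, `ord_v x ∣ M` and
`M • ord_v f = ord_v x • ord_t (emb γ f)` (`CU_emb_place_of_zero`, `CU_emb_place_of_index`).
Moreover every minimal polynomial over `K(x)` splits in `L((t))` (`CU_emb_splits`).
-/

set_option autoImplicit false

open AlgebraicCurve IntermediateField

namespace Fermat.Agent.Lib

open Fermat.Agent.S24

section Val

variable {K E L : Type*} [Field K] [Field E] [Algebra K E] [Field L] [Algebra K L]

/-- the order valuation attached to an embedding into Laurent series. -/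
noncomputable def CU_w (σ : E →ₐ[K] LaurentSeries L) (f : E) : ℤ := (σ f).order

theorem CU_w_def (σ : E →ₐ[K] LaurentSeries L) (f : E) : CU_w σ f = (σ f).order := rfl

theorem CU_algebraMap_eq_C (c : K) :
    algebraMap K (LaurentSeries L) c = HahnSeries.C (algebraMap K L c) := by
  rw [HahnSeries.algebraMap_apply', PowerSeries.algebraMap_apply, HahnSeries.ofPowerSeries_C]

theorem CU_w_isVal (σ : E →ₐ[K] LaurentSeries L) : IsVal (K := K) (CU_w σ) where
  mul f g hf hg := by
    unfold CU_w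
    rw [map_mul, HahnSeries.order_mul ((map_ne_zero σ).mpr hf) ((map_ne_zero σ).mpr hg)]
  add f g hf hg hfg := by
    unfold CU_w
    rw [map_add]
    exact HahnSeries.min_order_le_order_add (by rw [← map_add]; exact (map_ne_zero σ).mpr hfg)
  const c hc := by
    unfold CU_w
    rw [AlgHom.commutes, CU_algebraMap_eq_C, HahnSeries.order_C]

/-- twisting the coefficients by powers of a nonzero constant does not change the order. -/
theorem CU_order_eq_of_coeff {a b : LaurentSeries L} {ζ : L} (hζ : ζ ≠ 0)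
    (h : ∀ n : ℤ, a.coeff n = ζ ^ n * b.coeff n) : a.order = b.order := by
  by_cases hb : b = 0
  · have ha : a = 0 := by
      ext n
      rw [h n, hb]
      simp
    rw [ha, hb]
  · have hbc : b.coeff b.order ≠ 0 := fun h0 => hb (HahnSeries.coeff_order_eq_zero.mp h0)
    have hac : a.coeff b.order ≠ 0 := by
      rw [h]
      exact mul_ne_zero (zpow_ne_zero _ hζ) hbc
    have ha : a ≠ 0 := HahnSeries.ne_zero_of_coeff_ne_zero hac
    have hac' : a.coeff a.order ≠ 0 := fun h0 => ha (HahnSeries.coeff_order_eq_zero.mp h0)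
    have hbc' : b.coeff a.order ≠ 0 := by
      intro h0
      apply hac'
      rw [h, h0, mul_zero]
    exact le_antisymm (HahnSeries.order_le_of_coeff_ne_zero hac)
      (HahnSeries.order_le_of_coeff_ne_zero hbc')

/-- the order of a finite product of nonzero Laurent series. -/
theorem CU_order_prod {ι : Type*} (s : Finset ι) (g : ι → LaurentSeries L)
    (hg : ∀ i ∈ s, g i ≠ 0) : (∏ i ∈ s, g i).order = ∑ i ∈ s, (g i).order := by
  classical
  induction s using Finset.induction_on with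
  | empty => simp
  | insert a s ha ih =>
    rw [Finset.prod_insert ha, Finset.sum_insert ha]
    have h1 : g a ≠ 0 := hg a (Finset.mem_insert_self a s)
    have h2 : ∏ i ∈ s, g i ≠ 0 :=
      Finset.prod_ne_zero_iff.mpr (fun i hi => hg i (Finset.mem_insert_of_mem hi))
    rw [HahnSeries.order_mul h1 h2, ih (fun i hi => hg i (Finset.mem_insert_of_mem hi))]

end Val

section Norm

variable {K E L : Type*} [Field K] [Field E] [Algebra K E] [Field L] [Algebra K L]

/-- all embeddings with the same value at `x` agree on `K(x)`. -/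
theorem CU_emb_eq_on {x : E} (σ σ' : E →ₐ[K] LaurentSeries L) (h : σ x = σ' x)
    (r : K⟮x⟯) : σ (algebraMap K⟮x⟯ E r) = σ' (algebraMap K⟮x⟯ E r) := by
  have key : σ.comp (IsScalarTower.toAlgHom K K⟮x⟯ E) =
      σ'.comp (IsScalarTower.toAlgHom K K⟮x⟯ E) := by
    apply IntermediateField.adjoin_algHom_ext
    intro y hy
    rw [Set.mem_singleton_iff] at hy
    subst hy
    exact h
  exact congrArg (fun φ : K⟮x⟯ →ₐ[K] LaurentSeries L => φ r) key

/-- A complete family of embeddings exhausts the `K(x)`-embeddings into any extension `Ω'` of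
`L((t))`: bijectivity of `γ ↦ (L((t)) → Ω') ∘ emb γ`. -/
theorem CU_emb_bijective {x : E} [FiniteDimensional K⟮x⟯ E] [Algebra.IsSeparable K⟮x⟯ E]
    {X : Type*} [Finite X] (emb : X → (E →ₐ[K] LaurentSeries L))
    (hinj : Function.Injective emb)
    (x₀ : LaurentSeries L) (hx₀ : ∀ γ, emb γ x = x₀)
    (hcard : Nat.card X = Module.finrank K⟮x⟯ E) (γ₀ : X) :
    letI : Algebra K⟮x⟯ (AlgebraicClosure (LaurentSeries L)) :=
      ((algebraMap (LaurentSeries L) (AlgebraicClosure (LaurentSeries L))).comp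
        ((emb γ₀ : E →+* LaurentSeries L).comp (algebraMap K⟮x⟯ E))).toAlgebra
    ∀ σ : E →ₐ[K⟮x⟯] AlgebraicClosure (LaurentSeries L), ∃ γ, ∀ g : E,
      σ g = algebraMap (LaurentSeries L) (AlgebraicClosure (LaurentSeries L)) (emb γ g) := by
  classical
  have := Fintype.ofFinite X
  set ι : K⟮x⟯ →+* LaurentSeries L :=
    (emb γ₀ : E →+* LaurentSeries L).comp (algebraMap K⟮x⟯ E) with hι
  let algΩb : Algebra K⟮x⟯ (AlgebraicClosure (LaurentSeries L)) :=
    ((algebraMap (LaurentSeries L) (AlgebraicClosure (LaurentSeries L))).comp ι).toAlgebra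
  have hres : ∀ γ (r : K⟮x⟯), emb γ (algebraMap K⟮x⟯ E r) = ι r := fun γ r =>
    CU_emb_eq_on (emb γ) (emb γ₀) ((hx₀ γ).trans (hx₀ γ₀).symm) r
  let e : X → (E →ₐ[K⟮x⟯] AlgebraicClosure (LaurentSeries L)) := fun γ =>
    { toRingHom := (algebraMap (LaurentSeries L) (AlgebraicClosure (LaurentSeries L))).comp
        (emb γ : E →+* LaurentSeries L)
      commutes' := fun r => by
        show algebraMap (LaurentSeries L) (AlgebraicClosure (LaurentSeries L))
          (emb γ (algebraMap K⟮x⟯ E r)) = _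
        rw [hres γ r]
        rfl }
  have hinjΩ : Function.Injective
      (algebraMap (LaurentSeries L) (AlgebraicClosure (LaurentSeries L))) :=
    (algebraMap (LaurentSeries L) (AlgebraicClosure (LaurentSeries L))).injective
  have heinj : Function.Injective e := by
    intro γ γ' h
    apply hinj
    ext g : 1
    have := congrArg (fun φ : E →ₐ[K⟮x⟯] AlgebraicClosure (LaurentSeries L) => φ g) h
    exact hinjΩ this
  have hc : Fintype.card X = Fintype.card (E →ₐ[K⟮x⟯] AlgebraicClosure (LaurentSeries L)) := by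
    rw [AlgHom.card, ← hcard, Nat.card_eq_fintype_card]
  have hebij : Function.Bijective e :=
    (Fintype.bijective_iff_injective_and_card e).mpr ⟨heinj, hc⟩
  intro σ
  obtain ⟨γ, hγ⟩ := hebij.2 σ
  exact ⟨γ, fun g => by rw [← hγ]; rfl⟩

/-- **The norm formula**: the norm from `E` to `K(x)`, pushed to `L((t))`, is the product over
all the embeddings. -/
theorem CU_emb_norm {x : E} [FiniteDimensional K⟮x⟯ E] [Algebra.IsSeparable K⟮x⟯ E]
    {X : Type*} [Fintype X] (emb : X → (E →ₐ[K] LaurentSeries L))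
    (hinj : Function.Injective emb)
    (x₀ : LaurentSeries L) (hx₀ : ∀ γ, emb γ x = x₀)
    (hcard : Nat.card X = Module.finrank K⟮x⟯ E) (f : E) (γ₀ : X) :
    emb γ₀ (algebraMap K⟮x⟯ E (Algebra.norm K⟮x⟯ f)) = ∏ γ, emb γ f := by
  classical
  set ι : K⟮x⟯ →+* LaurentSeries L :=
    (emb γ₀ : E →+* LaurentSeries L).comp (algebraMap K⟮x⟯ E) with hι
  let algΩ : Algebra K⟮x⟯ (LaurentSeries L) := ι.toAlgebra
  let algΩb : Algebra K⟮x⟯ (AlgebraicClosure (LaurentSeries L)) :=
    ((algebraMap (LaurentSeries L) (AlgebraicClosure (LaurentSeries L))).comp ι).toAlgebra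
  have hres : ∀ γ (r : K⟮x⟯), emb γ (algebraMap K⟮x⟯ E r) = ι r := fun γ r =>
    CU_emb_eq_on (emb γ) (emb γ₀) ((hx₀ γ).trans (hx₀ γ₀).symm) r
  -- the embeddings into the algebraic closure
  let e : X → (E →ₐ[K⟮x⟯] AlgebraicClosure (LaurentSeries L)) := fun γ =>
    { toRingHom := (algebraMap (LaurentSeries L) (AlgebraicClosure (LaurentSeries L))).comp
        (emb γ : E →+* LaurentSeries L)
      commutes' := fun r => by
        show algebraMap (LaurentSeries L) (AlgebraicClosure (LaurentSeries L))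
          (emb γ (algebraMap K⟮x⟯ E r)) = _
        rw [hres γ r]
        rfl }
  have he : ∀ γ g, e γ g = algebraMap (LaurentSeries L) (AlgebraicClosure (LaurentSeries L))
      (emb γ g) := fun γ g => rfl
  have hinjΩ : Function.Injective
      (algebraMap (LaurentSeries L) (AlgebraicClosure (LaurentSeries L))) :=
    (algebraMap (LaurentSeries L) (AlgebraicClosure (LaurentSeries L))).injective
  have heinj : Function.Injective e := by
    intro γ γ' h
    apply hinj
    ext g : 1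
    have := congrArg (fun φ : E →ₐ[K⟮x⟯] AlgebraicClosure (LaurentSeries L) => φ g) h
    exact hinjΩ this
  have hc : Fintype.card X = Fintype.card (E →ₐ[K⟮x⟯] AlgebraicClosure (LaurentSeries L)) := by
    rw [AlgHom.card, ← hcard, Nat.card_eq_fintype_card]
  have hebij : Function.Bijective e :=
    (Fintype.bijective_iff_injective_and_card e).mpr ⟨heinj, hc⟩
  have hN := Algebra.norm_eq_prod_embeddings K⟮x⟯ (AlgebraicClosure (LaurentSeries L)) f
  have hprod : ∏ σ : E →ₐ[K⟮x⟯] AlgebraicClosure (LaurentSeries L), σ f = ∏ γ, e γ f :=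
    (Fintype.prod_bijective e hebij _ _ (fun γ => rfl)).symm
  rw [hprod] at hN
  simp only [he] at hN
  rw [← map_prod] at hN
  exact hinjΩ hN

/-- the additive form of the norm formula (hypothesis `hnorm` of the place count). -/
theorem CU_emb_hnorm {x : E} [FiniteDimensional K⟮x⟯ E] [Algebra.IsSeparable K⟮x⟯ E]
    {X : Type*} [Finite X] (emb : X → (E →ₐ[K] LaurentSeries L))
    (hinj : Function.Injective emb)
    (x₀ : LaurentSeries L) (hx₀ : ∀ γ, emb γ x = x₀)
    (hcard : Nat.card X = Module.finrank K⟮x⟯ E) (f : E) (hf : f ≠ 0) (γ₀ : X) :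
    ∑ᶠ γ, CU_w (emb γ) f =
      CU_w (emb γ₀) (algebraMap K⟮x⟯ E (Algebra.norm K⟮x⟯ f)) := by
  classical
  have := Fintype.ofFinite X
  rw [finsum_eq_sum_of_fintype, CU_w_def, CU_emb_norm emb hinj x₀ hx₀ hcard f γ₀,
    CU_order_prod Finset.univ (fun γ => emb γ f) (fun γ _ => (map_ne_zero (emb γ)).mpr hf)]
  rfl

/-- **(CU)**: for a complete family of embeddings, every minimal polynomial over `K(x)` splits
in `L((t))`, and its roots are the conjugates `emb γ f`. -/
theorem CU_emb_splits {x : E} [FiniteDimensional K⟮x⟯ E] [Algebra.IsSeparable K⟮x⟯ E]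
    {X : Type*} [Finite X] (emb : X → (E →ₐ[K] LaurentSeries L))
    (hinj : Function.Injective emb)
    (x₀ : LaurentSeries L) (hx₀ : ∀ γ, emb γ x = x₀)
    (hcard : Nat.card X = Module.finrank K⟮x⟯ E) (γ₀ : X) (f : E) :
    ((minpoly K⟮x⟯ f).map
      ((emb γ₀ : E →+* LaurentSeries L).comp (algebraMap K⟮x⟯ E))).Splits ∧
    ∀ a ∈ ((minpoly K⟮x⟯ f).map
      ((emb γ₀ : E →+* LaurentSeries L).comp (algebraMap K⟮x⟯ E))).roots, ∃ γ, emb γ f = a := by
  classical
  set ι : K⟮x⟯ →+* LaurentSeries L :=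
    (emb γ₀ : E →+* LaurentSeries L).comp (algebraMap K⟮x⟯ E) with hι
  let algΩb : Algebra K⟮x⟯ (AlgebraicClosure (LaurentSeries L)) :=
    ((algebraMap (LaurentSeries L) (AlgebraicClosure (LaurentSeries L))).comp ι).toAlgebra
  have hbij := CU_emb_bijective emb hinj x₀ hx₀ hcard γ₀
  have hinjΩ : Function.Injective
      (algebraMap (LaurentSeries L) (AlgebraicClosure (LaurentSeries L))) :=
    (algebraMap (LaurentSeries L) (AlgebraicClosure (LaurentSeries L))).injective
  have hmap : ((minpoly K⟮x⟯ f).map ι).map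
      (algebraMap (LaurentSeries L) (AlgebraicClosure (LaurentSeries L))) =
      (minpoly K⟮x⟯ f).map (algebraMap K⟮x⟯ (AlgebraicClosure (LaurentSeries L))) := by
    rw [Polynomial.map_map]
    rfl
  have hint : IsIntegral K⟮x⟯ f := Algebra.IsIntegral.isIntegral f
  have hne : (minpoly K⟮x⟯ f).map ι ≠ 0 :=
    (Polynomial.map_ne_zero_iff ι.injective).mpr (minpoly.ne_zero hint)
  -- every root in the algebraic closure is a conjugate
  have hroot : ∀ b : AlgebraicClosure (LaurentSeries L),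
      b ∈ (((minpoly K⟮x⟯ f).map ι).map
        (algebraMap (LaurentSeries L) (AlgebraicClosure (LaurentSeries L)))).roots →
      ∃ γ, algebraMap (LaurentSeries L) (AlgebraicClosure (LaurentSeries L)) (emb γ f) = b := by
    intro b hb
    rw [hmap, Polynomial.mem_roots', Polynomial.IsRoot.def, Polynomial.eval_map_algebraMap]
      at hb
    obtain ⟨σ, hσ⟩ := IntermediateField.exists_algHom_of_splits_of_aeval
      (F := K⟮x⟯) (E := E) (K := AlgebraicClosure (LaurentSeries L))
      (fun s => ⟨Algebra.IsIntegral.isIntegral s, IsAlgClosed.splits _⟩) hb.2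
    obtain ⟨γ, hγ⟩ := hbij σ
    exact ⟨γ, by rw [← hγ f, hσ]⟩
  have hsplit : ((minpoly K⟮x⟯ f).map ι).Splits := by
    refine Polynomial.Splits.of_splits_map
      (algebraMap (LaurentSeries L) (AlgebraicClosure (LaurentSeries L)))
      (IsAlgClosed.splits _) (fun b hb => ?_)
    obtain ⟨γ, hγ⟩ := hroot b hb
    exact ⟨emb γ f, hγ⟩
  refine ⟨hsplit, fun a ha => ?_⟩
  have ha' : algebraMap (LaurentSeries L) (AlgebraicClosure (LaurentSeries L)) a ∈
      (((minpoly K⟮x⟯ f).map ι).map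
        (algebraMap (LaurentSeries L) (AlgebraicClosure (LaurentSeries L)))).roots := by
    rw [hsplit.roots_map]
    exact Multiset.mem_map_of_mem _ ha
  obtain ⟨γ, hγ⟩ := hroot _ ha'
  exact ⟨γ, hinjΩ hγ⟩

end Norm

section Main

variable {K E L : Type*} [Field K] [Field E] [Algebra K E] [Field L] [Algebra K L]

/-- iterating the twist relation. -/
theorem CU_twist_pow {X : Type*} (emb : X → (E →ₐ[K] LaurentSeries L)) (τ : Equiv.Perm X)
    {ζ : L} (hζ : ζ ≠ 0)
    (htw : ∀ γ f (n : ℤ), (emb (τ γ) f).coeff n = ζ ^ n * (emb γ f).coeff n) (k : ℕ) :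
    ∀ γ f (n : ℤ), (emb ((τ ^ k) γ) f).coeff n = ζ ^ ((k : ℤ) * n) * (emb γ f).coeff n := by
  induction k with
  | zero => intro γ f n; simp
  | succ k ih =>
    intro γ f n
    rw [pow_succ', Equiv.Perm.mul_apply, htw, ih, ← mul_assoc, ← zpow_add₀ hζ]
    congr 2
    push_cast
    ring

/-- the five inputs of the abstract place count, for a twist-stable complete family of
embeddings. -/
theorem CU_emb_inputs {x : E} [FiniteDimensional K⟮x⟯ E] [Algebra.IsSeparable K⟮x⟯ E]
    {X : Type} [Finite X] (emb : X → (E →ₐ[K] LaurentSeries L))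
    (hinj : Function.Injective emb)
    (x₀ : LaurentSeries L) (hx₀ : ∀ γ, emb γ x = x₀) (M : ℕ) (hM : 0 < M)
    (hx₀M : x₀.order = M)
    (hcard : Nat.card X = Module.finrank K⟮x⟯ E)
    (τ : Equiv.Perm X) (ζ : L) (hζ : IsPrimitiveRoot ζ M)
    (htw : ∀ γ f (n : ℤ), (emb (τ γ) f).coeff n = ζ ^ n * (emb γ f).coeff n) :
    (∀ γ, IsVal (K := K) (CU_w (emb γ))) ∧ (∀ γ, CU_w (emb γ) x = M) ∧
    (∀ γ, 0 < CU_w (emb γ) x) ∧
    (∀ (g : Subgroup.zpowers τ) γ, CU_w (emb (g • γ)) = CU_w (emb γ)) ∧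
    (∀ γ f, f ≠ 0 → CU_w (emb γ) x ∣
      (Nat.card (MulAction.orbit (Subgroup.zpowers τ) γ) : ℤ) * CU_w (emb γ) f) ∧
    (∀ f : E, f ≠ 0 → ∀ γ₀, ∑ᶠ γ, CU_w (emb γ) f =
      CU_w (emb γ₀) (algebraMap K⟮x⟯ E (Algebra.norm K⟮x⟯ f))) := by
  have hζ0 : ζ ≠ 0 := hζ.ne_zero hM.ne'
  have hwx : ∀ γ, CU_w (emb γ) x = M := fun γ => by rw [CU_w_def, hx₀, hx₀M]
  have hR : ∀ γ, CU_w (emb (τ • γ)) = CU_w (emb γ) := by
    intro γ
    funext f
    exact CU_order_eq_of_coeff hζ0 (htw γ f)
  have hfix : ∀ γ (k : ℕ), τ ^ k • γ = γ → ∀ f, f ≠ 0 →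
      (M : ℤ) ∣ (k : ℤ) * CU_w (emb γ) f := by
    intro γ k hk f hf
    have hk' : (τ ^ k) γ = γ := hk
    have h1 := CU_twist_pow emb τ hζ0 htw k γ f (emb γ f).order
    rw [hk'] at h1
    have hc : (emb γ f).coeff (emb γ f).order ≠ 0 := fun h0 =>
      (map_ne_zero (emb γ)).mpr hf (HahnSeries.coeff_order_eq_zero.mp h0)
    have h2 : ζ ^ ((k : ℤ) * (emb γ f).order) = 1 := by
      have h3 : (ζ ^ ((k : ℤ) * (emb γ f).order) - 1) * (emb γ f).coeff (emb γ f).order = 0 := by
        rw [sub_mul, one_mul, ← h1, sub_self]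
      rcases mul_eq_zero.mp h3 with h4 | h4
      · exact sub_eq_zero.mp h4
      · exact absurd h4 hc
    exact (hζ.zpow_eq_one_iff_dvd _).mp h2
  obtain ⟨h1, h2, h3⟩ := S24_cyclic_inputs_cusp (F := E) x (G₀ := Equiv.Perm X) (X := X) τ M hM
    (fun γ => CU_w (emb γ)) hwx hR hfix
  exact ⟨fun γ => CU_w_isVal (emb γ), hwx, h1, h2, h3,
    fun f hf γ₀ => CU_emb_hnorm emb hinj x₀ hx₀ hcard f hf γ₀⟩

variable [IsAlgClosed K]

/-- **CUSP, abstract count.**  The places over `x = 0` are in bijection with the orbits of the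
twist on a complete twist-stable family of Laurent embeddings. -/
theorem CU_emb_count {x : E} (hx : Transcendental K x) [FiniteDimensional K⟮x⟯ E]
    [Algebra.IsSeparable K⟮x⟯ E]
    {X : Type} [Finite X] (emb : X → (E →ₐ[K] LaurentSeries L))
    (hinj : Function.Injective emb)
    (x₀ : LaurentSeries L) (hx₀ : ∀ γ, emb γ x = x₀) (M : ℕ) (hM : 0 < M)
    (hx₀M : x₀.order = M)
    (hcard : Nat.card X = Module.finrank K⟮x⟯ E)
    (τ : Equiv.Perm X) (ζ : L) (hζ : IsPrimitiveRoot ζ M)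
    (htw : ∀ γ f (n : ℤ), (emb (τ γ) f).coeff n = ζ ^ n * (emb γ f).coeff n) :
    Nat.card {v : Place K E // 0 < v.ord x} =
      Nat.card (MulAction.orbitRel.Quotient (Subgroup.zpowers τ) X) := by
  obtain ⟨hw, -, hwx, horb, hdiv, hnorm⟩ :=
    CU_emb_inputs emb hinj x₀ hx₀ M hM hx₀M hcard τ ζ hζ htw
  exact (CU_placeCount_full hx (fun γ => CU_w (emb γ)) hw hwx horb hdiv hcard hnorm).1

/-- **CUSP, abstract, places → embeddings.**  Every place `v` over `x = 0` comes from some
embedding `γ`: `M • ord_v f = ord_v x • ord_t (emb γ f)`, `ord_v x = |⟨τ⟩ γ|`, `ord_v x ∣ M`. -/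
theorem CU_emb_place_of_zero {x : E} (hx : Transcendental K x) [FiniteDimensional K⟮x⟯ E]
    [Algebra.IsSeparable K⟮x⟯ E]
    {X : Type} [Finite X] (emb : X → (E →ₐ[K] LaurentSeries L))
    (hinj : Function.Injective emb)
    (x₀ : LaurentSeries L) (hx₀ : ∀ γ, emb γ x = x₀) (M : ℕ) (hM : 0 < M)
    (hx₀M : x₀.order = M)
    (hcard : Nat.card X = Module.finrank K⟮x⟯ E)
    (τ : Equiv.Perm X) (ζ : L) (hζ : IsPrimitiveRoot ζ M)
    (htw : ∀ γ f (n : ℤ), (emb (τ γ) f).coeff n = ζ ^ n * (emb γ f).coeff n)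
    (v : Place K E) (hv : 0 < v.ord x) :
    ∃ γ, (∀ f : E, f ≠ 0 → (M : ℤ) * v.ord f = v.ord x * (emb γ f).order) ∧
      v.ord x = Nat.card (MulAction.orbit (Subgroup.zpowers τ) γ) ∧ v.ord x ∣ (M : ℤ) := by
  obtain ⟨hw, hwM, hwx, horb, hdiv, hnorm⟩ :=
    CU_emb_inputs emb hinj x₀ hx₀ M hM hx₀M hcard τ ζ hζ htw
  obtain ⟨γ, h1, h2⟩ := CU_place_of_zero hx (fun γ => CU_w (emb γ)) hw hwx horb hdiv hcard
    hnorm v hv
  have h1' : ∀ f : E, f ≠ 0 → (M : ℤ) * v.ord f = v.ord x * (emb γ f).order := by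
    intro f hf
    have := h1 f hf
    rwa [hwM γ] at this
  refine ⟨γ, h1', h2, ?_⟩
  -- `ord_v x ∣ M`: apply the relation to a uniformizer of the valuation `w γ`
  have hx0 : x ≠ 0 := fun h => hx (h ▸ isAlgebraic_zero)
  have : Nonempty X := ⟨γ⟩
  obtain ⟨γ', hγ'⟩ := CU_exists_place_eq hx (X := X) (fun γ => CU_w (emb γ)) hw hwx hnorm v hv
  obtain ⟨m, hm0, -, hmf⟩ := (hw γ').exists_mul_ord x hx0 (hwx γ')
  rw [hγ'] at hmf
  have := hmf x hx0
  rw [hwM γ'] at this
  exact ⟨m, by rw [this]; ring⟩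

/-- **CUSP, abstract, embeddings → places.** -/
theorem CU_emb_place_of_index {x : E} (hx : Transcendental K x) [FiniteDimensional K⟮x⟯ E]
    [Algebra.IsSeparable K⟮x⟯ E]
    {X : Type} [Finite X] (emb : X → (E →ₐ[K] LaurentSeries L))
    (hinj : Function.Injective emb)
    (x₀ : LaurentSeries L) (hx₀ : ∀ γ, emb γ x = x₀) (M : ℕ) (hM : 0 < M)
    (hx₀M : x₀.order = M)
    (hcard : Nat.card X = Module.finrank K⟮x⟯ E)
    (τ : Equiv.Perm X) (ζ : L) (hζ : IsPrimitiveRoot ζ M)
    (htw : ∀ γ f (n : ℤ), (emb (τ γ) f).coeff n = ζ ^ n * (emb γ f).coeff n)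
    (γ : X) :
    ∃ v : Place K E, 0 < v.ord x ∧
      (∀ f : E, f ≠ 0 → (M : ℤ) * v.ord f = v.ord x * (emb γ f).order) ∧
      v.ord x = Nat.card (MulAction.orbit (Subgroup.zpowers τ) γ) := by
  obtain ⟨hw, hwM, hwx, horb, hdiv, hnorm⟩ :=
    CU_emb_inputs emb hinj x₀ hx₀ M hM hx₀M hcard τ ζ hζ htw
  obtain ⟨v, hv, h1, h2⟩ := CU_place_of_index hx (fun γ => CU_w (emb γ)) hw hwx horb hdiv hcard
    hnorm γ
  refine ⟨v, hv, fun f hf => ?_, h2⟩
  have := h1 f hf
  rwa [hwM γ] at this

end Main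

end Fermat.Agent.Lib
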