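import Mathlib
import Fermat.Agent.Lib.CuspEmb

/-!
# TRACK 3, package CUSP (abstract part C): the twist `t ↦ ζ t` of `L((t))`

* `CU_twist ζ hζ : L((t)) →+* L((t))`, `(CU_twist ζ hζ f).coeff n = ζ ^ n * f.coeff n`;
  `CU_twistAlg` the same as a `K`-algebra homomorphism.
* `CU_exists_perm_of_algHom` : a complete family of embeddings is stable under every
  `K`-algebra endomorphism `θ` of `L((t))` fixing `x₀`: `∃ τ, emb (τ γ) = θ ∘ emb γ`.
* `CU_exists_perm` : the twist version, giving the hypothesis `htw` of `CU_emb_count`.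
-/

set_option autoImplicit false

open AlgebraicCurve IntermediateField

namespace Fermat.Agent.Lib

open Fermat.Agent.S24

section Twist

variable {L : Type*} [Field L]

/-- the twisted series `f(ζ t)`. -/
noncomputable def CU_twistFun (ζ : L) (f : LaurentSeries L) : LaurentSeries L where
  coeff n := ζ ^ n * f.coeff n
  isPWO_support' := f.isPWO_support.mono (fun n hn => by
    simp only [Function.mem_support, ne_eq] at hn
    exact right_ne_zero_of_mul hn)

@[simp]
theorem CU_twistFun_coeff (ζ : L) (f : LaurentSeries L) (n : ℤ) :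
    (CU_twistFun ζ f).coeff n = ζ ^ n * f.coeff n := rfl

theorem CU_twistFun_support {ζ : L} (hζ : ζ ≠ 0) (f : LaurentSeries L) :
    (CU_twistFun ζ f).support = f.support := by
  ext n
  simp only [HahnSeries.mem_support, CU_twistFun_coeff, ne_eq, mul_eq_zero, not_or]
  exact ⟨fun h => h.2, fun h => ⟨zpow_ne_zero _ hζ, h⟩⟩

/-- the twist `t ↦ ζ t` as a ring endomorphism of `L((t))`. -/
noncomputable def CU_twist (ζ : L) (hζ : ζ ≠ 0) : LaurentSeries L →+* LaurentSeries L where
  toFun := CU_twistFun ζ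
  map_one' := by
    ext n
    rw [CU_twistFun_coeff, HahnSeries.coeff_one]
    split_ifs with h
    · subst h; simp
    · simp
  map_mul' f g := by
    ext n
    rw [CU_twistFun_coeff, HahnSeries.coeff_mul, HahnSeries.coeff_mul, Finset.mul_sum]
    have hset : Finset.antidiagonal (CU_twistFun ζ f).isPWO_support
        (CU_twistFun ζ g).isPWO_support n =
        Finset.antidiagonal f.isPWO_support g.isPWO_support n := by
      ext ij
      simp only [Finset.mem_antidiagonal, CU_twistFun_support hζ]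
    rw [hset]
    refine Finset.sum_congr rfl (fun ij hij => ?_)
    have hsum : ij.1 + ij.2 = n := (Finset.mem_antidiagonal.mp hij).2.2
    rw [CU_twistFun_coeff, CU_twistFun_coeff, ← hsum, zpow_add₀ hζ]
    ring
  map_zero' := by
    ext n
    simp
  map_add' f g := by
    ext n
    simp [mul_add]

@[simp]
theorem CU_twist_coeff (ζ : L) (hζ : ζ ≠ 0) (f : LaurentSeries L) (n : ℤ) :
    (CU_twist ζ hζ f).coeff n = ζ ^ n * f.coeff n := rfl

theorem CU_twist_C (ζ : L) (hζ : ζ ≠ 0) (c : L) :
    CU_twist ζ hζ (HahnSeries.C c) = HahnSeries.C c := by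
  ext n
  rw [CU_twist_coeff]
  show ζ ^ n * (HahnSeries.single (0 : ℤ) c).coeff n = (HahnSeries.single (0 : ℤ) c).coeff n
  by_cases h : n = 0
  · subst h; simp
  · rw [HahnSeries.coeff_single_of_ne h, mul_zero]

/-- the twist as a `K`-algebra endomorphism. -/
noncomputable def CU_twistAlg (K : Type*) [Field K] [Algebra K L] (ζ : L) (hζ : ζ ≠ 0) :
    LaurentSeries L →ₐ[K] LaurentSeries L where
  __ := CU_twist ζ hζ
  commutes' c := by
    show CU_twist ζ hζ (algebraMap K (LaurentSeries L) c) = algebraMap K (LaurentSeries L) c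
    rw [CU_algebraMap_eq_C, CU_twist_C]

@[simp]
theorem CU_twistAlg_coeff (K : Type*) [Field K] [Algebra K L] (ζ : L) (hζ : ζ ≠ 0)
    (f : LaurentSeries L) (n : ℤ) :
    (CU_twistAlg K ζ hζ f).coeff n = ζ ^ n * f.coeff n := rfl

/-- a series is fixed by the twist iff its exponents are killed by `ζ`. -/
theorem CU_twist_eq_self_iff (ζ : L) (hζ : ζ ≠ 0) (f : LaurentSeries L) :
    CU_twist ζ hζ f = f ↔ ∀ n : ℤ, f.coeff n ≠ 0 → ζ ^ n = 1 := by
  constructor
  · intro h n hn
    have h1 := congrArg (fun g : LaurentSeries L => g.coeff n) h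
    simp only [CU_twist_coeff] at h1
    have h2 : (ζ ^ n - 1) * f.coeff n = 0 := by rw [sub_mul, one_mul, h1, sub_self]
    rcases mul_eq_zero.mp h2 with h3 | h3
    · exact sub_eq_zero.mp h3
    · exact absurd h3 hn
  · intro h
    ext n
    rw [CU_twist_coeff]
    by_cases hn : f.coeff n = 0
    · rw [hn, mul_zero]
    · rw [h n hn, one_mul]

theorem CU_twist_injective (ζ : L) (hζ : ζ ≠ 0) : Function.Injective (CU_twist ζ hζ) :=
  (CU_twist ζ hζ).injective

end Twist

section Perm

variable {K E L : Type*} [Field K] [Field E] [Algebra K E] [Field L] [Algebra K L]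

/-- a complete family of embeddings is stable under every `K`-algebra endomorphism of `L((t))`
fixing `x₀`. -/
theorem CU_exists_perm_of_algHom {x : E} [FiniteDimensional K⟮x⟯ E]
    [Algebra.IsSeparable K⟮x⟯ E]
    {X : Type*} [Finite X] (emb : X → (E →ₐ[K] LaurentSeries L))
    (hinj : Function.Injective emb)
    (x₀ : LaurentSeries L) (hx₀ : ∀ γ, emb γ x = x₀)
    (hcard : Nat.card X = Module.finrank K⟮x⟯ E)
    (θ : LaurentSeries L →ₐ[K] LaurentSeries L) (hθ : θ x₀ = x₀) :
    ∃ τ : Equiv.Perm X, ∀ γ f, emb (τ γ) f = θ (emb γ f) := by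
  classical
  have hex : ∀ γ : X, ∃ γ' : X, ∀ f, emb γ' f = θ (emb γ f) := by
    intro γ
    set ι : K⟮x⟯ →+* LaurentSeries L :=
      (emb γ : E →+* LaurentSeries L).comp (algebraMap K⟮x⟯ E) with hι
    let algΩb : Algebra K⟮x⟯ (AlgebraicClosure (LaurentSeries L)) :=
      ((algebraMap (LaurentSeries L) (AlgebraicClosure (LaurentSeries L))).comp ι).toAlgebra
    have hbij := CU_emb_bijective emb hinj x₀ hx₀ hcard γ
    have hres : ∀ r : K⟮x⟯, (θ.comp (emb γ)) (algebraMap K⟮x⟯ E r) = ι r := fun r =>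
      CU_emb_eq_on (θ.comp (emb γ)) (emb γ)
        (by rw [AlgHom.comp_apply, hx₀ γ, hθ]) r
    let σ : E →ₐ[K⟮x⟯] AlgebraicClosure (LaurentSeries L) :=
      { toRingHom := (algebraMap (LaurentSeries L) (AlgebraicClosure (LaurentSeries L))).comp
          ((θ.comp (emb γ) : E →ₐ[K] LaurentSeries L) : E →+* LaurentSeries L)
        commutes' := fun r => by
          show algebraMap (LaurentSeries L) (AlgebraicClosure (LaurentSeries L))
            ((θ.comp (emb γ)) (algebraMap K⟮x⟯ E r)) = _
          rw [hres r]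
          rfl }
    obtain ⟨γ', hγ'⟩ := hbij σ
    refine ⟨γ', fun f => ?_⟩
    have hinjΩ : Function.Injective
        (algebraMap (LaurentSeries L) (AlgebraicClosure (LaurentSeries L))) :=
      (algebraMap (LaurentSeries L) (AlgebraicClosure (LaurentSeries L))).injective
    exact (hinjΩ (hγ' f)).symm
  choose t ht using hex
  have htinj : Function.Injective t := by
    intro γ γ' h
    apply hinj
    ext f : 1
    have h1 := ht γ f
    have h2 := ht γ' f
    rw [h] at h1
    exact (θ : LaurentSeries L →+* LaurentSeries L).injective (h1.symm.trans h2)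
  exact ⟨Equiv.ofBijective t (Finite.injective_iff_bijective.mp htinj), ht⟩

/-- **a complete family is twist-stable**: the hypothesis `htw` of `CU_emb_count`. -/
theorem CU_exists_perm {x : E} [FiniteDimensional K⟮x⟯ E] [Algebra.IsSeparable K⟮x⟯ E]
    {X : Type*} [Finite X] (emb : X → (E →ₐ[K] LaurentSeries L))
    (hinj : Function.Injective emb)
    (x₀ : LaurentSeries L) (hx₀ : ∀ γ, emb γ x = x₀)
    (hcard : Nat.card X = Module.finrank K⟮x⟯ E)
    (ζ : L) (hζ : ζ ≠ 0) (hinv : ∀ n : ℤ, x₀.coeff n ≠ 0 → ζ ^ n = 1) :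
    ∃ τ : Equiv.Perm X, ∀ γ f (n : ℤ), (emb (τ γ) f).coeff n = ζ ^ n * (emb γ f).coeff n := by
  obtain ⟨τ, hτ⟩ := CU_exists_perm_of_algHom emb hinj x₀ hx₀ hcard (CU_twistAlg K ζ hζ)
    ((CU_twist_eq_self_iff ζ hζ x₀).mpr hinv)
  exact ⟨τ, fun γ f n => by rw [hτ γ f]; rfl⟩

end Perm

end Fermat.Agent.Lib
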