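import Mathlib
import Fermat.Prelude.Def_ModularCurve_X0
import Fermat.Prelude.Def_ModularCurve_LaurentCoeff

/-!
# The derivation `θ = q · d/dq` on Laurent series, and `ℓ`-th powers in characteristic `ℓ`

* `LT_theta : Derivation R (LaurentSeries R) (LaurentSeries R)`, `(θ f).coeff n = n * f.coeff n`.
* `LT_pow_char` : in characteristic `ℓ`, `h ^ ℓ = qExpand ℓ (coeffMap Frobenius h)`.
* `LT_coeff_pow_char_mul`, `LT_coeff_pow_char_of_not_dvd` : the coefficients of `h ^ ℓ`.
* `LT_theta_pow_char` : `θ (h ^ ℓ) = 0`.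
* `LT_exists_pow_eq` : over a perfect field of characteristic `ℓ`, `θ f = 0 → ∃ h, h ^ ℓ = f`.
-/

set_option autoImplicit false

noncomputable section

namespace Fermat.Agent.Lib

open HahnSeries ModularCurve

section Theta

variable {R : Type*} [CommRing R]

/-- `θ = q d/dq` on Laurent series, as a function. -/
def LT_thetaFun (f : LaurentSeries R) : LaurentSeries R where
  coeff n := (n : R) * f.coeff n
  isPWO_support' := f.isPWO_support.mono (fun n hn => by
    simp only [Function.mem_support, ne_eq] at hn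
    rw [HahnSeries.mem_support]
    intro h
    apply hn
    rw [h, mul_zero])

@[simp]
theorem LT_thetaFun_coeff (f : LaurentSeries R) (n : ℤ) :
    (LT_thetaFun f).coeff n = (n : R) * f.coeff n := rfl

theorem LT_support_thetaFun (f : LaurentSeries R) : (LT_thetaFun f).support ⊆ f.support := by
  intro n hn
  rw [HahnSeries.mem_support] at hn ⊢
  intro h
  apply hn
  rw [LT_thetaFun_coeff, h, mul_zero]

theorem LT_thetaFun_mul (f g : LaurentSeries R) :
    LT_thetaFun (f * g) = f * LT_thetaFun g + g * LT_thetaFun f := by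
  ext n
  rw [LT_thetaFun_coeff, HahnSeries.coeff_add, HahnSeries.coeff_mul,
    HahnSeries.coeff_mul_right' g.isPWO_support (LT_support_thetaFun g), mul_comm g,
    HahnSeries.coeff_mul_left' f.isPWO_support (LT_support_thetaFun f), Finset.mul_sum,
    ← Finset.sum_add_distrib]
  refine Finset.sum_congr rfl ?_
  rintro ⟨i, j⟩ hij
  rw [Finset.mem_antidiagonal] at hij
  simp only [LT_thetaFun_coeff]
  rw [← hij.2.2]
  push_cast
  ring

theorem LT_algebraMap_eq (c : R) :
    algebraMap R (LaurentSeries R) c = HahnSeries.single 0 c := by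
  have h1 : algebraMap R (PowerSeries R) c = PowerSeries.C c := by simp
  rw [HahnSeries.algebraMap_apply', h1, HahnSeries.ofPowerSeries_C]
  rfl

theorem LT_coeff_algebraMap_mul (c : R) (f : LaurentSeries R) (n : ℤ) :
    (algebraMap R (LaurentSeries R) c * f).coeff n = c * f.coeff n := by
  rw [LT_algebraMap_eq, HahnSeries.coeff_single_zero_mul]

/-- `θ = q d/dq` as a derivation of `R((q))`.  The `R`-module structure on the target is the one
coming from the `R`-ALGEBRA structure of `R((q))` (so that `IsScalarTower` instances are found);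
it is not the coefficientwise `HahnSeries` module instance (they agree propositionally only). -/
def LT_theta : @Derivation R (LaurentSeries R) (LaurentSeries R) _ _ _ _ _ Algebra.toModule :=
  letI : Module R (LaurentSeries R) := Algebra.toModule
  { toFun := LT_thetaFun
    map_add' := fun f g => by
      ext n
      simp [mul_add]
    map_smul' := fun c f => by
      ext n
      rw [Algebra.smul_def, RingHom.id_apply, Algebra.smul_def, LT_thetaFun_coeff,
        LT_coeff_algebraMap_mul, LT_coeff_algebraMap_mul, LT_thetaFun_coeff]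
      ring
    map_one_eq_zero' := by
      ext n
      show (LT_thetaFun (1 : LaurentSeries R)).coeff n = 0
      rw [LT_thetaFun_coeff, HahnSeries.coeff_one]
      split_ifs with h
      · rw [h]; simp
      · simp
    leibniz' := fun f g => by
      show LT_thetaFun (f * g) = f • LT_thetaFun g + g • LT_thetaFun f
      rw [smul_eq_mul, smul_eq_mul, LT_thetaFun_mul] }

@[simp]
theorem LT_theta_coeff (f : LaurentSeries R) (n : ℤ) :
    (LT_theta f).coeff n = (n : R) * f.coeff n := rfl

theorem LT_theta_eq_zero_iff (f : LaurentSeries R) :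
    LT_theta f = 0 ↔ ∀ n : ℤ, (n : R) * f.coeff n = 0 := by
  constructor
  · intro h n
    rw [← LT_theta_coeff, h, HahnSeries.coeff_zero]
  · intro h
    ext n
    rw [LT_theta_coeff, h, HahnSeries.coeff_zero]

theorem LT_theta_ne_zero_of_coeff {f : LaurentSeries R} (n : ℤ)
    (h : (n : R) * f.coeff n ≠ 0) : LT_theta f ≠ 0 := by
  intro h0
  exact h ((LT_theta_eq_zero_iff f).1 h0 n)

/-- `θ` commutes with coefficientwise maps. -/
theorem LT_theta_coeffMap {S : Type*} [CommRing S] (φ : R →+* S) (f : LaurentSeries R) :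
    LT_theta (coeffMap φ f) = coeffMap φ (LT_theta f) := by
  ext n
  simp

end Theta

section Frob

variable {R : Type*} [CommRing R]

theorem LT_coeffMap_ofPowerSeries {S : Type*} [CommRing S] (f : R →+* S) (p : PowerSeries R) :
    coeffMap f (HahnSeries.ofPowerSeries ℤ R p) = HahnSeries.ofPowerSeries ℤ S (p.map f) := by
  ext k
  rw [coeffMap_coeff]
  rcases le_or_gt 0 k with hk | hk
  · lift k to ℕ using hk
    rw [HahnSeries.ofPowerSeries_apply_coeff, HahnSeries.ofPowerSeries_apply_coeff,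
      PowerSeries.coeff_map]
  · rw [ofPowerSeries_coeff_of_neg _ hk, ofPowerSeries_coeff_of_neg _ hk, map_zero]

theorem LT_qExpand_ofPowerSeries (N : ℕ) [NeZero N] (p : PowerSeries R) :
    qExpand R N (HahnSeries.ofPowerSeries ℤ R p) =
      HahnSeries.ofPowerSeries ℤ R (PowerSeries.expand N (NeZero.ne N) p) := by
  have hN : (0 : ℤ) < (N : ℤ) := by exact_mod_cast Nat.pos_of_ne_zero (NeZero.ne N)
  ext n
  by_cases hdvd : (N : ℤ) ∣ n
  · obtain ⟨m, rfl⟩ := hdvd
    rw [qExpand_coeff_mul]
    rcases lt_or_ge m 0 with hm | hm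
    · rw [ofPowerSeries_coeff_of_neg _ hm, ofPowerSeries_coeff_of_neg _ (by nlinarith)]
    · obtain ⟨m', rfl⟩ := Int.eq_ofNat_of_zero_le hm
      rw [HahnSeries.ofPowerSeries_apply_coeff,
        show ((N : ℤ) * (m' : ℤ)) = ((N * m' : ℕ) : ℤ) by push_cast; ring,
        HahnSeries.ofPowerSeries_apply_coeff, PowerSeries.coeff_expand_mul]
  · rw [qExpand_coeff_of_not_dvd N _ hdvd]
    rcases lt_or_ge n 0 with hn | hn
    · rw [ofPowerSeries_coeff_of_neg _ hn]
    · obtain ⟨n', rfl⟩ := Int.eq_ofNat_of_zero_le hn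
      rw [HahnSeries.ofPowerSeries_apply_coeff, PowerSeries.coeff_expand_of_not_dvd]
      intro h
      exact hdvd (by exact_mod_cast h)

variable (ℓ : ℕ) [Fact ℓ.Prime] [CharP R ℓ]

/-- In characteristic `ℓ`: `h ^ ℓ = (Frobenius on coefficients)(h)(q ^ ℓ)`. -/
theorem LT_pow_char [NeZero ℓ] (h : LaurentSeries R) :
    h ^ ℓ = qExpand R ℓ (coeffMap (frobenius R ℓ) h) := by
  have hℓ : ℓ ≠ 0 := NeZero.ne ℓ
  conv_lhs => rw [← LaurentSeries.single_order_mul_powerSeriesPart h]
  conv_rhs => rw [← LaurentSeries.single_order_mul_powerSeriesPart h]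
  rw [mul_pow, map_mul, map_mul, HahnSeries.single_pow, coeffMap_single, qExpand_single,
    one_pow, map_one (frobenius R ℓ), nsmul_eq_mul]
  congr 1
  rw [LT_coeffMap_ofPowerSeries, LT_qExpand_ofPowerSeries, ← map_pow]
  congr 1
  rw [← PowerSeries.map_expand]
  exact (MvPowerSeries.map_frobenius_expand ℓ hℓ).symm

theorem LT_coeff_pow_char_mul (h : LaurentSeries R) (m : ℤ) :
    (h ^ ℓ).coeff ((ℓ : ℤ) * m) = (h.coeff m) ^ ℓ := by
  have : NeZero ℓ := ⟨(Fact.out : ℓ.Prime).ne_zero⟩
  rw [LT_pow_char ℓ h, qExpand_coeff_mul, coeffMap_coeff, frobenius_def]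

theorem LT_coeff_pow_char_of_not_dvd (h : LaurentSeries R) {n : ℤ} (hn : ¬ (ℓ : ℤ) ∣ n) :
    (h ^ ℓ).coeff n = 0 := by
  have : NeZero ℓ := ⟨(Fact.out : ℓ.Prime).ne_zero⟩
  rw [LT_pow_char ℓ h, qExpand_coeff_of_not_dvd ℓ _ hn]

theorem LT_theta_pow_char (h : LaurentSeries R) : LT_theta (h ^ ℓ) = 0 := by
  rw [LT_theta_eq_zero_iff]
  intro n
  by_cases hn : (ℓ : ℤ) ∣ n
  · rw [(CharP.intCast_eq_zero_iff R ℓ n).2 hn, zero_mul]
  · rw [LT_coeff_pow_char_of_not_dvd ℓ h hn, mul_zero]

end Frob

section Root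

variable {k : Type*} [Field k] (ℓ : ℕ) [Fact ℓ.Prime] [CharP k ℓ] [PerfectField k]

/-- Over a perfect field of characteristic `ℓ`, a Laurent series killed by `θ` is an `ℓ`-th
power. -/
theorem LT_exists_pow_eq {f : LaurentSeries k} (hf : LT_theta f = 0) :
    ∃ h : LaurentSeries k, h ^ ℓ = f := by
  have hℓ : ℓ.Prime := Fact.out
  have hℓ1 : (1 : ℤ) ≤ (ℓ : ℤ) := by exact_mod_cast hℓ.one_le
  have hbdd : BddBelow (Function.support
      (fun m : ℤ => (frobeniusEquiv k ℓ).symm (f.coeff ((ℓ : ℤ) * m)))) := by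
    refine ⟨min f.order 0, ?_⟩
    intro m hm
    rw [Function.mem_support] at hm
    by_contra hlt
    rw [not_le] at hlt
    apply hm
    have h1 : (ℓ : ℤ) * m < f.order := by
      have hm0 : m < 0 := lt_of_lt_of_le hlt (min_le_right _ _)
      have hmo : m < f.order := lt_of_lt_of_le hlt (min_le_left _ _)
      nlinarith
    rw [HahnSeries.coeff_eq_zero_of_lt_order h1, map_zero]
  refine ⟨HahnSeries.ofSuppBddBelow _ hbdd, ?_⟩
  ext n
  by_cases hn : (ℓ : ℤ) ∣ n
  · obtain ⟨m, rfl⟩ := hn
    rw [LT_coeff_pow_char_mul]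
    show ((frobeniusEquiv k ℓ).symm (f.coeff ((ℓ : ℤ) * m))) ^ ℓ = _
    rw [← frobenius_def, frobenius_apply_frobeniusEquiv_symm]
  · rw [LT_coeff_pow_char_of_not_dvd ℓ _ hn]
    have h1 := (LT_theta_eq_zero_iff f).1 hf n
    rcases mul_eq_zero.1 h1 with h2 | h2
    · exact absurd ((CharP.intCast_eq_zero_iff k ℓ n).1 h2) hn
    · exact h2.symm

end Root

end Fermat.Agent.Lib
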