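import Mathlib
import Fermat.Agent.S24.CyclicCusp

/-!
# TRACK 3, package CUSP (abstract part D, generic lemmas)

* `CU_card_fiber` : the number of extensions of an embedding `σ : E → Ω` to a finite separable
  extension `E' / E` all of whose minimal polynomials split in `Ω` is `[E' : E]`.
* `CU_finrank_tower` : `[E : K(x)] · [E' : E] = [E' : K(x')]`, `x'` the image of `x` in `E'`.
* `CU_card_orbits_eq_sum` : `#(X / G) = ∑_x 1 / |G x|`.
* `CU_minimalPeriod_eq_lcm` : a point whose stabilising powers are the common multiples of `a`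
  and `b` has minimal period `lcm a b`.
-/

set_option autoImplicit false

open IntermediateField

namespace Fermat.Agent.Lib

section Fiber

variable {E E' Ω : Type*} [Field E] [Field E'] [Field Ω] [Algebra E E']
  [FiniteDimensional E E'] [Algebra.IsSeparable E E']

/-- the extensions of `σ` to `E'`. -/
theorem CU_card_fiber (σ : E →+* Ω) (hsp : ∀ y : E', ((minpoly E y).map σ).Splits) :
    Nat.card {σ' : E' →+* Ω // σ'.comp (algebraMap E E') = σ} = Module.finrank E E' := by
  let _ : Algebra E Ω := σ.toAlgebra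
  have e : {σ' : E' →+* Ω // σ'.comp (algebraMap E E') = σ} ≃ (E' →ₐ[E] Ω) :=
    { toFun := fun s =>
        { toRingHom := s.1
          commutes' := fun r => congrArg (fun φ : E →+* Ω => φ r) s.2 }
      invFun := fun φ => ⟨φ.toRingHom, by ext r; exact φ.commutes r⟩
      left_inv := fun s => rfl
      right_inv := fun φ => rfl }
  rw [Nat.card_congr e]
  exact AlgHom.natCard_of_splits E E' Ω hsp

end Fiber

section Tower

variable {K E E' : Type*} [Field K] [Field E] [Field E'] [Algebra K E] [Algebra K E']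
  [Algebra E E'] [IsScalarTower K E E']

/-- the image of `K(x)` in `E'` is `K(x')`. -/
theorem CU_map_adjoin (x : E) :
    (K⟮x⟯).map (IsScalarTower.toAlgHom K E E') = K⟮algebraMap E E' x⟯ := by
  rw [IntermediateField.adjoin_map, Set.image_singleton]
  rfl

/-- the tower law through `K(x) ≅ K(x')`. -/
theorem CU_finrank_tower (x : E) :
    Module.finrank K⟮x⟯ E * Module.finrank E E' = Module.finrank K⟮algebraMap E E' x⟯ E' := by
  rw [Module.finrank_mul_finrank]
  let i : K⟮x⟯ ≃+* K⟮algebraMap E E' x⟯ :=
    ((IntermediateField.equivMap K⟮x⟯ (IsScalarTower.toAlgHom K E E')).trans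
      (IntermediateField.equivOfEq (CU_map_adjoin (K := K) (E' := E') x))).toRingEquiv
  refine Algebra.finrank_eq_of_equiv_equiv i (RingEquiv.refl E') ?_
  ext r
  rfl

end Tower

section Orbits

open MulAction

/-- the number of orbits is the sum of the reciprocals of the orbit sizes. -/
theorem CU_card_orbits_eq_sum {G X : Type*} [Group G] [MulAction G X] [Fintype X] :
    (Nat.card (orbitRel.Quotient G X) : ℚ) = ∑ x : X, (1 : ℚ) / (Nat.card (orbit G x) : ℚ) := by
  classical
  have : Fintype (orbitRel.Quotient G X) := Fintype.ofFinite _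
  have : ∀ ω : orbitRel.Quotient G X, Fintype ω.orbit := fun ω => Fintype.ofFinite _
  rw [← Fintype.sum_equiv (selfEquivSigmaOrbits' G X).symm
    (fun z : Σ ω : orbitRel.Quotient G X, ω.orbit =>
      (1 : ℚ) / (Nat.card (orbit G (z.2 : X)) : ℚ))
    (fun x => (1 : ℚ) / (Nat.card (orbit G x) : ℚ)) (fun z => by
      congr 3)]
  rw [Fintype.sum_sigma]
  have hω : ∀ ω : orbitRel.Quotient G X,
      ∑ y : ω.orbit, (1 : ℚ) / (Nat.card (orbit G (y : X)) : ℚ) = 1 := by
    intro ω
    have h1 : ∀ y : ω.orbit, orbit G (y : X) = ω.orbit := by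
      intro y
      have := congrArg orbitRel.Quotient.orbit (orbitRel.Quotient.mem_orbit.mp y.2)
      rwa [orbitRel.Quotient.orbit_mk] at this
    have hne : Nonempty ω.orbit := by
      induction ω using Quotient.inductionOn' with
      | h a => exact ⟨⟨a, orbitRel.Quotient.mem_orbit.mpr rfl⟩⟩
    have h2 : ∀ y : ω.orbit, (1 : ℚ) / (Nat.card (orbit G (y : X)) : ℚ) =
        (1 : ℚ) / (Nat.card ω.orbit : ℚ) := by
      intro y
      rw [h1 y]
    simp only [h2, Finset.sum_const, Finset.card_univ, nsmul_eq_mul]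
    rw [Nat.card_eq_fintype_card]
    have hpos : (0 : ℚ) < (Fintype.card ω.orbit : ℚ) := by
      exact_mod_cast Fintype.card_pos
    field_simp
  simp only [hω, Finset.sum_const, Finset.card_univ, nsmul_eq_mul, mul_one]
  rw [Nat.card_eq_fintype_card]

/-- minimal period from the set of periods. -/
theorem CU_minimalPeriod_eq_of_dvd_iff {X : Type*} (f : X → X) (z : X) (m : ℕ)
    (h : ∀ i : ℕ, f^[i] z = z ↔ m ∣ i) : Function.minimalPeriod f z = m := by
  apply Nat.dvd_antisymm
  · have : Function.IsPeriodicPt f m z := (h m).mpr dvd_rfl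
    exact this.minimalPeriod_dvd
  · exact (h _).mp (Function.isPeriodicPt_minimalPeriod f z)

/-- finsum version of `CU_card_orbits_eq_sum`. -/
theorem CU_card_orbits_eq_finsum {G X : Type*} [Group G] [MulAction G X] [Finite X] :
    (Nat.card (orbitRel.Quotient G X) : ℚ) =
      ∑ᶠ x : X, (1 : ℚ) / (Nat.card (orbit G x) : ℚ) := by
  have := Fintype.ofFinite X
  rw [finsum_eq_sum_of_fintype]
  exact CU_card_orbits_eq_sum

/-- a finsum over a sigma type of a function of the first component. -/
theorem CU_finsum_sigma_fst {X : Type*} [Finite X] (F : X → Type*) [∀ γ, Finite (F γ)]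
    (g : X → ℚ) :
    ∑ᶠ z : (Σ γ, F γ), g z.1 = ∑ᶠ γ : X, (Nat.card (F γ) : ℚ) * g γ := by
  classical
  have := Fintype.ofFinite X
  have : ∀ γ, Fintype (F γ) := fun γ => Fintype.ofFinite _
  rw [finsum_eq_sum_of_fintype, finsum_eq_sum_of_fintype, Fintype.sum_sigma]
  refine Finset.sum_congr rfl (fun γ _ => ?_)
  simp only [Finset.sum_const, Finset.card_univ, nsmul_eq_mul, Nat.card_eq_fintype_card]

/-- minimal period of a group element from the set of its stabilising powers. -/
theorem CU_minimalPeriod_eq_of_pow_iff {G X : Type*} [Group G] [MulAction G X] (a : G) (z : X)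
    (m : ℕ) (h : ∀ i : ℕ, a ^ i • z = z ↔ m ∣ i) :
    Function.minimalPeriod (a • ·) z = m := by
  apply Nat.dvd_antisymm
  · exact MulAction.pow_smul_eq_iff_minimalPeriod_dvd.mp ((h m).mpr dvd_rfl)
  · exact (h _).mp (MulAction.pow_smul_eq_iff_minimalPeriod_dvd.mpr dvd_rfl)

end Orbits

end Fermat.Agent.Lib
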