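import Mathlib
import Fermat.Agent.Lib.CuspTwist
import Fermat.Agent.Lib.CuspExtA

/-!
# TRACK 3, package CUSP (abstract part D): the extension step

`E / K(x)` with a complete twist-stable family `emb : X → (E →ₐ[K] L((t)))`, and `E' / E` finite
separable, generated by a set `S` whose conjugates in `L((t))` have exact twist-period `M₀`.
Then (`CU_ext_count`)

  `#{places of E' over x = 0} = [E' : E] · ∑_{γ ∈ X} 1 / lcm(|⟨τ⟩ γ|, M₀)`.
-/

set_option autoImplicit false
set_option linter.unusedSectionVars false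

open AlgebraicCurve IntermediateField

namespace Fermat.Agent.Lib

open Fermat.Agent.S24

section Ext

variable {K E E' L : Type} [Field K] [Field E] [Algebra K E] [Field E'] [Algebra K E']
  [Algebra E E'] [IsScalarTower K E E'] [Field L] [Algebra K L]

/-- index type of the extended family: pairs (`γ`, an extension of `emb γ` to `E'`). -/
abbrev CU_Xext (E' : Type) [Field E'] [Algebra E E'] {X : Type}
    (emb : X → (E →ₐ[K] LaurentSeries L)) : Type :=
  Σ γ : X, {σ' : E' →+* LaurentSeries L //
    σ'.comp (algebraMap E E') = (emb γ : E →+* LaurentSeries L)}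

/-- the extended family of embeddings. -/
noncomputable def CU_embExt {X : Type} (emb : X → (E →ₐ[K] LaurentSeries L))
    (z : CU_Xext E' emb) : E' →ₐ[K] LaurentSeries L :=
  { toRingHom := z.2.1
    commutes' := fun c => by
      show z.2.1 (algebraMap K E' c) = _
      rw [IsScalarTower.algebraMap_apply K E E']
      have := congrArg (fun φ : E →+* LaurentSeries L => φ (algebraMap K E c)) z.2.2
      simp only [RingHom.comp_apply] at this
      rw [this]
      exact (emb z.1).commutes c }

theorem CU_embExt_algebraMap {X : Type} (emb : X → (E →ₐ[K] LaurentSeries L))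
    (z : CU_Xext E' emb) (e : E) : CU_embExt emb z (algebraMap E E' e) = emb z.1 e :=
  congrArg (fun φ : E →+* LaurentSeries L => φ e) z.2.2

theorem CU_embExt_injective {X : Type} (emb : X → (E →ₐ[K] LaurentSeries L))
    (hinj : Function.Injective emb) : Function.Injective (CU_embExt (E' := E') emb) := by
  rintro ⟨γ, σ, hσ⟩ ⟨γ', σ', hσ'⟩ h
  have h1 : σ = σ' := by
    ext y : 1
    exact congrArg (fun φ : E' →ₐ[K] LaurentSeries L => φ y) h
  subst h1
  have h2 : γ = γ' := by
    apply hinj
    ext e : 1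
    have a := congrArg (fun φ : E →+* LaurentSeries L => φ e) hσ
    have b := congrArg (fun φ : E →+* LaurentSeries L => φ e) hσ'
    exact a.symm.trans b
  subst h2
  rfl

theorem CU_card_Xext [FiniteDimensional E E'] [Algebra.IsSeparable E E']
    {X : Type} [Finite X] (emb : X → (E →ₐ[K] LaurentSeries L))
    (hsp : ∀ γ (y : E'), ((minpoly E y).map (emb γ : E →+* LaurentSeries L)).Splits) :
    Finite (CU_Xext E' emb) ∧
      Nat.card (CU_Xext E' emb) = Nat.card X * Module.finrank E E' := by
  classical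
  have := Fintype.ofFinite X
  have hfib : ∀ γ : X, Nat.card {σ' : E' →+* LaurentSeries L //
      σ'.comp (algebraMap E E') = (emb γ : E →+* LaurentSeries L)} = Module.finrank E E' :=
    fun γ => CU_card_fiber _ (hsp γ)
  have hfin : ∀ γ : X, Finite {σ' : E' →+* LaurentSeries L //
      σ'.comp (algebraMap E E') = (emb γ : E →+* LaurentSeries L)} := fun γ =>
    Nat.finite_of_card_ne_zero (by rw [hfib γ]; exact Module.finrank_pos.ne')
  refine ⟨inferInstance, ?_⟩
  rw [Nat.card_sigma]
  simp only [hfib, Finset.sum_const, Finset.card_univ, smul_eq_mul, Nat.card_eq_fintype_card]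

/-- the equaliser argument: two ring homomorphisms `E' → Ω` which agree on `E` and on a
generating set agree. -/
theorem CU_ringHom_ext_of_adjoin {Ω : Type*} [Field Ω] (φ ψ : E' →+* Ω)
    (S : Set E') (hS : IntermediateField.adjoin E S = ⊤)
    (hE : ∀ e : E, φ (algebraMap E E' e) = ψ (algebraMap E E' e))
    (hSeq : ∀ s ∈ S, φ s = ψ s) : φ = ψ := by
  let T : IntermediateField E E' :=
    (RingHom.eqLocusField φ ψ).toIntermediateField (fun e => hE e)
  have hle : IntermediateField.adjoin E S ≤ T :=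
    IntermediateField.adjoin_le_iff.mpr (fun s hs => hSeq s hs)
  ext y
  have : y ∈ T := hle (hS ▸ IntermediateField.mem_top)
  exact this

end Ext

section Main

variable {K E E' L : Type} [Field K] [IsAlgClosed K] [Field E] [Algebra K E] [Field E']
  [Algebra K E'] [Algebra E E'] [IsScalarTower K E E'] [Field L] [Algebra K L]

/-- periods in terms of coefficient identities. -/
theorem CU_pow_fix_iff {F : Type*} [Field F] [Algebra K F] {Y : Type*}
    (embY : Y → (F →ₐ[K] LaurentSeries L)) (hinjY : Function.Injective embY)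
    (τY : Equiv.Perm Y) {ζ : L} (hζ0 : ζ ≠ 0)
    (htwY : ∀ γ f (n : ℤ), (embY (τY γ) f).coeff n = ζ ^ n * (embY γ f).coeff n)
    (z : Y) (i : ℕ) :
    τY ^ i • z = z ↔
      ∀ (y : F) (n : ℤ), ζ ^ ((i : ℤ) * n) * (embY z y).coeff n = (embY z y).coeff n := by
  constructor
  · intro h y n
    have h1 := CU_twist_pow embY τY hζ0 htwY i z y n
    have h2 : (τY ^ i) z = z := h
    rw [h2] at h1
    exact h1.symm
  · intro h
    show (τY ^ i) z = z
    apply hinjY
    ext y n
    rw [CU_twist_pow embY τY hζ0 htwY i z y n, h y n]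

/-- **CUSP, extension step.**  The number of places over `x = 0` of a finite separable extension
`E' = E(S)` whose generators have conjugates of exact twist-period `M₀`. -/
theorem CU_ext_count {x : E} [FiniteDimensional K⟮x⟯ E] [Algebra.IsSeparable K⟮x⟯ E]
    (hx' : Transcendental K (algebraMap E E' x))
    [FiniteDimensional K⟮algebraMap E E' x⟯ E'] [Algebra.IsSeparable K⟮algebraMap E E' x⟯ E']
    [FiniteDimensional E E'] [Algebra.IsSeparable E E']
    {X : Type} [Finite X] (emb : X → (E →ₐ[K] LaurentSeries L))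
    (hinj : Function.Injective emb)
    (x₀ : LaurentSeries L) (hx₀ : ∀ γ, emb γ x = x₀) (M₁ : ℕ) (hM₁ : 0 < M₁)
    (hx₀M : x₀.order = M₁)
    (hcard : Nat.card X = Module.finrank K⟮x⟯ E)
    (τ : Equiv.Perm X) (ζ : L) (hζ : IsPrimitiveRoot ζ M₁)
    (htw : ∀ γ f (n : ℤ), (emb (τ γ) f).coeff n = ζ ^ n * (emb γ f).coeff n)
    (hsp : ∀ γ (y : E'), ((minpoly E y).map (emb γ : E →+* LaurentSeries L)).Splits)
    (S : Set E') (hS : IntermediateField.adjoin E S = ⊤) (hSne : S.Nonempty) (M₀ : ℕ)
    (hfree : ∀ σ' : E' →ₐ[K] LaurentSeries L, σ' (algebraMap E E' x) = x₀ → ∀ s ∈ S,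
      ∀ i : ℕ, (∀ n : ℤ, ζ ^ ((i : ℤ) * n) * (σ' s).coeff n = (σ' s).coeff n) ↔ M₀ ∣ i) :
    (Nat.card {v : Place K E' // 0 < v.ord (algebraMap E E' x)} : ℚ) =
      (Module.finrank E E' : ℚ) *
        ∑ᶠ γ : X, (1 : ℚ) /
          ((Nat.lcm (Nat.card (MulAction.orbit (Subgroup.zpowers τ) γ)) M₀ : ℕ) : ℚ) := by
  classical
  have hζ0 : ζ ≠ 0 := hζ.ne_zero hM₁.ne'
  obtain ⟨hfinX', hcardX'⟩ := CU_card_Xext (E' := E') emb hsp
  have hfib : ∀ γ : X, Nat.card {σ' : E' →+* LaurentSeries L //
      σ'.comp (algebraMap E E') = (emb γ : E →+* LaurentSeries L)} = Module.finrank E E' :=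
    fun γ => CU_card_fiber _ (hsp γ)
  have hfin : ∀ γ : X, Finite {σ' : E' →+* LaurentSeries L //
      σ'.comp (algebraMap E E') = (emb γ : E →+* LaurentSeries L)} := fun γ =>
    Nat.finite_of_card_ne_zero (by rw [hfib γ]; exact Module.finrank_pos.ne')
  have hXpos : 0 < Nat.card X := by rw [hcard]; exact Module.finrank_pos
  have hXne : Nonempty X := (Nat.card_pos_iff.mp hXpos).1
  have hinj' := CU_embExt_injective (E' := E') emb hinj
  have hx₀' : ∀ z : CU_Xext E' emb, CU_embExt emb z (algebraMap E E' x) = x₀ := fun z => by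
    rw [CU_embExt_algebraMap, hx₀]
  have hcard' : Nat.card (CU_Xext E' emb) = Module.finrank K⟮algebraMap E E' x⟯ E' := by
    rw [hcardX', hcard, CU_finrank_tower]
  have hinv : ∀ n : ℤ, x₀.coeff n ≠ 0 → ζ ^ n = 1 := by
    intro n hn
    obtain ⟨γ⟩ := hXne
    have h := htw γ x n
    rw [hx₀, hx₀] at h
    have h2 : (ζ ^ n - 1) * x₀.coeff n = 0 := by rw [sub_mul, one_mul, ← h, sub_self]
    rcases mul_eq_zero.mp h2 with h3 | h3
    · exact sub_eq_zero.mp h3
    · exact absurd h3 hn
  obtain ⟨τ', htw'⟩ := CU_exists_perm (CU_embExt (E' := E') emb) hinj' x₀ hx₀' hcard' ζ hζ0 hinv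
  have hcount := CU_emb_count hx' (CU_embExt (E' := E') emb) hinj' x₀ hx₀' M₁ hM₁ hx₀M hcard'
    τ' ζ hζ htw'
  rw [hcount, CU_card_orbits_eq_finsum]
  -- the key period computation
  have key : ∀ (z : CU_Xext E' emb) (i : ℕ),
      τ' ^ i • z = z ↔ (τ ^ i • z.1 = z.1 ∧ M₀ ∣ i) := by
    intro z i
    rw [CU_pow_fix_iff (CU_embExt (E' := E') emb) hinj' τ' hζ0 htw' z i,
      CU_pow_fix_iff emb hinj τ hζ0 htw z.1 i]
    constructor
    · intro h
      refine ⟨fun e n => ?_, ?_⟩
      · have := h (algebraMap E E' e) n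
        rwa [CU_embExt_algebraMap] at this
      · obtain ⟨s, hs⟩ := hSne
        exact (hfree (CU_embExt emb z) (hx₀' z) s hs i).mp (fun n => h s n)
    · rintro ⟨h1, h2⟩
      -- the two ring homomorphisms `twist^i ∘ σ'` and `σ'`
      have hζi : ζ ^ i ≠ 0 := pow_ne_zero _ hζ0
      have hcoef : ∀ (f : LaurentSeries L) (n : ℤ),
          (CU_twist (ζ ^ i) hζi f).coeff n = ζ ^ ((i : ℤ) * n) * f.coeff n := by
        intro f n
        rw [CU_twist_coeff, zpow_mul, zpow_natCast]
      have heq : (CU_twist (ζ ^ i) hζi).comp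
          ((CU_embExt emb z : E' →ₐ[K] LaurentSeries L) : E' →+* LaurentSeries L) =
          ((CU_embExt emb z : E' →ₐ[K] LaurentSeries L) : E' →+* LaurentSeries L) := by
        apply CU_ringHom_ext_of_adjoin (E := E) _ _ S hS
        · intro e
          ext n
          show (CU_twist (ζ ^ i) hζi (CU_embExt emb z (algebraMap E E' e))).coeff n = _
          rw [hcoef, CU_embExt_algebraMap]
          exact (h1 e n).trans (by rw [← CU_embExt_algebraMap emb z e]; rfl)
        · intro s hs
          ext n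
          show (CU_twist (ζ ^ i) hζi (CU_embExt emb z s)).coeff n = _
          rw [hcoef]
          exact (hfree (CU_embExt emb z) (hx₀' z) s hs i).mpr h2 n
      intro y n
      have := congrArg (fun φ : E' →+* LaurentSeries L => (φ y).coeff n) heq
      simp only [RingHom.comp_apply] at this
      rw [← hcoef]
      exact this
  have hper : ∀ z : CU_Xext E' emb,
      Nat.card (MulAction.orbit (Subgroup.zpowers τ') z) =
        Nat.lcm (Nat.card (MulAction.orbit (Subgroup.zpowers τ) z.1)) M₀ := by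
    intro z
    rw [S24_card_orbit_zpowers_eq_minimalPeriod τ' z,
      S24_card_orbit_zpowers_eq_minimalPeriod τ z.1]
    apply CU_minimalPeriod_eq_of_pow_iff
    intro i
    rw [key z i, MulAction.pow_smul_eq_iff_minimalPeriod_dvd]
    exact Nat.lcm_dvd_iff.symm
  simp only [hper]
  rw [CU_finsum_sigma_fst (fun γ : X => {σ' : E' →+* LaurentSeries L //
      σ'.comp (algebraMap E E') = (emb γ : E →+* LaurentSeries L)})
    (fun γ => (1 : ℚ) /
      ((Nat.lcm (Nat.card (MulAction.orbit (Subgroup.zpowers τ) γ)) M₀ : ℕ) : ℚ))]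
  simp only [hfib]
  rw [← mul_finsum]

end Main

end Fermat.Agent.Lib
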