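import Mathlib

/-!
# Package FP1 (helper9), part A: three lemmas on valuation subrings

* `GX_mem_of_pow`: `x ^ m` a unit of `V` (`m > 0`) ⇒ `x` a unit of `V`.
* `GX_exists_min`: a finite nonempty family of nonzero elements has a member of minimal valuation.
* `GX_exists_pair`: if a finite sum of nonzero terms vanishes, two terms have the same valuation.
-/

set_option autoImplicit false

namespace Fermat.Agent.Lib

section valring

variable {E : Type*} [Field E] (V : ValuationSubring E)

/-- in a valuation ring, an element one of whose positive powers is a unit is a unit. -/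
theorem GX_mem_of_pow {x : E} {m : ℕ} (hm : 0 < m) (hx : x ^ m ∈ V) (hxi : (x ^ m)⁻¹ ∈ V) :
    x ∈ V ∧ x⁻¹ ∈ V := by
  rcases eq_or_ne x 0 with rfl | hx0
  · simp [V.zero_mem]
  obtain ⟨n, rfl⟩ : ∃ n, m = n + 1 := ⟨m - 1, by omega⟩
  rcases V.mem_or_inv_mem x with h | h
  · refine ⟨h, ?_⟩
    have : x⁻¹ = x ^ n * (x ^ (n + 1))⁻¹ := by
      rw [pow_succ, mul_inv, ← mul_assoc, mul_inv_cancel₀ (pow_ne_zero n hx0), one_mul]
    rw [this]
    exact V.mul_mem _ _ (V.pow_mem h n) hxi
  · refine ⟨?_, h⟩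
    have : x = x⁻¹ ^ n * x ^ (n + 1) := by
      rw [pow_succ, ← mul_assoc, inv_pow, inv_mul_cancel₀ (pow_ne_zero n hx0), one_mul]
    rw [this]
    exact V.mul_mem _ _ (V.pow_mem h n) hx

/-- in a valuation ring, a finite nonempty family of nonzero elements has a member dividing all
the others. -/
theorem GX_exists_min {ι : Type*} (s : Finset ι) (hs : s.Nonempty) (t : ι → E)
    (ht : ∀ i ∈ s, t i ≠ 0) : ∃ i₀ ∈ s, ∀ i ∈ s, t i / t i₀ ∈ V := by
  classical
  induction hs using Finset.Nonempty.cons_induction with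
  | singleton a =>
    refine ⟨a, Finset.mem_singleton_self a, fun i hi => ?_⟩
    rw [Finset.mem_singleton] at hi
    subst hi
    rw [div_self (ht i (Finset.mem_singleton_self i))]
    exact V.one_mem
  | cons a s ha hs ih =>
    obtain ⟨i₀, hi₀, h⟩ := ih (fun i hi => ht i (Finset.mem_cons_of_mem hi))
    have hti₀ := ht i₀ (Finset.mem_cons_of_mem hi₀)
    have hta := ht a (Finset.mem_cons_self a s)
    rcases V.mem_or_inv_mem (t a / t i₀) with h1 | h1
    · refine ⟨i₀, Finset.mem_cons_of_mem hi₀, fun i hi => ?_⟩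
      rcases Finset.mem_cons.mp hi with rfl | hi
      · exact h1
      · exact h i hi
    · refine ⟨a, Finset.mem_cons_self a s, fun i hi => ?_⟩
      rcases Finset.mem_cons.mp hi with rfl | hi
      · rw [div_self hta]
        exact V.one_mem
      · have : t i / t a = (t i / t i₀) * (t a / t i₀)⁻¹ := by
          field_simp
        rw [this]
        exact V.mul_mem _ _ (h i hi) h1

/-- in a valuation ring, if a finite sum of nonzero terms vanishes, then two different terms
differ by a unit. -/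
theorem GX_exists_pair {ι : Type*} (s : Finset ι) (t : ι → E) (hs : s.Nonempty)
    (ht : ∀ i ∈ s, t i ≠ 0) (hsum : ∑ i ∈ s, t i = 0) :
    ∃ i₀ ∈ s, ∃ i₁ ∈ s, i₁ ≠ i₀ ∧ t i₁ / t i₀ ∈ V ∧ (t i₁ / t i₀)⁻¹ ∈ V := by
  classical
  obtain ⟨i₀, hi₀, h⟩ := GX_exists_min V s hs t ht
  have hti₀ := ht i₀ hi₀
  by_contra hcon
  push Not at hcon
  -- all the other quotients are non-units, so their sum is a non-unit, but it is `-1`
  have hsum' : ∑ i ∈ s.erase i₀, t i / t i₀ = -1 := by
    have h1 : ∑ i ∈ s, t i / t i₀ = 0 := by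
      rw [← Finset.sum_div, hsum, zero_div]
    rw [← Finset.add_sum_erase s _ hi₀, div_self hti₀] at h1
    linear_combination h1
  have hmem : ∀ i ∈ s.erase i₀, t i / t i₀ ∈ V.nonunits := by
    intro i hi
    have hi' := Finset.mem_of_mem_erase hi
    have hne := Finset.ne_of_mem_erase hi
    have h2 := hcon i₀ hi₀ i hi' hne (h i hi')
    have hq0 : t i / t i₀ ≠ 0 := div_ne_zero (ht i hi') hti₀
    rw [ValuationSubring.mem_nonunits_iff_exists_mem_maximalIdeal]
    refine ⟨h i hi', ?_⟩
    rw [IsLocalRing.mem_maximalIdeal, mem_nonunits_iff]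
    intro hu
    apply h2
    obtain ⟨v, hv⟩ := isUnit_iff_exists_inv.mp hu
    have h3 : (t i / t i₀) * (v : E) = 1 := congrArg Subtype.val hv
    have h4 : (t i / t i₀)⁻¹ = (v : E) := inv_eq_of_mul_eq_one_right h3
    rw [h4]
    exact v.2
  have hsumV : ∑ i ∈ s.erase i₀, t i / t i₀ ∈ V.nonunits := by
    rw [ValuationSubring.mem_nonunits_iff_exists_mem_maximalIdeal]
    have hmemV : ∀ i ∈ s.erase i₀, t i / t i₀ ∈ V := fun i hi => h i (Finset.mem_of_mem_erase hi)
    refine ⟨V.toSubring.sum_mem hmemV, ?_⟩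
    have : (⟨∑ i ∈ s.erase i₀, t i / t i₀, V.toSubring.sum_mem hmemV⟩ : V) =
        ∑ i ∈ (s.erase i₀).attach, (⟨t i.1 / t i₀, hmemV i.1 i.2⟩ : V) := by
      apply Subtype.ext
      rw [AddSubmonoidClass.coe_finsetSum]
      exact (Finset.sum_attach (s.erase i₀) (fun i => t i / t i₀)).symm
    rw [this]
    refine Ideal.sum_mem _ (fun i _ => ?_)
    have := hmem i.1 i.2
    rw [ValuationSubring.mem_nonunits_iff_exists_mem_maximalIdeal] at this
    obtain ⟨_, h5⟩ := this
    exact h5
  rw [hsum'] at hsumV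
  have : (-1 : E) ∈ V.nonunits → False := by
    intro h6
    rw [ValuationSubring.mem_nonunits_iff_exists_mem_maximalIdeal] at h6
    obtain ⟨hm, h7⟩ := h6
    rw [IsLocalRing.mem_maximalIdeal, mem_nonunits_iff] at h7
    apply h7
    refine isUnit_iff_exists_inv.mpr ⟨⟨-1, hm⟩, ?_⟩
    apply Subtype.ext
    show (-1 : E) * (-1) = 1
    ring
  exact this hsumV

end valring

end Fermat.Agent.Lib
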