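import Mathlib
import Fermat.Agent.S18.Gauss
import Fermat.Agent.Lib.GaussExtA

/-!
# Package FP1 (helper9): extension of a Gauss datum to an algebraic extension `F'/F`

Abstract over `G : S18_Gauss L F k Fk` and a field extension `F'/F`.

* `GX_exists_ext` (FP1a, Chevalley): there is a valuation ring `O'` of `F'` with `O' ∩ F = G.O`.
* `GX_exists_const_mul_unit` (FP1b): if `L` is algebraically closed and `F'/F` is algebraic, every
  `f ∈ F'ˣ` is `c · u` with `c ∈ Lˣ`, `u ∈ O'ˣ` (value group of `O'` = value group of `A`),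
  for EVERY valuation ring `O'` of `F'` with `O' ∩ F = G.O`.
* `GX_O G F'`, `GX_incl`, `GX_Ek G F'` (residue field of `O'`, a field with `Algebra k`,
  `Algebra Fk`, `IsScalarTower k Fk`), `GX_red`, `GX_algebraMap_red` (`red' ∘ incl = incl ∘ red`).
* `GX_gauss G F' : S18_Gauss L F' k (GX_Ek G F')` (FP1d), with `A`, `res` those of `G`.
* `GX_linearIndependent_lift`, `GX_rank_le`, `GX_finite`, `GX_finrank_le` (FP1c):
  `[E_k : F_k] ≤ [F' : F]`.
-/

set_option autoImplicit false

open Fermat.Agent.S18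

namespace Fermat.Agent.Lib

variable {L F k Fk : Type*} [Field L] [Field F] [Algebra L F] [Field k] [Field Fk]
  [Algebra k Fk] (G : S18_Gauss L F k Fk)
  (F' : Type*) [Field F'] [Algebra F F']

/-- **FP1a** (Chevalley): the Gauss valuation ring `O` of `F` extends to a valuation ring `O'`
of `F'` with `O' ∩ F = O`. -/
theorem GX_exists_ext :
    ∃ O' : ValuationSubring F', O'.comap (algebraMap F F') = G.O := by
  obtain ⟨O', h, hloc⟩ :=
    IsLocalRing.exists_factor_valuationRing ((algebraMap F F').comp G.O.subtype)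
  refine ⟨O', ?_⟩
  ext x
  rw [ValuationSubring.mem_comap]
  constructor
  · intro hx
    by_contra hxO
    have hx0 : x ≠ 0 := fun h0 => hxO (h0 ▸ G.O.zero_mem)
    have hxi : x⁻¹ ∈ G.O := (G.O.mem_or_inv_mem x).resolve_left hxO
    -- the image of `x⁻¹` is a unit of `O'`, so `x⁻¹` is a unit of `O`
    have hu : IsUnit (((algebraMap F F').comp G.O.subtype).codRestrict O'.toSubring h
        ⟨x⁻¹, hxi⟩) := by
      refine isUnit_iff_exists_inv.mpr ⟨⟨algebraMap F F' x, hx⟩, ?_⟩
      apply Subtype.ext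
      show algebraMap F F' x⁻¹ * algebraMap F F' x = 1
      rw [← map_mul, inv_mul_cancel₀ hx0, map_one]
    have hu' : IsUnit (⟨x⁻¹, hxi⟩ : G.O) := hloc.map_nonunit _ hu
    obtain ⟨v, hv⟩ := isUnit_iff_exists_inv.mp hu'
    apply hxO
    have h1 : x⁻¹ * (v : F) = 1 := congrArg Subtype.val hv
    have h2 : (v : F) = x := by
      have := congrArg (fun t => x * t) h1
      simpa [← mul_assoc, mul_inv_cancel₀ hx0] using this
    rw [← h2]
    exact v.2
  · intro hx
    exact h ⟨x, hx⟩

variable {F'}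

/-- units of `O` are units of `O'` -/
theorem GX_unit_mem {O' : ValuationSubring F'} (hO' : O'.comap (algebraMap F F') = G.O)
    {u : G.O} (hu : G.red u ≠ 0) :
    algebraMap F F' (u : F) ∈ O' ∧ (algebraMap F F' (u : F))⁻¹ ∈ O' := by
  have huU : IsUnit u := (G.red_ne_zero_iff u).1 hu
  obtain ⟨v, hv⟩ := isUnit_iff_exists_inv.mp huU
  have h1 : (u : F) * (v : F) = 1 := congrArg Subtype.val hv
  have h2 : (u : F)⁻¹ = (v : F) := inv_eq_of_mul_eq_one_right h1
  have hmem : ∀ x : G.O, algebraMap F F' (x : F) ∈ O' := by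
    intro x
    rw [← ValuationSubring.mem_comap, hO']
    exact x.2
  refine ⟨hmem u, ?_⟩
  rw [← map_inv₀, h2]
  exact hmem v

variable [Algebra L F'] [IsScalarTower L F F']

/-- **FP1b** (V1 for `O'`): every nonzero element of `F'` is a constant times a unit of `O'`. -/
theorem GX_exists_const_mul_unit [IsAlgClosed L] [Algebra.IsAlgebraic F F']
    {O' : ValuationSubring F'} (hO' : O'.comap (algebraMap F F') = G.O) (f : F') (hf : f ≠ 0) :
    ∃ c : L, c ≠ 0 ∧ f / algebraMap L F' c ∈ O' ∧ (f / algebraMap L F' c)⁻¹ ∈ O' := by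
  classical
  have hint : IsIntegral F f := (Algebra.IsAlgebraic.isAlgebraic (R := F) f).isIntegral
  set p := minpoly F f with hp
  have hp0 : p ≠ 0 := minpoly.ne_zero hint
  have hpf : Polynomial.aeval f p = 0 := minpoly.aeval F f
  have hsum : ∑ i ∈ p.support, algebraMap F F' (p.coeff i) * f ^ i = 0 := by
    rw [← hpf, Polynomial.aeval_def, Polynomial.eval₂_eq_sum, Polynomial.sum_def]
  have hne : p.support.Nonempty := Polynomial.nonempty_support_iff.mpr hp0
  have hterm : ∀ i ∈ p.support, algebraMap F F' (p.coeff i) * f ^ i ≠ 0 := by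
    intro i hi
    refine mul_ne_zero ?_ (pow_ne_zero i hf)
    rw [Ne, map_eq_zero]
    exact Polynomial.mem_support_iff.mp hi
  obtain ⟨i₀, hi₀, i₁, hi₁, hne01, hw, hwi⟩ := GX_exists_pair O' p.support _ hne hterm hsum
  -- reduce to `i < j`
  obtain ⟨i, j, hi, hj, hij, hq, hqi⟩ : ∃ i j, i ∈ p.support ∧ j ∈ p.support ∧ i < j ∧
      (algebraMap F F' (p.coeff j) * f ^ j) / (algebraMap F F' (p.coeff i) * f ^ i) ∈ O' ∧
      ((algebraMap F F' (p.coeff j) * f ^ j) / (algebraMap F F' (p.coeff i) * f ^ i))⁻¹ ∈ O' := by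
    rcases lt_or_gt_of_ne hne01 with h | h
    · refine ⟨i₁, i₀, hi₁, hi₀, h, ?_, ?_⟩
      · rw [← inv_div]
        exact hwi
      · rw [inv_div]
        exact hw
    · exact ⟨i₀, i₁, hi₀, hi₁, h, hw, hwi⟩
  have hai : p.coeff i ≠ 0 := Polynomial.mem_support_iff.mp hi
  have haj : p.coeff j ≠ 0 := Polynomial.mem_support_iff.mp hj
  obtain ⟨m, hm, rfl⟩ : ∃ m, 0 < m ∧ j = i + m := ⟨j - i, by omega, by omega⟩
  -- `f ^ m = w * (a_i / a_j)`
  set w := (algebraMap F F' (p.coeff (i + m)) * f ^ (i + m)) /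
    (algebraMap F F' (p.coeff i) * f ^ i) with hwdef
  have hfm : f ^ m = w * algebraMap F F' (p.coeff i / p.coeff (i + m)) := by
    have h1 : algebraMap F F' (p.coeff i) ≠ 0 := by rwa [Ne, map_eq_zero]
    have h2 : algebraMap F F' (p.coeff (i + m)) ≠ 0 := by rwa [Ne, map_eq_zero]
    rw [hwdef, map_div₀, pow_add]
    field_simp
  obtain ⟨c₀, u₀, hc₀, hu₀, hcu⟩ := G.exists_const_mul_unit (p.coeff i / p.coeff (i + m))
    (div_ne_zero hai haj)
  obtain ⟨c, hc⟩ := IsAlgClosed.exists_pow_nat_eq c₀ hm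
  have hc0 : c ≠ 0 := by
    rintro rfl
    rw [zero_pow hm.ne'] at hc
    exact hc₀ hc.symm
  have hcF : algebraMap L F' c ≠ 0 := by rwa [Ne, map_eq_zero]
  obtain ⟨hu1, hu2⟩ := GX_unit_mem G hO' hu₀
  have hpow : (f / algebraMap L F' c) ^ m = w * algebraMap F F' (u₀ : F) := by
    rw [div_pow, hfm, hcu, map_mul, ← map_pow, hc, ← IsScalarTower.algebraMap_apply L F F']
    have : algebraMap L F' c₀ ≠ 0 := by rwa [Ne, map_eq_zero]
    field_simp
  refine ⟨c, hc0, GX_mem_of_pow O' hm ?_ ?_⟩
  · rw [hpow]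
    exact O'.mul_mem _ _ hq hu1
  · rw [hpow, mul_inv]
    exact O'.mul_mem _ _ hqi hu2


/-! ### The chosen extension, its residue field and the extended Gauss datum -/

variable (F')

omit [Algebra L F'] [IsScalarTower L F F'] in
/-- the chosen extension `O'` of the Gauss valuation ring to `F'` -/
noncomputable def GX_O : ValuationSubring F' := Classical.choose (GX_exists_ext G F')

omit [Algebra L F'] [IsScalarTower L F F'] in
theorem GX_O_comap : (GX_O G F').comap (algebraMap F F') = G.O :=
  Classical.choose_spec (GX_exists_ext G F')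

omit [Algebra L F'] [IsScalarTower L F F'] in
theorem GX_mem_O_iff (x : F) : algebraMap F F' x ∈ GX_O G F' ↔ x ∈ G.O := by
  rw [← GX_O_comap G F', ValuationSubring.mem_comap]

omit [Algebra L F'] [IsScalarTower L F F'] in
/-- the inclusion `O → O'` -/
noncomputable def GX_incl : G.O →+* GX_O G F' :=
  ((algebraMap F F').comp G.O.subtype).codRestrict (GX_O G F').toSubring
    (fun x => (GX_mem_O_iff G F' (x : F)).2 x.2)

omit [Algebra L F'] [IsScalarTower L F F'] in
@[simp] theorem GX_incl_coe (x : G.O) : ((GX_incl G F' x : GX_O G F') : F') =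
    algebraMap F F' (x : F) := rfl

/-- the residue field of `O'` -/
def GX_Ek : Type _ := IsLocalRing.ResidueField (GX_O G F')

noncomputable instance GX_Ek_field : Field (GX_Ek G F') :=
  inferInstanceAs (Field (IsLocalRing.ResidueField (GX_O G F')))

omit [Algebra L F'] [IsScalarTower L F F'] in
/-- the residue map of `O'` -/
noncomputable def GX_red : GX_O G F' →+* GX_Ek G F' := IsLocalRing.residue (GX_O G F')

omit [Algebra L F'] [IsScalarTower L F F'] in
theorem GX_red_surjective : Function.Surjective (GX_red G F') :=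
  IsLocalRing.residue_surjective

omit [Algebra L F'] [IsScalarTower L F F'] in
theorem GX_red_ne_zero_iff (x : GX_O G F') : GX_red G F' x ≠ 0 ↔ IsUnit x :=
  IsLocalRing.residue_ne_zero_iff_isUnit x

omit [Algebra L F'] [IsScalarTower L F F'] in
/-- `O → O'` is a local homomorphism -/
theorem GX_incl_isUnit {x : G.O} (hx : IsUnit (GX_incl G F' x)) : IsUnit x := by
  obtain ⟨v, hv⟩ := isUnit_iff_exists_inv.mp hx
  have h1 : algebraMap F F' (x : F) * (v : F') = 1 := congrArg Subtype.val hv
  have hx0 : (x : F) ≠ 0 := by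
    intro h0
    rw [h0, map_zero, zero_mul] at h1
    exact zero_ne_one h1
  have h2 : (v : F') = algebraMap F F' (x : F)⁻¹ := by
    rw [map_inv₀]
    exact (inv_eq_of_mul_eq_one_right h1).symm
  have h3 : (x : F)⁻¹ ∈ G.O := by
    rw [← GX_mem_O_iff G F', ← h2]
    exact v.2
  refine isUnit_iff_exists_inv.mpr ⟨⟨(x : F)⁻¹, h3⟩, ?_⟩
  apply Subtype.ext
  show (x : F) * (x : F)⁻¹ = 1
  exact mul_inv_cancel₀ hx0

omit [Algebra L F'] [IsScalarTower L F F'] in
theorem GX_red_incl_eq_zero {x : G.O} (hx : G.red x = 0) : GX_red G F' (GX_incl G F' x) = 0 := by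
  by_contra h
  have h1 : IsUnit (GX_incl G F' x) := (GX_red_ne_zero_iff G F' _).1 h
  have h2 : IsUnit x := GX_incl_isUnit G F' h1
  exact ((G.red_ne_zero_iff x).2 h2) hx

omit [Algebra L F'] [IsScalarTower L F F'] in
/-- the embedding `F_k → E_k` of residue fields -/
noncomputable def GX_FkHom : Fk →+* GX_Ek G F' :=
  G.red.liftOfSurjective G.red_surjective
    ⟨(GX_red G F').comp (GX_incl G F'), fun x hx => by
      rw [RingHom.mem_ker] at hx ⊢
      exact GX_red_incl_eq_zero G F' hx⟩

omit [Algebra L F'] [IsScalarTower L F F'] in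
theorem GX_FkHom_red (x : G.O) : GX_FkHom G F' (G.red x) = GX_red G F' (GX_incl G F' x) :=
  RingHom.liftOfSurjective_comp_apply G.red G.red_surjective _ x

noncomputable instance GX_algebraFk : Algebra Fk (GX_Ek G F') := (GX_FkHom G F').toAlgebra

noncomputable instance GX_algebrak : Algebra k (GX_Ek G F') :=
  ((GX_FkHom G F').comp (algebraMap k Fk)).toAlgebra

instance GX_isScalarTower : IsScalarTower k Fk (GX_Ek G F') :=
  IsScalarTower.of_algebraMap_eq (fun _ => rfl)

omit [Algebra L F'] [IsScalarTower L F F'] in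
theorem GX_algebraMap_red (x : G.O) :
    algebraMap Fk (GX_Ek G F') (G.red x) = GX_red G F' (GX_incl G F' x) :=
  GX_FkHom_red G F' x

theorem GX_algebraMap_mem_iff (a : L) : algebraMap L F' a ∈ GX_O G F' ↔ a ∈ G.A := by
  rw [IsScalarTower.algebraMap_apply L F F', GX_mem_O_iff, G.algebraMap_mem_iff]

/-- **FP1d**: the extended Gauss datum. -/
noncomputable def GX_gauss [IsAlgClosed L] [Algebra.IsAlgebraic F F'] :
    S18_Gauss L F' k (GX_Ek G F') where
  A := G.A
  res := G.res
  res_surjective := G.res_surjective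
  res_eq_zero_iff := G.res_eq_zero_iff
  O := GX_O G F'
  red := GX_red G F'
  red_surjective := GX_red_surjective G F'
  red_ne_zero_iff := GX_red_ne_zero_iff G F'
  algebraMap_mem_iff := GX_algebraMap_mem_iff G F'
  red_algebraMap := by
    intro a ha haO
    have haF : algebraMap L F a ∈ G.O := (G.algebraMap_mem_iff a).2 ha
    have h1 : (⟨algebraMap L F' a, haO⟩ : GX_O G F') = GX_incl G F' ⟨algebraMap L F a, haF⟩ := by
      apply Subtype.ext
      exact IsScalarTower.algebraMap_apply L F F' a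
    rw [h1, ← GX_algebraMap_red, G.red_algebraMap a ha haF]
    rfl
  exists_const_mul_unit := by
    intro f hf
    obtain ⟨c, hc, h1, h2⟩ := GX_exists_const_mul_unit G (GX_O_comap G F') f hf
    have hcF : algebraMap L F' c ≠ 0 := by rwa [Ne, map_eq_zero]
    refine ⟨c, ⟨f / algebraMap L F' c, h1⟩, hc, ?_, ?_⟩
    · rw [GX_red_ne_zero_iff]
      refine isUnit_iff_exists_inv.mpr ⟨⟨(f / algebraMap L F' c)⁻¹, h2⟩, ?_⟩
      apply Subtype.ext
      show f / algebraMap L F' c * (f / algebraMap L F' c)⁻¹ = 1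
      exact mul_inv_cancel₀ (div_ne_zero hf hcF)
    · show f = algebraMap L F' c * (f / algebraMap L F' c)
      field_simp


omit [Algebra L F'] [IsScalarTower L F F'] in
/-- lifts of `F_k`-linearly independent elements of `E_k` are `F`-linearly independent. -/
theorem GX_linearIndependent_lift {ι : Type*} [Finite ι] (e : ι → GX_O G F')
    (h : LinearIndependent Fk (fun i => GX_red G F' (e i))) :
    LinearIndependent F (fun i => ((e i : GX_O G F') : F')) := by
  classical
  cases nonempty_fintype ι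
  rw [Fintype.linearIndependent_iff]
  intro g hg
  by_contra hcon
  push Not at hcon
  obtain ⟨j, hj⟩ := hcon
  -- a coefficient of minimal valuation
  have hne : (Finset.univ.filter (fun i => g i ≠ 0)).Nonempty := ⟨j, by simp [hj]⟩
  obtain ⟨i₀, hi₀, hmin⟩ := GX_exists_min G.O _ hne g (fun i hi => (Finset.mem_filter.mp hi).2)
  have hgi₀ : g i₀ ≠ 0 := (Finset.mem_filter.mp hi₀).2
  have hmem : ∀ i, g i / g i₀ ∈ G.O := by
    intro i
    by_cases hi : g i = 0
    · rw [hi, zero_div]
      exact G.O.zero_mem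
    · exact hmin i (Finset.mem_filter.mpr ⟨Finset.mem_univ i, hi⟩)
  -- the relation with coefficients in `O`
  have hrel : ∑ i, GX_incl G F' ⟨g i / g i₀, hmem i⟩ * e i = 0 := by
    apply Subtype.ext
    rw [AddSubmonoidClass.coe_finsetSum]
    simp only [MulMemClass.coe_mul, GX_incl_coe, ZeroMemClass.coe_zero]
    have h1 : ∑ i, algebraMap F F' (g i / g i₀) * ((e i : GX_O G F') : F') =
        algebraMap F F' (g i₀)⁻¹ * ∑ i, g i • ((e i : GX_O G F') : F') := by
      rw [Finset.mul_sum]
      refine Finset.sum_congr rfl (fun i _ => ?_)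
      rw [Algebra.smul_def, ← mul_assoc, ← map_mul, inv_mul_eq_div]
    rw [h1, hg, mul_zero]
  have hred := congrArg (GX_red G F') hrel
  rw [map_sum, map_zero] at hred
  simp only [map_mul, ← GX_algebraMap_red] at hred
  have h2 : ∑ i, G.red ⟨g i / g i₀, hmem i⟩ • GX_red G F' (e i) = 0 := by
    rw [← hred]
    refine Finset.sum_congr rfl (fun i _ => ?_)
    rw [Algebra.smul_def]
  have h3 := Fintype.linearIndependent_iff.mp h _ h2 i₀
  have h4 : (⟨g i₀ / g i₀, hmem i₀⟩ : G.O) = 1 := by
    apply Subtype.ext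
    exact div_self hgi₀
  rw [h4, map_one] at h3
  exact one_ne_zero h3

omit [Algebra L F'] [IsScalarTower L F F'] in
/-- **FP1c**: `[E_k : F_k] ≤ [F' : F]`. -/
theorem GX_rank_le [FiniteDimensional F F'] :
    Module.rank Fk (GX_Ek G F') ≤ (Module.finrank F F' : ℕ) := by
  classical
  apply rank_le
  intro s hs
  -- lift the elements of `s`
  have hsurj := GX_red_surjective G F'
  let e : s → GX_O G F' := fun i => Function.surjInv hsurj (i : GX_Ek G F')
  have he : ∀ i : s, GX_red G F' (e i) = (i : GX_Ek G F') :=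
    fun i => Function.surjInv_eq hsurj _
  have h1 : LinearIndependent Fk (fun i : s => GX_red G F' (e i)) := by
    have : (fun i : s => GX_red G F' (e i)) = fun i : s => (i : GX_Ek G F') := funext he
    rw [this]
    exact hs
  have h2 := GX_linearIndependent_lift G F' e h1
  have h3 := h2.fintype_card_le_finrank
  simpa using h3

omit [Algebra L F'] [IsScalarTower L F F'] in
theorem GX_finite [FiniteDimensional F F'] : Module.Finite Fk (GX_Ek G F') := by
  rw [← Module.rank_lt_aleph0_iff]
  exact lt_of_le_of_lt (GX_rank_le G F') Cardinal.natCast_lt_aleph0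

omit [Algebra L F'] [IsScalarTower L F F'] in
theorem GX_finrank_le [FiniteDimensional F F'] :
    Module.finrank Fk (GX_Ek G F') ≤ Module.finrank F F' := by
  have := GX_finite G F'
  have h := GX_rank_le G F'
  rw [← Module.finrank_eq_rank] at h
  exact_mod_cast h

end Fermat.Agent.Lib
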