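import Mathlib
import Fermat.Prelude.Def_AlgebraicCurve_Repartitions
import Fermat.Agent.S24.PlaceVal
import Fermat.Agent.S24.LocalRing

/-!
# Package R (TRACK 3), part 0: elementary facts on the spaces `L(D)`

`K` a field, `F / K` a field extension, `Place K F`, `Divisor K F`, `riemannRochSpace D` from the
Prelude.  Everything here is characteristic free.

* `RR_exists_const`: if `v` has degree one and `f ∈ O_v`, then `f ≡ c mod m_v` for some `c ∈ K`.
* `RR_mono`: `D ≤ D' → L(D) ≤ L(D')`.
* `RR_le_sup_span`: `L(D + v) ≤ L(D) ⊔ K f` for `f ∈ L(D + v) \ L(D)`.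
* `RR_map_mul`: `z • L(D + div z) = L(D)`.
-/

set_option autoImplicit false

open AlgebraicCurve IntermediateField WithZero

namespace Fermat.Agent.Lib

variable {K F : Type*} [Field K] [Field F] [Algebra K F]

/-- membership in `L(D)` in terms of the adic valuations. -/
theorem RR_mem_iff_val {D : Divisor K F} {f : F} :
    f ∈ riemannRochSpace D ↔ ∀ v : Place K F, v.adicValuation f ≤ exp (D v) := Iff.rfl

theorem RR_val_lt_one_iff (v : Place K F) (a : v.toValuationSubring) :
    v.adicValuation (a : F) < 1 ↔ a ∈ IsLocalRing.maximalIdeal v.toValuationSubring := by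
  rw [v.adicValuation_coe, IsDedekindDomain.HeightOneSpectrum.intValuation_lt_one_iff_mem,
    Place.heightOneSpectrum_asIdeal]

/-- the residue field of a place of degree one is `K`. -/
theorem RR_residue_surjective (v : Place K F) (hdeg : v.deg = 1) :
    Function.Surjective (algebraMap K v.ResidueField) := by
  have h1 : Module.finrank K v.ResidueField = 1 := hdeg
  have := Subalgebra.bot_eq_top_of_finrank_eq_one h1
  exact Algebra.surjective_algebraMap_iff.2 this.symm

/-- if `v` has degree one, every `f ∈ O_v` is congruent to a constant modulo the maximal ideal. -/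
theorem RR_exists_const (v : Place K F) (hdeg : v.deg = 1) {f : F}
    (hf : v.adicValuation f ≤ 1) :
    ∃ c : K, v.adicValuation (f - algebraMap K F c) < 1 := by
  have hmem : f ∈ v.toValuationSubring := (S24.BL_adicValuation_le_one_iff v f).1 hf
  obtain ⟨c, hc⟩ := RR_residue_surjective v hdeg (IsLocalRing.residue _ ⟨f, hmem⟩)
  refine ⟨c, ?_⟩
  have hmax : (⟨f, hmem⟩ - algebraMap K v.toValuationSubring c : v.toValuationSubring) ∈
      IsLocalRing.maximalIdeal v.toValuationSubring := by
    rw [← IsLocalRing.residue_eq_zero_iff, map_sub, sub_eq_zero, ← hc]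
    rfl
  have := (RR_val_lt_one_iff v _).2 hmax
  simpa using this

/-- values of the adic valuation of a place are discrete. -/
theorem RR_val_eq_of_lt_of_le (v : Place K F) {f : F} {n : ℤ}
    (h1 : exp n < v.adicValuation f) (h2 : v.adicValuation f ≤ exp (n + 1)) :
    v.adicValuation f = exp (n + 1) := by
  have hf : f ≠ 0 := by
    rintro rfl
    simp at h1
  rw [v.adicValuation_eq_exp_neg_ord hf] at h1 h2 ⊢
  rw [exp_lt_exp] at h1
  rw [exp_le_exp] at h2
  congr 1
  omega

theorem RR_mono {D D' : Divisor K F} (h : D ≤ D') :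
    riemannRochSpace D ≤ riemannRochSpace D' := fun _ hf v =>
  (hf v).trans (exp_le_exp.mpr (Finsupp.le_def.mp h v))

/-- **Key local lemma**: if `f, g ∈ L(D + v)` and `f ∉ L(D)`, then `g - c f ∈ L(D)` for a
constant `c`. -/
theorem RR_exists_sub_mem (v : Place K F) (hdeg : v.deg = 1) (D : Divisor K F) {f g : F}
    (hf : f ∈ riemannRochSpace (D + Finsupp.single v 1)) (hf' : f ∉ riemannRochSpace D)
    (hg : g ∈ riemannRochSpace (D + Finsupp.single v 1)) :
    ∃ c : K, g - c • f ∈ riemannRochSpace D := by
  classical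
  have hother : ∀ (h : F), h ∈ riemannRochSpace (D + Finsupp.single v 1) → ∀ w : Place K F,
      w ≠ v → w.adicValuation h ≤ exp (D w) := by
    intro h hh w hw
    have := hh w
    rwa [Finsupp.add_apply, Finsupp.single_apply, if_neg (Ne.symm hw), add_zero] at this
  have hat : ∀ (h : F), h ∈ riemannRochSpace (D + Finsupp.single v 1) →
      v.adicValuation h ≤ exp (D v + 1) := by
    intro h hh
    have := hh v
    rwa [Finsupp.add_apply, Finsupp.single_apply, if_pos rfl] at this
  -- `f` has exact valuation `exp (D v + 1)` at `v`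
  have hfv : v.adicValuation f = exp (D v + 1) := by
    apply RR_val_eq_of_lt_of_le v _ (hat f hf)
    by_contra hcon
    rw [not_lt] at hcon
    apply hf'
    intro w
    by_cases hw : w = v
    · subst hw; exact hcon
    · exact hother f hf w hw
  have hf0 : f ≠ 0 := by
    rintro rfl
    simp at hfv
  have hquot : v.adicValuation (g / f) ≤ 1 := by
    rw [map_div₀, hfv]
    rw [div_le_one₀ (by simp)]
    exact hat g hg
  obtain ⟨c, hc⟩ := RR_exists_const v hdeg hquot
  refine ⟨c, fun w => ?_⟩
  by_cases hw : w = v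
  · subst hw
    have h1 : g - c • f = (g / f - algebraMap K F c) * f := by
      rw [Algebra.smul_def]
      field_simp
    rw [h1, map_mul, hfv]
    have h2 : w.adicValuation (g / f - algebraMap K F c) ≤ exp (-1) := by
      rcases eq_or_ne (g / f - algebraMap K F c) 0 with h0 | h0
      · rw [h0]; simp
      · rw [w.adicValuation_eq_exp_neg_ord h0] at hc ⊢
        rw [← exp_zero, exp_lt_exp] at hc
        rw [exp_le_exp]
        omega
    calc w.adicValuation (g / f - algebraMap K F c) * exp (D w + 1)
        ≤ exp (-1) * exp (D w + 1) := by gcongr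
      _ = exp (D w) := by rw [← exp_add]; congr 1; ring
  · exact hother _ (Submodule.sub_mem _ hg (Submodule.smul_mem _ c hf)) w hw

theorem RR_le_sup_span (v : Place K F) (hdeg : v.deg = 1) (D : Divisor K F) {f : F}
    (hf : f ∈ riemannRochSpace (D + Finsupp.single v 1)) (hf' : f ∉ riemannRochSpace D) :
    riemannRochSpace (D + Finsupp.single v 1) ≤ riemannRochSpace D ⊔ Submodule.span K {f} := by
  intro g hg
  obtain ⟨c, hc⟩ := RR_exists_sub_mem v hdeg D hf hf' hg
  rw [Submodule.mem_sup]
  exact ⟨g - c • f, hc, c • f, Submodule.smul_mem _ c (Submodule.mem_span_singleton_self f),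
    by abel⟩

theorem RR_single_nonneg (v : Place K F) (n : ℕ) : (0 : Divisor K F) ≤ Finsupp.single v (n : ℤ) := by
  classical
  rw [Finsupp.le_def]
  intro w
  rw [Finsupp.single_apply]
  split_ifs <;> simp

/-- `dim L(D + v) ≤ dim L(D) + 1`. -/
theorem RR_finite_add_single (v : Place K F) (hdeg : v.deg = 1) (D : Divisor K F)
    (hD : Module.Finite K (riemannRochSpace D)) :
    Module.Finite K (riemannRochSpace (D + Finsupp.single v 1)) ∧
      Module.finrank K (riemannRochSpace (D + Finsupp.single v 1)) ≤
        Module.finrank K (riemannRochSpace D) + 1 := by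
  by_cases h : riemannRochSpace (D + Finsupp.single v 1) ≤ riemannRochSpace D
  · have heq : riemannRochSpace (D + Finsupp.single v 1) = riemannRochSpace D :=
      le_antisymm h (RR_mono (le_add_of_nonneg_right (by
        have := RR_single_nonneg (K := K) v 1
        rwa [Nat.cast_one] at this)))
    rw [heq]
    exact ⟨hD, Nat.le_succ _⟩
  · obtain ⟨f, hf, hf'⟩ := SetLike.not_le_iff_exists.1 h
    have hle := RR_le_sup_span v hdeg D hf hf'
    have hf0 : f ≠ 0 := fun h0 => hf' (h0 ▸ Submodule.zero_mem _)
    have hfin : Module.Finite K (riemannRochSpace (D + Finsupp.single v 1)) :=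
      Submodule.finiteDimensional_of_le hle
    refine ⟨hfin, ?_⟩
    calc Module.finrank K (riemannRochSpace (D + Finsupp.single v 1))
        ≤ Module.finrank K ↥(riemannRochSpace D ⊔ Submodule.span K {f}) :=
          Submodule.finrank_mono hle
      _ ≤ Module.finrank K (riemannRochSpace D) + Module.finrank K (Submodule.span K {f}) :=
          Submodule.finrank_add_le_finrank_add_finrank _ _
      _ = Module.finrank K (riemannRochSpace D) + 1 := by rw [finrank_span_singleton hf0]

theorem RR_finite_add_single_nat (v : Place K F) (hdeg : v.deg = 1) (D : Divisor K F)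
    (hD : Module.Finite K (riemannRochSpace D)) (n : ℕ) :
    Module.Finite K (riemannRochSpace (D + Finsupp.single v (n : ℤ))) ∧
      Module.finrank K (riemannRochSpace (D + Finsupp.single v (n : ℤ))) ≤
        Module.finrank K (riemannRochSpace D) + n := by
  induction n with
  | zero =>
    have h0 : D + Finsupp.single v ((0 : ℕ) : ℤ) = D := by simp
    rw [h0]
    exact ⟨hD, le_rfl⟩
  | succ n ih =>
    have h := RR_finite_add_single v hdeg _ ih.1
    have heq : D + Finsupp.single v ((n + 1 : ℕ) : ℤ) =
        D + Finsupp.single v (n : ℤ) + Finsupp.single v 1 := by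
      rw [add_assoc, ← Finsupp.single_add]
      norm_cast
    rw [heq]
    exact ⟨h.1, by have := h.2; have := ih.2; omega⟩

theorem RR_finite_add_sum (hdeg : ∀ v : Place K F, v.deg = 1) (D : Divisor K F)
    (hD : Module.Finite K (riemannRochSpace D)) (s : Finset (Place K F)) (n : Place K F → ℕ) :
    Module.Finite K (riemannRochSpace (D + ∑ v ∈ s, Finsupp.single v (n v : ℤ))) ∧
      Module.finrank K (riemannRochSpace (D + ∑ v ∈ s, Finsupp.single v (n v : ℤ))) ≤
        Module.finrank K (riemannRochSpace D) + ∑ v ∈ s, n v := by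
  classical
  induction s using Finset.induction_on with
  | empty =>
    rw [Finset.sum_empty, Finset.sum_empty, add_zero]
    exact ⟨hD, le_rfl⟩
  | insert a s ha ih =>
    have h := RR_finite_add_single_nat a (hdeg a) _ ih.1 (n a)
    rw [Finset.sum_insert ha, Finset.sum_insert ha, add_comm (Finsupp.single a (n a : ℤ)),
      ← add_assoc]
    exact ⟨h.1, by have := h.2; have := ih.2; omega⟩

/-- under `deg v = 1` for all `v`, the degree is the sum of the coefficients. -/
theorem RR_degree_eq_sum (hdeg : ∀ v : Place K F, v.deg = 1) (D : Divisor K F) :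
    D.degree = ∑ v ∈ D.support, D v := by
  simp only [Divisor.degree, Finsupp.liftAddHom_apply, Finsupp.sum, AddMonoidHom.mulRight_apply,
    hdeg, Nat.cast_one, mul_one]

theorem RR_degree_eq_sum_of_subset (hdeg : ∀ v : Place K F, v.deg = 1) (D : Divisor K F)
    {s : Finset (Place K F)} (hs : D.support ⊆ s) :
    D.degree = ∑ v ∈ s, D v := by
  rw [RR_degree_eq_sum hdeg]
  exact Finset.sum_subset hs fun v _ hv => by simpa using hv

theorem RR_degree_nonneg (hdeg : ∀ v : Place K F, v.deg = 1) {D : Divisor K F} (h : 0 ≤ D) :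
    0 ≤ D.degree := by
  rw [RR_degree_eq_sum hdeg]
  exact Finset.sum_nonneg fun v _ => Finsupp.le_def.1 h v

theorem RR_degree_mono (hdeg : ∀ v : Place K F, v.deg = 1) {D D' : Divisor K F} (h : D ≤ D') :
    D.degree ≤ D'.degree := by
  have := RR_degree_nonneg hdeg (sub_nonneg.2 h)
  rw [map_sub] at this
  linarith

/-- a nonnegative divisor of degree `0` is `0`. -/
theorem RR_eq_zero_of_degree_eq_zero (hdeg : ∀ v : Place K F, v.deg = 1) {D : Divisor K F}
    (h : 0 ≤ D) (h0 : D.degree = 0) : D = 0 := by
  rw [RR_degree_eq_sum hdeg] at h0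
  have := (Finset.sum_eq_zero_iff_of_nonneg fun v _ => Finsupp.le_def.1 h v).1 h0
  ext v
  by_cases hv : v ∈ D.support
  · exact this v hv
  · simpa using hv

/-- every divisor `D' ≥ D` is `D` plus a sum of places. -/
theorem RR_eq_add_sum {D D' : Divisor K F} (h : D ≤ D') :
    D' = D + ∑ v ∈ (D' - D).support, Finsupp.single v ((((D' - D) v).toNat : ℕ) : ℤ) := by
  have h1 : ∀ v, ((((D' - D) v).toNat : ℕ) : ℤ) = (D' - D) v := fun v =>
    Int.toNat_of_nonneg (Finsupp.le_def.1 (sub_nonneg.2 h) v)
  simp only [h1]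
  have := Finsupp.sum_single (D' - D)
  rw [Finsupp.sum] at this
  rw [this]
  abel

/-- Stichtenoth 1.4.8: for `D ≤ D'`, `dim L(D') - dim L(D) ≤ deg D' - deg D`. -/
theorem RR_finite_of_le (hdeg : ∀ v : Place K F, v.deg = 1) {D D' : Divisor K F} (h : D ≤ D')
    (hD : Module.Finite K (riemannRochSpace D)) :
    Module.Finite K (riemannRochSpace D') ∧
      (Module.finrank K (riemannRochSpace D') : ℤ) ≤
        Module.finrank K (riemannRochSpace D) + (D'.degree - D.degree) := by
  have h1 : ∀ v, ((((D' - D) v).toNat : ℕ) : ℤ) = (D' - D) v := fun v =>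
    Int.toNat_of_nonneg (Finsupp.le_def.1 (sub_nonneg.2 h) v)
  have hs := RR_finite_add_sum hdeg D hD (D' - D).support (fun v => ((D' - D) v).toNat)
  rw [← RR_eq_add_sum h] at hs
  refine ⟨hs.1, ?_⟩
  have h2 : D'.degree - D.degree = ∑ v ∈ (D' - D).support, (D' - D) v := by
    rw [← map_sub, RR_degree_eq_sum hdeg]
  rw [h2]
  have h3 : ((∑ v ∈ (D' - D).support, ((D' - D) v).toNat : ℕ) : ℤ) =
      ∑ v ∈ (D' - D).support, (D' - D) v := by
    push_cast
    exact Finset.sum_congr rfl fun v _ => h1 v
  rw [← h3]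
  exact_mod_cast hs.2

/-! ### principal divisors -/

open Classical in
/-- the divisor of a function (`0` for `f = 0`). -/
noncomputable def RR_div (hP : HasPrincipalDivisors K F) (f : F) : Divisor K F :=
  if hf : f = 0 then 0 else (hP.exists_divisor f hf).choose

theorem RR_div_apply (hP : HasPrincipalDivisors K F) (f : F) (v : Place K F) :
    RR_div hP f v = v.ord f := by
  unfold RR_div
  split_ifs with hf
  · simp [hf]
  · exact (hP.exists_divisor f hf).choose_spec.1 v

theorem RR_div_degree (hP : HasPrincipalDivisors K F) (f : F) :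
    (RR_div hP f).degree = 0 := by
  unfold RR_div
  split_ifs with hf
  · simp
  · exact (hP.exists_divisor f hf).choose_spec.2

theorem RR_mem_iff_div (hP : HasPrincipalDivisors K F) {D : Divisor K F} {f : F} (hf : f ≠ 0) :
    f ∈ riemannRochSpace D ↔ 0 ≤ D + RR_div hP f := by
  rw [mem_riemannRochSpace_iff, Finsupp.le_def]
  refine forall_congr' fun v => ?_
  rw [or_iff_right hf, Finsupp.add_apply, RR_div_apply, Finsupp.zero_apply]
  constructor <;> intro h <;> linarith

/-- `L(D) = 0` if `deg D < 0`. -/
theorem RR_eq_bot_of_degree_neg (hdeg : ∀ v : Place K F, v.deg = 1)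
    (hP : HasPrincipalDivisors K F) {D : Divisor K F} (hD : D.degree < 0) :
    riemannRochSpace D = ⊥ := by
  rw [eq_bot_iff]
  intro f hf
  rw [Submodule.mem_bot]
  by_contra hf0
  have := RR_degree_nonneg hdeg ((RR_mem_iff_div hP hf0).1 hf)
  rw [map_add, RR_div_degree, add_zero] at this
  linarith

/-- a nonzero element of `L(D)` exists only if `deg D ≥ 0`. -/
theorem RR_degree_nonneg_of_mem (hdeg : ∀ v : Place K F, v.deg = 1)
    (hP : HasPrincipalDivisors K F) {D : Divisor K F} {f : F} (hf : f ∈ riemannRochSpace D)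
    (hf0 : f ≠ 0) : 0 ≤ D.degree := by
  by_contra h
  rw [not_le] at h
  rw [RR_eq_bot_of_degree_neg hdeg hP h, Submodule.mem_bot] at hf
  exact hf0 hf

/-- a function without poles and with a zero vanishes. -/
theorem RR_eq_zero_of_zero (hdeg : ∀ v : Place K F, v.deg = 1)
    (hP : HasPrincipalDivisors K F) {f : F} (hf : f ∈ riemannRochSpace (0 : Divisor K F))
    (v₀ : Place K F) (hv₀ : v₀.adicValuation f < 1) : f = 0 := by
  by_contra hf0
  have h1 := (RR_mem_iff_div hP hf0).1 hf
  rw [zero_add] at h1
  have h2 := RR_eq_zero_of_degree_eq_zero hdeg h1 (RR_div_degree hP f)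
  have h3 : v₀.ord f = 0 := by
    rw [← RR_div_apply hP, h2]
    rfl
  rw [v₀.adicValuation_eq_exp_neg_ord hf0, h3] at hv₀
  simp at hv₀

/-- `L(0) = K` (given at least one place). -/
theorem RR_mem_zero_iff (hdeg : ∀ v : Place K F, v.deg = 1)
    (hP : HasPrincipalDivisors K F) (v₀ : Place K F) {f : F} :
    f ∈ riemannRochSpace (0 : Divisor K F) ↔ ∃ c : K, f = algebraMap K F c := by
  constructor
  · intro hf
    have h1 : v₀.adicValuation f ≤ 1 := by simpa using hf v₀
    obtain ⟨c, hc⟩ := RR_exists_const v₀ (hdeg v₀) h1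
    refine ⟨c, ?_⟩
    have hc' : algebraMap K F c ∈ riemannRochSpace (0 : Divisor K F) := by
      intro v
      simpa using v.adicValuation_algebraMap_le_one c
    have := RR_eq_zero_of_zero hdeg hP (Submodule.sub_mem _ hf hc') v₀ hc
    exact sub_eq_zero.1 this
  · rintro ⟨c, rfl⟩
    intro v
    simpa using v.adicValuation_algebraMap_le_one c

theorem RR_zero_eq_span (hdeg : ∀ v : Place K F, v.deg = 1)
    (hP : HasPrincipalDivisors K F) (v₀ : Place K F) :
    riemannRochSpace (0 : Divisor K F) = Submodule.span K {(1 : F)} := by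
  ext f
  rw [RR_mem_zero_iff hdeg hP v₀, Submodule.mem_span_singleton]
  constructor
  · rintro ⟨c, rfl⟩
    exact ⟨c, by rw [Algebra.smul_def, mul_one]⟩
  · rintro ⟨c, rfl⟩
    exact ⟨c, by rw [Algebra.smul_def, mul_one]⟩

theorem RR_finrank_zero (hdeg : ∀ v : Place K F, v.deg = 1)
    (hP : HasPrincipalDivisors K F) (v₀ : Place K F) :
    Module.finrank K (riemannRochSpace (0 : Divisor K F)) = 1 := by
  rw [RR_zero_eq_span hdeg hP v₀]
  exact finrank_span_singleton one_ne_zero

theorem RR_finite_zero (hdeg : ∀ v : Place K F, v.deg = 1)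
    (hP : HasPrincipalDivisors K F) (v₀ : Place K F) :
    Module.Finite K (riemannRochSpace (0 : Divisor K F)) := by
  rw [RR_zero_eq_span hdeg hP v₀]
  infer_instance

/-- the positive part of a divisor, written as a sum of places. -/
theorem RR_le_sum_toNat (D : Divisor K F) :
    D ≤ 0 + ∑ v ∈ D.support, Finsupp.single v (((D v).toNat : ℕ) : ℤ) := by
  classical
  rw [zero_add, Finsupp.le_def]
  intro w
  rw [Finsupp.finsetSum_apply]
  simp only [Finsupp.single_apply]
  rw [Finset.sum_ite_eq']
  split_ifs with h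
  · exact Int.self_le_toNat _
  · have : D w = 0 := by simpa using h
    rw [this]

/-- **R1**: `L(D)` is finite-dimensional. -/
theorem RR_finite_of (hdeg : ∀ v : Place K F, v.deg = 1)
    (hP : HasPrincipalDivisors K F) (v₀ : Place K F) (D : Divisor K F) :
    Module.Finite K (riemannRochSpace D) := by
  have h := (RR_finite_add_sum hdeg 0 (RR_finite_zero hdeg hP v₀) D.support
    (fun v => (D v).toNat)).1
  exact Submodule.finiteDimensional_of_le (RR_mono (RR_le_sum_toNat D))

/-- Stichtenoth 1.4.8, final form: for `D ≤ D'`, `dim L(D') - dim L(D) ≤ deg D' - deg D`. -/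
theorem RR_finrank_le_of_le (hdeg : ∀ v : Place K F, v.deg = 1)
    (hP : HasPrincipalDivisors K F) (v₀ : Place K F) {D D' : Divisor K F} (h : D ≤ D') :
    (Module.finrank K (riemannRochSpace D') : ℤ) ≤
      Module.finrank K (riemannRochSpace D) + (D'.degree - D.degree) :=
  (RR_finite_of_le hdeg h (RR_finite_of hdeg hP v₀ D)).2

/-- for `D ≤ D'`: `deg D - dim L(D) ≤ deg D' - dim L(D')`. -/
theorem RR_defect_mono (hdeg : ∀ v : Place K F, v.deg = 1)
    (hP : HasPrincipalDivisors K F) (v₀ : Place K F) {D D' : Divisor K F} (h : D ≤ D') :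
    D.degree - Module.finrank K (riemannRochSpace D) ≤
      D'.degree - Module.finrank K (riemannRochSpace D') := by
  have := RR_finrank_le_of_le hdeg hP v₀ h
  linarith

theorem RR_finrank_mono (hdeg : ∀ v : Place K F, v.deg = 1)
    (hP : HasPrincipalDivisors K F) (v₀ : Place K F) {D D' : Divisor K F} (h : D ≤ D') :
    Module.finrank K (riemannRochSpace D) ≤ Module.finrank K (riemannRochSpace D') := by
  have := RR_finite_of hdeg hP v₀ D'
  exact Submodule.finrank_mono (RR_mono h)

/-! ### multiplication by a function -/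

/-- multiplication by `z ≠ 0` as a `K`-linear automorphism of `F`. -/
noncomputable def RR_mulEquiv (z : F) (hz : z ≠ 0) : F ≃ₗ[K] F where
  toFun f := z * f
  invFun f := z⁻¹ * f
  map_add' := mul_add z
  map_smul' c f := by simp
  left_inv f := by simp [← mul_assoc, inv_mul_cancel₀ hz]
  right_inv f := by simp [← mul_assoc, mul_inv_cancel₀ hz]

theorem RR_mul_mem_iff (hP : HasPrincipalDivisors K F) (D : Divisor K F) {z : F} (hz : z ≠ 0)
    (f : F) : z * f ∈ riemannRochSpace D ↔ f ∈ riemannRochSpace (D + RR_div hP z) := by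
  rw [RR_mem_iff_val, RR_mem_iff_val]
  refine forall_congr' fun v => ?_
  rw [map_mul, Finsupp.add_apply, RR_div_apply, exp_add, v.adicValuation_eq_exp_neg_ord hz]
  rw [mul_comm, ← le_div_iff₀ (by simp), exp_neg, div_inv_eq_mul]

theorem RR_map_mulEquiv (hP : HasPrincipalDivisors K F) (D : Divisor K F) {z : F} (hz : z ≠ 0) :
    (riemannRochSpace (D + RR_div hP z)).map (RR_mulEquiv (K := K) z hz).toLinearMap =
      riemannRochSpace D := by
  ext f
  rw [Submodule.mem_map]
  constructor
  · rintro ⟨g, hg, rfl⟩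
    exact (RR_mul_mem_iff hP D hz g).2 hg
  · intro hf
    refine ⟨z⁻¹ * f, (RR_mul_mem_iff hP D hz _).1 ?_, ?_⟩
    · rwa [← mul_assoc, mul_inv_cancel₀ hz, one_mul]
    · show z * (z⁻¹ * f) = f
      rw [← mul_assoc, mul_inv_cancel₀ hz, one_mul]

/-- `dim L(D + div z) = dim L(D)`. -/
theorem RR_finrank_add_div (hP : HasPrincipalDivisors K F) (D : Divisor K F) {z : F}
    (hz : z ≠ 0) :
    Module.finrank K (riemannRochSpace (D + RR_div hP z)) =
      Module.finrank K (riemannRochSpace D) := by
  have e := (RR_mulEquiv (K := K) z hz).submoduleMap (riemannRochSpace (D + RR_div hP z))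
  have := e.finrank_eq
  rw [this]
  exact congrArg (fun p : Submodule K F => Module.finrank K p) (RR_map_mulEquiv hP D hz)

end Fermat.Agent.Lib
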