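import Mathlib
import Fermat.Prelude.Def_AlgebraicCurve_CanonicalDivisor
import Fermat.Agent.Lib.RiemannBasic
import Fermat.Agent.S24.LocalDiff

/-!
# Package DIFF (TRACK 3), part 0: the `t`-adic expansion at a place of degree one

`v` a place of `F / K` with residue field `K`, `t` the uniformizer chosen by the Prelude.
Every `f ∈ O_v` has a unique expansion `f = c₀ + c₁ t + c₂ t² + …`; this gives an injective
`K`-algebra homomorphism `FD_expHom : O_v →ₐ[K] K⟦X⟧` with `t ↦ X` and `order = ord_v`.
Characteristic free.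
-/

set_option autoImplicit false

open AlgebraicCurve WithZero PowerSeries

namespace Fermat.Agent.Lib

open Fermat.Agent.S24

variable {K F : Type*} [Field K] [Field F] [Algebra K F]

/-- the uniformizer at `v` chosen by the Prelude, as an element of `F`. -/
noncomputable def FD_t (v : Place K F) : F := (BL_unif v : F)

theorem FD_val_t (v : Place K F) : v.adicValuation (FD_t v) = exp (-1 : ℤ) :=
  v.adicValuation_coe_irreducible (BL_unif_irreducible v)

theorem FD_ord_t (v : Place K F) : v.ord (FD_t v) = 1 := BL_ord_unif v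

theorem FD_t_ne_zero (v : Place K F) : FD_t v ≠ 0 := by
  intro h
  have := FD_ord_t v
  rw [h] at this
  simp at this

theorem FD_dCoord_eq (v : Place K F) : v.dCoord = KaehlerDifferential.D K F (FD_t v) := rfl

theorem FD_val_algebraMap (v : Place K F) {a : K} (ha : a ≠ 0) :
    v.adicValuation (algebraMap K F a) = 1 := by
  have h0 : algebraMap K F a ≠ 0 := by
    rwa [Ne, _root_.map_eq_zero]
  rw [v.adicValuation_eq_exp_neg_ord h0, BL_ord_algebraMap]
  simp

theorem FD_val_lt_one_iff (v : Place K F) {f : F} :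
    v.adicValuation f < 1 ↔ v.adicValuation f ≤ exp (-1 : ℤ) := by
  rcases eq_or_ne f 0 with rfl | hf
  · simp
  · rw [v.adicValuation_eq_exp_neg_ord hf, ← exp_zero, exp_lt_exp, exp_le_exp]
    omega

open Classical in
/-- the value `f(v) ∈ K` of `f` at `v` (`0` if `f` has a pole). -/
noncomputable def FD_c0 (v : Place K F) (f : F) : K :=
  if h : ∃ c : K, v.adicValuation (f - algebraMap K F c) < 1 then h.choose else 0

theorem FD_c0_unique (v : Place K F) {f : F} {c : K}
    (h : v.adicValuation (f - algebraMap K F c) < 1) : FD_c0 v f = c := by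
  have hex : ∃ c : K, v.adicValuation (f - algebraMap K F c) < 1 := ⟨c, h⟩
  rw [FD_c0, dif_pos hex]
  have h1 := hex.choose_spec
  by_contra hne
  have h2 : v.adicValuation (algebraMap K F (hex.choose - c)) < 1 := by
    have : algebraMap K F (hex.choose - c) =
        (f - algebraMap K F c) - (f - algebraMap K F hex.choose) := by
      rw [map_sub]; ring
    rw [this]
    exact lt_of_le_of_lt (Valuation.map_sub _ _ _) (max_lt h h1)
  rw [FD_val_algebraMap v (sub_ne_zero.2 hne)] at h2
  exact lt_irrefl _ h2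

theorem FD_c0_spec (v : Place K F) (hdeg : v.deg = 1) {f : F} (hf : v.adicValuation f ≤ 1) :
    v.adicValuation (f - algebraMap K F (FD_c0 v f)) < 1 := by
  obtain ⟨c, hc⟩ := RR_exists_const v hdeg hf
  rw [FD_c0_unique v hc]
  exact hc

/-- the shift `(f - f(v)) / t`. -/
noncomputable def FD_shift (v : Place K F) (f : F) : F :=
  (f - algebraMap K F (FD_c0 v f)) / FD_t v

theorem FD_eq_add_mul (v : Place K F) (f : F) :
    f = algebraMap K F (FD_c0 v f) + FD_t v * FD_shift v f := by
  rw [FD_shift, mul_div_cancel₀ _ (FD_t_ne_zero v)]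
  ring

theorem FD_val_shift (v : Place K F) (hdeg : v.deg = 1) {f : F} (hf : v.adicValuation f ≤ 1) :
    v.adicValuation (FD_shift v f) ≤ 1 := by
  rw [FD_shift, map_div₀, FD_val_t, div_le_one₀ (by simp)]
  exact (FD_val_lt_one_iff v).1 (FD_c0_spec v hdeg hf)

/-- uniqueness of the decomposition `f = c + t g`. -/
theorem FD_c0_shift_unique (v : Place K F) {f g : F} {c : K} (hg : v.adicValuation g ≤ 1)
    (h : f = algebraMap K F c + FD_t v * g) : FD_c0 v f = c ∧ FD_shift v f = g := by
  have h1 : v.adicValuation (f - algebraMap K F c) < 1 := by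
    rw [h, add_sub_cancel_left, map_mul, FD_val_t]
    calc exp (-1 : ℤ) * v.adicValuation g ≤ exp (-1 : ℤ) * 1 := by gcongr
      _ < 1 := by rw [mul_one, ← exp_zero, exp_lt_exp]; omega
  have h2 := FD_c0_unique v h1
  refine ⟨h2, ?_⟩
  rw [FD_shift, h2, h, add_sub_cancel_left, mul_div_cancel_left₀ _ (FD_t_ne_zero v)]

/-- the `n`-th coefficient of the `t`-adic expansion. -/
noncomputable def FD_coeff (v : Place K F) (n : ℕ) (f : F) : K :=
  FD_c0 v ((FD_shift v)^[n] f)

/-- the `t`-adic expansion. -/
noncomputable def FD_exp (v : Place K F) (f : F) : PowerSeries K :=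
  PowerSeries.mk fun n => FD_coeff v n f

theorem FD_coeff_succ (v : Place K F) (n : ℕ) (f : F) :
    FD_coeff v (n + 1) f = FD_coeff v n (FD_shift v f) := by
  rw [FD_coeff, FD_coeff, Function.iterate_succ_apply]

theorem FD_exp_eq (v : Place K F) (f : F) :
    FD_exp v f = C (FD_c0 v f) + X * FD_exp v (FD_shift v f) := by
  ext n
  rcases n with _ | n
  · simp [FD_exp, FD_coeff]
  · rw [map_add, coeff_succ_X_mul, coeff_C, if_neg (Nat.succ_ne_zero n), zero_add]
    simp only [FD_exp, coeff_mk]
    exact FD_coeff_succ v n f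

/-- the expansion of `c + t g`. -/
theorem FD_exp_add_mul (v : Place K F) {g : F} (c : K) (hg : v.adicValuation g ≤ 1) :
    FD_exp v (algebraMap K F c + FD_t v * g) = C c + X * FD_exp v g := by
  obtain ⟨h1, h2⟩ := FD_c0_shift_unique v hg (rfl : algebraMap K F c + FD_t v * g = _)
  rw [FD_exp_eq, h1, h2]

section Ring

variable (v : Place K F) (hdeg : v.deg = 1)
include hdeg

theorem FD_c0_add {f g : F} (hf : v.adicValuation f ≤ 1) (hg : v.adicValuation g ≤ 1) :
    FD_c0 v (f + g) = FD_c0 v f + FD_c0 v g ∧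
      FD_shift v (f + g) = FD_shift v f + FD_shift v g := by
  apply FD_c0_shift_unique v
    ((Valuation.map_add _ _ _).trans (max_le (FD_val_shift v hdeg hf) (FD_val_shift v hdeg hg)))
  conv_lhs => rw [FD_eq_add_mul v f, FD_eq_add_mul v g]
  rw [map_add]
  ring

theorem FD_c0_smul (a : K) {f : F} (hf : v.adicValuation f ≤ 1) :
    FD_c0 v (a • f) = a * FD_c0 v f ∧ FD_shift v (a • f) = a • FD_shift v f := by
  apply FD_c0_shift_unique v
  · rw [Algebra.smul_def, map_mul]
    exact mul_le_one' (v.adicValuation_algebraMap_le_one a) (FD_val_shift v hdeg hf)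
  · conv_lhs => rw [FD_eq_add_mul v f]
    rw [map_mul, Algebra.smul_def, Algebra.smul_def]
    ring

theorem FD_c0_mul {f g : F} (hf : v.adicValuation f ≤ 1) (hg : v.adicValuation g ≤ 1) :
    FD_c0 v (f * g) = FD_c0 v f * FD_c0 v g ∧
      FD_shift v (f * g) = FD_c0 v f • FD_shift v g + FD_shift v f * g := by
  apply FD_c0_shift_unique v
  · refine (Valuation.map_add _ _ _).trans (max_le ?_ ?_)
    · rw [Algebra.smul_def, map_mul]
      exact mul_le_one' (v.adicValuation_algebraMap_le_one _) (FD_val_shift v hdeg hg)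
    · rw [map_mul]
      exact mul_le_one' (FD_val_shift v hdeg hf) hg
  · have h1 := FD_eq_add_mul v f
    have h2 := FD_eq_add_mul v g
    rw [map_mul, Algebra.smul_def]
    linear_combination (g) * h1 + (algebraMap K F (FD_c0 v f)) * h2

theorem FD_coeff_add (n : ℕ) : ∀ {f g : F}, v.adicValuation f ≤ 1 → v.adicValuation g ≤ 1 →
    FD_coeff v n (f + g) = FD_coeff v n f + FD_coeff v n g := by
  induction n with
  | zero =>
    intro f g hf hg
    exact (FD_c0_add v hdeg hf hg).1
  | succ n ih =>
    intro f g hf hg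
    rw [FD_coeff_succ, FD_coeff_succ, FD_coeff_succ, (FD_c0_add v hdeg hf hg).2]
    exact ih (FD_val_shift v hdeg hf) (FD_val_shift v hdeg hg)

theorem FD_coeff_smul (n : ℕ) (a : K) : ∀ {f : F}, v.adicValuation f ≤ 1 →
    FD_coeff v n (a • f) = a * FD_coeff v n f := by
  induction n with
  | zero =>
    intro f hf
    exact (FD_c0_smul v hdeg a hf).1
  | succ n ih =>
    intro f hf
    rw [FD_coeff_succ, FD_coeff_succ, (FD_c0_smul v hdeg a hf).2]
    exact ih (FD_val_shift v hdeg hf)

theorem FD_exp_add {f g : F} (hf : v.adicValuation f ≤ 1) (hg : v.adicValuation g ≤ 1) :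
    FD_exp v (f + g) = FD_exp v f + FD_exp v g := by
  ext n
  simp only [FD_exp, coeff_mk, map_add]
  exact FD_coeff_add v hdeg n hf hg

theorem FD_exp_smul (a : K) {f : F} (hf : v.adicValuation f ≤ 1) :
    FD_exp v (a • f) = a • FD_exp v f := by
  ext n
  simp only [FD_exp, coeff_mk, map_smul, smul_eq_mul]
  exact FD_coeff_smul v hdeg n a hf

omit hdeg in
theorem FD_exp_zero : FD_exp v (0 : F) = 0 := by
  have := FD_exp_add_mul v (0 : K) (g := 0) (by simp)
  rw [map_zero, mul_zero, add_zero] at this
  have h2 : FD_exp v (0 : F) = X * FD_exp v (0 : F) := by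
    conv_lhs => rw [this]
    simp
  ext n
  induction n with
  | zero =>
    rw [h2]; simp
  | succ n ih =>
    rw [h2, coeff_succ_X_mul, ih]
    simp

omit hdeg in
theorem FD_exp_algebraMap (c : K) : FD_exp v (algebraMap K F c) = C c := by
  have := FD_exp_add_mul v c (g := 0) (by simp)
  rwa [mul_zero, add_zero, FD_exp_zero, mul_zero, add_zero] at this

omit hdeg in
theorem FD_exp_t_mul {g : F} (hg : v.adicValuation g ≤ 1) :
    FD_exp v (FD_t v * g) = X * FD_exp v g := by
  have := FD_exp_add_mul v (0 : K) hg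
  rwa [map_zero, zero_add, map_zero, zero_add] at this

theorem FD_exp_mul_coeff (n : ℕ) : ∀ {f g : F}, v.adicValuation f ≤ 1 → v.adicValuation g ≤ 1 →
    coeff n (FD_exp v (f * g)) = coeff n (FD_exp v f * FD_exp v g) := by
  induction n with
  | zero =>
    intro f g hf hg
    simp only [coeff_zero_eq_constantCoeff, map_mul]
    simp only [FD_exp, ← coeff_zero_eq_constantCoeff_apply, coeff_mk, FD_coeff,
      Function.iterate_zero, id]
    exact (FD_c0_mul v hdeg hf hg).1
  | succ n ih =>
    intro f g hf hg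
    have hsf := FD_val_shift v hdeg hf
    have hsg := FD_val_shift v hdeg hg
    have h1 : v.adicValuation (FD_c0 v f • FD_shift v g) ≤ 1 := by
      rw [Algebra.smul_def, map_mul]
      exact mul_le_one' (v.adicValuation_algebraMap_le_one _) hsg
    have h2 : v.adicValuation (FD_shift v f * g) ≤ 1 := by
      rw [map_mul]
      exact mul_le_one' hsf hg
    -- left side
    have hL : FD_exp v (f * g) = C (FD_c0 v f * FD_c0 v g) +
        X * (FD_c0 v f • FD_exp v (FD_shift v g) + FD_exp v (FD_shift v f * g)) := by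
      rw [FD_exp_eq v (f * g), (FD_c0_mul v hdeg hf hg).1, (FD_c0_mul v hdeg hf hg).2,
        FD_exp_add v hdeg h1 h2, FD_exp_smul v hdeg _ hsg]
    -- right side
    have hR : FD_exp v f * FD_exp v g = C (FD_c0 v f * FD_c0 v g) +
        X * (FD_c0 v f • FD_exp v (FD_shift v g) + FD_exp v (FD_shift v f) * FD_exp v g) := by
      conv_lhs => rw [FD_exp_eq v f]
      rw [add_mul]
      conv_lhs => enter [1]; rw [FD_exp_eq v g]
      rw [map_mul, smul_eq_C_mul]
      ring
    rw [hL, hR, map_add, map_add, coeff_succ_X_mul, coeff_succ_X_mul, map_add, map_add,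
      ih hsf hg]

theorem FD_exp_mul {f g : F} (hf : v.adicValuation f ≤ 1) (hg : v.adicValuation g ≤ 1) :
    FD_exp v (f * g) = FD_exp v f * FD_exp v g := by
  ext n
  exact FD_exp_mul_coeff v hdeg n hf hg

end Ring

section Order

variable (v : Place K F) (hdeg : v.deg = 1)

include hdeg in
theorem FD_c0_eq_zero_iff {f : F} (hf : v.adicValuation f ≤ 1) :
    FD_c0 v f = 0 ↔ v.adicValuation f < 1 := by
  constructor
  · intro h
    have := FD_c0_spec v hdeg hf
    rwa [h, map_zero, sub_zero] at this
  · intro h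
    exact FD_c0_unique v (by rwa [map_zero, sub_zero])

theorem FD_exp_of_val_lt {f : F} (hf : v.adicValuation f < 1) :
    FD_exp v f = X * FD_exp v (f / FD_t v) := by
  have h1 : v.adicValuation (f / FD_t v) ≤ 1 := by
    rw [map_div₀, FD_val_t, div_le_one₀ (by simp)]
    exact (FD_val_lt_one_iff v).1 hf
  have := FD_exp_t_mul v h1
  rwa [mul_div_cancel₀ _ (FD_t_ne_zero v)] at this

theorem FD_constantCoeff (f : F) : constantCoeff (FD_exp v f) = FD_c0 v f := by
  rw [← coeff_zero_eq_constantCoeff_apply]
  simp [FD_exp, FD_coeff]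

include hdeg in
/-- the order of the expansion is the order at `v`. -/
theorem FD_order : ∀ (n : ℕ) {f : F}, v.adicValuation f ≤ 1 → f ≠ 0 → v.ord f = n →
    (FD_exp v f).order = (n : ℕ∞) := by
  intro n
  induction n with
  | zero =>
    intro f hf hf0 hord
    rw [order_eq_nat]
    refine ⟨?_, fun i hi => absurd hi (Nat.not_lt_zero i)⟩
    rw [coeff_zero_eq_constantCoeff_apply, FD_constantCoeff, Ne, FD_c0_eq_zero_iff v hdeg hf,
      v.adicValuation_eq_exp_neg_ord hf0, hord]
    simp
  | succ n ih =>
    intro f hf hf0 hord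
    have hlt : v.adicValuation f < 1 := by
      rw [v.adicValuation_eq_exp_neg_ord hf0, hord, ← exp_zero, exp_lt_exp]
      push_cast
      omega
    have h1 : v.adicValuation (f / FD_t v) ≤ 1 := by
      rw [map_div₀, FD_val_t, div_le_one₀ (by simp)]
      exact (FD_val_lt_one_iff v).1 hlt
    have h2 : f / FD_t v ≠ 0 := div_ne_zero hf0 (FD_t_ne_zero v)
    have h3 : v.ord (f / FD_t v) = n := by
      rw [div_eq_mul_inv, v.ord_mul hf0 (inv_ne_zero (FD_t_ne_zero v)), v.ord_inv, FD_ord_t,
        hord]
      push_cast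
      ring
    rw [FD_exp_of_val_lt v hlt, order_mul, order_X, ih h1 h2 h3]
    push_cast
    ring

include hdeg in
theorem FD_exp_ne_zero {f : F} (hf : v.adicValuation f ≤ 1) (hf0 : f ≠ 0) : FD_exp v f ≠ 0 := by
  have hord : 0 ≤ v.ord f := by
    rcases v.adicValuation_le_one_iff.1 hf with h | h
    · exact absurd h hf0
    · exact h
  have := FD_order v hdeg (v.ord f).toNat hf hf0 (Int.toNat_of_nonneg hord).symm
  intro h0
  rw [h0, order_zero] at this
  exact ENat.top_ne_natCast _ this

/-- the `t`-adic expansion, as a `K`-algebra homomorphism `O_v → K⟦X⟧`. -/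
noncomputable def FD_expHom : v.toValuationSubring →ₐ[K] K⟦X⟧ where
  toFun f := FD_exp v (f : F)
  map_one' := by
    have := FD_exp_algebraMap v (1 : K)
    simpa using this
  map_mul' f g := FD_exp_mul v hdeg (v.adicValuation_le_one_of_mem f.2)
    (v.adicValuation_le_one_of_mem g.2)
  map_zero' := FD_exp_zero v
  map_add' f g := FD_exp_add v hdeg (v.adicValuation_le_one_of_mem f.2)
    (v.adicValuation_le_one_of_mem g.2)
  commutes' c := FD_exp_algebraMap v c

@[simp]
theorem FD_expHom_apply (f : v.toValuationSubring) : FD_expHom v hdeg f = FD_exp v (f : F) := rfl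

theorem FD_expHom_injective : Function.Injective (FD_expHom v hdeg) := by
  rw [injective_iff_map_eq_zero]
  intro f hf
  by_contra h0
  exact FD_exp_ne_zero v hdeg (v.adicValuation_le_one_of_mem f.2)
    (fun h => h0 (Subtype.ext h)) hf

theorem FD_exp_t : FD_exp v (FD_t v) = X := by
  have := FD_exp_t_mul v (g := 1) (by simp)
  rw [mul_one] at this
  rw [this]
  have h1 := FD_exp_algebraMap v (1 : K)
  rw [map_one, map_one] at h1
  rw [h1, mul_one]

end Order

end Fermat.Agent.Lib
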