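import Mathlib

/-!
# Package H (Hurwitz), part 1: Euler characteristic of a pair of subspaces

`K` a field, `V` a `K`-vector space (infinite-dimensional in the application), `A B : Submodule K V`.
* `HW_Fred A B`: `A ⊓ B` and `V ⧸ (A ⊔ B)` are finite-dimensional.
* `HW_chi A B = dim (A ⊓ B) - dim V ⧸ (A ⊔ B)`.
* `HW_rfin A A'`, `HW_rdim A A'`: finiteness / dimension of (the image of) `A'` in `V ⧸ A`.
* `HW_chi_of_le`: for `A ≤ A'` with `A'/A` finite-dimensional: `χ(A',B) = χ(A,B) + dim(A'/A)`.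
-/

set_option autoImplicit false

open Module Submodule

namespace Fermat.Agent.Lib

variable {K V : Type*} [Field K] [AddCommGroup V] [Module K V]

/-- `A ⊓ B` and `V ⧸ (A ⊔ B)` are finite-dimensional. -/
def HW_Fred (A B : Submodule K V) : Prop :=
  Module.Finite K ↥(A ⊓ B) ∧ Module.Finite K (V ⧸ (A ⊔ B))

/-- the Euler characteristic `dim (A ⊓ B) - dim V ⧸ (A ⊔ B)`. -/
noncomputable def HW_chi (A B : Submodule K V) : ℤ :=
  (Module.finrank K ↥(A ⊓ B) : ℤ) - (Module.finrank K (V ⧸ (A ⊔ B)) : ℤ)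

/-- the image of `A'` in `V ⧸ A` is finite-dimensional. -/
def HW_rfin (A A' : Submodule K V) : Prop := Module.Finite K ↥(A'.map A.mkQ)

/-- the dimension of the image of `A'` in `V ⧸ A`. -/
noncomputable def HW_rdim (A A' : Submodule K V) : ℕ := Module.finrank K ↥(A'.map A.mkQ)

theorem HW_map_ker_domRestrict {W : Type*} [AddCommGroup W] [Module K W] (φ : V →ₗ[K] W)
    (X : Submodule K V) :
    (LinearMap.ker (φ.domRestrict X)).map X.subtype = X ⊓ LinearMap.ker φ := by
  ext v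
  simp only [Submodule.mem_map, LinearMap.mem_ker, LinearMap.domRestrict_apply,
    Submodule.subtype_apply, Subtype.exists, exists_and_right, exists_eq_right,
    Submodule.mem_inf]
  constructor
  · rintro ⟨hv, h0⟩
    exact ⟨hv, h0⟩
  · rintro ⟨hv, h0⟩
    exact ⟨hv, h0⟩

theorem HW_range_domRestrict {W : Type*} [AddCommGroup W] [Module K W] (φ : V →ₗ[K] W)
    (X : Submodule K V) : LinearMap.range (φ.domRestrict X) = X.map φ := by
  rw [LinearMap.domRestrict, LinearMap.range_comp, Submodule.range_subtype]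

/-- rank-nullity for the restriction of a linear map to a subspace, in terms of subspaces of the
ambient spaces. -/
theorem HW_finrank_map_add {W : Type*} [AddCommGroup W] [Module K W] (φ : V →ₗ[K] W)
    (X : Submodule K V) [Module.Finite K ↥X] :
    Module.finrank K ↥(X.map φ) + Module.finrank K ↥(X ⊓ LinearMap.ker φ) =
      Module.finrank K ↥X := by
  have h := LinearMap.finrank_range_add_finrank_ker (φ.domRestrict X)
  rw [HW_range_domRestrict, ← Submodule.finrank_map_subtype_eq X (LinearMap.ker (φ.domRestrict X)),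
    HW_map_ker_domRestrict] at h
  exact h

/-- finiteness version: `X` is finite-dimensional if its image and the kernel part are. -/
theorem HW_finite_of_map {W : Type*} [AddCommGroup W] [Module K W] (φ : V →ₗ[K] W)
    (X : Submodule K V) (h1 : Module.Finite K ↥(X.map φ))
    (h2 : Module.Finite K ↥(X ⊓ LinearMap.ker φ)) : Module.Finite K ↥X := by
  have hr := HW_range_domRestrict φ X
  have hk := HW_map_ker_domRestrict φ X
  have hfr : Module.Finite K ↥(LinearMap.range (φ.domRestrict X)) := by rw [hr]; exact h1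
  have hfk : Module.Finite K ↥(LinearMap.ker (φ.domRestrict X)) := by
    have e := Submodule.equivMapOfInjective X.subtype X.injective_subtype
      (LinearMap.ker (φ.domRestrict X))
    rw [hk] at e
    exact Module.Finite.equiv e.symm
  have hq : Module.Finite K (↥X ⧸ LinearMap.ker (φ.domRestrict X)) :=
    Module.Finite.equiv (LinearMap.quotKerEquivRange (φ.domRestrict X)).symm
  exact Module.Finite.of_submodule_quotient (LinearMap.ker (φ.domRestrict X))

section Step

variable {A A' B : Submodule K V}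

/-- the image of `A' ⊓ B` in `V ⧸ A`. -/
theorem HW_inf_ker_mkQ (hle : A ≤ A') : (A' ⊓ B) ⊓ LinearMap.ker A.mkQ = A ⊓ B := by
  rw [Submodule.ker_mkQ]
  ext v
  simp only [Submodule.mem_inf]
  constructor
  · rintro ⟨⟨-, hB⟩, hA⟩
    exact ⟨hA, hB⟩
  · rintro ⟨hA, hB⟩
    exact ⟨⟨hle hA, hB⟩, hA⟩

/-- the canonical map `V ⧸ A → V ⧸ (A ⊔ B)`. -/
noncomputable def HW_phi (A B : Submodule K V) : (V ⧸ A) →ₗ[K] (V ⧸ (A ⊔ B)) :=
  A.mapQ (A ⊔ B) LinearMap.id (by rw [Submodule.comap_id]; exact le_sup_left)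

theorem HW_phi_mkQ (A B : Submodule K V) (v : V) :
    HW_phi A B (A.mkQ v) = (A ⊔ B).mkQ v := rfl

theorem HW_map_phi (A A' B : Submodule K V) :
    (A'.map A.mkQ).map (HW_phi A B) = A'.map (A ⊔ B).mkQ := by
  rw [← Submodule.map_comp]
  congr 1

theorem HW_map_sup_mkQ (A A' B : Submodule K V) :
    (A' ⊔ B).map (A ⊔ B).mkQ = A'.map (A ⊔ B).mkQ := by
  rw [Submodule.map_sup]
  have : B.map (A ⊔ B).mkQ = ⊥ := by
    rw [eq_bot_iff]
    rintro _ ⟨b, hb, rfl⟩
    rw [Submodule.mem_bot, Submodule.mkQ_apply, Submodule.Quotient.mk_eq_zero]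
    exact Submodule.mem_sup_right hb
  rw [this, sup_bot_eq]

theorem HW_inf_ker_phi (hle : A ≤ A') :
    (A'.map A.mkQ) ⊓ LinearMap.ker (HW_phi A B) = (A' ⊓ B).map A.mkQ := by
  ext y
  simp only [Submodule.mem_inf, Submodule.mem_map, LinearMap.mem_ker]
  constructor
  · rintro ⟨⟨a', ha', rfl⟩, h0⟩
    rw [HW_phi_mkQ, Submodule.mkQ_apply, Submodule.Quotient.mk_eq_zero] at h0
    obtain ⟨a, ha, b, hb, hab⟩ := Submodule.mem_sup.1 h0
    refine ⟨b, ⟨?_, hb⟩, ?_⟩
    · have : b = a' - a := by rw [← hab]; abel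
      rw [this]
      exact A'.sub_mem ha' (hle ha)
    · rw [Submodule.mkQ_apply, Submodule.mkQ_apply, Submodule.Quotient.eq]
      have : b - a' = -a := by rw [← hab]; abel
      rw [this]
      exact A.neg_mem ha
  · rintro ⟨b, ⟨hbA', hbB⟩, rfl⟩
    refine ⟨⟨b, hbA', rfl⟩, ?_⟩
    rw [HW_phi_mkQ, Submodule.mkQ_apply, Submodule.Quotient.mk_eq_zero]
    exact Submodule.mem_sup_right hbB

/-- `(V ⧸ (A ⊔ B)) ⧸ (image of A') ≃ V ⧸ (A' ⊔ B)`. -/
noncomputable def HW_quotEquiv (hle : A ≤ A') :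
    ((V ⧸ (A ⊔ B)) ⧸ (A'.map (A ⊔ B).mkQ)) ≃ₗ[K] (V ⧸ (A' ⊔ B)) :=
  (Submodule.quotEquivOfEq _ _ (HW_map_sup_mkQ A A' B).symm).trans
    (Submodule.quotientQuotientEquivQuotient (A ⊔ B) (A' ⊔ B) (sup_le_sup_right hle B))

theorem HW_fred_up (hle : A ≤ A') (hfin : HW_rfin A A') (h : HW_Fred A B) : HW_Fred A' B := by
  obtain ⟨h0, h1⟩ := h
  refine ⟨?_, ?_⟩
  · refine HW_finite_of_map A.mkQ (A' ⊓ B) ?_ ?_
    · have hle' : (A' ⊓ B).map A.mkQ ≤ A'.map A.mkQ := Submodule.map_mono inf_le_left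
      have : Module.Finite K ↥(A'.map A.mkQ) := hfin
      exact Submodule.finiteDimensional_of_le hle'
    · rw [HW_inf_ker_mkQ hle]; exact h0
  · exact Module.Finite.equiv (HW_quotEquiv (B := B) hle)

theorem HW_fred_down (hle : A ≤ A') (hfin : HW_rfin A A') (h : HW_Fred A' B) : HW_Fred A B := by
  obtain ⟨h0, h1⟩ := h
  refine ⟨?_, ?_⟩
  · exact Submodule.finiteDimensional_of_le (inf_le_inf_right B hle)
  · have hX : Module.Finite K ↥(A'.map A.mkQ) := hfin
    have hN : Module.Finite K ↥(A'.map (A ⊔ B).mkQ) := by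
      rw [← HW_map_phi]
      exact Module.Finite.map _ _
    have hQ : Module.Finite K ((V ⧸ (A ⊔ B)) ⧸ (A'.map (A ⊔ B).mkQ)) :=
      Module.Finite.equiv (HW_quotEquiv (B := B) hle).symm
    exact Module.Finite.of_submodule_quotient (A'.map (A ⊔ B).mkQ)

/-- **additivity of the Euler characteristic**: `χ(A', B) = χ(A, B) + dim (A'/A)`. -/
theorem HW_chi_of_le (hle : A ≤ A') (hfin : HW_rfin A A') (h : HW_Fred A B) :
    HW_chi A' B = HW_chi A B + HW_rdim A A' := by
  have h' := HW_fred_up hle hfin h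
  obtain ⟨h0, h1⟩ := h
  obtain ⟨h0', h1'⟩ := h'
  have hX : Module.Finite K ↥(A'.map A.mkQ) := hfin
  -- h⁰
  have e0 := HW_finrank_map_add A.mkQ (A' ⊓ B)
  rw [HW_inf_ker_mkQ hle] at e0
  -- dim X
  have e1 := HW_finrank_map_add (HW_phi A B) (A'.map A.mkQ)
  rw [HW_inf_ker_phi hle, HW_map_phi] at e1
  -- h¹
  have e2 := Submodule.finrank_quotient_add_finrank (A'.map (A ⊔ B).mkQ)
  rw [LinearEquiv.finrank_eq (HW_quotEquiv (B := B) hle)] at e2
  unfold HW_chi HW_rdim
  omega

end Step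

end Fermat.Agent.Lib
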