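import Fermat.Agent.Lib.RiemannThm
import Fermat.Agent.Lib.HurwitzLin

/-!
# Package H (Hurwitz), part 3: the Euler characteristic of a divisor

`F / K` a function field with `RR_Hyp K F`, `S` a set of places (in the application: the places
where a separating element `x` is regular).  `HW_MS S D = {f | ord_v f ≥ -D v for v ∈ S}`.
Then `HW_MS S D ⊓ HW_MS Sᶜ D = L(D)`, and `H¹(D) := F ⧸ (HW_MS S D ⊔ HW_MS Sᶜ D)`.

* `HW_chi_divisor`: if one pair `(HW_MS S D₀, HW_MS Sᶜ D₀)` is Fredholm, then all are and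
  `dim L(D) - dim H¹(D) = deg D + 1 - RR_genus K F`.
-/

set_option autoImplicit false
set_option linter.unusedSectionVars false

open AlgebraicCurve WithZero Module

namespace Fermat.Agent.Lib

variable {K F : Type*} [Field K] [Field F] [Algebra K F]

/-- functions with poles bounded by `D` at the places in `S`. -/
def HW_MS (S : Set (Place K F)) (D : Divisor K F) : Submodule K F where
  carrier := {f | ∀ v ∈ S, v.adicValuation f ≤ exp (D v)}
  zero_mem' := by
    intro v _
    simp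
  add_mem' := by
    intro f g hf hg v hv
    exact (Valuation.map_add _ _ _).trans (max_le (hf v hv) (hg v hv))
  smul_mem' := by
    intro c f hf v hv
    show v.adicValuation (c • f) ≤ exp (D v)
    rw [Algebra.smul_def, map_mul]
    exact (mul_le_of_le_one_left' (v.adicValuation_algebraMap_le_one c)).trans (hf v hv)

theorem HW_mem_MS {S : Set (Place K F)} {D : Divisor K F} {f : F} :
    f ∈ HW_MS S D ↔ ∀ v ∈ S, v.adicValuation f ≤ exp (D v) := Iff.rfl

theorem HW_mem_MS_iff_ord {S : Set (Place K F)} {D : Divisor K F} {f : F} :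
    f ∈ HW_MS S D ↔ ∀ v ∈ S, f = 0 ∨ -D v ≤ v.ord f := by
  rw [HW_mem_MS]
  exact forall_congr' fun v => forall_congr' fun _ => v.adicValuation_le_exp_iff

theorem HW_MS_inf_compl (S : Set (Place K F)) (D : Divisor K F) :
    HW_MS S D ⊓ HW_MS Sᶜ D = riemannRochSpace D := by
  ext f
  rw [Submodule.mem_inf, HW_mem_MS, HW_mem_MS, RR_mem_iff_val]
  constructor
  · rintro ⟨h1, h2⟩ v
    by_cases hv : v ∈ S
    · exact h1 v hv
    · exact h2 v hv
  · intro h
    exact ⟨fun v _ => h v, fun v _ => h v⟩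

theorem HW_MS_mono (S : Set (Place K F)) {D D' : Divisor K F} (h : ∀ v ∈ S, D v ≤ D' v) :
    HW_MS S D ≤ HW_MS S D' := fun _ hf v hv =>
  (hf v hv).trans (exp_le_exp.mpr (h v hv))

theorem HW_MS_mono' (S : Set (Place K F)) {D D' : Divisor K F} (h : D ≤ D') :
    HW_MS S D ≤ HW_MS S D' := HW_MS_mono S fun v _ => Finsupp.le_def.mp h v

theorem HW_MS_congr (S : Set (Place K F)) {D D' : Divisor K F} (h : ∀ v ∈ S, D v = D' v) :
    HW_MS S D = HW_MS S D' :=
  le_antisymm (HW_MS_mono S fun v hv => (h v hv).le) (HW_MS_mono S fun v hv => (h v hv).ge)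

/-- `L(D) ≤ M_S(D)`. -/
theorem HW_RR_le_MS (S : Set (Place K F)) (D : Divisor K F) :
    riemannRochSpace D ≤ HW_MS S D := fun _ hf v _ => hf v

/-- **Key local lemma** (cf. `RR_exists_sub_mem`). -/
theorem HW_MS_exists_sub_mem (S : Set (Place K F)) (v : Place K F) (hdeg : v.deg = 1)
    (D : Divisor K F) {f g : F}
    (hf : f ∈ HW_MS S (D + Finsupp.single v 1)) (hf' : f ∉ HW_MS S D)
    (hg : g ∈ HW_MS S (D + Finsupp.single v 1)) :
    ∃ c : K, g - c • f ∈ HW_MS S D := by
  classical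
  have hvS : v ∈ S := by
    by_contra hv
    apply hf'
    intro w hw
    have := hf w hw
    have hwv : w ≠ v := fun h => hv (h ▸ hw)
    rwa [Finsupp.add_apply, Finsupp.single_apply, if_neg (Ne.symm hwv), add_zero] at this
  have hother : ∀ (h : F), h ∈ HW_MS S (D + Finsupp.single v 1) → ∀ w ∈ S,
      w ≠ v → w.adicValuation h ≤ exp (D w) := by
    intro h hh w hwS hw
    have := hh w hwS
    rwa [Finsupp.add_apply, Finsupp.single_apply, if_neg (Ne.symm hw), add_zero] at this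
  have hat : ∀ (h : F), h ∈ HW_MS S (D + Finsupp.single v 1) →
      v.adicValuation h ≤ exp (D v + 1) := by
    intro h hh
    have := hh v hvS
    rwa [Finsupp.add_apply, Finsupp.single_apply, if_pos rfl] at this
  have hfv : v.adicValuation f = exp (D v + 1) := by
    apply RR_val_eq_of_lt_of_le v _ (hat f hf)
    by_contra hcon
    rw [not_lt] at hcon
    apply hf'
    intro w hwS
    by_cases hw : w = v
    · subst hw; exact hcon
    · exact hother f hf w hwS hw
  have hf0 : f ≠ 0 := by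
    rintro rfl
    simp at hfv
  have hquot : v.adicValuation (g / f) ≤ 1 := by
    rw [map_div₀, hfv]
    rw [div_le_one₀ (by simp)]
    exact hat g hg
  obtain ⟨c, hc⟩ := RR_exists_const v hdeg hquot
  refine ⟨c, fun w hwS => ?_⟩
  by_cases hw : w = v
  · subst hw
    have h1 : g - c • f = (g / f - algebraMap K F c) * f := by
      rw [Algebra.smul_def]
      field_simp
    rw [h1, map_mul, hfv]
    have h2 : w.adicValuation (g / f - algebraMap K F c) ≤ exp (-1) := by
      rcases eq_or_ne (g / f - algebraMap K F c) 0 with h0 | h0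
      · rw [h0]; simp
      · rw [w.adicValuation_eq_exp_neg_ord h0] at hc ⊢
        rw [← exp_zero, exp_lt_exp] at hc
        rw [exp_le_exp]
        omega
    calc w.adicValuation (g / f - algebraMap K F c) * exp (D w + 1)
        ≤ exp (-1) * exp (D w + 1) := by gcongr
      _ = exp (D w) := by rw [← exp_add]; congr 1; ring
  · exact hother _ (Submodule.sub_mem _ hg (Submodule.smul_mem _ c hf)) w hwS hw

theorem HW_MS_le_sup_span (S : Set (Place K F)) (v : Place K F) (hdeg : v.deg = 1)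
    (D : Divisor K F) {f : F}
    (hf : f ∈ HW_MS S (D + Finsupp.single v 1)) (hf' : f ∉ HW_MS S D) :
    HW_MS S (D + Finsupp.single v 1) ≤ HW_MS S D ⊔ Submodule.span K {f} := by
  intro g hg
  obtain ⟨c, hc⟩ := HW_MS_exists_sub_mem S v hdeg D hf hf' hg
  rw [Submodule.mem_sup]
  exact ⟨g - c • f, hc, c • f, Submodule.smul_mem _ c (Submodule.mem_span_singleton_self f),
    by abel⟩

section LinAlg

variable {V : Type*} [AddCommGroup V] [Module K V]

theorem HW_rfin_refl (A : Submodule K V) : HW_rfin A A := by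
  unfold HW_rfin
  have : A.map A.mkQ = ⊥ := by
    rw [eq_bot_iff]
    rintro _ ⟨a, ha, rfl⟩
    rw [Submodule.mem_bot, Submodule.mkQ_apply, Submodule.Quotient.mk_eq_zero]
    exact ha
  rw [this]
  infer_instance

theorem HW_rdim_refl (A : Submodule K V) : HW_rdim A A = 0 := by
  unfold HW_rdim
  have : A.map A.mkQ = ⊥ := by
    rw [eq_bot_iff]
    rintro _ ⟨a, ha, rfl⟩
    rw [Submodule.mem_bot, Submodule.mkQ_apply, Submodule.Quotient.mk_eq_zero]
    exact ha
  rw [this]
  exact finrank_bot K _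

theorem HW_rfin_of_le_sup_span {A A' : Submodule K V} {f : V}
    (h : A' ≤ A ⊔ Submodule.span K {f}) : HW_rfin A A' := by
  unfold HW_rfin
  have hle : A'.map A.mkQ ≤ Submodule.span K {A.mkQ f} := by
    rintro _ ⟨a, ha, rfl⟩
    obtain ⟨y, hy, z, hz, rfl⟩ := Submodule.mem_sup.1 (h ha)
    obtain ⟨c, rfl⟩ := Submodule.mem_span_singleton.1 hz
    rw [map_add, map_smul]
    have : A.mkQ y = 0 := by
      rw [Submodule.mkQ_apply, Submodule.Quotient.mk_eq_zero]; exact hy
    rw [this, zero_add]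
    exact Submodule.smul_mem _ _ (Submodule.mem_span_singleton_self _)
  exact Submodule.finiteDimensional_of_le hle

theorem HW_rfin_trans {A A' A'' : Submodule K V} (hle : A ≤ A') (h1 : HW_rfin A A')
    (h2 : HW_rfin A' A'') : HW_rfin A A'' := by
  unfold HW_rfin at *
  let φ : (V ⧸ A) →ₗ[K] (V ⧸ A') := A.mapQ A' LinearMap.id (by rw [Submodule.comap_id]; exact hle)
  have hφ : ∀ v, φ (A.mkQ v) = A'.mkQ v := fun v => rfl
  refine HW_finite_of_map φ (A''.map A.mkQ) ?_ ?_
  · have : (A''.map A.mkQ).map φ = A''.map A'.mkQ := by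
      rw [← Submodule.map_comp]
      congr 1
    rw [this]
    exact h2
  · have hker : LinearMap.ker φ ≤ A'.map A.mkQ := by
      intro y hy
      obtain ⟨v, rfl⟩ := A.mkQ_surjective y
      rw [LinearMap.mem_ker, hφ, Submodule.mkQ_apply, Submodule.Quotient.mk_eq_zero] at hy
      exact ⟨v, hy, rfl⟩
    exact Submodule.finiteDimensional_of_le (inf_le_right.trans hker)

theorem HW_Fred_symm {A B : Submodule K V} (h : HW_Fred A B) : HW_Fred B A := by
  unfold HW_Fred at *
  rw [inf_comm, sup_comm]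
  exact h

theorem HW_chi_symm (A B : Submodule K V) : HW_chi A B = HW_chi B A := by
  unfold HW_chi
  rw [inf_comm, sup_comm]

end LinAlg

section Finite

variable (S : Set (Place K F))

theorem HW_rfin_single (v : Place K F) (hdeg : v.deg = 1) (D : Divisor K F) :
    HW_rfin (HW_MS S D) (HW_MS S (D + Finsupp.single v 1)) := by
  by_cases h : HW_MS S (D + Finsupp.single v 1) ≤ HW_MS S D
  · have heq : HW_MS S (D + Finsupp.single v 1) = HW_MS S D :=
      le_antisymm h (HW_MS_mono' S (le_add_of_nonneg_right (by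
        have := RR_single_nonneg (K := K) v 1
        rwa [Nat.cast_one] at this)))
    rw [heq]
    exact HW_rfin_refl _
  · obtain ⟨f, hf, hf'⟩ := SetLike.not_le_iff_exists.1 h
    exact HW_rfin_of_le_sup_span (HW_MS_le_sup_span S v hdeg D hf hf')

theorem HW_rfin_single_nat (v : Place K F) (hdeg : v.deg = 1) (D : Divisor K F) (n : ℕ) :
    HW_rfin (HW_MS S D) (HW_MS S (D + Finsupp.single v (n : ℤ))) := by
  induction n with
  | zero =>
    have h0 : D + Finsupp.single v ((0 : ℕ) : ℤ) = D := by simp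
    rw [h0]
    exact HW_rfin_refl _
  | succ n ih =>
    have heq : D + Finsupp.single v ((n + 1 : ℕ) : ℤ) =
        D + Finsupp.single v (n : ℤ) + Finsupp.single v 1 := by
      rw [add_assoc, ← Finsupp.single_add]
      norm_cast
    rw [heq]
    refine HW_rfin_trans (HW_MS_mono' S ?_) ih (HW_rfin_single S v hdeg _)
    exact le_add_of_nonneg_right (RR_single_nonneg v n)

theorem HW_rfin_sum (hdeg : ∀ v : Place K F, v.deg = 1) (D : Divisor K F)
    (s : Finset (Place K F)) (n : Place K F → ℕ) :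
    HW_rfin (HW_MS S D) (HW_MS S (D + ∑ v ∈ s, Finsupp.single v (n v : ℤ))) := by
  classical
  induction s using Finset.induction_on with
  | empty =>
    rw [Finset.sum_empty, add_zero]
    exact HW_rfin_refl _
  | insert a s ha ih =>
    rw [Finset.sum_insert ha, add_comm (Finsupp.single a (n a : ℤ)), ← add_assoc]
    refine HW_rfin_trans (HW_MS_mono' S ?_) ih (HW_rfin_single_nat S a (hdeg a) _ _)
    refine le_add_of_nonneg_right (Finset.sum_nonneg fun v _ => RR_single_nonneg v (n v))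

/-- for `D ≤ D'`, the quotient `M_S(D') / M_S(D)` is finite-dimensional. -/
theorem HW_rfin_of_le (hdeg : ∀ v : Place K F, v.deg = 1) {D D' : Divisor K F} (h : D ≤ D') :
    HW_rfin (HW_MS S D) (HW_MS S D') := by
  have hs := HW_rfin_sum S hdeg D (D' - D).support (fun v => ((D' - D) v).toNat)
  rwa [← RR_eq_add_sum h] at hs

end Finite

section Fredholm

variable (S : Set (Place K F))

/-- Fredholm property passes between comparable divisors. -/
theorem HW_fred_iff_of_le (hdeg : ∀ v : Place K F, v.deg = 1) {D D' : Divisor K F} (h : D ≤ D') :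
    HW_Fred (HW_MS S D) (HW_MS Sᶜ D) ↔ HW_Fred (HW_MS S D') (HW_MS Sᶜ D') := by
  have l1 := HW_MS_mono' S h
  have l2 := HW_MS_mono' Sᶜ h
  have f1 := HW_rfin_of_le S hdeg h
  have f2 := HW_rfin_of_le Sᶜ hdeg h
  constructor
  · intro hF
    have h1 : HW_Fred (HW_MS S D') (HW_MS Sᶜ D) := HW_fred_up l1 f1 hF
    exact HW_Fred_symm (HW_fred_up l2 f2 (HW_Fred_symm h1))
  · intro hF
    have h1 : HW_Fred (HW_MS S D') (HW_MS Sᶜ D) :=
      HW_Fred_symm (HW_fred_down l2 f2 (HW_Fred_symm hF))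
    exact HW_fred_down l1 f1 h1

theorem HW_fred_all (hdeg : ∀ v : Place K F, v.deg = 1)
    (hbase : ∃ D₀ : Divisor K F, HW_Fred (HW_MS S D₀) (HW_MS Sᶜ D₀)) (D : Divisor K F) :
    HW_Fred (HW_MS S D) (HW_MS Sᶜ D) := by
  obtain ⟨D₀, h0⟩ := hbase
  have h1 : HW_Fred (HW_MS S (D ⊓ D₀)) (HW_MS Sᶜ (D ⊓ D₀)) :=
    (HW_fred_iff_of_le S hdeg (inf_le_right : D ⊓ D₀ ≤ D₀)).2 h0
  exact (HW_fred_iff_of_le S hdeg (inf_le_left : D ⊓ D₀ ≤ D)).1 h1

/-- additivity of `χ` in the divisor, in terms of the two relative dimensions. -/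
theorem HW_chi_step (hdeg : ∀ v : Place K F, v.deg = 1) {D D' : Divisor K F} (h : D ≤ D')
    (hF : HW_Fred (HW_MS S D) (HW_MS Sᶜ D)) :
    HW_chi (HW_MS S D') (HW_MS Sᶜ D') = HW_chi (HW_MS S D) (HW_MS Sᶜ D) +
      HW_rdim (HW_MS S D) (HW_MS S D') + HW_rdim (HW_MS Sᶜ D) (HW_MS Sᶜ D') := by
  have l1 := HW_MS_mono' S h
  have l2 := HW_MS_mono' Sᶜ h
  have f1 := HW_rfin_of_le S hdeg h
  have f2 := HW_rfin_of_le Sᶜ hdeg h
  have h1 : HW_Fred (HW_MS S D') (HW_MS Sᶜ D) := HW_fred_up l1 f1 hF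
  have e1 := HW_chi_of_le l1 f1 hF
  have e2 := HW_chi_of_le l2 f2 (HW_Fred_symm h1)
  rw [HW_chi_symm (HW_MS Sᶜ D') (HW_MS S D'), HW_chi_symm (HW_MS Sᶜ D) (HW_MS S D')] at e2
  omega

end Fredholm

section Vanish

theorem HW_le_of_finrank_quot_le {V : Type*} [AddCommGroup V] [Module K V]
    {A A' : Submodule K V} (hle : A ≤ A') (hfin : Module.Finite K (V ⧸ A))
    (h : Module.finrank K (V ⧸ A) ≤ Module.finrank K (V ⧸ A')) : A' ≤ A := by
  have e := Submodule.quotientQuotientEquivQuotient A A' hle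
  have e1 := Submodule.finrank_quotient_add_finrank (A'.map A.mkQ)
  rw [LinearEquiv.finrank_eq e] at e1
  have h0 : Module.finrank K ↥(A'.map A.mkQ) = 0 := by omega
  have hbot : A'.map A.mkQ = ⊥ := Submodule.finrank_eq_zero.1 h0
  intro a ha
  have : A.mkQ a ∈ A'.map A.mkQ := ⟨a, ha, rfl⟩
  rw [hbot, Submodule.mem_bot, Submodule.mkQ_apply, Submodule.Quotient.mk_eq_zero] at this
  exact this

variable (S : Set (Place K F))

/-- there is a divisor `D₀` with `H¹(D₀) = 0`. -/
theorem HW_exists_sum_eq_top (h : RR_Hyp K F)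
    (hbase : ∃ D₀ : Divisor K F, HW_Fred (HW_MS S D₀) (HW_MS Sᶜ D₀)) :
    ∃ D₀ : Divisor K F, HW_MS S D₀ ⊔ HW_MS Sᶜ D₀ = ⊤ := by
  classical
  have hP := h.principal
  have hF := HW_fred_all S h.deg_one hbase
  let h1 : Divisor K F → ℕ := fun D => Module.finrank K (F ⧸ (HW_MS S D ⊔ HW_MS Sᶜ D))
  let D₀ := Function.argmin h1
  have hmin : ∀ D, h1 D₀ ≤ h1 D := fun D => Function.argmin_le h1 D
  refine ⟨D₀, ?_⟩
  rw [eq_top_iff]
  intro z _
  set D' : Divisor K F := D₀ ⊔ (-RR_div hP z) with hD'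
  have hle : D₀ ≤ D' := le_sup_left
  have hsum : HW_MS S D₀ ⊔ HW_MS Sᶜ D₀ ≤ HW_MS S D' ⊔ HW_MS Sᶜ D' :=
    sup_le_sup (HW_MS_mono' S hle) (HW_MS_mono' Sᶜ hle)
  have hback := HW_le_of_finrank_quot_le hsum (hF D₀).2 (hmin D')
  apply hback
  have hz : z ∈ riemannRochSpace D' := by
    rw [mem_riemannRochSpace_iff]
    intro v
    right
    have : (-RR_div hP z) v ≤ D' v := Finsupp.le_def.1 (le_sup_right : -RR_div hP z ≤ D') v
    rw [Finsupp.neg_apply, RR_div_apply] at this
    omega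
  exact Submodule.mem_sup_left (HW_RR_le_MS S D' hz)

/-- translation by a principal divisor. -/
theorem HW_mul_mem_MS (hP : HasPrincipalDivisors K F) (D : Divisor K F) {z : F} (hz : z ≠ 0)
    {f : F} (hf : f ∈ HW_MS S (D + RR_div hP z)) : z * f ∈ HW_MS S D := by
  intro v hv
  have := hf v hv
  rw [Finsupp.add_apply, RR_div_apply, exp_add] at this
  rw [map_mul, v.adicValuation_eq_exp_neg_ord hz]
  rw [mul_comm, ← le_div_iff₀ (by simp), exp_neg, div_inv_eq_mul]
  exact this

theorem HW_sum_eq_top_of_add_div (hP : HasPrincipalDivisors K F) (D : Divisor K F) {z : F}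
    (hz : z ≠ 0)
    (h : HW_MS S (D + RR_div hP z) ⊔ HW_MS Sᶜ (D + RR_div hP z) = ⊤) :
    HW_MS S D ⊔ HW_MS Sᶜ D = ⊤ := by
  rw [eq_top_iff]
  intro w _
  have hw : z⁻¹ * w ∈ HW_MS S (D + RR_div hP z) ⊔ HW_MS Sᶜ (D + RR_div hP z) := by
    rw [h]; trivial
  obtain ⟨f, hf, g, hg, hfg⟩ := Submodule.mem_sup.1 hw
  have : w = z * f + z * g := by
    rw [← mul_add, hfg, ← mul_assoc, mul_inv_cancel₀ hz, one_mul]
  rw [this]
  exact Submodule.add_mem_sup (HW_mul_mem_MS S hP D hz hf) (HW_mul_mem_MS Sᶜ hP D hz hg)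

/-- **Lemma A**: for divisors of large degree, `H¹ = 0` and `χ(D) = deg D + 1 - g`. -/
theorem HW_large_degree (h : RR_Hyp K F)
    (hbase : ∃ D₀ : Divisor K F, HW_Fred (HW_MS S D₀) (HW_MS Sᶜ D₀)) :
    ∃ c : ℤ, ∀ D : Divisor K F, c ≤ D.degree →
      HW_MS S D ⊔ HW_MS Sᶜ D = ⊤ ∧
      HW_chi (HW_MS S D) (HW_MS Sᶜ D) = D.degree + 1 - (RR_genus K F : ℤ) := by
  have hP := h.principal
  obtain ⟨D₀, hD₀⟩ := HW_exists_sum_eq_top S h hbase
  obtain ⟨c, hc⟩ := RR_riemann_eq h
  refine ⟨max c (D₀.degree + RR_genus K F), fun D hD => ?_⟩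
  have hD1 : c ≤ D.degree := le_trans (le_max_left _ _) hD
  have hD2 : D₀.degree + RR_genus K F ≤ D.degree := le_trans (le_max_right _ _) hD
  have htop : HW_MS S D ⊔ HW_MS Sᶜ D = ⊤ := by
    have h1 := RR_riemann_ineq h (D - D₀)
    rw [map_sub] at h1
    have hpos : 0 < Module.finrank K (riemannRochSpace (D - D₀)) := by
      have : (0 : ℤ) < Module.finrank K (riemannRochSpace (D - D₀)) := by linarith
      exact_mod_cast this
    obtain ⟨z, hz0, hz⟩ := RR_exists_ne_zero_of_finrank_pos hpos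
    have hle : D₀ ≤ D + RR_div hP z := by
      have := (RR_mem_iff_div hP hz0).1 hz
      rw [Finsupp.le_def] at this ⊢
      intro v
      have := this v
      simp only [Finsupp.add_apply, Finsupp.sub_apply, Finsupp.zero_apply] at this ⊢
      linarith
    apply HW_sum_eq_top_of_add_div S hP D hz0
    rw [eq_top_iff, ← hD₀]
    exact sup_le_sup (HW_MS_mono' S hle) (HW_MS_mono' Sᶜ hle)
  refine ⟨htop, ?_⟩
  unfold HW_chi
  have hsub : Subsingleton (F ⧸ (HW_MS S D ⊔ HW_MS Sᶜ D)) := by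
    rw [htop]; infer_instance
  rw [Module.finrank_zero_of_subsingleton (M := F ⧸ (HW_MS S D ⊔ HW_MS Sᶜ D)),
    HW_MS_inf_compl, hc D hD1]
  simp

end Vanish

section Main

variable (S : Set (Place K F))

/-- **Lemma B**: the relative dimension `dim M_S(D') / M_S(D)` is the degree of `D' - D` on `S`. -/
theorem HW_rdim_MS (h : RR_Hyp K F)
    (hbase : ∃ D₀ : Divisor K F, HW_Fred (HW_MS S D₀) (HW_MS Sᶜ D₀))
    (hSc : Sᶜ.Nonempty) {D D' : Divisor K F} (E : Divisor K F)
    (hE : ∀ v ∈ S, E v = D' v - D v) (hE' : ∀ v, v ∉ S → E v = 0) (hE0 : 0 ≤ E) :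
    (HW_rdim (HW_MS S D) (HW_MS S D') : ℤ) = E.degree := by
  classical
  obtain ⟨c, hc⟩ := HW_large_degree S h hbase
  obtain ⟨P, hP⟩ := hSc
  have hdeg := h.deg_one
  set N : ℕ := (c - D.degree).toNat with hN
  set D₁ : Divisor K F := D + Finsupp.single P (N : ℤ) with hD₁
  set D₁' : Divisor K F := D₁ + E with hD₁'
  have hdeg1 : D₁.degree = D.degree + N := by
    rw [hD₁, map_add, Divisor.degree_single, hdeg P]; simp
  have hc1 : c ≤ D₁.degree := by
    rw [hdeg1, hN]
    have := Int.self_le_toNat (c - D.degree)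
    omega
  have hle : D₁ ≤ D₁' := le_add_of_nonneg_right hE0
  have hc1' : c ≤ D₁'.degree := le_trans hc1 (RR_degree_mono hdeg hle)
  have hstep := HW_chi_step S hdeg hle (HW_fred_all S hdeg hbase D₁)
  rw [(hc D₁ hc1).2, (hc D₁' hc1').2] at hstep
  have h0 : HW_MS Sᶜ D₁' = HW_MS Sᶜ D₁ := by
    apply HW_MS_congr
    intro v hv
    rw [hD₁', Finsupp.add_apply, hE' v hv, add_zero]
  rw [h0, HW_rdim_refl] at hstep
  have h1 : HW_MS S D₁ = HW_MS S D := by
    apply HW_MS_congr
    intro v hv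
    have hvP : P ≠ v := fun h => hP (h ▸ hv)
    rw [hD₁, Finsupp.add_apply, Finsupp.single_apply, if_neg hvP, add_zero]
  have h2 : HW_MS S D₁' = HW_MS S D' := by
    apply HW_MS_congr
    intro v hv
    have hvP : P ≠ v := fun h => hP (h ▸ hv)
    rw [hD₁', hD₁, Finsupp.add_apply, Finsupp.add_apply, Finsupp.single_apply, if_neg hvP,
      add_zero, hE v hv]
    ring
  rw [h1, h2] at hstep
  have hdeg2 : D₁'.degree = D₁.degree + E.degree := by rw [hD₁', map_add]
  rw [hdeg2] at hstep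
  push_cast at hstep
  linarith

/-- **Euler characteristic of a divisor**: for every divisor `D`, the pair
`(M_S(D), M_{Sᶜ}(D))` is Fredholm and `dim L(D) - dim H¹(D) = deg D + 1 - g`. -/
theorem HW_chi_divisor (h : RR_Hyp K F) (hS : S.Nonempty) (hSc : Sᶜ.Nonempty)
    (hbase : ∃ D₀ : Divisor K F, HW_Fred (HW_MS S D₀) (HW_MS Sᶜ D₀)) (D : Divisor K F) :
    HW_Fred (HW_MS S D) (HW_MS Sᶜ D) ∧
      HW_chi (HW_MS S D) (HW_MS Sᶜ D) = D.degree + 1 - (RR_genus K F : ℤ) := by
  classical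
  have hdeg := h.deg_one
  have hF := HW_fred_all S hdeg hbase
  refine ⟨hF D, ?_⟩
  obtain ⟨c, hc⟩ := HW_large_degree S h hbase
  obtain ⟨P, hP⟩ := hSc
  set N : ℕ := (c - D.degree).toNat with hN
  set D' : Divisor K F := D + Finsupp.single P (N : ℤ) with hD'
  have hdeg' : D'.degree = D.degree + N := by
    rw [hD', map_add, Divisor.degree_single, hdeg P]; simp
  have hc' : c ≤ D'.degree := by
    rw [hdeg', hN]
    have := Int.self_le_toNat (c - D.degree)
    omega
  have hE0 : (0 : Divisor K F) ≤ Finsupp.single P (N : ℤ) := RR_single_nonneg P N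
  have hle : D ≤ D' := le_add_of_nonneg_right hE0
  have hstep := HW_chi_step S hdeg hle (hF D)
  rw [(hc D' hc').2] at hstep
  have h0 : HW_MS S D' = HW_MS S D := by
    apply HW_MS_congr
    intro v hv
    have hvP : P ≠ v := fun h => hP (h ▸ hv)
    rw [hD', Finsupp.add_apply, Finsupp.single_apply, if_neg hvP, add_zero]
  rw [h0, HW_rdim_refl] at hstep
  -- the `Sᶜ`-part
  have hbase' : ∃ D₀ : Divisor K F, HW_Fred (HW_MS Sᶜ D₀) (HW_MS Sᶜᶜ D₀) := by
    obtain ⟨D₀, h0⟩ := hbase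
    refine ⟨D₀, ?_⟩
    rw [compl_compl]
    exact HW_Fred_symm h0
  have hScc : (Sᶜᶜ).Nonempty := by rw [compl_compl]; exact hS
  have hB := HW_rdim_MS Sᶜ h hbase' hScc (D := D) (D' := D') (Finsupp.single P (N : ℤ))
    (fun v _ => by rw [hD', Finsupp.add_apply]; ring)
    (fun v hv => by
      have hvS : v ∈ S := by
        by_contra hcon
        exact hv hcon
      have hvP : P ≠ v := fun h => hP (h ▸ hvS)
      rw [Finsupp.single_apply, if_neg hvP]) hE0
  rw [Divisor.degree_single, hdeg P] at hB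
  rw [hdeg'] at hstep
  push_cast at hstep hB
  linarith

/-- consequence: `dim H¹(D) = dim L(D) - deg D - 1 + g`. -/
theorem HW_finrank_H1 (h : RR_Hyp K F) (hS : S.Nonempty) (hSc : Sᶜ.Nonempty)
    (hbase : ∃ D₀ : Divisor K F, HW_Fred (HW_MS S D₀) (HW_MS Sᶜ D₀)) (D : Divisor K F) :
    (Module.finrank K (F ⧸ (HW_MS S D ⊔ HW_MS Sᶜ D)) : ℤ) =
      Module.finrank K (riemannRochSpace D) - D.degree - 1 + RR_genus K F := by
  have := (HW_chi_divisor S h hS hSc hbase D).2
  unfold HW_chi at this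
  rw [HW_MS_inf_compl] at this
  linarith

end Main

end Fermat.Agent.Lib
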