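import Fermat.Agent.Lib.HurwitzLin

/-!
# Package H (Hurwitz), part 2: lattices over two rings and duality

`K ⊆ L` fields, `R₁, R₂ → L` two `K`-algebras with `R₁ ∩ R₂ = K`, `R₁ + R₂ = L`
(in the application `L = K(x)`, `R₁ = K[x]`, `R₂ = O_∞`), `R₁` a PID with fraction field `L` and
`R₁ / (a)` finite-dimensional over `K`.  `V` a finite-dimensional `L`-vector space with a
nondegenerate symmetric bilinear form `B`.

* `HW_std_inf`, `HW_std_sup`: the standard pair `(⊕ R₁ bᵢ, ⊕ R₂ bᵢ)` has `h⁰ = n`, `h¹ = 0`.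
* `HW_lattice_rdim_dual`: for `R₁`-lattices `M ≤ N`: `dim_K N/M = dim_K M^∨/N^∨` (Smith normal form).
* `HW_lattice_duality`: `χ(M₁, M₂) + χ(M₁^∨, M₂^∨) = 2 n` for `M₁ = ⊕ R₁ bᵢ`, `M₂ = ⊕ R₂ b'ᵢ`.
-/

set_option autoImplicit false
set_option linter.unusedSectionVars false

open Module Submodule

namespace Fermat.Agent.Lib

section Std

variable {K L V R₁ R₂ ι : Type*} [Field K] [Field L] [Algebra K L]
  [AddCommGroup V] [Module L V] [Module K V] [IsScalarTower K L V]
  [CommRing R₁] [IsDomain R₁] [Algebra K R₁] [Algebra R₁ L] [IsScalarTower K R₁ L] [Module R₁ V]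
  [IsScalarTower R₁ L V] [IsScalarTower K R₁ V] [Module.IsTorsionFree R₁ L]
  [CommRing R₂] [IsDomain R₂] [Algebra K R₂] [Algebra R₂ L] [IsScalarTower K R₂ L] [Module R₂ V]
  [IsScalarTower R₂ L V] [IsScalarTower K R₂ V] [Module.IsTorsionFree R₂ L]

/-- the `K`-subspace underlying the `R`-lattice spanned by a basis. -/
noncomputable def HW_lat (K R : Type*) {L V ι : Type*} [Field K] [Field L]
    [AddCommGroup V] [Module L V] [Module K V]
    [CommRing R] [Algebra K R] [Module R V] [IsScalarTower K R V]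
    (b : Basis ι L V) : Submodule K V :=
  (Submodule.span R (Set.range b)).restrictScalars K

omit [Algebra K L] [IsScalarTower K L V] in
theorem HW_mem_lat_iff {R : Type*} [CommRing R] [IsDomain R] [Algebra K R] [Algebra R L]
    [Module R V] [IsScalarTower R L V] [IsScalarTower K R V] [Module.IsTorsionFree R L]
    (b : Basis ι L V) (v : V) :
    v ∈ HW_lat K R b ↔ ∀ i, b.repr v i ∈ Set.range (algebraMap R L) := by
  rw [HW_lat, Submodule.restrictScalars_mem]
  exact b.mem_span_iff_repr_mem R v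

omit [Algebra K L] [IsScalarTower K L V] in
theorem HW_smul_mem_lat {R : Type*} [CommRing R] [Algebra K R]
    [Module R V] [IsScalarTower K R V]
    (b : Basis ι L V) (r : R) (i : ι) : r • b i ∈ HW_lat K R b := by
  rw [HW_lat, Submodule.restrictScalars_mem]
  exact Submodule.smul_mem _ _ (Submodule.subset_span ⟨i, rfl⟩)

variable (R₁ R₂) in
theorem HW_std_inf [Fintype ι]
    (hcap : ∀ (a : R₁) (c : R₂), algebraMap R₁ L a = algebraMap R₂ L c →
      ∃ k : K, algebraMap K L k = algebraMap R₁ L a)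
    (b : Basis ι L V) :
    HW_lat K R₁ b ⊓ HW_lat K R₂ b = Submodule.span K (Set.range b) := by
  apply le_antisymm
  · intro v hv
    rw [Submodule.mem_inf, HW_mem_lat_iff, HW_mem_lat_iff] at hv
    rw [← b.sum_repr v]
    refine Submodule.sum_mem _ fun i _ => ?_
    obtain ⟨a, ha⟩ := hv.1 i
    obtain ⟨c, hc⟩ := hv.2 i
    obtain ⟨k, hk⟩ := hcap a c (ha.trans hc.symm)
    rw [← ha, ← hk, algebraMap_smul]
    exact Submodule.smul_mem _ _ (Submodule.subset_span ⟨i, rfl⟩)
  · rw [Submodule.span_le]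
    rintro _ ⟨i, rfl⟩
    refine ⟨?_, ?_⟩
    · exact Submodule.subset_span ⟨i, rfl⟩
    · exact Submodule.subset_span ⟨i, rfl⟩

variable (R₁ R₂) in
theorem HW_std_sup [Fintype ι]
    (hsum : ∀ f : L, ∃ (a : R₁) (c : R₂), f = algebraMap R₁ L a + algebraMap R₂ L c)
    (b : Basis ι L V) :
    HW_lat K R₁ b ⊔ HW_lat K R₂ b = ⊤ := by
  rw [eq_top_iff]
  intro v _
  rw [← b.sum_repr v]
  refine Submodule.sum_mem _ fun i _ => ?_
  obtain ⟨a, c, hac⟩ := hsum (b.repr v i)
  rw [hac, add_smul]
  refine Submodule.add_mem_sup ?_ ?_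
  · rw [algebraMap_smul]
    exact HW_smul_mem_lat b a i
  · rw [algebraMap_smul]
    exact HW_smul_mem_lat b c i

variable (R₁ R₂) in
/-- the standard pair is Fredholm with Euler characteristic `n`. -/
theorem HW_std [Fintype ι]
    (hcap : ∀ (a : R₁) (c : R₂), algebraMap R₁ L a = algebraMap R₂ L c →
      ∃ k : K, algebraMap K L k = algebraMap R₁ L a)
    (hsum : ∀ f : L, ∃ (a : R₁) (c : R₂), f = algebraMap R₁ L a + algebraMap R₂ L c)
    (b : Basis ι L V) :
    HW_Fred (HW_lat K R₁ b) (HW_lat K R₂ b) ∧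
      HW_chi (HW_lat K R₁ b) (HW_lat K R₂ b) = Fintype.card ι := by
  have hli : LinearIndependent K b :=
    b.linearIndependent.restrict_scalars (smul_left_injective K one_ne_zero)
  have hinf := HW_std_inf R₁ R₂ hcap b
  have hsup := HW_std_sup (K := K) R₁ R₂ hsum b
  have hsub : Subsingleton (V ⧸ (HW_lat K R₁ b ⊔ HW_lat K R₂ b)) := by
    rw [hsup]; infer_instance
  refine ⟨⟨?_, ?_⟩, ?_⟩
  · rw [hinf]
    exact FiniteDimensional.span_of_finite K (Set.finite_range b)
  · infer_instance
  · unfold HW_chi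
    rw [hinf, finrank_span_eq_card hli, Module.finrank_zero_of_subsingleton]
    simp

end Std

section Transfer

variable {K V : Type*} [Field K] [AddCommGroup V] [Module K V]

theorem HW_map_mkQ_map (T : V ≃ₗ[K] V) (X Y : Submodule K V) :
    (Y.map (T : V →ₗ[K] V)).map (X.map (T : V →ₗ[K] V)).mkQ =
      (Y.map X.mkQ).map
        (Submodule.Quotient.equiv X (X.map (T : V →ₗ[K] V)) T rfl : (V ⧸ X) →ₗ[K] _) := by
  rw [← Submodule.map_comp, ← Submodule.map_comp]
  congr 1

theorem HW_rdim_map (T : V ≃ₗ[K] V) (X Y : Submodule K V) :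
    HW_rdim (X.map (T : V →ₗ[K] V)) (Y.map (T : V →ₗ[K] V)) = HW_rdim X Y := by
  unfold HW_rdim
  rw [HW_map_mkQ_map]
  exact LinearEquiv.finrank_map_eq _ _

theorem HW_rfin_map (T : V ≃ₗ[K] V) (X Y : Submodule K V) (h : HW_rfin X Y) :
    HW_rfin (X.map (T : V →ₗ[K] V)) (Y.map (T : V →ₗ[K] V)) := by
  unfold HW_rfin at h ⊢
  rw [HW_map_mkQ_map]
  exact Module.Finite.map _ _

end Transfer

section Diag

variable {K L V R ι : Type*} [Field K] [Field L] [Algebra K L]
  [AddCommGroup V] [Module L V] [Module K V] [IsScalarTower K L V]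
  [CommRing R] [IsDomain R] [Algebra K R] [Algebra R L] [IsScalarTower K R L] [Module R V]
  [IsScalarTower R L V] [IsScalarTower K R V] [Module.IsTorsionFree R L]
  [Fintype ι] [DecidableEq ι]

/-- the basis `(aᵢ • eᵢ)`. -/
noncomputable def HW_scale (e : Basis ι L V) (a : ι → L) (ha : ∀ i, a i ≠ 0) : Basis ι L V :=
  e.isUnitSMul (fun i => (ha i).isUnit)

omit [DecidableEq ι] in
@[simp] theorem HW_scale_apply (e : Basis ι L V) (a : ι → L) (ha : ∀ i, a i ≠ 0) (i : ι) :
    HW_scale e a ha i = a i • e i := by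
  rw [HW_scale, Basis.isUnitSMul_apply]

theorem HW_dualBasis_scale (B : LinearMap.BilinForm L V) (hB : B.Nondegenerate)
    (e : Basis ι L V) (a : ι → L) (ha : ∀ i, a i ≠ 0) :
    B.dualBasis hB (HW_scale e a ha) =
      HW_scale (B.dualBasis hB e) (fun i => (a i)⁻¹) (fun i => inv_ne_zero (ha i)) := by
  apply DFunLike.coe_injective
  rw [LinearMap.BilinForm.dualBasis_eq_iff]
  intro i j
  rw [HW_scale_apply, HW_scale_apply, map_smul, map_smul, LinearMap.smul_apply,
    LinearMap.BilinForm.apply_dualBasis_left]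
  split_ifs with h
  · subst h
    simp [ha j]
  · simp

/-- image of a lattice under a linear automorphism. -/
theorem HW_lat_map (e : Basis ι L V) (T : V ≃ₗ[L] V) :
    (HW_lat K R e).map ((T.restrictScalars K : V ≃ₗ[K] V) : V →ₗ[K] V) = HW_lat K R (e.map T) := by
  ext v
  rw [HW_mem_lat_iff, Submodule.mem_map_equiv, HW_mem_lat_iff]
  rfl

/-- the quotient of the lattice `⊕ R eᵢ` by `⊕ R aᵢ eᵢ` is finite-dimensional over `K`. -/
theorem HW_rfin_scale (hfin : ∀ r : R, r ≠ 0 → Module.Finite K (R ⧸ Ideal.span ({r} : Set R)))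
    (e : Basis ι L V) (a : ι → R) (ha : ∀ i, algebraMap R L (a i) ≠ 0) :
    HW_rfin (HW_lat K R (HW_scale e (fun i => algebraMap R L (a i)) ha)) (HW_lat K R e) := by
  set M := HW_lat K R (HW_scale e (fun i => algebraMap R L (a i)) ha) with hM
  -- the maps `ψ_i : R → V ⧸ M`
  let ψ : ι → (R →ₗ[K] (V ⧸ M)) := fun i =>
    M.mkQ ∘ₗ ((LinearMap.toSpanSingleton R V (e i)).restrictScalars K)
  have hψ : ∀ i r, ψ i r = M.mkQ (r • e i) := fun i r => rfl
  have hker : ∀ i, (Ideal.span ({a i} : Set R)).restrictScalars K ≤ LinearMap.ker (ψ i) := by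
    intro i r hr
    rw [Submodule.restrictScalars_mem, Ideal.mem_span_singleton'] at hr
    obtain ⟨s, rfl⟩ := hr
    rw [LinearMap.mem_ker, hψ, Submodule.mkQ_apply, Submodule.Quotient.mk_eq_zero, mul_smul]
    have := HW_smul_mem_lat (K := K) (HW_scale e (fun i => algebraMap R L (a i)) ha) s i
    rwa [HW_scale_apply, algebraMap_smul] at this
  have hfr : ∀ i, Module.Finite K ↥(LinearMap.range (ψ i)) := by
    intro i
    have ha0 : a i ≠ 0 := fun h => ha i (by rw [h, map_zero])
    have h1 : Module.Finite K (R ⧸ Ideal.span ({a i} : Set R)) := hfin _ ha0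
    have h2 : Module.Finite K (R ⧸ (Ideal.span ({a i} : Set R)).restrictScalars K) :=
      Module.Finite.equiv (Submodule.Quotient.restrictScalarsEquiv K _).symm
    have h3 : LinearMap.range (((Ideal.span ({a i} : Set R)).restrictScalars K).liftQ (ψ i)
        (hker i)) = LinearMap.range (ψ i) := Submodule.range_liftQ _ _ _
    rw [← h3]
    exact Module.Finite.range _
  have hle : (HW_lat K R e).map M.mkQ ≤ ⨆ i, LinearMap.range (ψ i) := by
    rintro _ ⟨v, hv, rfl⟩
    rw [SetLike.mem_coe, HW_mem_lat_iff] at hv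
    choose r hr using hv
    have hv' : v = ∑ i, r i • e i := by
      conv_lhs => rw [← e.sum_repr v]
      refine Finset.sum_congr rfl fun i _ => ?_
      rw [← hr i, algebraMap_smul]
    rw [hv', map_sum]
    refine Submodule.sum_mem _ fun i _ => ?_
    exact Submodule.mem_iSup_of_mem i ⟨r i, rfl⟩
  have : Module.Finite K ↥(⨆ i, LinearMap.range (ψ i)) := Submodule.finite_iSup _
  exact Submodule.finiteDimensional_of_le hle

end Diag

section Smith

variable {K L V R ι : Type*} [Field K] [Field L] [Algebra K L]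
  [AddCommGroup V] [Module L V] [Module K V] [IsScalarTower K L V]
  [CommRing R] [IsDomain R] [IsPrincipalIdealRing R] [Algebra K R] [Algebra R L]
  [IsScalarTower K R L] [Module R V]
  [IsScalarTower R L V] [IsScalarTower K R V] [Module.IsTorsionFree R L]
  [Fintype ι] [DecidableEq ι]

/-- **Smith normal form** for two lattices given by `L`-bases. -/
theorem HW_smith (b c : Basis ι L V)
    (hle : Submodule.span R (Set.range c) ≤ Submodule.span R (Set.range b)) :
    ∃ (e : Basis ι L V) (a : ι → R), (∀ i, algebraMap R L (a i) ≠ 0) ∧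
      Submodule.span R (Set.range e) = Submodule.span R (Set.range b) ∧
      Submodule.span R (Set.range fun i => a i • e i) = Submodule.span R (Set.range c) := by
  set N := Submodule.span R (Set.range b) with hN
  set M := Submodule.span R (Set.range c) with hM
  have hinj : Function.Injective (algebraMap R L) := FaithfulSMul.algebraMap_injective R L
  have hrank : Module.finrank R ↥(M.submoduleOf N) = Module.finrank R ↥N := by
    rw [LinearEquiv.finrank_eq (Submodule.submoduleOfEquivOfLe hle),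
      Module.finrank_eq_card_basis (c.restrictScalars R),
      Module.finrank_eq_card_basis (b.restrictScalars R)]
  obtain ⟨b', a, ab', hab⟩ :=
    Submodule.exists_smith_normal_form_of_rank_eq (b.restrictScalars R) hrank
  have hspan1 : Submodule.span R (Set.range fun i => ((b' i : ↥N) : V)) = N := by
    have : (Set.range fun i => ((b' i : ↥N) : V)) = N.subtype '' Set.range b' := by
      rw [← Set.range_comp]; rfl
    rw [this, ← Submodule.map_span, b'.span_eq, Submodule.map_top, Submodule.range_subtype]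
  have hspan2 : Submodule.span R (Set.range fun i => a i • ((b' i : ↥N) : V)) = M := by
    have h1 : (Set.range fun i => a i • ((b' i : ↥N) : V)) =
        (N.subtype ∘ₗ (M.submoduleOf N).subtype) '' Set.range ab' := by
      rw [← Set.range_comp]
      congr 1
      funext i
      simp only [Function.comp_apply, LinearMap.coe_comp, Submodule.subtype_apply, hab,
        Submodule.coe_smul]
    rw [h1, ← Submodule.map_span, ab'.span_eq, Submodule.map_comp, Submodule.map_top,
      Submodule.range_subtype, Submodule.submoduleOf, Submodule.map_comap_subtype,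
      inf_eq_right.2 hle]
  have htop : ⊤ ≤ Submodule.span L (Set.range fun i => ((b' i : ↥N) : V)) := by
    rw [← b.span_eq, Submodule.span_le]
    rintro _ ⟨i, rfl⟩
    have hbi : b i ∈ N := Submodule.subset_span ⟨i, rfl⟩
    rw [← hspan1] at hbi
    exact Submodule.span_subset_span R L _ hbi
  let e : Basis ι L V := basisOfTopLeSpanOfCardEqFinrank _ htop
    (Module.finrank_eq_card_basis b).symm
  have he : ∀ i, e i = ((b' i : ↥N) : V) := fun i => by
    simp only [e, coe_basisOfTopLeSpanOfCardEqFinrank]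
  refine ⟨e, a, ?_, ?_, ?_⟩
  · intro i h0
    have ha0 : a i = 0 := hinj (by rw [h0, map_zero])
    have := ab'.ne_zero i
    apply this
    apply Subtype.ext
    rw [hab, ha0, zero_smul]
    rfl
  · have : (Set.range e) = Set.range fun i => ((b' i : ↥N) : V) := by
      congr 1; funext i; exact he i
    rw [this, hspan1]
  · have : (Set.range fun i => a i • e i) = Set.range fun i => a i • ((b' i : ↥N) : V) := by
      congr 1; funext i; rw [he i]
    rw [this, hspan2]

theorem HW_lat_congr {b c : Basis ι L V}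
    (h : Submodule.span R (Set.range b) = Submodule.span R (Set.range c)) :
    HW_lat K R b = HW_lat K R c := by
  rw [HW_lat, HW_lat, h]

theorem HW_lat_dual_congr (B : LinearMap.BilinForm L V) (hB : B.Nondegenerate)
    {b c : Basis ι L V}
    (h : Submodule.span R (Set.range b) = Submodule.span R (Set.range c)) :
    HW_lat K R (B.dualBasis hB b) = HW_lat K R (B.dualBasis hB c) := by
  apply HW_lat_congr
  rw [← LinearMap.BilinForm.dualSubmodule_span_of_basis B hB b,
    ← LinearMap.BilinForm.dualSubmodule_span_of_basis B hB c, h]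

/-- for `R`-lattices `M ≤ N` (given by bases): `N^∨ ≤ M^∨` and `dim_K M^∨/N^∨ = dim_K N/M`. -/
theorem HW_lattice_rdim_dual
    (hfin : ∀ r : R, r ≠ 0 → Module.Finite K (R ⧸ Ideal.span ({r} : Set R)))
    (B : LinearMap.BilinForm L V) (hB : B.Nondegenerate) (b c : Basis ι L V)
    (hle : Submodule.span R (Set.range c) ≤ Submodule.span R (Set.range b)) :
    HW_lat K R c ≤ HW_lat K R b ∧
    HW_rfin (HW_lat K R c) (HW_lat K R b) ∧
    HW_lat K R (B.dualBasis hB b) ≤ HW_lat K R (B.dualBasis hB c) ∧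
    HW_rfin (HW_lat K R (B.dualBasis hB b)) (HW_lat K R (B.dualBasis hB c)) ∧
    HW_rdim (HW_lat K R (B.dualBasis hB b)) (HW_lat K R (B.dualBasis hB c)) =
      HW_rdim (HW_lat K R c) (HW_lat K R b) := by
  obtain ⟨e, a, ha, he, hea⟩ := HW_smith b c hle
  set ea := HW_scale e (fun i => algebraMap R L (a i)) ha with hea_def
  have hea' : Submodule.span R (Set.range ea) = Submodule.span R (Set.range c) := by
    rw [← hea]
    congr 2
    funext i
    rw [hea_def, HW_scale_apply, algebraMap_smul]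
  rw [← HW_lat_congr (K := K) he, ← HW_lat_congr (K := K) hea',
    ← HW_lat_dual_congr (K := K) B hB he, ← HW_lat_dual_congr (K := K) B hB hea']
  -- the automorphism `T`
  let T : V ≃ₗ[L] V := e.equiv (B.dualBasis hB ea) (Equiv.refl ι)
  have hT1 : e.map T = B.dualBasis hB ea := by
    apply Basis.eq_of_apply_eq
    intro i
    rw [Basis.map_apply, Basis.equiv_apply, Equiv.refl_apply]
  have hT2 : ea.map T = B.dualBasis hB e := by
    apply Basis.eq_of_apply_eq
    intro i
    rw [Basis.map_apply, hea_def, HW_scale_apply, map_smul, Basis.equiv_apply, Equiv.refl_apply,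
      HW_dualBasis_scale, HW_scale_apply, smul_smul, mul_inv_cancel₀ (ha i), one_smul]
  have h1 := HW_lat_map (K := K) (R := R) e T
  have h2 := HW_lat_map (K := K) (R := R) ea T
  rw [hT1] at h1
  rw [hT2] at h2
  have hle' : HW_lat K R ea ≤ HW_lat K R e := by
    intro v hv
    rw [HW_lat, Submodule.restrictScalars_mem] at hv ⊢
    rw [he]
    rw [hea'] at hv
    exact hle hv
  have hfin' := HW_rfin_scale (K := K) hfin e a ha
  refine ⟨hle', hfin', ?_, ?_, ?_⟩
  · rw [← h1, ← h2]
    exact Submodule.map_mono hle'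
  · rw [← h1, ← h2]
    exact HW_rfin_map _ _ _ hfin'
  · rw [← h1, ← h2]
    exact HW_rdim_map _ _ _

end Smith

section Main

variable {K L V R₁ R₂ ι : Type*} [Field K] [Field L] [Algebra K L]
  [AddCommGroup V] [Module L V] [Module K V] [IsScalarTower K L V]
  [CommRing R₁] [IsDomain R₁] [IsPrincipalIdealRing R₁] [Algebra K R₁] [Algebra R₁ L]
  [IsScalarTower K R₁ L] [Module R₁ V] [IsScalarTower R₁ L V] [IsScalarTower K R₁ V]
  [IsFractionRing R₁ L]
  [CommRing R₂] [IsDomain R₂] [Algebra K R₂] [Algebra R₂ L] [IsScalarTower K R₂ L] [Module R₂ V]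
  [IsScalarTower R₂ L V] [IsScalarTower K R₂ V] [Module.IsTorsionFree R₂ L]
  [Fintype ι] [DecidableEq ι]

/-- clearing denominators: a multiple `α • b'` of the basis `b'` lies in the lattice of `b`. -/
theorem HW_exists_scale_le (b b' : Basis ι L V) :
    ∃ α : R₁, algebraMap R₁ L α ≠ 0 ∧
      ∀ i, α • b' i ∈ Submodule.span R₁ (Set.range b) := by
  have hinj : Function.Injective (algebraMap R₁ L) := IsFractionRing.injective R₁ L
  have : Module.IsTorsionFree R₁ L := inferInstance
  obtain ⟨m, hm⟩ := IsLocalization.exist_integer_multiples_of_finite (nonZeroDivisors R₁)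
    (fun p : ι × ι => b.repr (b' p.1) p.2)
  refine ⟨m, ?_, fun i => ?_⟩
  · intro h0
    have : (m : R₁) = 0 := hinj (by rw [h0, map_zero])
    exact nonZeroDivisors.coe_ne_zero m this
  · rw [b.mem_span_iff_repr_mem R₁]
    intro j
    obtain ⟨r, hr⟩ := hm (i, j)
    refine ⟨r, ?_⟩
    rw [hr, ← algebraMap_smul L (m : R₁) (b' i), map_smul, Finsupp.smul_apply, Algebra.smul_def]
    rfl

/-- **Duality count for lattice pairs.**  For `L`-bases `b, b'` of `V`, the pair
`M₁ = ⊕ R₁ bᵢ`, `M₂ = ⊕ R₂ b'ᵢ` and the pair of dual lattices are Fredholm and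
`χ(M₁, M₂) + χ(M₁^∨, M₂^∨) = 2 dim_L V`. -/
theorem HW_lattice_duality
    (hcap : ∀ (a : R₁) (c : R₂), algebraMap R₁ L a = algebraMap R₂ L c →
      ∃ k : K, algebraMap K L k = algebraMap R₁ L a)
    (hsum : ∀ f : L, ∃ (a : R₁) (c : R₂), f = algebraMap R₁ L a + algebraMap R₂ L c)
    (hfin : ∀ r : R₁, r ≠ 0 → Module.Finite K (R₁ ⧸ Ideal.span ({r} : Set R₁)))
    (B : LinearMap.BilinForm L V) (hB : B.Nondegenerate) (b b' : Basis ι L V) :
    HW_Fred (HW_lat K R₁ b) (HW_lat K R₂ b') ∧
    HW_Fred (HW_lat K R₁ (B.dualBasis hB b)) (HW_lat K R₂ (B.dualBasis hB b')) ∧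
    HW_chi (HW_lat K R₁ b) (HW_lat K R₂ b') +
      HW_chi (HW_lat K R₁ (B.dualBasis hB b)) (HW_lat K R₂ (B.dualBasis hB b')) =
      2 * (Fintype.card ι : ℤ) := by
  have : Module.IsTorsionFree R₁ L := inferInstance
  obtain ⟨α, hα, hαb⟩ := HW_exists_scale_le (R₁ := R₁) b b'
  set c := HW_scale b' (fun _ => algebraMap R₁ L α) (fun _ => hα) with hc
  have hci : ∀ i, c i = α • b' i := fun i => by rw [hc, HW_scale_apply, algebraMap_smul]
  have hle1 : Submodule.span R₁ (Set.range c) ≤ Submodule.span R₁ (Set.range b') := by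
    rw [Submodule.span_le]
    rintro _ ⟨i, rfl⟩
    rw [hci]
    exact Submodule.smul_mem _ _ (Submodule.subset_span ⟨i, rfl⟩)
  have hle2 : Submodule.span R₁ (Set.range c) ≤ Submodule.span R₁ (Set.range b) := by
    rw [Submodule.span_le]
    rintro _ ⟨i, rfl⟩
    rw [hci]
    exact hαb i
  obtain ⟨l1, f1, l1', f1', d1⟩ := HW_lattice_rdim_dual (K := K) hfin B hB b' c hle1
  obtain ⟨l2, f2, l2', f2', d2⟩ := HW_lattice_rdim_dual (K := K) hfin B hB b c hle2
  obtain ⟨hF0, hχ0⟩ := HW_std (K := K) R₁ R₂ hcap hsum b'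
  obtain ⟨hF0', hχ0'⟩ := HW_std (K := K) R₁ R₂ hcap hsum (B.dualBasis hB b')
  -- the pair `(c, b')`
  have hFc : HW_Fred (HW_lat K R₁ c) (HW_lat K R₂ b') := HW_fred_down l1 f1 hF0
  have e1 := HW_chi_of_le l1 f1 hFc
  have hFc' : HW_Fred (HW_lat K R₁ (B.dualBasis hB c)) (HW_lat K R₂ (B.dualBasis hB b')) :=
    HW_fred_up l1' f1' hF0'
  have e1' := HW_chi_of_le l1' f1' hF0'
  -- the pair `(b, b')`
  have hFb : HW_Fred (HW_lat K R₁ b) (HW_lat K R₂ b') := HW_fred_up l2 f2 hFc
  have e2 := HW_chi_of_le l2 f2 hFc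
  have hFb' : HW_Fred (HW_lat K R₁ (B.dualBasis hB b)) (HW_lat K R₂ (B.dualBasis hB b')) :=
    HW_fred_down l2' f2' hFc'
  have e2' := HW_chi_of_le l2' f2' hFb'
  refine ⟨hFb, hFb', ?_⟩
  rw [Fintype.card_congr (Equiv.refl ι)] at hχ0'
  omega

end Main

end Fermat.Agent.Lib
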