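import Fermat.Agent.Lib.FFSep
import Fermat.Agent.Lib.HurwitzLat
import Fermat.Agent.Lib.HurwitzDiv
import Fermat.Agent.S24.GlobalA

/-!
# Package H (Hurwitz), part 4: the finite lattice

`x` a separating element of `F / K`.  The integral closure `B` of `K[x]` in `F` is the set of
functions regular at all places where `x` is regular (`HWF_isIntegral_iff`), and it is the
`K[x]`-lattice spanned by a `K(x)`-basis of `F` (`HWF_exists_basis`).
-/

set_option autoImplicit false
set_option linter.unusedSectionVars false

open AlgebraicCurve IntermediateField IsDedekindDomain WithZero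
open scoped IntermediateField.algebraAdjoinAdjoin

universe u v

namespace Fermat.Agent.Lib

open Fermat.Agent.S24

variable {K : Type u} {F : Type v} [Field K] [Field F] [Algebra K F]

/-- reindexing a basis does not change the lattice. -/
theorem HW_lat_reindex {K R L V ι ι' : Type*} [Field K] [Field L]
    [AddCommGroup V] [Module L V] [Module K V]
    [CommRing R] [Algebra K R] [Module R V] [IsScalarTower K R V]
    (b : Module.Basis ι L V) (e : ι ≃ ι') : HW_lat K R (b.reindex e) = HW_lat K R b := by
  rw [HW_lat, HW_lat, Module.Basis.range_reindex]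

section

variable {x : F} (hx : Transcendental K x) [FiniteDimensional K⟮x⟯ F]
  [Algebra.IsSeparable K⟮x⟯ F]

include hx in
/-- `z` is integral over `K[x]` iff it is regular at all places where `x` is regular. -/
theorem HWF_isIntegral_iff (z : F) :
    IsIntegral (Algebra.adjoin K ({x} : Set F)) z ↔
      z ∈ HW_MS {v : Place K F | 0 ≤ v.ord x} 0 := by
  have hx0 : x ≠ 0 := fun h => hx (h ▸ isAlgebraic_zero)
  constructor
  · intro hz v hv
    have hxv : x ∈ v.toValuationSubring := (BG_mem_iff_ord_nonneg v hx0).mpr hv
    have := BL_mem_of_isIntegral v hxv hz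
    rw [Finsupp.zero_apply, exp_zero]
    exact (BL_adicValuation_le_one_iff v z).2 this
  · intro hz
    let := FFS_isDedekindDomain hx
    let := BG_isFractionRing (K := K) (x := x)
    have key : ∀ w : HeightOneSpectrum (integralClosure (Algebra.adjoin K ({x} : Set F)) F),
        w.valuation F z ≤ 1 := by
      intro w
      rw [← BG_mem_ofHeightOneSpectrum (K := K) (F := F) w z]
      set v := Place.ofHeightOneSpectrum (K := K) (F := F) w with hv
      have hxB : IsIntegral (Algebra.adjoin K ({x} : Set F)) x :=
        isIntegral_algebraMap (x := (⟨x, Algebra.subset_adjoin rfl⟩ : Algebra.adjoin K ({x} : Set F)))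
      have hxv : x ∈ v.toValuationSubring := by
        have h1 : algebraMap (integralClosure (Algebra.adjoin K ({x} : Set F)) F) F ⟨x, hxB⟩ ∈
            v.toValuationSubring := by
          rw [hv, BG_mem_ofHeightOneSpectrum]
          exact w.valuation_le_one _
        exact h1
      have hvx : 0 ≤ v.ord x := (BG_mem_iff_ord_nonneg v hx0).mp hxv
      have := hz v hvx
      rw [Finsupp.zero_apply, exp_zero] at this
      exact (BL_adicValuation_le_one_iff v z).1 this
    obtain ⟨b, hb⟩ := HeightOneSpectrum.mem_integers_of_valuation_le_one F z key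
    rw [← hb]
    exact b.2

include hx in
/-- **the finite lattice**: the functions regular at all places where `x` is regular form the
`K[x]`-lattice spanned by a `K(x)`-basis of `F`. -/
theorem HWF_exists_basis :
    ∃ b : Module.Basis (Fin (Module.finrank K⟮x⟯ F)) K⟮x⟯ F,
      HW_lat K (Algebra.adjoin K ({x} : Set F)) b = HW_MS {v : Place K F | 0 ≤ v.ord x} 0 := by
  have := BG_isPrincipalIdealRing hx
  have := FFS_free hx
  have := FFS_finite hx
  have hloc : IsLocalization (Algebra.algebraMapSubmonoid
      (integralClosure (Algebra.adjoin K ({x} : Set F)) F)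
      (nonZeroDivisors (Algebra.adjoin K ({x} : Set F)))) F :=
    IsIntegralClosure.isLocalization (Algebra.adjoin K ({x} : Set F)) K⟮x⟯ F
      (integralClosure (Algebra.adjoin K ({x} : Set F)) F)
  let b₀ := Module.Free.chooseBasis (Algebra.adjoin K ({x} : Set F))
    (integralClosure (Algebra.adjoin K ({x} : Set F)) F)
  let b₁ : Module.Basis _ K⟮x⟯ F := b₀.localizationLocalization K⟮x⟯
    (nonZeroDivisors (Algebra.adjoin K ({x} : Set F))) F
  have hspan := Module.Basis.localizationLocalization_span K⟮x⟯
    (nonZeroDivisors (Algebra.adjoin K ({x} : Set F))) F b₀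
  refine ⟨b₁.reindex (Fintype.equivFinOfCardEq (Module.finrank_eq_card_basis b₁).symm), ?_⟩
  rw [HW_lat_reindex]
  ext z
  rw [HW_lat, Submodule.restrictScalars_mem, hspan, ← HWF_isIntegral_iff hx z]
  constructor
  · rintro ⟨b, rfl⟩
    exact b.2
  · intro hz
    exact ⟨⟨z, hz⟩, rfl⟩

end

end Fermat.Agent.Lib
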