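import Fermat.Agent.Lib.HurwitzLat
import Fermat.Agent.Lib.HurwitzDiv
import Fermat.Agent.Lib.HurwitzFin
import Fermat.Agent.Lib.FFSep
import Fermat.Agent.Lib.DiffExpand

/-!
# Package H (Hurwitz), part INF: the lattice at infinity

`x` a separating element of `F / K`, `O_∞ = HWI_O K x ⊂ K(x)` the rational functions regular at
the poles of `x`.

* `HWI_cap`: `K[x] ∩ O_∞ = K`.
* `HWI_sum`: `K(x) = K[x] + O_∞` (Euclidean division).
* `HWI_exists_basis`: the functions regular at all poles of `x` form the `O_∞`-lattice spanned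
  by a `K(x)`-basis of `F`.
* `HWI_hfin`: `K[x] / (r)` is finite-dimensional over `K` for `r ≠ 0`.
-/

set_option autoImplicit false
set_option linter.unusedSectionVars false

open AlgebraicCurve IntermediateField IsDedekindDomain WithZero
open scoped IntermediateField.algebraAdjoinAdjoin

universe u v

namespace Fermat.Agent.Lib

open Fermat.Agent.S24

variable {K : Type u} {F : Type v} [Field K] [Field F] [Algebra K F]

/-- `O_∞ ⊂ K(x)`: rational functions regular at the poles of `x`. -/
def HWI_O (K : Type u) {F : Type v} [Field K] [Field F] [Algebra K F] (x : F) :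
    Subalgebra K K⟮x⟯ where
  carrier := {f | ∀ v : Place K F, v.ord x < 0 → v.adicValuation (f : F) ≤ 1}
  mul_mem' := by
    intro a b ha hb v hv
    show v.adicValuation ((a * b : K⟮x⟯) : F) ≤ 1
    rw [MulMemClass.coe_mul, map_mul]
    exact mul_le_one' (ha v hv) (hb v hv)
  add_mem' := by
    intro a b ha hb v hv
    show v.adicValuation ((a + b : K⟮x⟯) : F) ≤ 1
    rw [AddMemClass.coe_add]
    exact (Valuation.map_add _ _ _).trans (max_le (ha v hv) (hb v hv))
  algebraMap_mem' := by
    intro c v _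
    exact v.adicValuation_algebraMap_le_one c

theorem HWI_mem_O {x : F} (f : K⟮x⟯) :
    f ∈ HWI_O K x ↔ ∀ v : Place K F, v.ord x < 0 → v.adicValuation (f : F) ≤ 1 := Iff.rfl

/-- a place is trivial on the constants. -/
theorem HWI_isTrivialOn (v : Place K F) : v.adicValuation.IsTrivialOn K :=
  ⟨fun _ ha => FD_val_algebraMap v ha⟩

theorem HWI_one_lt_of_pole (v : Place K F) {x : F} (hv : v.ord x < 0) :
    1 < v.adicValuation x := by
  have hx0 : x ≠ 0 := by
    rintro rfl
    simp at hv
  rw [v.adicValuation_eq_exp_neg_ord hx0, ← WithZero.exp_zero, WithZero.exp_lt_exp]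
  omega

/-- at a pole of `x`, the valuation of a polynomial in `x` is given by its degree. -/
theorem HWI_val_aeval (v : Place K F) {x : F} (hv : v.ord x < 0) {p : Polynomial K}
    (hp : p ≠ 0) :
    v.adicValuation (Polynomial.aeval x p) = v.adicValuation x ^ p.natDegree := by
  have := HWI_isTrivialOn v
  exact Polynomial.valuation_aeval_eq_valuation_X_pow_natDegree_of_one_lt_valuation_X x
    (HWI_one_lt_of_pole v hv) hp

section

variable [IsAlgClosed K] {x : F} (hx : Transcendental K x) [FiniteDimensional K⟮x⟯ F]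
  [Algebra.IsSeparable K⟮x⟯ F]

include hx in
/-- `x` has a pole. -/
theorem HWI_exists_pole : ∃ v : Place K F, v.ord x < 0 := by
  by_contra h
  rw [not_exists] at h
  have h1 := FFS_sum_poles hx
  have h2 : FFS_poles hx = ∅ := by
    rw [Finset.eq_empty_iff_forall_notMem]
    intro v hv
    rw [FFS_mem_poles] at hv
    exact h v hv
  rw [h2, Finset.sum_empty] at h1
  have h3 : 0 < Module.finrank K⟮x⟯ F := Module.finrank_pos
  omega

include hx in
/-- (1) `K[x] ∩ O_∞ = K`. -/
theorem HWI_cap (a : Algebra.adjoin K ({x} : Set F)) (c : HWI_O K x)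
    (h : algebraMap (Algebra.adjoin K ({x} : Set F)) K⟮x⟯ a = algebraMap (HWI_O K x) K⟮x⟯ c) :
    ∃ k : K, algebraMap K K⟮x⟯ k = algebraMap (Algebra.adjoin K ({x} : Set F)) K⟮x⟯ a := by
  obtain ⟨v, hv⟩ := HWI_exists_pole hx
  have hmem : (a : F) ∈ (Polynomial.aeval x : Polynomial K →ₐ[K] F).range := by
    rw [← Algebra.adjoin_singleton_eq_range_aeval]
    exact a.2
  obtain ⟨p, hp⟩ := hmem
  have hcF : ((algebraMap (Algebra.adjoin K ({x} : Set F)) K⟮x⟯ a : K⟮x⟯) : F) = (a : F) := rfl
  have hcv : v.adicValuation (a : F) ≤ 1 := by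
    rw [← hcF, h]
    exact c.2 v hv
  by_cases hp0 : p = 0
  · refine ⟨0, ?_⟩
    apply Subtype.ext
    rw [hcF, ← hp, hp0]
    simp
  have hval : v.adicValuation (a : F) = v.adicValuation x ^ p.natDegree := by
    rw [← hp]
    exact HWI_val_aeval v hv hp0
  have hdeg : p.natDegree = 0 := by
    by_contra hne
    have : 1 < v.adicValuation x ^ p.natDegree := one_lt_pow₀ (HWI_one_lt_of_pole v hv) hne
    rw [← hval] at this
    exact absurd hcv (not_le.2 this)
  rw [Polynomial.natDegree_eq_zero] at hdeg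
  obtain ⟨k, hk⟩ := hdeg
  refine ⟨k, ?_⟩
  apply Subtype.ext
  rw [hcF, ← hp, ← hk]
  simp

/-- (2) `K(x) = K[x] + O_∞`. -/
theorem HWI_sum (f : K⟮x⟯) :
    ∃ (a : Algebra.adjoin K ({x} : Set F)) (c : HWI_O K x),
      f = algebraMap (Algebra.adjoin K ({x} : Set F)) K⟮x⟯ a + algebraMap (HWI_O K x) K⟮x⟯ c := by
  obtain ⟨r, s, hrs⟩ := (IntermediateField.mem_adjoin_simple_iff K (f : F)).1 f.2
  have hmemA : ∀ p : Polynomial K, Polynomial.aeval x p ∈ Algebra.adjoin K ({x} : Set F) := by
    intro p
    rw [Algebra.adjoin_singleton_eq_range_aeval]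
    exact ⟨p, rfl⟩
  have hmemL : ∀ p : Polynomial K, Polynomial.aeval x p ∈ K⟮x⟯ := fun p =>
    IntermediateField.algebra_adjoin_le_adjoin K _ (hmemA p)
  by_cases hs : Polynomial.aeval x s = 0
  · refine ⟨0, 0, ?_⟩
    apply Subtype.ext
    rw [hrs, hs, div_zero]
    simp
  have hs0 : s ≠ 0 := by
    rintro rfl
    simp at hs
  have hdiv : r = s * (r / s) + r % s := (EuclideanDomain.div_add_mod r s).symm
  have hcmem : (Polynomial.aeval x (r % s) / Polynomial.aeval x s : F) ∈ K⟮x⟯ :=
    div_mem (hmemL _) (hmemL _)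
  have hcO : (⟨_, hcmem⟩ : K⟮x⟯) ∈ HWI_O K x := by
    intro v hv
    show v.adicValuation (Polynomial.aeval x (r % s) / Polynomial.aeval x s) ≤ 1
    by_cases hm : r % s = 0
    · rw [hm]
      simp
    rw [map_div₀, HWI_val_aeval v hv hm, HWI_val_aeval v hv hs0]
    have h1 := HWI_one_lt_of_pole v hv
    have hpos : 0 < v.adicValuation x ^ s.natDegree := pow_pos (zero_lt_one.trans h1) _
    rw [div_le_one₀ hpos]
    apply pow_le_pow_right₀ h1.le
    exact Polynomial.natDegree_le_natDegree (Polynomial.degree_mod_lt r hs0).le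
  refine ⟨⟨_, hmemA (r / s)⟩, ⟨_, hcO⟩, ?_⟩
  apply Subtype.ext
  show (f : F) = Polynomial.aeval x (r / s) + Polynomial.aeval x (r % s) / Polynomial.aeval x s
  rw [hrs]
  conv_lhs => rw [hdiv]
  rw [map_add, map_mul, add_div, mul_div_assoc, mul_comm, div_mul_cancel₀ _ hs]


end

/-- transport of a basis along an equality of intermediate fields. -/
theorem HWI_basis_transport {E₁ E₂ : IntermediateField K F} (h : E₁ = E₂)
    (b : Module.Basis (Fin (Module.finrank E₁ F)) E₁ F) :
    ∃ b' : Module.Basis (Fin (Module.finrank E₂ F)) E₂ F,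
      Set.range (b' : _ → F) = Set.range (b : _ → F) := by
  subst h
  exact ⟨b, rfl⟩

/-- at a zero of `y`, a polynomial in `y` is regular. -/
theorem HWI_val_aeval_le_one (v : Place K F) {y : F} (hv : v.adicValuation y ≤ 1)
    (p : Polynomial K) : v.adicValuation (Polynomial.aeval y p) ≤ 1 := by
  have hy : y ∈ v.toValuationSubring := (BL_adicValuation_le_one_iff v y).1 hv
  have h1 : Polynomial.aeval y p ∈ Algebra.adjoin K ({y} : Set F) := by
    rw [Algebra.adjoin_singleton_eq_range_aeval]
    exact ⟨p, rfl⟩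
  have h2 := BL_adjoin_le v hy h1
  rw [BL_mem_subalgebra] at h2
  exact (BL_adicValuation_le_one_iff v _).2 h2

/-- at a zero of `y`, a polynomial in `y` with nonzero constant term is a unit. -/
theorem HWI_val_aeval_eq_one (v : Place K F) {y : F} (hv : v.adicValuation y < 1)
    {q : Polynomial K} (hq : q.coeff 0 ≠ 0) : v.adicValuation (Polynomial.aeval y q) = 1 := by
  have h1 : Polynomial.aeval y q =
      Polynomial.aeval y q.divX * y + algebraMap K F (q.coeff 0) := by
    conv_lhs => rw [← Polynomial.divX_mul_X_add q]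
    simp
  have h2 : v.adicValuation (Polynomial.aeval y q.divX * y) < 1 := by
    rw [map_mul]
    calc v.adicValuation (Polynomial.aeval y q.divX) * v.adicValuation y
        ≤ 1 * v.adicValuation y := mul_le_mul_left (HWI_val_aeval_le_one v hv.le _) _
      _ = v.adicValuation y := one_mul _
      _ < 1 := hv
  have h3 : v.adicValuation (algebraMap K F (q.coeff 0)) = 1 := FD_val_algebraMap v hq
  rw [h1, Valuation.map_add_eq_of_lt_right _ (h2.trans_le h3.ge), h3]

section

variable [IsAlgClosed K] {x : F} (hx : Transcendental K x) [FiniteDimensional K⟮x⟯ F]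
  [Algebra.IsSeparable K⟮x⟯ F]

/-- the scalar action of `O_∞` on `F`. -/
theorem HWI_smul_def (c : HWI_O K x) (w : F) : c • w = ((c : K⟮x⟯) : F) * w := rfl

include hx in
/-- (3) **the lattice at infinity**: the functions regular at all poles of `x` form the
`O_∞`-lattice spanned by a `K(x)`-basis of `F`. -/
theorem HWI_exists_basis :
    ∃ b' : Module.Basis (Fin (Module.finrank K⟮x⟯ F)) K⟮x⟯ F,
      HW_lat K (HWI_O K x) b' = HW_MS {v : Place K F | v.ord x < 0} 0 := by
  have hx0 : x ≠ 0 := fun h => hx (h ▸ isAlgebraic_zero)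
  have hy : Transcendental K x⁻¹ := BG_transcendental_inv hx
  have hy0 : x⁻¹ ≠ 0 := inv_ne_zero hx0
  have := FFS_finite_inv (K := K) x
  have := FFS_isSeparable_inv (K := K) x
  obtain ⟨b, hb⟩ := HWF_exists_basis hy
  obtain ⟨b', hb'⟩ := HWI_basis_transport (BG_adjoin_inv (K := K) x) b
  refine ⟨b', ?_⟩
  have hvy : ∀ v : Place K F, v.ord x < 0 → v.adicValuation x⁻¹ < 1 := by
    intro v hv
    rw [map_inv₀]
    exact inv_lt_one_of_one_lt₀ (HWI_one_lt_of_pole v hv)
  -- elements of `K[y]` lie in `O_∞`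
  have hAO : ∀ a : Algebra.adjoin K ({x⁻¹} : Set F),
      ∃ c : HWI_O K x, ((c : K⟮x⟯) : F) = (a : F) := by
    intro a
    have hmem : (a : F) ∈ (Polynomial.aeval x⁻¹ : Polynomial K →ₐ[K] F).range := by
      rw [← Algebra.adjoin_singleton_eq_range_aeval]
      exact a.2
    obtain ⟨p, hp⟩ := hmem
    have h1 : (a : F) ∈ K⟮x⟯ := by
      rw [← BG_adjoin_inv]
      exact IntermediateField.algebra_adjoin_le_adjoin K _ a.2
    refine ⟨⟨⟨a, h1⟩, ?_⟩, rfl⟩
    intro v hv
    show v.adicValuation (a : F) ≤ 1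
    rw [← hp]
    exact HWI_val_aeval_le_one v (hvy v hv).le p
  have hspan_le : ∀ w : F,
      w ∈ Submodule.span (Algebra.adjoin K ({x⁻¹} : Set F)) (Set.range b) →
      w ∈ Submodule.span (HWI_O K x) (Set.range b') := by
    intro w hw
    induction hw using Submodule.span_induction with
    | mem w hw => exact Submodule.subset_span (hb' ▸ hw)
    | zero => exact Submodule.zero_mem _
    | add w₁ w₂ _ _ h₁ h₂ => exact Submodule.add_mem _ h₁ h₂
    | smul a w _ h =>
      obtain ⟨c, hc⟩ := hAO a
      have : a • w = c • w := by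
        rw [HWI_smul_def, hc]
        rfl
      rw [this]
      exact Submodule.smul_mem _ _ h
  ext z
  rw [HW_lat, Submodule.restrictScalars_mem]
  constructor
  · intro hz
    induction hz using Submodule.span_induction with
    | mem w hw =>
      rw [hb'] at hw
      have h1 : w ∈ HW_lat K (Algebra.adjoin K ({x⁻¹} : Set F)) b := by
        rw [HW_lat, Submodule.restrictScalars_mem]
        exact Submodule.subset_span hw
      rw [hb] at h1
      intro v hv
      apply h1 v
      show 0 ≤ v.ord x⁻¹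
      rw [v.ord_inv]
      have : v.ord x < 0 := hv
      omega
    | zero => exact Submodule.zero_mem _
    | add w₁ w₂ _ _ h₁ h₂ => exact Submodule.add_mem _ h₁ h₂
    | smul c w _ h =>
      intro v hv
      rw [HWI_smul_def, map_mul, Finsupp.zero_apply, exp_zero]
      have h1 := h v hv
      rw [Finsupp.zero_apply, exp_zero] at h1
      exact mul_le_one' (c.2 v hv) h1
  · intro hz
    have := FFS_free hy
    have := FFS_finite hy
    have hloc : IsLocalization (Algebra.algebraMapSubmonoid
        (integralClosure (Algebra.adjoin K ({x⁻¹} : Set F)) F)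
        (nonZeroDivisors (Algebra.adjoin K ({x⁻¹} : Set F)))) F :=
      IsIntegralClosure.isLocalization (Algebra.adjoin K ({x⁻¹} : Set F)) K⟮x⁻¹⟯ F
        (integralClosure (Algebra.adjoin K ({x⁻¹} : Set F)) F)
    obtain ⟨⟨w, ⟨d, d', hd'mem, hd'⟩⟩, hwd⟩ := IsLocalization.surj (Algebra.algebraMapSubmonoid
        (integralClosure (Algebra.adjoin K ({x⁻¹} : Set F)) F)
        (nonZeroDivisors (Algebra.adjoin K ({x⁻¹} : Set F)))) z
    have hwd' : z * (d' : F) = (w : F) := by
      have h1 : z * (algebraMap (integralClosure (Algebra.adjoin K ({x⁻¹} : Set F)) F) F) d =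
          (algebraMap (integralClosure (Algebra.adjoin K ({x⁻¹} : Set F)) F) F) w := hwd
      rw [← hd'] at h1
      exact h1
    have hd'0 : (d' : F) ≠ 0 := by
      intro h0
      have : d' = 0 := Subtype.ext h0
      exact (nonZeroDivisors.ne_zero hd'mem) this
    have hmem : (d' : F) ∈ (Polynomial.aeval x⁻¹ : Polynomial K →ₐ[K] F).range := by
      rw [← Algebra.adjoin_singleton_eq_range_aeval]
      exact d'.2
    obtain ⟨p, hp⟩ := hmem
    have hp0 : p ≠ 0 := by
      rintro rfl
      rw [map_zero] at hp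
      exact hd'0 hp.symm
    obtain ⟨q, hpq, hq⟩ := Polynomial.exists_eq_pow_rootMultiplicity_mul_and_not_dvd p hp0 0
    rw [map_zero, sub_zero] at hpq hq
    have hq0 : q.coeff 0 ≠ 0 := fun h => hq (Polynomial.X_dvd_iff.2 h)
    set m := Polynomial.rootMultiplicity 0 p with hm
    set s : F := Polynomial.aeval x⁻¹ q with hs
    have hds : (d' : F) = x⁻¹ ^ m * s := by
      rw [← hp, hpq]
      simp [hs]
    obtain ⟨v₀, hv₀⟩ := HWI_exists_pole hx
    have hs0 : s ≠ 0 := by
      intro h0
      have := HWI_val_aeval_eq_one v₀ (hvy v₀ hv₀) hq0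
      rw [← hs, h0, map_zero] at this
      exact zero_ne_one this
    -- `s z` is regular where `y` is regular
    have hsz : s * z ∈ HW_MS {v : Place K F | 0 ≤ v.ord x⁻¹} 0 := by
      intro v hv
      rw [Finsupp.zero_apply, exp_zero, map_mul]
      have hv' : 0 ≤ v.ord x⁻¹ := hv
      rcases hv'.lt_or_eq with h | h
      · have hvx : v.ord x < 0 := by
          rw [v.ord_inv] at h
          omega
        have h1 := hz v hvx
        rw [Finsupp.zero_apply, exp_zero] at h1
        exact mul_le_one' (HWI_val_aeval_le_one v (hvy v hvx).le q) h1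
      · have hy1 : v.adicValuation x⁻¹ = 1 := by
          rw [v.adicValuation_eq_exp_neg_ord hy0, ← h]
          simp
        have hw1 : v.adicValuation (w : F) ≤ 1 := by
          have := (HWF_isIntegral_iff hy (w : F)).1 w.2 v hv
          rwa [Finsupp.zero_apply, exp_zero] at this
        rw [← hwd', hds, map_mul, map_mul, map_pow, hy1, one_pow, one_mul, mul_comm] at hw1
        exact hw1
    have hsz' : s * z ∈ Submodule.span (HWI_O K x) (Set.range b') := by
      apply hspan_le
      rw [← hb, HW_lat, Submodule.restrictScalars_mem] at hsz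
      exact hsz
    have hsL : s⁻¹ ∈ K⟮x⟯ := by
      apply inv_mem
      rw [← BG_adjoin_inv]
      apply IntermediateField.algebra_adjoin_le_adjoin K
      rw [Algebra.adjoin_singleton_eq_range_aeval]
      exact ⟨q, rfl⟩
    have hsO : (⟨s⁻¹, hsL⟩ : K⟮x⟯) ∈ HWI_O K x := by
      intro v hv
      show v.adicValuation s⁻¹ ≤ 1
      rw [map_inv₀, HWI_val_aeval_eq_one v (hvy v hv) hq0, inv_one]
    have hzeq : z = (⟨⟨s⁻¹, hsL⟩, hsO⟩ : HWI_O K x) • (s * z) := by
      rw [HWI_smul_def]
      show z = s⁻¹ * (s * z)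
      rw [← mul_assoc, inv_mul_cancel₀ hs0, one_mul]
    rw [hzeq]
    exact Submodule.smul_mem _ _ hsz'

end

/-- `K[x] / (r)` is finite-dimensional over `K`. -/
theorem HWI_hfin {x : F} (hx : Transcendental K x) (r : Algebra.adjoin K ({x} : Set F))
    (hr : r ≠ 0) :
    Module.Finite K (Algebra.adjoin K ({x} : Set F) ⧸
      Ideal.span ({r} : Set (Algebra.adjoin K ({x} : Set F)))) := by
  set p : Polynomial K := (BL_equiv hx).symm r with hp
  have hp0 : p ≠ 0 := by
    intro h
    apply hr
    have := congrArg (BL_equiv hx) h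
    rwa [hp, AlgEquiv.apply_symm_apply, map_zero] at this
  have hmonic : (p * Polynomial.C p.leadingCoeff⁻¹).Monic := Polynomial.monic_mul_leadingCoeff_inv hp0
  have hfin := hmonic.finite_quotient
  let f : Polynomial K →ₐ[K] (Algebra.adjoin K ({x} : Set F) ⧸
      Ideal.span ({r} : Set (Algebra.adjoin K ({x} : Set F)))) :=
    (Ideal.Quotient.mkₐ K _).comp (BL_equiv hx).toAlgHom
  have hf : Function.Surjective f :=
    (Ideal.Quotient.mkₐ_surjective K _).comp (BL_equiv hx).surjective
  have hker : ∀ a ∈ Ideal.span ({p * Polynomial.C p.leadingCoeff⁻¹} : Set (Polynomial K)),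
      f a = 0 := by
    intro a ha
    rw [Ideal.mem_span_singleton] at ha
    obtain ⟨c, rfl⟩ := ha
    have h1 : f p = 0 := by
      show Ideal.Quotient.mk _ (BL_equiv hx p) = 0
      rw [hp, AlgEquiv.apply_symm_apply, Ideal.Quotient.eq_zero_iff_mem]
      exact Ideal.mem_span_singleton_self r
    rw [map_mul, map_mul, h1, zero_mul, zero_mul]
  let g := Ideal.Quotient.liftₐ _ f hker
  have hg : Function.Surjective g := Ideal.Quotient.lift_surjective_of_surjective _ hker hf
  exact Module.Finite.of_surjective g.toLinearMap hg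

section

variable [IsAlgClosed K] {x : F} (hx : Transcendental K x) [FiniteDimensional K⟮x⟯ F]
  [Algebra.IsSeparable K⟮x⟯ F]

include hx in
/-- **lattice duality for `(K[x], O_∞)`**: `HW_lattice_duality` instantiated. -/
theorem HWI_lattice_duality {ι : Type*} [Fintype ι] [DecidableEq ι]
    (B : LinearMap.BilinForm K⟮x⟯ F) (hB : B.Nondegenerate) (b b' : Module.Basis ι K⟮x⟯ F) :
    HW_Fred (HW_lat K (Algebra.adjoin K ({x} : Set F)) b) (HW_lat K (HWI_O K x) b') ∧
    HW_Fred (HW_lat K (Algebra.adjoin K ({x} : Set F)) (B.dualBasis hB b))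
      (HW_lat K (HWI_O K x) (B.dualBasis hB b')) ∧
    HW_chi (HW_lat K (Algebra.adjoin K ({x} : Set F)) b) (HW_lat K (HWI_O K x) b') +
      HW_chi (HW_lat K (Algebra.adjoin K ({x} : Set F)) (B.dualBasis hB b))
        (HW_lat K (HWI_O K x) (B.dualBasis hB b')) =
      2 * (Fintype.card ι : ℤ) := by
  have := BG_isPrincipalIdealRing hx
  exact HW_lattice_duality (K := K) (L := K⟮x⟯) (V := F)
    (R₁ := Algebra.adjoin K ({x} : Set F)) (R₂ := HWI_O K x)
    (HWI_cap hx) HWI_sum (HWI_hfin hx) B hB b b'

end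

end Fermat.Agent.Lib
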