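import Fermat.Agent.Lib.HurwitzGlue
import Fermat.Agent.Lib.HurwitzInf

/-!
# Package H (Hurwitz): `deg (dx) = 2 g - 2`

`K` algebraically closed, `F / K` a function field satisfying `RR_Hyp` (Riemann's theorem),
`x : F` a separating element.  Then `v ↦ ord_v (dx)` (defined with the uniformizer at `v`) is a
divisor of degree `2 g - 2`, `g = RR_genus K F`.
-/

set_option autoImplicit false
set_option linter.unusedSectionVars false

open AlgebraicCurve IntermediateField IsDedekindDomain WithZero KaehlerDifferential Polynomial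
open scoped IntermediateField.algebraAdjoinAdjoin

universe u v

namespace Fermat.Agent.Lib

open Fermat.Agent.S24

variable {K : Type u} {F : Type v} [Field K] [Field F] [Algebra K F]

section

variable [IsAlgClosed K] {x : F} (hx : Transcendental K x) [FiniteDimensional K⟮x⟯ F]
  [Algebra.IsSeparable K⟮x⟯ F]

include hx in
/-- the divisor of `dx` exists: `ord_v (dx) = 0` outside the finite branch locus. -/
theorem HW_exists_divisor_dx :
    ∃ W : Divisor K F, ∀ v : Place K F, W v = v.ordDifferential (D K F x) := by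
  classical
  obtain ⟨T₀, hT₀⟩ := FFS_exists_branch_finset hx
  have hzero : ∀ v : Place K F, v.ordDifferential (D K F x) ≠ 0 → v ∈ T₀ := by
    intro v hv
    by_contra hvT
    obtain ⟨-, c, hc⟩ := hT₀ v hvT
    apply hv
    have h1 := FD_ordDifferential_D_of_sub x v (FD_deg_one x v) (y := x) (c := c)
      (by rw [hc]; simp)
    rw [h1, hc]
    norm_num
  exact ⟨Finsupp.onFinset T₀ (fun v => v.ordDifferential (D K F x)) hzero, fun v => rfl⟩

omit [IsAlgClosed K] in
/-- `dx ≠ 0` in the coordinate at `v`. -/
theorem HW_differentialCoeff_ne_zero (v : Place K F) (hdeg : v.deg = 1) :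
    v.differentialCoeff (D K F x) ≠ 0 := by
  have := FD_dCoordGenerates x v hdeg
  have := FD_nontrivial_kaehler v hdeg
  intro h0
  have h1 := v.differentialCoeff_smul_dCoord (D K F x)
  rw [h0, zero_smul] at h1
  have h2 := FD_span_D (K := K) x
  rw [← h1, Submodule.span_zero_singleton] at h2
  exact bot_ne_top h2

omit [IsAlgClosed K] in
theorem HW_ord_neg (v : Place K F) (f : F) : v.ord (-f) = v.ord f := by
  rw [Place.ord, Place.ord, Valuation.map_neg]

include hx in
/-- at a pole of `x`: `ord_v (d(1/x)) = ord_v (dx) - 2 ord_v x`. -/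
theorem HW_ordDifferential_inv (v : Place K F) :
    v.ordDifferential (D K F x⁻¹) = v.ordDifferential (D K F x) - 2 * v.ord x := by
  have hdeg := FD_deg_one x v
  have := FD_dCoordGenerates x v hdeg
  have := FD_nontrivial_kaehler v hdeg
  have hx0 : x ≠ 0 := fun h => hx (h ▸ isAlgebraic_zero)
  have hD : D K F x⁻¹ = (-x⁻¹ ^ 2) • D K F x := Derivation.leibniz_inv _ x
  have hc : -x⁻¹ ^ 2 ≠ 0 := neg_ne_zero.2 (pow_ne_zero 2 (inv_ne_zero hx0))
  rw [hD, v.ordDifferential_smul hc (HW_differentialCoeff_ne_zero v hdeg), HW_ord_neg,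
    ← zpow_natCast, v.ord_zpow, v.ord_inv]
  push_cast
  ring

include hx in
/-- **Hurwitz**: the divisor of `dx` has degree `2 g - 2`. -/
theorem HW_hurwitz_degree (h : RR_Hyp K F) (W : Divisor K F)
    (hW : ∀ v : Place K F, W v = v.ordDifferential (D K F x)) :
    W.degree = 2 * (RR_genus K F : ℤ) - 2 := by
  obtain ⟨b', hb'⟩ := HWI_exists_basis hx
  exact HW_hurwitz_of hx h (HWI_O K x) (fun t => HWI_mem_O t) (HWI_cap hx) HWI_sum b' hb' W hW
    (fun v _ => HW_ordDifferential_inv hx v)

end

/-- **Hurwitz / Riemann–Roch for the canonical class**: for a separating element `x` of a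
function field `F / K` satisfying Riemann's theorem, `(dx)` is a divisor of degree `2 g - 2`. -/
theorem HW_hurwitz [IsAlgClosed K] (h : RR_Hyp K F) (x : F) (hx : Transcendental K x)
    [FiniteDimensional K⟮x⟯ F] [Algebra.IsSeparable K⟮x⟯ F] :
    ∃ W : Divisor K F, (∀ v : Place K F, W v = v.ordDifferential (D K F x)) ∧
      W.degree = 2 * (RR_genus K F : ℤ) - 2 := by
  obtain ⟨W, hW⟩ := HW_exists_divisor_dx hx
  exact ⟨W, hW, HW_hurwitz_degree hx h W hW⟩

end Fermat.Agent.Lib
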