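import Mathlib
import Fermat.Prelude.Def_AlgebraicCurve_DivisorPushPull
import Fermat.Agent.S24.PlaceVal
import Fermat.Agent.S24.GlobalA

/-!
# Local étale lemma (helper4, S18 package LE)

`F ⊆ F'` fields, `O` a valuation ring of `F'`, `z ∈ O` a root of a polynomial `G ∈ F[X]` whose
coefficients lie in `O` and with `G'(z)` a unit of `O`.  If `z` is congruent modulo the maximal ideal
to an element of `F`, then `z` is a limit of elements of `F` (Newton's method), hence every element
of `F[z]` has the same valuation as an element of `F`.  For places: if moreover `F' = F[z]`, the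
ramification index of the place over `F` is `1`.
-/

set_option autoImplicit false

open Polynomial AlgebraicCurve

namespace Fermat.Agent.Lib

section Newton

variable {F F' : Type*} [Field F] [Field F'] [Algebra F F']

/-- a polynomial over `F` whose coefficients lie in `O` comes from a polynomial over `O`. -/
theorem LE_exists_lift (O : ValuationSubring F') (G : F[X])
    (hG : ∀ n, algebraMap F F' (G.coeff n) ∈ O) :
    ∃ GO : (O : Type _)[X], GO.map O.subtype = G.map (algebraMap F F') := by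
  have h : G.map (algebraMap F F') ∈ Polynomial.lifts O.subtype := by
    rw [Polynomial.lifts_iff_coeff_lifts]
    intro n
    rw [Polynomial.coeff_map]
    exact ⟨⟨_, hG n⟩, rfl⟩
  exact h

/-- a unit of `O` plus a non-unit is a unit of `O`. -/
theorem LE_unit_add (O : ValuationSubring F') {u h : F'} (hu0 : u ≠ 0) (hu : u ∈ O)
    (hu' : u⁻¹ ∈ O) (hh : h ∈ O.nonunits) : u + h ∈ O ∧ (u + h)⁻¹ ∈ O ∧ u + h ≠ 0 := by
  have hv1 : O.valuation u = 1 := by
    have h1 := (O.valuation_le_one_iff u).2 hu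
    have h2 := (O.valuation_le_one_iff u⁻¹).2 hu'
    rw [map_inv₀] at h2
    have h3 : O.valuation u ≠ 0 := (Valuation.ne_zero_iff _).2 hu0
    have h4 : 1 ≤ O.valuation u := by
      rw [← inv_le_one₀ (zero_lt_iff.2 h3)]
      exact h2
    exact le_antisymm h1 h4
  have hvh : O.valuation h < 1 := O.mem_nonunits_iff.1 hh
  have hv : O.valuation (u + h) = 1 := by
    rw [Valuation.map_add_eq_of_lt_left _ (by rw [hv1]; exact hvh), hv1]
  have hne : u + h ≠ 0 := by
    intro h0
    rw [h0, map_zero] at hv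
    exact zero_ne_one hv
  refine ⟨(O.valuation_le_one_iff _).1 hv.le, (O.valuation_le_one_iff _).1 ?_, hne⟩
  rw [map_inv₀, hv, inv_one]

/-- **Newton step.** -/
theorem LE_newton_step (O : ValuationSubring F') (z : F') (hz : z ∈ O) (G : F[X])
    (hG : ∀ n, algebraMap F F' (G.coeff n) ∈ O) (hGz : aeval z G = 0)
    (hG0 : aeval z (derivative G) ≠ 0) (hG1 : aeval z (derivative G) ∈ O)
    (hG2 : (aeval z (derivative G))⁻¹ ∈ O)
    (f : F) (hf : z - algebraMap F F' f ∈ O.nonunits) :
    ∃ (f₁ : F) (c : F'), c ∈ O ∧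
      z - algebraMap F F' f₁ = c * (z - algebraMap F F' f) ^ 2 := by
  set ι := algebraMap F F' with hι
  set d : F' := z - ι f with hd
  have hdO : d ∈ O := O.nonunits_subset hf
  have hfO : ι f ∈ O := by
    have : ι f = z - d := by rw [hd]; ring
    rw [this]
    exact O.sub_mem hz hdO
  obtain ⟨GO, hGO⟩ := LE_exists_lift O G hG
  -- evaluation of `GO` and its derivative at elements of `O`
  have hev : ∀ (p : (O : Type _)[X]) (x : O),
      ((p.eval x : O) : F') = (p.map O.subtype).eval (x : F') := by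
    intro p x
    rw [Polynomial.eval_map]
    exact (Polynomial.hom_eval₂ p (RingHom.id _) O.subtype x).trans (by
      rw [RingHom.comp_id]; rfl)
  have hGOz : ((GO.eval ⟨z, hz⟩ : O) : F') = 0 := by
    rw [hev, hGO, Polynomial.eval_map, ← Polynomial.aeval_def]
    exact hGz
  have hGO'z : (((derivative GO).eval ⟨z, hz⟩ : O) : F') = aeval z (derivative G) := by
    rw [hev, ← Polynomial.derivative_map, hGO, Polynomial.derivative_map,
      Polynomial.eval_map, Polynomial.aeval_def]
  have hGOf : ((GO.eval ⟨ι f, hfO⟩ : O) : F') = ι (G.eval f) := by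
    rw [hev, hGO, Polynomial.eval_map, Polynomial.eval₂_at_apply]
  have hGO'f : (((derivative GO).eval ⟨ι f, hfO⟩ : O) : F') = ι ((derivative G).eval f) := by
    rw [hev, ← Polynomial.derivative_map, hGO, Polynomial.derivative_map,
      Polynomial.eval_map, Polynomial.eval₂_at_apply]
  -- Taylor expansion at `z` with increment `-d`
  obtain ⟨k, hk⟩ := Polynomial.binomExpansion GO ⟨z, hz⟩ (-⟨d, hdO⟩)
  obtain ⟨k', hk'⟩ := Polynomial.evalSubFactor (derivative GO) ⟨z, hz⟩ ⟨ι f, hfO⟩
  have hzd : (⟨z, hz⟩ + -⟨d, hdO⟩ : O) = ⟨ι f, hfO⟩ := Subtype.ext (by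
    change z + -d = ι f
    rw [hd]; ring)
  rw [hzd] at hk
  have hk2 := congrArg (Subtype.val : O → F') hk
  have hk2' := congrArg (Subtype.val : O → F') hk'
  push_cast at hk2 hk2'
  rw [hGOf, hGOz, hGO'z] at hk2
  rw [hGO'z, hGO'f] at hk2'
  have hk3 : ι (G.eval f) = - aeval z (derivative G) * d + (k : F') * d ^ 2 := by
    rw [hk2]
    change 0 + aeval z (derivative G) * (-d) + (k : F') * (-d) ^ 2 = _
    ring
  have hk3' : ι ((derivative G).eval f) = aeval z (derivative G) + (-(k' : F') * d) := by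
    have : aeval z (derivative G) - ι ((derivative G).eval f) = (k' : F') * d := by
      rw [hk2']
    rw [← sub_eq_zero]
    linear_combination -this
  -- `G'(f)` is a unit of `O`
  have hkd : -(k' : F') * d ∈ O.nonunits := by
    rw [O.mem_nonunits_iff] at hf ⊢
    rw [map_mul, Valuation.map_neg]
    have h1 : O.valuation (k' : F') ≤ 1 := (O.valuation_le_one_iff _).2 k'.2
    calc O.valuation (k' : F') * O.valuation d ≤ 1 * O.valuation d := by
          gcongr
      _ = O.valuation d := one_mul _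
      _ < 1 := hf
  obtain ⟨hu1, hu2, hu3⟩ := LE_unit_add O hG0 hG1 hG2 hkd
  rw [← hk3'] at hu1 hu2 hu3
  have hG'f : (derivative G).eval f ≠ 0 := by
    intro h0
    rw [h0, map_zero] at hu3
    exact hu3 rfl
  refine ⟨f - G.eval f / (derivative G).eval f,
    ((k : F') - (k' : F')) * (ι ((derivative G).eval f))⁻¹,
    O.mul_mem _ _ (O.sub_mem k.2 k'.2) hu2, ?_⟩
  rw [map_sub, map_div₀, hk3]
  have h5 : ι ((derivative G).eval f) ≠ 0 := hu3
  field_simp
  rw [hk3']
  ring

/-- **Density.** `z` is approximated by elements of `F` to any order. -/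
theorem LE_dense (O : ValuationSubring F') (z : F') (hz : z ∈ O) (G : F[X])
    (hG : ∀ n, algebraMap F F' (G.coeff n) ∈ O) (hGz : aeval z G = 0)
    (hG0 : aeval z (derivative G) ≠ 0) (hG1 : aeval z (derivative G) ∈ O)
    (hG2 : (aeval z (derivative G))⁻¹ ∈ O)
    (z₀ : F) (h₀ : z - algebraMap F F' z₀ ∈ O.nonunits) (M : ℕ) :
    ∃ (f : F) (c : F'), c ∈ O ∧
      z - algebraMap F F' f = c * (z - algebraMap F F' z₀) ^ (M + 1) := by
  induction M with
  | zero => exact ⟨z₀, 1, O.one_mem, by ring⟩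
  | succ M ih =>
    obtain ⟨f, c, hc, hfc⟩ := ih
    have hd0 : z - algebraMap F F' z₀ ∈ O := O.nonunits_subset h₀
    have hf : z - algebraMap F F' f ∈ O.nonunits := by
      rw [hfc, O.mem_nonunits_iff, map_mul, map_pow]
      have h1 : O.valuation c ≤ 1 := (O.valuation_le_one_iff _).2 hc
      have h2 : O.valuation (z - algebraMap F F' z₀) < 1 := O.mem_nonunits_iff.1 h₀
      calc O.valuation c * O.valuation (z - algebraMap F F' z₀) ^ (M + 1)
          ≤ 1 * O.valuation (z - algebraMap F F' z₀) ^ (M + 1) := by gcongr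
        _ = O.valuation (z - algebraMap F F' z₀) ^ (M + 1) := one_mul _
        _ < 1 := pow_lt_one₀ zero_le h2 (Nat.succ_ne_zero M)
    obtain ⟨f₁, c₁, hc₁, hf₁⟩ := LE_newton_step O z hz G hG hGz hG0 hG1 hG2 f hf
    refine ⟨f₁, c₁ * c ^ 2 * (z - algebraMap F F' z₀) ^ M, ?_, ?_⟩
    · exact O.mul_mem _ _ (O.mul_mem _ _ hc₁ (pow_mem hc 2)) (pow_mem hd0 M)
    · rw [hf₁, hfc]
      ring

end Newton

section Place

variable {K F F' : Type*} [Field K] [Field F] [Field F'] [Algebra K F'] [Algebra F F']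

/-- `ord` of a sum when one term dominates -/
theorem LE_ord_add_eq (w : Place K F') {a b : F'} (ha : a ≠ 0) (hb : b ≠ 0)
    (hab : w.ord a < w.ord b) : a + b ≠ 0 ∧ w.ord (a + b) = w.ord a := by
  have hne : a + b ≠ 0 := by
    intro h0
    have : b = -a := by linear_combination h0
    rw [this] at hab
    have h1 : w.ord (-a) = w.ord a := (Fermat.Agent.S24.S24_isVal_ord w).neg ha
    omega
  refine ⟨hne, le_antisymm ?_ ?_⟩
  · -- `a = (a + b) + (-b)`
    have hnb : -b ≠ 0 := neg_ne_zero.2 hb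
    have h1 := Fermat.Agent.S24.S24_ord_add w hne hnb (by simpa using ha)
    have h2 : w.ord (-b) = w.ord b := (Fermat.Agent.S24.S24_isVal_ord w).neg hb
    rw [add_neg_cancel_right, h2] at h1
    rcases min_le_iff.1 h1 with h | h
    · exact h
    · omega
  · have h1 := Fermat.Agent.S24.S24_ord_add w ha hb hne
    rcases min_le_iff.1 h1 with h | h
    · exact h
    · omega

/-- scaling a polynomial into the valuation ring -/
theorem LE_exists_scale (w : Place K F') (t : F) (ht : 0 < w.ord (algebraMap F F' t))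
    (p : F[X]) : ∃ N : ℕ, ∀ n, algebraMap F F' (t ^ N * p.coeff n) ∈ w.toValuationSubring := by
  classical
  have ht0 : algebraMap F F' t ≠ 0 := by
    intro h0
    rw [h0, Place.ord_zero] at ht
    exact lt_irrefl _ ht
  refine ⟨p.support.sup (fun n => (-w.ord (algebraMap F F' (p.coeff n))).toNat), fun n => ?_⟩
  by_cases hn : p.coeff n = 0
  · rw [hn, mul_zero, map_zero]
    exact zero_mem _
  have hc0 : algebraMap F F' (p.coeff n) ≠ 0 := by
    intro h0
    exact hn ((algebraMap F F').injective (by rw [h0, map_zero]))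
  have hmem : n ∈ p.support := Polynomial.mem_support_iff.2 hn
  have hle : (-w.ord (algebraMap F F' (p.coeff n))).toNat ≤
      p.support.sup (fun n => (-w.ord (algebraMap F F' (p.coeff n))).toNat) :=
    Finset.le_sup (f := fun n => (-w.ord (algebraMap F F' (p.coeff n))).toNat) hmem
  set N := p.support.sup (fun n => (-w.ord (algebraMap F F' (p.coeff n))).toNat) with hN
  rw [map_mul, map_pow, Fermat.Agent.S24.BG_mem_iff_ord_nonneg w
    (mul_ne_zero (pow_ne_zero _ ht0) hc0), w.ord_mul (pow_ne_zero _ ht0) hc0]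
  have h1 : w.ord (algebraMap F F' t ^ N) = N * w.ord (algebraMap F F' t) := by
    have := w.ord_zpow (algebraMap F F' t) (N : ℤ)
    rwa [zpow_natCast] at this
  rw [h1]
  have h2 : (N : ℤ) ≤ N * w.ord (algebraMap F F' t) := by nlinarith
  have h3 : -w.ord (algebraMap F F' (p.coeff n)) ≤ N := by
    have := Int.self_le_toNat (-w.ord (algebraMap F F' (p.coeff n)))
    have h4 : ((-w.ord (algebraMap F F' (p.coeff n))).toNat : ℤ) ≤ N := by exact_mod_cast hle
    omega
  omega

/-- **Value lemma.** Every nonzero element of `F[z]` has the order of an element of `F`. -/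
theorem LE_value (w : Place K F') (t : F) (ht : 0 < w.ord (algebraMap F F' t))
    (z : F') (hz : z ∈ w.toValuationSubring) (G : F[X])
    (hG : ∀ n, algebraMap F F' (G.coeff n) ∈ w.toValuationSubring) (hGz : aeval z G = 0)
    (hG0 : aeval z (derivative G) ≠ 0) (hG1 : aeval z (derivative G) ∈ w.toValuationSubring)
    (hG2 : (aeval z (derivative G))⁻¹ ∈ w.toValuationSubring)
    (z₀ : F) (h₀ : z - algebraMap F F' z₀ ∈ w.toValuationSubring.nonunits)
    (p : F[X]) (hp : aeval z p ≠ 0) :
    ∃ g : F, g ≠ 0 ∧ w.ord (algebraMap F F' g) = w.ord (aeval z p) := by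
  set O := w.toValuationSubring with hO
  set ι := algebraMap F F' with hι
  have ht0 : ι t ≠ 0 := by
    intro h0
    rw [h0, Place.ord_zero] at ht
    exact lt_irrefl _ ht
  obtain ⟨N, hN⟩ := LE_exists_scale w t ht p
  set a : F := t ^ N with ha
  have ha0 : ι a ≠ 0 := by rw [ha, map_pow]; exact pow_ne_zero _ ht0
  set q : F[X] := Polynomial.C a * p with hq
  have hqc : ∀ n, ι (q.coeff n) ∈ O := by
    intro n
    rw [hq, Polynomial.coeff_C_mul]
    exact hN n
  have hqz : aeval z q = ι a * aeval z p := by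
    rw [hq, map_mul, Polynomial.aeval_C]
  have hqz0 : aeval z q ≠ 0 := by rw [hqz]; exact mul_ne_zero ha0 hp
  obtain ⟨qO, hqO⟩ := LE_exists_lift O q hqc
  have hev : ∀ (x : O), ((qO.eval x : O) : F') = (q.map ι).eval (x : F') := by
    intro x
    rw [← hqO, Polynomial.eval_map]
    exact (Polynomial.hom_eval₂ qO (RingHom.id _) O.subtype x).trans (by
      rw [RingHom.comp_id]; rfl)
  -- the order of `q(z)`
  have hqzO : aeval z q ∈ O := by
    have := (qO.eval ⟨z, hz⟩).2
    rw [hev, Polynomial.eval_map, ← Polynomial.aeval_def] at this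
    exact this
  have hm0 : 0 ≤ w.ord (aeval z q) := (Fermat.Agent.S24.BG_mem_iff_ord_nonneg w hqz0).1 hqzO
  obtain ⟨f, c, hc, hfc⟩ := LE_dense O z hz G hG hGz hG0 hG1 hG2 z₀ h₀ (w.ord (aeval z q)).toNat
  have hfO : ι f ∈ O := by
    have h1 : z - ι f ∈ O := by
      rw [hfc]
      exact O.mul_mem _ _ hc (pow_mem (O.nonunits_subset h₀) _)
    have : ι f = z - (z - ι f) := by ring
    rw [this]
    exact O.sub_mem hz h1
  have hpf : aeval (ι f) p = ι (p.eval f) := by
    rw [Polynomial.aeval_def, Polynomial.eval₂_at_apply]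
  by_cases hzf : z - ι f = 0
  · have hzf' : z = ι f := by linear_combination hzf
    refine ⟨p.eval f, ?_, ?_⟩
    · intro h0
      apply hp
      rw [hzf', hpf, h0, map_zero]
    · rw [hzf', hpf]
  obtain ⟨k, hk⟩ := Polynomial.evalSubFactor qO ⟨z, hz⟩ ⟨ι f, hfO⟩
  have hk2 := congrArg (Subtype.val : O → F') hk
  push_cast at hk2
  rw [hev, hev, Polynomial.eval_map, Polynomial.eval_map, ← Polynomial.aeval_def,
    Polynomial.eval₂_at_apply] at hk2
  change aeval z q - ι (q.eval f) = (k : F') * (z - ι f) at hk2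
  have hqf : q.eval f = a * p.eval f := by rw [hq, Polynomial.eval_mul, Polynomial.eval_C]
  by_cases hk0 : (k : F') = 0
  · rw [hk0, zero_mul, sub_eq_zero, hqz, hqf, map_mul] at hk2
    have h1 : aeval z p = ι (p.eval f) := mul_left_cancel₀ ha0 hk2
    refine ⟨p.eval f, ?_, by rw [h1]⟩
    intro h0
    apply hp
    rw [h1, h0, map_zero]
  -- the main case
  have hd0 : z - ι z₀ ≠ 0 := by
    intro h0
    apply hzf
    rw [hfc, h0, zero_pow (Nat.succ_ne_zero _), mul_zero]
  have hc0 : c ≠ 0 := by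
    intro h0
    apply hzf
    rw [hfc, h0, zero_mul]
  have hordd : 0 < w.ord (z - ι z₀) :=
    (Fermat.Agent.S24.BG_mem_nonunits_iff_ord_pos w hd0).1 h₀
  have hordc : 0 ≤ w.ord c := (Fermat.Agent.S24.BG_mem_iff_ord_nonneg w hc0).1 hc
  have hordk : 0 ≤ w.ord (k : F') := (Fermat.Agent.S24.BG_mem_iff_ord_nonneg w hk0).1 k.2
  set M := (w.ord (aeval z q)).toNat with hM
  have hMeq : (M : ℤ) = w.ord (aeval z q) := Int.toNat_of_nonneg hm0
  have hordzf : (M : ℤ) + 1 ≤ w.ord (z - ι f) := by
    rw [hfc, w.ord_mul hc0 (pow_ne_zero _ hd0)]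
    have h1 : w.ord ((z - ι z₀) ^ (M + 1)) = ((M + 1 : ℕ) : ℤ) * w.ord (z - ι z₀) := by
      have := w.ord_zpow (z - ι z₀) ((M + 1 : ℕ) : ℤ)
      rwa [zpow_natCast] at this
    rw [h1]
    push_cast
    nlinarith
  have hordkz : w.ord (aeval z q) < w.ord (-((k : F') * (z - ι f))) := by
    rw [(Fermat.Agent.S24.S24_isVal_ord w).neg (mul_ne_zero hk0 hzf), w.ord_mul hk0 hzf]
    omega
  have hsum : ι (q.eval f) = aeval z q + -((k : F') * (z - ι f)) := by
    linear_combination -hk2
  obtain ⟨hne, hord⟩ := LE_ord_add_eq w hqz0 (neg_ne_zero.2 (mul_ne_zero hk0 hzf)) hordkz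
  rw [← hsum] at hne hord
  rw [hqf, map_mul] at hne hord
  have hpf0 : ι (p.eval f) ≠ 0 := right_ne_zero_of_mul hne
  refine ⟨p.eval f, ?_, ?_⟩
  · intro h0
    exact hpf0 (by rw [h0, map_zero])
  · rw [w.ord_mul ha0 hpf0, hqz, w.ord_mul ha0 hp] at hord
    omega

variable [Algebra.IsIntegral F F']

/-- **Local étale lemma.**  `w` a place of `F' = F[z]`, `z` regular at `w`, `G(z) = 0` for a
polynomial `G` over `F` with coefficients regular at `w` and `G'(z)` a unit at `w`, and `z`
congruent to an element of `F` at `w`.  Then `w` is unramified over `F`. -/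
theorem LE_ramificationIndex_eq_one (w : Place K F')
    (z : F') (hz : z ∈ w.toValuationSubring) (hgen : ∀ y : F', ∃ p : F[X], aeval z p = y)
    (G : F[X])
    (hG : ∀ n, algebraMap F F' (G.coeff n) ∈ w.toValuationSubring) (hGz : aeval z G = 0)
    (hG0 : aeval z (derivative G) ≠ 0) (hG1 : aeval z (derivative G) ∈ w.toValuationSubring)
    (hG2 : (aeval z (derivative G))⁻¹ ∈ w.toValuationSubring)
    (z₀ : F) (h₀ : z - algebraMap F F' z₀ ∈ w.toValuationSubring.nonunits) :
    Place.ramificationIndex (F := F) w = 1 := by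
  obtain ⟨t, ht0, hte⟩ := w.exists_ord_eq_ramificationIndex (F := F)
  have hepos : 0 < Place.ramificationIndex (F := F) w := w.ramificationIndex_pos (F := F)
  have ht : 0 < w.ord (algebraMap F F' t) := by rw [hte]; exact_mod_cast hepos
  obtain ⟨π, hπ⟩ := IsDiscreteValuationRing.exists_irreducible w.toValuationSubring
  have hπ1 : w.ord (π : F') = 1 := w.ord_coe_irreducible hπ
  obtain ⟨p, hp⟩ := hgen (π : F')
  have hπ0 : (π : F') ≠ 0 := by
    intro h0
    rw [h0, Place.ord_zero] at hπ1
    exact zero_ne_one hπ1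
  obtain ⟨g, hg0, hg⟩ := LE_value w t ht z hz G hG hGz hG0 hG1 hG2 z₀ h₀ p (by rw [hp]; exact hπ0)
  rw [hp, hπ1] at hg
  have hdvd := w.ramificationIndex_dvd_ord (F := F) hg0
  rw [hg] at hdvd
  have h1 : (Place.ramificationIndex (F := F) w : ℤ) = 1 :=
    Int.eq_one_of_dvd_one (by positivity) hdvd
  exact_mod_cast h1

end Place

end Fermat.Agent.Lib
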