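import Mathlib

/-!
# A derivation criterion for separability (TRACK 3, package P0, helper2)

`k` a perfect field of characteristic `ℓ`, `M / k` a field, `D : M → V` a `k`-derivation into an
`M`-vector space, `g : M` with `D g ≠ 0`.  Then every `y : M` algebraic over `k(g)` is separable
over `k(g)` (MacLane: `ℓ`-th powers of `k(g)`-linearly independent elements stay independent).

* `SD_pow_indep`   : `∑_{j<ℓ} a_j^ℓ g^j = 0 ⇒ a_j = 0`.
* `SD_decomp`      : every `c ∈ k(g)` is `∑_{j<ℓ} a_j^ℓ g^j` with `a_j ∈ k(g)`.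
* `SD_isSeparable` : the criterion.
-/

set_option autoImplicit false

open Polynomial IntermediateField

namespace Fermat.Agent.Lib

variable {k M V : Type*} [Field k] [Field M] [Algebra k M] [AddCommGroup V] [Module k V]
  [Module M V] [IsScalarTower k M V]

/-- `D (a ^ ℓ) = 0` in characteristic `ℓ`. -/
theorem SD_deriv_pow_char (ℓ : ℕ) [CharP M ℓ] (D : Derivation k M V) (a : M) :
    D (a ^ ℓ) = 0 := by
  rw [Derivation.leibniz_pow]
  have : (ℓ : M) = 0 := CharP.cast_eq_zero M ℓ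
  rw [← Nat.cast_smul_eq_nsmul M, this, zero_smul]

/-- `1, g, …, g^{ℓ-1}` are linearly independent over `M^ℓ` if `D g ≠ 0`. -/
theorem SD_pow_indep (ℓ : ℕ) [hℓ : Fact ℓ.Prime] [CharP M ℓ] (D : Derivation k M V) {g : M}
    (hg : D g ≠ 0) :
    ∀ n ≤ ℓ, ∀ a : ℕ → M, ∑ j ∈ Finset.range n, a j ^ ℓ * g ^ j = 0 → ∀ j < n, a j = 0 := by
  intro n
  induction n with
  | zero => intro _ a _ j hj; omega
  | succ n ih =>
    intro hn a H
    -- apply `D`
    have hD : ∑ j ∈ Finset.range (n + 1), D (a j ^ ℓ * g ^ j) = 0 := by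
      rw [← map_sum, H, map_zero]
    have hterm : ∀ j, D (a j ^ ℓ * g ^ j) = ((j : M) * a j ^ ℓ * g ^ (j - 1)) • D g := by
      intro j
      rw [Derivation.leibniz, SD_deriv_pow_char ℓ D (a j), smul_zero, add_zero,
        Derivation.leibniz_pow, ← Nat.cast_smul_eq_nsmul M, smul_smul, smul_smul]
      congr 1
      ring
    simp only [hterm] at hD
    rw [← Finset.sum_smul] at hD
    have h0 : ∑ j ∈ Finset.range (n + 1), (j : M) * a j ^ ℓ * g ^ (j - 1) = 0 := by
      rcases smul_eq_zero.mp hD with h | h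
      · exact h
      · exact absurd h hg
    rw [Finset.sum_range_succ'] at h0
    simp only [Nat.cast_zero, zero_mul, add_zero, Nat.add_sub_cancel] at h0
    -- the shifted relation
    have hshift : ∑ i ∈ Finset.range n, (((i + 1 : ℕ) : M) * a (i + 1)) ^ ℓ * g ^ i = 0 := by
      rw [← h0]
      apply Finset.sum_congr rfl
      intro i _
      have hfr : (((i + 1 : ℕ) : M)) ^ ℓ = ((i + 1 : ℕ) : M) := by
        have := map_natCast (frobenius M ℓ) (i + 1)
        rwa [frobenius_def] at this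
      rw [mul_pow, hfr]
    have ih' := ih (by omega) (fun i => ((i + 1 : ℕ) : M) * a (i + 1)) hshift
    have hsucc : ∀ i < n, a (i + 1) = 0 := by
      intro i hi
      have h1 := ih' i hi
      have hne : ((i + 1 : ℕ) : M) ≠ 0 := by
        intro h
        rw [CharP.cast_eq_zero_iff M ℓ] at h
        have := Nat.le_of_dvd (by omega) h
        omega
      rcases mul_eq_zero.mp h1 with h | h
      · exact absurd h hne
      · exact h
    have ha0 : a 0 = 0 := by
      rw [Finset.sum_range_succ'] at H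
      have hz : ∑ i ∈ Finset.range n, a (i + 1) ^ ℓ * g ^ (i + 1) = 0 := by
        apply Finset.sum_eq_zero
        intro i hi
        rw [hsucc i (Finset.mem_range.mp hi), zero_pow hℓ.out.ne_zero, zero_mul]
      rw [hz, zero_add, pow_zero, mul_one] at H
      exact pow_eq_zero_iff hℓ.out.ne_zero |>.mp H
    intro j hj
    rcases Nat.eq_zero_or_pos j with rfl | hpos
    · exact ha0
    · obtain ⟨i, rfl⟩ : ∃ i, j = i + 1 := ⟨j - 1, by omega⟩
      exact hsucc i (by omega)

/-- the set of elements `∑_{j<ℓ} a_j^ℓ g^j`, `a_j ∈ k(g)`. -/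
def SD_Rep (k : Type*) {M : Type*} [Field k] [Field M] [Algebra k M] (ℓ : ℕ) (g c : M) : Prop :=
  ∃ a : ℕ → M, (∀ j, a j ∈ k⟮g⟯) ∧ c = ∑ j ∈ Finset.range ℓ, a j ^ ℓ * g ^ j

section Rep

variable (ℓ : ℕ) [hℓ : Fact ℓ.Prime] [CharP M ℓ] (g : M)

omit hℓ [CharP M ℓ] in
theorem SD_rep_zero : SD_Rep k ℓ g 0 :=
  ⟨fun _ => 0, fun _ => zero_mem _, by
    symm; apply Finset.sum_eq_zero; intro j _
    rcases Nat.eq_zero_or_pos ℓ with h | h
    · subst h; simp at *
    · rw [zero_pow (by omega), zero_mul]⟩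

include hℓ in
omit [CharP M ℓ] in
/-- `e ^ ℓ` is representable for `e ∈ k(g)`. -/
theorem SD_rep_pow {e : M} (he : e ∈ k⟮g⟯) : SD_Rep k ℓ g (e ^ ℓ) := by
  refine ⟨fun j => if j = 0 then e else 0, fun j => ?_, ?_⟩
  · by_cases h : j = 0
    · simp [h, he]
    · simp [h]
  · have hpos : 0 < ℓ := hℓ.out.pos
    rw [Finset.sum_eq_single 0]
    · simp
    · intro j _ hj
      simp [hj, hℓ.out.ne_zero]
    · intro h
      exact absurd (Finset.mem_range.mpr hpos) h

include hℓ in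
theorem SD_rep_add {c d : M} (hc : SD_Rep k ℓ g c) (hd : SD_Rep k ℓ g d) :
    SD_Rep k ℓ g (c + d) := by
  obtain ⟨a, ha, rfl⟩ := hc
  obtain ⟨b, hb, rfl⟩ := hd
  refine ⟨fun j => a j + b j, fun j => add_mem (ha j) (hb j), ?_⟩
  rw [← Finset.sum_add_distrib]
  apply Finset.sum_congr rfl
  intro j _
  show a j ^ ℓ * g ^ j + b j ^ ℓ * g ^ j = (a j + b j) ^ ℓ * g ^ j
  rw [add_pow_char (a j) (b j) ℓ]
  ring

omit hℓ [CharP M ℓ] in
theorem SD_rep_pow_mul {c e : M} (he : e ∈ k⟮g⟯) (hc : SD_Rep k ℓ g c) :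
    SD_Rep k ℓ g (e ^ ℓ * c) := by
  obtain ⟨a, ha, rfl⟩ := hc
  refine ⟨fun j => e * a j, fun j => mul_mem he (ha j), ?_⟩
  rw [Finset.mul_sum]
  apply Finset.sum_congr rfl
  intro j _
  ring

include hℓ in
omit [CharP M ℓ] in
theorem SD_rep_gen_mul {c : M} (hc : SD_Rep k ℓ g c) : SD_Rep k ℓ g (g * c) := by
  obtain ⟨a, ha, rfl⟩ := hc
  have hg : g ∈ k⟮g⟯ := mem_adjoin_simple_self k g
  obtain ⟨m, hm⟩ : ∃ m, ℓ = m + 1 := ⟨ℓ - 1, by have := hℓ.out.pos; omega⟩
  refine ⟨fun j => if j = 0 then a m * g else a (j - 1), fun j => ?_, ?_⟩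
  · by_cases h : j = 0
    · simp only [h, if_true]; exact mul_mem (ha m) hg
    · simp only [h, if_false]; exact ha _
  · subst hm
    have hR : ∑ j ∈ Finset.range (m + 1),
        (if j = 0 then a m * g else a (j - 1)) ^ (m + 1) * g ^ j =
        ∑ j ∈ Finset.range m, a j ^ (m + 1) * g ^ (j + 1) + (a m * g) ^ (m + 1) := by
      rw [Finset.sum_range_succ']
      simp only [if_true, pow_zero, mul_one, Nat.add_sub_cancel, Nat.succ_ne_zero, if_false]
    have hL : g * ∑ j ∈ Finset.range (m + 1), a j ^ (m + 1) * g ^ j =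
        ∑ j ∈ Finset.range m, a j ^ (m + 1) * g ^ (j + 1) + (a m * g) ^ (m + 1) := by
      rw [Finset.sum_range_succ, mul_add, Finset.mul_sum, mul_pow]
      congr 1
      · apply Finset.sum_congr rfl
        intro j _; ring
      · ring
    show g * ∑ j ∈ Finset.range (m + 1), a j ^ (m + 1) * g ^ j =
      ∑ j ∈ Finset.range (m + 1), (if j = 0 then a m * g else a (j - 1)) ^ (m + 1) * g ^ j
    rw [hL, hR]

include hℓ in
omit [CharP M ℓ] in
theorem SD_rep_gen_pow_mul (n : ℕ) {c : M} (hc : SD_Rep k ℓ g c) : SD_Rep k ℓ g (g ^ n * c) := by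
  induction n with
  | zero => simpa using hc
  | succ n ih =>
    have := SD_rep_gen_mul (k := k) ℓ g ih
    rwa [← mul_assoc, ← pow_succ'] at this

include hℓ in
theorem SD_rep_mul {c d : M} (hc : SD_Rep k ℓ g c) (hd : SD_Rep k ℓ g d) :
    SD_Rep k ℓ g (c * d) := by
  obtain ⟨a, ha, rfl⟩ := hc
  rw [Finset.sum_mul]
  have key : ∀ s : Finset ℕ, SD_Rep k ℓ g (∑ j ∈ s, a j ^ ℓ * g ^ j * d) := by
    intro s
    induction s using Finset.induction_on with
    | empty => simpa using SD_rep_zero (k := k) ℓ g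
    | insert j s hj ih =>
      rw [Finset.sum_insert hj]
      apply SD_rep_add ℓ g _ ih
      rw [mul_assoc]
      exact SD_rep_pow_mul ℓ g (ha j) (SD_rep_gen_pow_mul ℓ g j hd)
  exact key _

include hℓ in
theorem SD_rep_one : SD_Rep k ℓ g (1 : M) := by
  have := SD_rep_pow (k := k) ℓ g (e := (1 : M)) (one_mem _)
  rwa [one_pow] at this

include hℓ in
theorem SD_rep_npow {c : M} (hc : SD_Rep k ℓ g c) (n : ℕ) : SD_Rep k ℓ g (c ^ n) := by
  induction n with
  | zero => simpa using SD_rep_one (k := k) ℓ g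
  | succ n ih =>
    rw [pow_succ]
    exact SD_rep_mul ℓ g ih hc

include hℓ in
theorem SD_rep_inv {c : M} (hcg : c ∈ k⟮g⟯) (hc : SD_Rep k ℓ g c) : SD_Rep k ℓ g c⁻¹ := by
  by_cases h0 : c = 0
  · rw [h0, inv_zero]; exact SD_rep_zero ℓ g
  · have h1 : c⁻¹ = (c⁻¹) ^ ℓ * c ^ (ℓ - 1) := by
      obtain ⟨m, hm⟩ : ∃ m, ℓ = m + 1 := ⟨ℓ - 1, by have := hℓ.out.pos; omega⟩
      rw [hm, Nat.add_sub_cancel, pow_succ, mul_assoc, inv_pow]
      rw [show c⁻¹ * c ^ m = (c ^ m) * c⁻¹ by ring, ← mul_assoc, inv_mul_cancel₀ (pow_ne_zero m h0),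
        one_mul]
    rw [h1]
    exact SD_rep_pow_mul ℓ g (inv_mem hcg) (SD_rep_npow ℓ g hc _)

end Rep

/-- every element of `k(g)` is `∑_{j<ℓ} a_j^ℓ g^j` with `a_j ∈ k(g)` (`k` perfect). -/
theorem SD_decomp (ℓ : ℕ) [hℓ : Fact ℓ.Prime] [CharP k ℓ] [CharP M ℓ] [PerfectField k] (g : M)
    {c : M} (hc : c ∈ k⟮g⟯) : SD_Rep k ℓ g c := by
  induction hc using IntermediateField.adjoin_induction with
  | mem x hx =>
    rw [Set.mem_singleton_iff] at hx
    subst hx
    have := SD_rep_gen_mul (k := k) ℓ x (SD_rep_one (k := k) ℓ x)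
    rwa [mul_one] at this
  | algebraMap x =>
    have hx : algebraMap k M x = (algebraMap k M ((frobeniusEquiv k ℓ).symm x)) ^ ℓ := by
      rw [← map_pow, ← frobenius_def, ← frobeniusEquiv_apply, RingEquiv.apply_symm_apply]
    rw [hx]
    exact SD_rep_pow ℓ g (IntermediateField.algebraMap_mem _ _)
  | add x y hx hy hx' hy' => exact SD_rep_add ℓ g hx' hy'
  | inv x hx hx' => exact SD_rep_inv ℓ g hx hx'
  | mul x y hx hy hx' hy' => exact SD_rep_mul ℓ g hx' hy'

/-- **MacLane's criterion via a derivation**: if `D g ≠ 0` then every `y : M` algebraic over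
`k(g)` is separable over `k(g)`. -/
theorem SD_isSeparable (ℓ : ℕ) [hℓ : Fact ℓ.Prime] [CharP k ℓ] [CharP M ℓ] [PerfectField k]
    (D : Derivation k M V) {g : M} (hg : D g ≠ 0) {y : M} (hy : IsAlgebraic k⟮g⟯ y) :
    IsSeparable k⟮g⟯ y := by
  classical
  have hE : CharP k⟮g⟯ ℓ := charP_of_injective_algebraMap (algebraMap k k⟮g⟯).injective ℓ
  have hirr : Irreducible (minpoly k⟮g⟯ y) := minpoly.irreducible hy.isIntegral
  rcases Polynomial.separable_or ℓ hirr with hsep | ⟨-, Q, hQ, hQP⟩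
  · exact hsep
  exfalso
  -- `Q (y ^ ℓ) = 0`
  have hQy : aeval (y ^ ℓ) Q = 0 := by
    rw [← Polynomial.expand_aeval, hQP, minpoly.aeval]
  set m := Q.natDegree with hm
  have hQ0 : Q ≠ 0 := hQ.ne_zero
  have hmpos : 0 < m := hQ.natDegree_pos
  -- decompose the coefficients
  have hdec : ∀ i, SD_Rep k ℓ g (algebraMap k⟮g⟯ M (Q.coeff i)) := fun i =>
    SD_decomp ℓ g (Q.coeff i).2
  choose a ha hac using hdec
  -- the relation
  have hrel : ∑ j ∈ Finset.range ℓ,
      (∑ i ∈ Finset.range (m + 1), a i j * y ^ i) ^ ℓ * g ^ j = 0 := by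
    have h1 : aeval (y ^ ℓ) Q = ∑ i ∈ Finset.range (m + 1),
        algebraMap k⟮g⟯ M (Q.coeff i) * (y ^ ℓ) ^ i := by
      rw [Polynomial.aeval_eq_sum_range]
      apply Finset.sum_congr rfl
      intro i _
      rw [Algebra.smul_def]
    rw [hQy] at h1
    rw [h1]
    have h2 : ∀ j ∈ Finset.range ℓ, (∑ i ∈ Finset.range (m + 1), a i j * y ^ i) ^ ℓ * g ^ j =
        ∑ i ∈ Finset.range (m + 1), (a i j ^ ℓ * g ^ j) * (y ^ ℓ) ^ i := by
      intro j _
      rw [sum_pow_char ℓ, Finset.sum_mul]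
      apply Finset.sum_congr rfl
      intro i _
      rw [mul_pow, ← pow_mul, ← pow_mul, mul_comm i ℓ]
      ring
    rw [Finset.sum_congr rfl h2, Finset.sum_comm]
    apply Finset.sum_congr rfl
    intro i _
    rw [hac i, Finset.sum_mul]
  have hzero := SD_pow_indep ℓ D hg ℓ le_rfl
    (fun j => ∑ i ∈ Finset.range (m + 1), a i j * y ^ i) hrel
  -- the polynomials `R_j`
  have hR : ∀ j < ℓ, ∀ i ∈ Finset.range (m + 1), a i j = 0 := by
    intro j hj
    set R : Polynomial k⟮g⟯ := ∑ i ∈ Finset.range (m + 1),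
      Polynomial.C (⟨a i j, ha i j⟩ : k⟮g⟯) * Polynomial.X ^ i with hRdef
    have hRy : aeval y R = 0 := by
      rw [hRdef, map_sum]
      rw [← hzero j hj]
      apply Finset.sum_congr rfl
      intro i _
      rw [map_mul, map_pow, aeval_X, aeval_C]
      rfl
    have hRdeg : R.natDegree ≤ m := by
      rw [hRdef]
      apply Polynomial.natDegree_sum_le_of_forall_le
      intro i hi
      have := Finset.mem_range.mp hi
      calc (Polynomial.C (⟨a i j, ha i j⟩ : k⟮g⟯) * Polynomial.X ^ i).natDegree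
          ≤ i := Polynomial.natDegree_C_mul_X_pow_le _ _
        _ ≤ m := by omega
    have hR0 : R = 0 := by
      by_contra hne
      have h1 := Polynomial.natDegree_le_natDegree (minpoly.degree_le_of_ne_zero k⟮g⟯ y hne hRy)
      rw [← hQP, Polynomial.natDegree_expand, ← hm] at h1
      have h2 : m * ℓ ≥ m * 2 := Nat.mul_le_mul_left m hℓ.out.two_le
      omega
    intro i hi
    have hcoeff : R.coeff i = ⟨a i j, ha i j⟩ := by
      rw [hRdef, Polynomial.finsetSum_coeff]
      rw [Finset.sum_eq_single i]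
      · simp
      · intro i' _ hne
        rw [Polynomial.coeff_C_mul_X_pow]
        simp [hne.symm]
      · intro h; exact absurd hi h
    rw [hR0, Polynomial.coeff_zero] at hcoeff
    exact congrArg Subtype.val hcoeff.symm
  -- hence `Q = 0`
  apply hQ0
  apply Polynomial.ext
  intro i
  rw [Polynomial.coeff_zero]
  by_cases hi : i ∈ Finset.range (m + 1)
  · have : algebraMap k⟮g⟯ M (Q.coeff i) = 0 := by
      rw [hac i]
      apply Finset.sum_eq_zero
      intro j hj
      rw [hR j (Finset.mem_range.mp hj) i hi, zero_pow hℓ.out.ne_zero, zero_mul]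
    exact (map_eq_zero (algebraMap k⟮g⟯ M)).mp this
  · rw [Finset.mem_range, not_lt] at hi
    exact Polynomial.coeff_eq_zero_of_natDegree_lt (by rw [← hm]; omega)

/-- the algebra version. -/
theorem SD_algebra_isSeparable (ℓ : ℕ) [hℓ : Fact ℓ.Prime] [CharP k ℓ] [CharP M ℓ]
    [PerfectField k] (D : Derivation k M V) {g : M} (hg : D g ≠ 0)
    [Algebra.IsAlgebraic k⟮g⟯ M] : Algebra.IsSeparable k⟮g⟯ M :=
  ⟨fun y => SD_isSeparable ℓ D hg (Algebra.IsAlgebraic.isAlgebraic y)⟩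

end Fermat.Agent.Lib
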