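import Mathlib
import Fermat.Agent.Lib.SepDeriv
import Fermat.Agent.Lib.LaurentTheta
import Fermat.Agent.Lib.FFSep
import Fermat.Agent.Lib.RiemannCharZero

/-!
# Function fields inside `k((q))` in characteristic `ℓ` (TRACK 3, package P0, helper2)

`k` algebraically closed of characteristic `ℓ`, `F ⊆ k((q))` an intermediate field, `x ∈ F` with
`θ x ≠ 0` (`θ = q d/dq`) and `F / k(x)` finite.  Then:

* `SF_isSeparable`        : `F / k(g)` is separable for every `g ∈ F` with `θ g ≠ 0`;
* `SF_exists_root`        : `f ∈ F`, `θ f = 0` ⇒ `f = h ^ ℓ` with `h ∈ F`;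
* `SF_induction`          : every non-constant `f ∈ F` is reached from the `g` with `θ g ≠ 0` by
                            taking `ℓ`-th powers;
* `SF_hasPrincipalDivisors`, `SF_exists_zero`, `SF_const`, `SF_deg_one`, `SF_RR_hyp`.

The first section is abstract (any field `M` with a derivation).
-/

set_option autoImplicit false

open IntermediateField AlgebraicCurve

namespace Fermat.Agent.Lib

open Fermat.Agent.S24

section Abstract

variable {k M V : Type*} [Field k] [Field M] [Algebra k M] [AddCommGroup V] [Module k V]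
  [Module M V] [IsScalarTower k M V]

/-- `ℓ`-th roots: if `E ⊆ M` is algebraic over `k(g)`, `g ∈ E`, `D g ≠ 0`, then `E` is closed
under taking `ℓ`-th roots in `M`. -/
theorem SF_mem_of_pow_mem (ℓ : ℕ) [hℓ : Fact ℓ.Prime] [CharP k ℓ] [CharP M ℓ] [PerfectField k]
    (D : Derivation k M V) (E : IntermediateField k M) {g : M} (hgE : g ∈ E) (hg : D g ≠ 0)
    (halg : ∀ y ∈ E, IsAlgebraic k⟮g⟯ y) {h : M} (hh : h ^ ℓ ∈ E) : h ∈ E := by
  have h1 : IsAlgebraic k⟮g⟯ h := IsAlgebraic.of_pow hℓ.out.pos (halg _ hh)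
  have hsep : IsSeparable k⟮g⟯ h := SD_isSeparable ℓ D hg h1
  have hle : k⟮g⟯ ≤ E := adjoin_simple_le_iff.2 hgE
  set E' : IntermediateField k⟮g⟯ M := IntermediateField.extendScalars hle with hE'
  have hsep' : IsSeparable E' h := IsSeparable.tower_top E' hsep
  have : CharP E' ℓ :=
    (RingHom.charP_iff (algebraMap E' M) (algebraMap E' M).injective ℓ).2 inferInstance
  have : ExpChar E' ℓ := ExpChar.prime hℓ.out
  have hpi : IsPurelyInseparable E' E'⟮h⟯ := by
    rw [isPurelyInseparable_adjoin_simple_iff_pow_mem E' M ℓ]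
    exact ⟨1, ⟨⟨h ^ ℓ, hh⟩, by simp⟩⟩
  have hs : Algebra.IsSeparable E' E'⟮h⟯ :=
    (IntermediateField.isSeparable_adjoin_simple_iff_isSeparable E' M).2 hsep'
  have hbot : E'⟮h⟯ = ⊥ := IntermediateField.eq_bot_of_isPurelyInseparable_of_isSeparable _
  have hmem : h ∈ (⊥ : IntermediateField E' M) := by
    rw [← hbot]
    exact mem_adjoin_simple_self E' h
  rw [IntermediateField.mem_bot] at hmem
  obtain ⟨y, hy⟩ := hmem
  rw [← hy]
  exact y.2

/-- transfer of algebraicity from `E` to the ambient field. -/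
theorem SF_isAlgebraic_coe (E : IntermediateField k M) {x y : E} (h : IsAlgebraic k⟮x⟯ y) :
    IsAlgebraic k⟮(x : M)⟯ (y : M) := by
  have hmap : (k⟮x⟯).map E.val = k⟮(x : M)⟯ := by
    rw [IntermediateField.adjoin_map, Set.image_singleton]
    rfl
  have hmem : ∀ z : k⟮x⟯, ((z : E) : M) ∈ k⟮(x : M)⟯ := by
    intro z
    rw [← hmap]
    exact ⟨(z : E), z.2, rfl⟩
  let φ : k⟮x⟯ →+* k⟮(x : M)⟯ :=
    { toFun := fun z => ⟨((z : E) : M), hmem z⟩
      map_one' := rfl
      map_mul' := fun _ _ => rfl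
      map_zero' := rfl
      map_add' := fun _ _ => rfl }
  obtain ⟨p, hp0, hp⟩ := h
  refine ⟨p.map φ, Polynomial.map_ne_zero hp0, ?_⟩
  rw [Polynomial.aeval_def, Polynomial.eval₂_map]
  have hcomp : (algebraMap k⟮(x : M)⟯ M).comp φ = (E.val : E →+* M).comp (algebraMap k⟮x⟯ E) :=
    rfl
  rw [hcomp]
  have := Polynomial.hom_eval₂ p (algebraMap k⟮x⟯ E) (E.val : E →+* M) y
  rw [show (E.val : E →+* M) y = (y : M) from rfl] at this
  rw [← this, ← Polynomial.aeval_def, hp, map_zero]

end Abstract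

section Laurent

attribute [local instance 100000] Algebra.toModule

variable {k : Type*} [Field k]

/-- the restriction of `θ` to `F`. -/
noncomputable def SF_D (F : IntermediateField k (LaurentSeries k)) :
    @Derivation k ↥F (LaurentSeries k) _ _ _ _ _ Algebra.toModule :=
  (LT_theta (R := k)).compAlgebraMap ↥F

theorem SF_D_apply (F : IntermediateField k (LaurentSeries k)) (f : F) :
    SF_D F f = LT_theta (f : LaurentSeries k) := rfl

theorem SF_charP_laurent (ℓ : ℕ) [CharP k ℓ] : CharP (LaurentSeries k) ℓ :=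
  charP_of_injective_algebraMap (algebraMap k (LaurentSeries k)).injective ℓ

theorem SF_charP (ℓ : ℕ) [CharP k ℓ] (F : IntermediateField k (LaurentSeries k)) : CharP ↥F ℓ :=
  charP_of_injective_algebraMap (algebraMap k ↥F).injective ℓ

variable (ℓ : ℕ) [hℓ : Fact ℓ.Prime] [CharP k ℓ]
variable {F : IntermediateField k (LaurentSeries k)}

include hℓ in
/-- **separability**: `F / k(g)` is separable as soon as `θ g ≠ 0`. -/
theorem SF_isSeparable [PerfectField k] {g : F} (hg : LT_theta (g : LaurentSeries k) ≠ 0)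
    [Algebra.IsAlgebraic k⟮g⟯ F] : Algebra.IsSeparable k⟮g⟯ F :=
  haveI := SF_charP ℓ F
  SD_algebra_isSeparable ℓ (SF_D F) hg

/-- **`ℓ`-th roots**: an element of `F` killed by `θ` is an `ℓ`-th power in `F`. -/
theorem SF_exists_root [PerfectField k] {x : F} (hx : LT_theta (x : LaurentSeries k) ≠ 0)
    [Algebra.IsAlgebraic k⟮x⟯ F] {f : F} (hf : LT_theta (f : LaurentSeries k) = 0) :
    ∃ h : F, h ^ ℓ = f := by
  have := SF_charP_laurent (k := k) ℓ
  obtain ⟨h₀, hh₀⟩ := LT_exists_pow_eq ℓ hf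
  have hmem : h₀ ∈ F := by
    refine SF_mem_of_pow_mem ℓ (LT_theta (R := k)) F x.2 hx (fun y hy => ?_)
      (by rw [hh₀]; exact f.2)
    exact SF_isAlgebraic_coe F (x := x) (y := ⟨y, hy⟩) (Algebra.IsAlgebraic.isAlgebraic _)
  exact ⟨⟨h₀, hmem⟩, Subtype.ext hh₀⟩

omit hℓ [CharP k ℓ] in
theorem SF_exists_coeff {f : F} (hf : ∀ c : k, f ≠ algebraMap k F c) :
    ∃ m : ℤ, m ≠ 0 ∧ (f : LaurentSeries k).coeff m ≠ 0 := by
  by_contra hcon
  push Not at hcon
  apply hf ((f : LaurentSeries k).coeff 0)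
  apply Subtype.ext
  show (f : LaurentSeries k) = algebraMap k (LaurentSeries k) ((f : LaurentSeries k).coeff 0)
  rw [LT_algebraMap_eq]
  ext m
  by_cases hm : m = 0
  · rw [hm, HahnSeries.coeff_single_same]
  · rw [HahnSeries.coeff_single_of_ne hm, hcon m hm]

/-- **induction principle**: every non-constant element of `F` is obtained from elements with
`θ g ≠ 0` by taking `ℓ`-th powers. -/
theorem SF_induction [PerfectField k] {x : F} (hx : LT_theta (x : LaurentSeries k) ≠ 0)
    [Algebra.IsAlgebraic k⟮x⟯ F] (P : F → Prop)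
    (h1 : ∀ g : F, LT_theta (g : LaurentSeries k) ≠ 0 → P g)
    (h2 : ∀ h : F, P h → P (h ^ ℓ)) (f : F) (hf : ∀ c : k, f ≠ algebraMap k F c) : P f := by
  have := SF_charP_laurent (k := k) ℓ
  obtain ⟨m, hm0, hm⟩ := SF_exists_coeff hf
  have key : ∀ n : ℕ, ∀ (f : F) (m : ℤ), m.natAbs = n → m ≠ 0 →
      (f : LaurentSeries k).coeff m ≠ 0 → P f := by
    intro n
    induction n using Nat.strong_induction_on with
    | _ n ih =>
      intro f m hmn hm0 hm
      by_cases hθ : LT_theta (f : LaurentSeries k) = 0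
      · obtain ⟨h, rfl⟩ := SF_exists_root ℓ hx hθ
        have hdvd : (ℓ : ℤ) ∣ m := by
          have h3 := (LT_theta_eq_zero_iff _).1 hθ m
          rcases mul_eq_zero.1 h3 with h4 | h4
          · exact (CharP.intCast_eq_zero_iff k ℓ m).1 h4
          · exact absurd h4 hm
        obtain ⟨m', rfl⟩ := hdvd
        have hc : ((h : LaurentSeries k) ^ ℓ).coeff ((ℓ : ℤ) * m') ≠ 0 := hm
        rw [LT_coeff_pow_char_mul] at hc
        have hc' : (h : LaurentSeries k).coeff m' ≠ 0 := fun h0 => hc (by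
          rw [h0, zero_pow hℓ.out.ne_zero])
        have hm'0 : m' ≠ 0 := fun h0 => hm0 (by rw [h0, mul_zero])
        have hlt : m'.natAbs < n := by
          rw [← hmn, Int.natAbs_mul, Int.natAbs_natCast]
          have h5 : 0 < m'.natAbs := Int.natAbs_pos.2 hm'0
          have h6 := hℓ.out.two_le
          nlinarith
        exact h2 h (ih _ hlt h m' rfl hm'0 hc')
      · exact h1 f hθ
  exact key _ f m rfl hm0 hm

end Laurent

section AlgClosed

attribute [local instance 100000] Algebra.toModule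

variable {k : Type*} [Field k] [IsAlgClosed k] {F : IntermediateField k (LaurentSeries k)}

/-- an element with `θ g ≠ 0` is transcendental over `k`. -/
theorem SF_transcendental {g : F} (hg : LT_theta (g : LaurentSeries k) ≠ 0) :
    Transcendental k g := by
  intro halg
  obtain ⟨a, rfl⟩ := BL_mem_range_of_isIntegral halg.isIntegral
  apply hg
  show LT_theta (algebraMap k (LaurentSeries k) a) = 0
  exact Derivation.map_algebraMap _ _

theorem SF_finite {x : F} [hfin : FiniteDimensional k⟮x⟯ F] {g : F}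
    (hg : LT_theta (g : LaurentSeries k) ≠ 0) : FiniteDimensional k⟮g⟯ F :=
  BL_finite_of_transcendental hfin (SF_transcendental hg)

/-- `F / k(g)` is finite separable for every `g` with `θ g ≠ 0`. -/
theorem SF_isSeparable' (ℓ : ℕ) [Fact ℓ.Prime] [CharP k ℓ] {x : F}
    [FiniteDimensional k⟮x⟯ F] {g : F} (hg : LT_theta (g : LaurentSeries k) ≠ 0) :
    Algebra.IsSeparable k⟮g⟯ F :=
  haveI := SF_finite (x := x) hg
  haveI : Algebra.IsAlgebraic k⟮g⟯ F := Algebra.IsAlgebraic.of_finite _ _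
  SF_isSeparable ℓ hg

/-- every nonzero element has a divisor of degree `0`. -/
theorem SF_exists_principal_divisor (ℓ : ℕ) [hℓ : Fact ℓ.Prime] [CharP k ℓ] {x : F}
    (hx : LT_theta (x : LaurentSeries k) ≠ 0) [FiniteDimensional k⟮x⟯ F] (f : F) (hf : f ≠ 0) :
    ∃ D : Divisor k F, (∀ v : Place k F, D v = v.ord f) ∧ Divisor.degree D = 0 := by
  have : Algebra.IsAlgebraic k⟮x⟯ F := Algebra.IsAlgebraic.of_finite _ _
  by_cases hc : ∃ c : k, f = algebraMap k F c
  · obtain ⟨c, rfl⟩ := hc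
    refine ⟨0, fun v => ?_, map_zero _⟩
    rw [BL_ord_algebraMap]
    rfl
  · push Not at hc
    refine SF_induction ℓ hx
      (fun f => ∃ D : Divisor k F, (∀ v : Place k F, D v = v.ord f) ∧ Divisor.degree D = 0)
      ?_ ?_ f hc
    · intro g hg
      have := SF_finite (x := x) hg
      have := SF_isSeparable' ℓ (x := x) hg
      exact FFS_exists_principal_divisor (SF_transcendental hg)
    · rintro h ⟨D, hD, hdeg⟩
      refine ⟨(ℓ : ℤ) • D, fun v => ?_, ?_⟩
      · rw [Finsupp.smul_apply, hD, smul_eq_mul, ← zpow_natCast, Place.ord_zpow]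
      · rw [map_zsmul, hdeg, smul_zero]

theorem SF_hasPrincipalDivisors (ℓ : ℕ) [Fact ℓ.Prime] [CharP k ℓ] {x : F}
    (hx : LT_theta (x : LaurentSeries k) ≠ 0) [FiniteDimensional k⟮x⟯ F] :
    HasPrincipalDivisors k F :=
  ⟨fun f hf => SF_exists_principal_divisor ℓ hx f hf⟩

/-- every non-constant element has a zero. -/
theorem SF_exists_zero (ℓ : ℕ) [hℓ : Fact ℓ.Prime] [CharP k ℓ] {x : F}
    (hx : LT_theta (x : LaurentSeries k) ≠ 0) [FiniteDimensional k⟮x⟯ F] (f : F)
    (hc : ∀ c : k, f ≠ algebraMap k F c) : ∃ v : Place k F, 0 < v.ord f := by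
  have : Algebra.IsAlgebraic k⟮x⟯ F := Algebra.IsAlgebraic.of_finite _ _
  refine SF_induction ℓ hx (fun f => ∃ v : Place k F, 0 < v.ord f) ?_ ?_ f hc
  · intro g hg
    have := SF_finite (x := x) hg
    have := SF_isSeparable' ℓ (x := x) hg
    have hsum := FFS_sum_zeros (SF_transcendental hg)
    by_contra hcon
    push Not at hcon
    have hempty : FFS_zeros (SF_transcendental hg) = ∅ := by
      rw [Finset.eq_empty_iff_forall_notMem]
      intro v hv
      rw [FFS_mem_zeros] at hv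
      exact absurd hv (not_lt.2 (hcon v))
    rw [hempty, Finset.sum_empty] at hsum
    have hpos : 0 < Module.finrank k⟮g⟯ F := Module.finrank_pos
    have : (0 : ℤ) < Module.finrank k⟮g⟯ F := by exact_mod_cast hpos
    omega
  · rintro h ⟨v, hv⟩
    refine ⟨v, ?_⟩
    rw [← zpow_natCast, Place.ord_zpow]
    have : (0 : ℤ) < (ℓ : ℤ) := by exact_mod_cast hℓ.out.pos
    positivity

/-- **constants**: a nonzero element without zeros is constant. -/
theorem SF_const (ℓ : ℕ) [Fact ℓ.Prime] [CharP k ℓ] {x : F}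
    (hx : LT_theta (x : LaurentSeries k) ≠ 0) [FiniteDimensional k⟮x⟯ F] (g : F)
    (hord : ∀ Q : Place k F, Q.ord g = 0) : ∃ c : k, g = algebraMap k F c := by
  by_contra hcon
  push Not at hcon
  obtain ⟨v, hv⟩ := SF_exists_zero ℓ hx g hcon
  rw [hord v] at hv
  exact lt_irrefl _ hv

omit [IsAlgClosed k] in
theorem SF_isFunctionField1 {x : F} [FiniteDimensional k⟮x⟯ F] : S24_IsFunctionField1 k F :=
  S24_isFunctionField1_of_isAlgebraic x (Algebra.IsAlgebraic.of_finite _ _)

theorem SF_deg_one {x : F} [FiniteDimensional k⟮x⟯ F] (v : Place k F) : v.deg = 1 :=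
  S24_deg_eq_one (SF_isFunctionField1 (x := x)) v

/-- **`RR_Hyp`** for `F`. -/
theorem SF_RR_hyp (ℓ : ℕ) [Fact ℓ.Prime] [CharP k ℓ] {x : F}
    (hx : LT_theta (x : LaurentSeries k) ≠ 0) [FiniteDimensional k⟮x⟯ F] : RR_Hyp k F := by
  have := SF_isSeparable' ℓ (x := x) hx
  have htr := SF_transcendental hx
  have hZ : ∀ v, v ∈ FFS_poles htr ↔ v.ord x < 0 := FFS_mem_poles htr
  have hsum : ∑ v ∈ FFS_poles htr, (-v.ord x) = (Module.finrank k⟮x⟯ F : ℤ) := by
    rw [Finset.sum_neg_distrib, FFS_sum_poles htr, neg_neg]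
  have hpos : 0 < Module.finrank k⟮x⟯ F := Module.finrank_pos
  refine RR_hyp_of_zeros (fun v => SF_deg_one (x := x) v) (SF_hasPrincipalDivisors ℓ hx) x
    (FFS_poles htr) hZ ?_ hsum.le
  by_contra hempty
  rw [Finset.not_nonempty_iff_eq_empty] at hempty
  rw [hempty, Finset.sum_empty] at hsum
  have : (0 : ℤ) < Module.finrank k⟮x⟯ F := by exact_mod_cast hpos
  omega

/-- an element whose order at some place is prime to `ℓ` (e.g. a uniformizer) has `θ g ≠ 0`. -/
theorem SF_theta_ne_zero_of_ord (ℓ : ℕ) [hℓ : Fact ℓ.Prime] [CharP k ℓ] {x : F}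
    (hx : LT_theta (x : LaurentSeries k) ≠ 0) [FiniteDimensional k⟮x⟯ F] {g : F}
    (Q : Place k F) (hQ : ¬ (ℓ : ℤ) ∣ Q.ord g) : LT_theta (g : LaurentSeries k) ≠ 0 := by
  have : Algebra.IsAlgebraic k⟮x⟯ F := Algebra.IsAlgebraic.of_finite _ _
  intro h0
  obtain ⟨h, rfl⟩ := SF_exists_root ℓ hx h0
  apply hQ
  rw [← zpow_natCast, Place.ord_zpow]
  exact dvd_mul_right _ _

/-- an element whose order at some place is prime to `ℓ` (e.g. a uniformizer) is a separating
element: `F / k(g)` is finite and separable. -/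
theorem SF_isSeparable_of_ord (ℓ : ℕ) [Fact ℓ.Prime] [CharP k ℓ] {x : F}
    (hx : LT_theta (x : LaurentSeries k) ≠ 0) [FiniteDimensional k⟮x⟯ F] {g : F}
    (Q : Place k F) (hQ : ¬ (ℓ : ℤ) ∣ Q.ord g) :
    Transcendental k g ∧ FiniteDimensional k⟮g⟯ F ∧ Algebra.IsSeparable k⟮g⟯ F := by
  have hg := SF_theta_ne_zero_of_ord ℓ hx Q hQ
  exact ⟨SF_transcendental hg, SF_finite (x := x) hg, SF_isSeparable' ℓ (x := x) hg⟩

end AlgClosed

end Fermat.Agent.Lib
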