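import Fermat.Agent.Lib.DiffExpand

/-!
# Package DIFF (TRACK 3), part 1: differentials at a place, any characteristic

`v` a place of degree one of `F / K`, `t` the Prelude's uniformizer at `v`.

* `FD_D_t_ne_zero`: `dt ≠ 0` in `Ω[F/K]`.
* `FD_key`: if `u ∈ O_v` and `du = g • dt`, then `g ∈ O_v` and the expansion of `g` is the formal
  derivative of the expansion of `u`.
No separability is needed for these two.  With a separating `x` (`F / K(x)` finite separable):
* `FD_span_D`, `FD_dCoordGenerates`, `FD_nontrivial_kaehler` (**D0.1**);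
* `FD_differentialCoeff_mem` (**D0.2**): `d/dt` preserves `O_v`;
* `FD_ordDifferential_D` (tame), `FD_ordDifferential_D_ge`, `FD_ordDifferential_D_nonneg`,
  `FD_ordDifferential_D_of_sub`, `FD_ordDifferential_D_of_sub_ge` (**D1**);
* `FD_D_unif` (**D0.3**): independence of the uniformizer;
* `FD_ordDifferential_of_derivation` (**D2**): the derivation form.
-/

set_option autoImplicit false

open AlgebraicCurve WithZero PowerSeries KaehlerDifferential IntermediateField
open scoped IntermediateField.algebraAdjoinAdjoin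

namespace Fermat.Agent.Lib

open Fermat.Agent.S24

variable {K F : Type*} [Field K] [Field F] [Algebra K F]

section Key

variable (v : Place K F) (hdeg : v.deg = 1)

include hdeg in
/-- the `O_v`-linear map `Ω[O_v/K] → K⟦X⟧`, `du ↦ (d/dX) (expansion of u)`; here `K⟦X⟧` is an
`O_v`-module via the expansion.  Stated with explicit multiplication. -/
theorem FD_exists_psi :
    ∃ ψ : Ω[v.toValuationSubring⁄K] →+ K⟦X⟧,
      (∀ (c : v.toValuationSubring) (m : Ω[v.toValuationSubring⁄K]),
        ψ (c • m) = FD_exp v (c : F) * ψ m) ∧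
      ∀ u : v.toValuationSubring, ψ (D K v.toValuationSubring u) =
        PowerSeries.derivative K (FD_exp v (u : F)) := by
  let alg : Algebra v.toValuationSubring K⟦X⟧ := (FD_expHom v hdeg).toRingHom.toAlgebra
  have : IsScalarTower K v.toValuationSubring K⟦X⟧ :=
    IsScalarTower.of_algebraMap_eq fun c => ((FD_expHom v hdeg).commutes c).symm
  let δ : Derivation K v.toValuationSubring K⟦X⟧ :=
    (PowerSeries.derivative K).compAlgebraMap v.toValuationSubring
  refine ⟨δ.liftKaehlerDifferential.toAddMonoidHom, fun c m => ?_, fun u => ?_⟩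
  · show δ.liftKaehlerDifferential (c • m) = _
    rw [map_smul]
    rfl
  · show δ.liftKaehlerDifferential (D K v.toValuationSubring u) = _
    rw [Derivation.liftKaehlerDifferential_comp_D]
    rfl

include hdeg in
/-- `dt ≠ 0` in `Ω[F/K]`. -/
theorem FD_D_t_ne_zero : D K F (FD_t v) ≠ 0 := by
  intro h0
  obtain ⟨ψ, hψ1, hψ2⟩ := FD_exists_psi v hdeg
  have hloc := KaehlerDifferential.isLocalizedModule_map (R := K) (S := v.toValuationSubring)
    (T := F) (nonZeroDivisors v.toValuationSubring)
  have hmap : KaehlerDifferential.map K K v.toValuationSubring F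
      (D K v.toValuationSubring (BL_unif v)) = 0 := by
    rw [KaehlerDifferential.map_D]
    exact h0
  obtain ⟨c, hc⟩ := (IsLocalizedModule.eq_zero_iff (nonZeroDivisors v.toValuationSubring)
    (KaehlerDifferential.map K K v.toValuationSubring F)).1 hmap
  have h1 := congrArg ψ hc
  rw [Submonoid.smul_def, hψ1, hψ2, map_zero] at h1
  have h2 : FD_exp v ((BL_unif v : v.toValuationSubring) : F) = X := FD_exp_t v
  rw [h2, PowerSeries.derivative_X, mul_one] at h1
  have hc0 : (c : v.toValuationSubring) ≠ 0 := nonZeroDivisors.coe_ne_zero c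
  exact FD_exp_ne_zero v hdeg (v.adicValuation_le_one_of_mem (c : v.toValuationSubring).2)
    (fun h => hc0 (Subtype.ext h)) h1

include hdeg in
/-- auxiliary: a relation `b • du = a • dt` in `Ω[F/K]` (`a, b, u ∈ O_v`) gives
`E b * (d/dX) (E u) = E a`. -/
theorem FD_key_aux (a b u : v.toValuationSubring)
    (h : (b : F) • D K F (u : F) = (a : F) • D K F (FD_t v)) :
    FD_exp v (b : F) * PowerSeries.derivative K (FD_exp v (u : F)) = FD_exp v (a : F) := by
  obtain ⟨ψ, hψ1, hψ2⟩ := FD_exists_psi v hdeg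
  have hloc := KaehlerDifferential.isLocalizedModule_map (R := K) (S := v.toValuationSubring)
    (T := F) (nonZeroDivisors v.toValuationSubring)
  have hmap : KaehlerDifferential.map K K v.toValuationSubring F
      (b • D K v.toValuationSubring u - a • D K v.toValuationSubring (BL_unif v)) = 0 := by
    rw [map_sub, map_smul, map_smul, KaehlerDifferential.map_D, KaehlerDifferential.map_D,
      sub_eq_zero]
    exact h
  obtain ⟨c, hc⟩ := (IsLocalizedModule.eq_zero_iff (nonZeroDivisors v.toValuationSubring)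
    (KaehlerDifferential.map K K v.toValuationSubring F)).1 hmap
  have h1 := congrArg ψ hc
  rw [Submonoid.smul_def, hψ1, map_sub, hψ1, hψ1, hψ2, hψ2, map_zero] at h1
  have h2 : FD_exp v ((BL_unif v : v.toValuationSubring) : F) = X := FD_exp_t v
  rw [h2, PowerSeries.derivative_X, mul_one] at h1
  have hc0 : (c : v.toValuationSubring) ≠ 0 := nonZeroDivisors.coe_ne_zero c
  have hEc : FD_exp v ((c : v.toValuationSubring) : F) ≠ 0 :=
    FD_exp_ne_zero v hdeg (v.adicValuation_le_one_of_mem (c : v.toValuationSubring).2)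
      (fun h => hc0 (Subtype.ext h))
  rcases mul_eq_zero.1 h1 with h3 | h3
  · exact absurd h3 hEc
  · exact sub_eq_zero.1 h3

include hdeg in
/-- **Key lemma**: if `u ∈ O_v` and `du = g • dt`, then `g ∈ O_v` and the expansion of `g` is
the formal derivative of the expansion of `u`. -/
theorem FD_key {u g : F} (hu : u ∈ v.toValuationSubring)
    (h : D K F u = g • D K F (FD_t v)) :
    g ∈ v.toValuationSubring ∧ FD_exp v g = PowerSeries.derivative K (FD_exp v u) := by
  by_cases hg : g ∈ v.toValuationSubring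
  · refine ⟨hg, ?_⟩
    have := FD_key_aux v hdeg ⟨g, hg⟩ 1 ⟨u, hu⟩ (by simpa using h)
    have h1 := FD_exp_algebraMap v (1 : K)
    rw [map_one, map_one] at h1
    simp only [OneMemClass.coe_one] at this
    rw [h1, one_mul] at this
    exact this.symm
  · exfalso
    have hg0 : g ≠ 0 := fun h0 => hg (h0 ▸ v.toValuationSubring.zero_mem)
    have hgi : g⁻¹ ∈ v.toValuationSubring :=
      (v.toValuationSubring.mem_or_inv_mem g).resolve_left hg
    have := FD_key_aux v hdeg 1 ⟨g⁻¹, hgi⟩ ⟨u, hu⟩ (by
      simp only [OneMemClass.coe_one, one_smul]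
      rw [h, smul_smul, inv_mul_cancel₀ hg0, one_smul])
    have h1 := FD_exp_algebraMap v (1 : K)
    rw [map_one, map_one] at h1
    simp only [OneMemClass.coe_one] at this
    rw [h1] at this
    have h2 := congrArg constantCoeff this
    rw [map_mul, FD_constantCoeff, map_one] at h2
    have h3 : v.adicValuation g⁻¹ < 1 := by
      by_contra hcon
      rw [not_lt] at hcon
      apply hg
      rw [← BL_adicValuation_le_one_iff]
      rw [map_inv₀] at hcon
      have hv0 : v.adicValuation g ≠ 0 := v.adicValuation_ne_zero hg0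
      have := (one_le_inv₀ (zero_lt_iff.2 hv0)).1 hcon
      exact this
    rw [(FD_c0_eq_zero_iff v hdeg (v.adicValuation_le_one_of_mem hgi)).2 h3, zero_mul] at h2
    exact zero_ne_one h2

end Key

/-! ### Global input: `Ω[F/K]` is spanned by `dx` for a separating `x` -/

/-- `F` is formally étale over `K[x]` when `F / K(x)` is finite separable. -/
lemma FD_formallyEtale (x : F) [FiniteDimensional K⟮x⟯ F] [Algebra.IsSeparable K⟮x⟯ F] :
    Algebra.FormallyEtale (Algebra.adjoin K ({x} : Set F)) F := by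
  have h1 : Algebra.FormallyEtale (Algebra.adjoin K ({x} : Set F)) K⟮x⟯ :=
    Algebra.FormallyEtale.of_isLocalization (nonZeroDivisors (Algebra.adjoin K ({x} : Set F)))
  have h2 : Algebra.FormallyEtale K⟮x⟯ F := Algebra.FormallyEtale.of_isSeparable K⟮x⟯ F
  exact Algebra.FormallyEtale.comp (Algebra.adjoin K ({x} : Set F)) K⟮x⟯ F

/-- `Ω[F/K]` is spanned by `dx` (`x` separating). -/
theorem FD_span_D (x : F) [FiniteDimensional K⟮x⟯ F] [Algebra.IsSeparable K⟮x⟯ F] :
    Submodule.span F {D K F x} = ⊤ := by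
  have := FD_formallyEtale (K := K) x
  rw [eq_top_iff]
  rintro ω -
  obtain ⟨z, rfl⟩ := (tensorKaehlerEquivOfFormallyEtale K
    (Algebra.adjoin K ({x} : Set F)) F).surjective ω
  induction z using TensorProduct.induction_on with
  | zero => simp
  | add a b ha hb => rw [map_add]; exact Submodule.add_mem _ ha hb
  | tmul a ω =>
    have hω : ω ∈ Submodule.span (Algebra.adjoin K ({x} : Set F))
        {D K (Algebra.adjoin K ({x} : Set F)) (BL_gen x)} := by
      rw [BL_span_gen]; trivial
    obtain ⟨b, rfl⟩ := Submodule.mem_span_singleton.1 hω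
    rw [tensorKaehlerEquivOfFormallyEtale_apply, mapBaseChange_tmul, map_smul, map_D]
    refine Submodule.smul_mem _ _ ?_
    rw [← algebraMap_smul F b]
    exact Submodule.smul_mem _ _ (Submodule.subset_span rfl)

section Local

variable (x : F) [FiniteDimensional K⟮x⟯ F] [Algebra.IsSeparable K⟮x⟯ F]
variable (v : Place K F) (hdeg : v.deg = 1)

include x hdeg in
/-- **D0.1**: `Ω[F/K]` is spanned by `d(uniformizer)`. -/
theorem FD_dCoordGenerates : v.DCoordGenerates := by
  constructor
  rw [eq_top_iff, ← FD_span_D (K := K) x, Submodule.span_le, Set.singleton_subset_iff]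
  have hx : D K F (FD_t v) ∈ Submodule.span F {D K F x} := by
    rw [FD_span_D x]; trivial
  obtain ⟨h, hh⟩ := Submodule.mem_span_singleton.1 hx
  have h0 : h ≠ 0 := by
    rintro rfl
    rw [zero_smul] at hh
    exact FD_D_t_ne_zero v hdeg hh.symm
  rw [SetLike.mem_coe, Submodule.mem_span_singleton]
  refine ⟨h⁻¹, ?_⟩
  rw [FD_dCoord_eq, ← hh, smul_smul, inv_mul_cancel₀ h0, one_smul]

include hdeg in
/-- **D0.1**: `Ω[F/K] ≠ 0`. -/
theorem FD_nontrivial_kaehler : Nontrivial Ω[F⁄K] :=
  ⟨⟨_, 0, FD_D_t_ne_zero v hdeg⟩⟩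

include x hdeg in
/-- **D0.2**: `d/dt` preserves `O_v`. -/
theorem FD_differentialCoeff_mem {u : F} (hu : u ∈ v.toValuationSubring) :
    v.differentialCoeff (D K F u) ∈ v.toValuationSubring := by
  have := FD_dCoordGenerates x v hdeg
  have h := (v.differentialCoeff_smul_dCoord (D K F u)).symm
  rw [FD_dCoord_eq] at h
  exact (FD_key v hdeg hu h).1

include x hdeg in
/-- the expansion of `du/dt` is the formal derivative of the expansion of `u`. -/
theorem FD_exp_differentialCoeff {u : F} (hu : u ∈ v.toValuationSubring) :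
    FD_exp v (v.differentialCoeff (D K F u)) = PowerSeries.derivative K (FD_exp v u) := by
  have := FD_dCoordGenerates x v hdeg
  have h := (v.differentialCoeff_smul_dCoord (D K F u)).symm
  rw [FD_dCoord_eq] at h
  exact (FD_key v hdeg hu h).2

include x hdeg in
/-- the coefficient of `dy` for `y = w t^m`. -/
theorem FD_differentialCoeff_eq {y : F} (hy0 : y ≠ 0) :
    ∃ w g : F, w ≠ 0 ∧ v.ord w = 0 ∧ g ∈ v.toValuationSubring ∧
      v.differentialCoeff (D K F y) =
        w * ((v.ord y : F) * FD_t v ^ (v.ord y - 1)) + FD_t v ^ (v.ord y) * g := by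
  have := FD_dCoordGenerates x v hdeg
  have := FD_nontrivial_kaehler v hdeg
  obtain ⟨w, hw⟩ := v.exists_unit_mul_zpow hy0 (BL_unif_irreducible v)
  have hw0 : ((w : v.toValuationSubring) : F) ≠ 0 := by
    intro h
    exact w.ne_zero (Subtype.ext h)
  obtain ⟨g, hgO, hDw⟩ : ∃ g : F, g ∈ v.toValuationSubring ∧
      D K F ((w : v.toValuationSubring) : F) = g • v.dCoord :=
    ⟨_, FD_differentialCoeff_mem x v hdeg (w : v.toValuationSubring).2,
      (v.differentialCoeff_smul_dCoord _).symm⟩
  refine ⟨_, g, hw0, v.ord_coe_unit w, hgO, ?_⟩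
  have hD : D K F y = (((w : v.toValuationSubring) : F) *
      ((v.ord y : F) * (BL_unif v : F) ^ (v.ord y - 1)) +
      (BL_unif v : F) ^ (v.ord y) * g) • v.dCoord := by
    conv_lhs => rw [hw]
    rw [Derivation.leibniz, Derivation.leibniz_zpow, hDw, ← BL_dCoord_eq, add_smul,
      ← Int.cast_smul_eq_zsmul F, smul_smul, smul_smul, smul_smul, mul_assoc]
  exact v.differentialCoeff_unique hD

include x hdeg in
/-- **D1, tame case**: `ord_v(dy) = ord_v(y) - 1` if the characteristic does not divide
`ord_v(y)`. -/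
theorem FD_ordDifferential_D {y : F} (hy : ((v.ord y : ℤ) : K) ≠ 0) :
    v.ordDifferential (D K F y) = v.ord y - 1 := by
  have hy0 : y ≠ 0 := by
    rintro rfl
    simp at hy
  obtain ⟨w, g, hw0, hwo, hgO, hc⟩ := FD_differentialCoeff_eq x v hdeg hy0
  rw [Place.ordDifferential, hc]
  have ht0 := FD_t_ne_zero v
  have hm0 : ((v.ord y : ℤ) : F) ≠ 0 := by
    have : ((v.ord y : ℤ) : F) = algebraMap K F ((v.ord y : ℤ) : K) := by simp
    rw [this, Ne, _root_.map_eq_zero]
    exact hy
  have hmord : v.ord ((v.ord y : ℤ) : F) = 0 := by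
    have : ((v.ord y : ℤ) : F) = algebraMap K F ((v.ord y : ℤ) : K) := by simp
    rw [this]
    exact BL_ord_algebraMap v _
  have hmain : v.ord (w * ((v.ord y : F) * FD_t v ^ (v.ord y - 1))) = v.ord y - 1 := by
    rw [v.ord_mul hw0 (mul_ne_zero hm0 (zpow_ne_zero _ ht0)),
      v.ord_mul hm0 (zpow_ne_zero _ ht0), hwo, hmord, v.ord_zpow, FD_ord_t]
    ring
  rcases eq_or_ne g 0 with rfl | hg0
  · rw [mul_zero, add_zero, hmain]
  · rw [BL_ord_add_eq_of_lt v (mul_ne_zero hw0 (mul_ne_zero hm0 (zpow_ne_zero _ ht0)))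
      (mul_ne_zero (zpow_ne_zero _ ht0) hg0), hmain]
    rw [hmain, v.ord_mul (zpow_ne_zero _ ht0) hg0, v.ord_zpow, FD_ord_t]
    have := (BL_mem_iff_ord_nonneg v hg0).1 hgO
    omega

include x hdeg in
/-- **D1, general**: `ord_v(dy) ≥ ord_v(y) - 1` if `dy ≠ 0` and `y ≠ 0`. -/
theorem FD_ordDifferential_D_ge {y : F} (hy0 : y ≠ 0) (hdy : D K F y ≠ 0) :
    v.ord y - 1 ≤ v.ordDifferential (D K F y) := by
  have := FD_dCoordGenerates x v hdeg
  obtain ⟨w, g, hw0, hwo, hgO, hc⟩ := FD_differentialCoeff_eq x v hdeg hy0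
  have hne : v.differentialCoeff (D K F y) ≠ 0 := by
    intro h0
    apply hdy
    rw [← v.differentialCoeff_smul_dCoord (D K F y), h0, zero_smul]
  rw [Place.ordDifferential]
  rw [hc] at hne ⊢
  have ht0 := FD_t_ne_zero v
  -- both summands have order ≥ ord y - 1
  have h1 : ∀ a : F, a ≠ 0 → a = w * ((v.ord y : F) * FD_t v ^ (v.ord y - 1)) →
      v.ord y - 1 ≤ v.ord a := by
    intro a ha haeq
    have hm0 : ((v.ord y : ℤ) : F) ≠ 0 := by
      intro h0
      apply ha
      rw [haeq, h0, zero_mul, mul_zero]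
    have hmord : 0 ≤ v.ord ((v.ord y : ℤ) : F) := by
      rw [← BL_mem_iff_ord_nonneg v hm0]
      have : ((v.ord y : ℤ) : F) = algebraMap K F ((v.ord y : ℤ) : K) := by simp
      rw [this]
      exact v.algebraMap_mem' _
    rw [haeq, v.ord_mul hw0 (mul_ne_zero hm0 (zpow_ne_zero _ ht0)),
      v.ord_mul hm0 (zpow_ne_zero _ ht0), hwo, v.ord_zpow, FD_ord_t]
    linarith
  have h2 : ∀ b : F, b ≠ 0 → b = FD_t v ^ (v.ord y) * g → v.ord y - 1 ≤ v.ord b := by
    intro b hb hbeq
    have hg0 : g ≠ 0 := by
      rintro rfl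
      exact hb (by rw [hbeq, mul_zero])
    rw [hbeq, v.ord_mul (zpow_ne_zero _ ht0) hg0, v.ord_zpow, FD_ord_t]
    have := (BL_mem_iff_ord_nonneg v hg0).1 hgO
    linarith
  set a := w * ((v.ord y : F) * FD_t v ^ (v.ord y - 1)) with ha
  set b := FD_t v ^ (v.ord y) * g with hb
  rcases eq_or_ne a 0 with ha0 | ha0
  · rw [ha0, zero_add] at hne ⊢
    exact h2 b hne rfl
  rcases eq_or_ne b 0 with hb0 | hb0
  · rw [hb0, add_zero]
    exact h1 a ha0 rfl
  exact le_trans (le_min (h1 a ha0 rfl) (h2 b hb0 rfl)) (S24_ord_add v ha0 hb0 hne)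

include x hdeg in
/-- **D1, regular case**: `ord_v(dy) ≥ 0` if `y ∈ O_v`. -/
theorem FD_ordDifferential_D_nonneg {y : F} (hy : y ∈ v.toValuationSubring) :
    0 ≤ v.ordDifferential (D K F y) := by
  have h := FD_differentialCoeff_mem x v hdeg hy
  rw [Place.ordDifferential]
  rcases eq_or_ne (v.differentialCoeff (D K F y)) 0 with h0 | h0
  · rw [h0]; simp
  · exact (BL_mem_iff_ord_nonneg v h0).1 h

include x hdeg in
/-- **D1, zeros**: if `y - c` vanishes to order `e` at `v` and the characteristic does not divide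
`e`, then `ord_v(dy) = e - 1`. -/
theorem FD_ordDifferential_D_of_sub {y : F} {c : K}
    (hy : ((v.ord (y - algebraMap K F c) : ℤ) : K) ≠ 0) :
    v.ordDifferential (D K F y) = v.ord (y - algebraMap K F c) - 1 := by
  have h := FD_ordDifferential_D x v hdeg hy
  rwa [map_sub, Derivation.map_algebraMap, sub_zero] at h

include x hdeg in
/-- **D1, zeros, wild or tame**: `ord_v(dy) ≥ e - 1` for `e = ord_v(y - c)`, if `dy ≠ 0`. -/
theorem FD_ordDifferential_D_of_sub_ge {y : F} {c : K} (hdy : D K F y ≠ 0) :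
    v.ord (y - algebraMap K F c) - 1 ≤ v.ordDifferential (D K F y) := by
  have hyc : y - algebraMap K F c ≠ 0 := by
    intro h0
    apply hdy
    rw [sub_eq_zero.1 h0, Derivation.map_algebraMap]
  have h := FD_ordDifferential_D_ge x v hdeg hyc
    (by rwa [map_sub, Derivation.map_algebraMap, sub_zero])
  rwa [map_sub, Derivation.map_algebraMap, sub_zero] at h

include x hdeg in
/-- **D0.3**: independence of the uniformizer: `dt' = u • dt` with `u` a unit at `v`. -/
theorem FD_D_unif {t' : F} (ht' : v.ord t' = 1) :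
    ∃ u : F, u ≠ 0 ∧ v.ord u = 0 ∧ D K F t' = u • v.dCoord := by
  have := FD_dCoordGenerates x v hdeg
  have h1 : v.ordDifferential (D K F t') = 0 := by
    rw [FD_ordDifferential_D x v hdeg (by rw [ht']; simp), ht', sub_self]
  have hne : D K F t' ≠ 0 := by
    -- `dt' = 0` would give `u = 0` below; exclude it by the explicit formula
    have ht0 : t' ≠ 0 := by
      rintro rfl
      simp at ht'
    obtain ⟨w, g, hw0, hwo, hgO, hc⟩ := FD_differentialCoeff_eq x v hdeg ht0
    intro h0
    rw [h0] at hc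
    have hnt := FD_nontrivial_kaehler v hdeg
    rw [v.differentialCoeff_zero, ht', sub_self, zpow_zero, zpow_one] at hc
    -- `0 = w * 1 + t * g`: orders `0` and `≥ 1`
    have h2 : w * ((1 : ℤ) : F) = -(FD_t v * g) := by linear_combination -hc
    rw [Int.cast_one, mul_one] at h2
    have h3 : v.ord w = v.ord (FD_t v * g) := by
      rw [h2]
      have := (S24_isVal_ord (K := K) v).neg (f := FD_t v * g)
        (by rw [← neg_ne_zero, ← h2]; exact hw0)
      exact this
    have hg0 : g ≠ 0 := by
      rintro rfl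
      rw [mul_zero, neg_zero] at h2
      exact hw0 h2
    rw [hwo, v.ord_mul (FD_t_ne_zero v) hg0, FD_ord_t] at h3
    have := (BL_mem_iff_ord_nonneg v hg0).1 hgO
    omega
  refine ⟨v.differentialCoeff (D K F t'), ?_, h1, (v.differentialCoeff_smul_dCoord _).symm⟩
  intro h0
  apply hne
  rw [← v.differentialCoeff_smul_dCoord (D K F t'), h0, zero_smul]

include x hdeg in
/-- **D2, derivation form**: for any `K`-derivation `δ` of `F` into an `F`-vector space, a
uniformizer `t'` at `v` with `δ t' ≠ 0`, and `δ y = f • δ t'`: `ord_v(dy) = ord_v(f)`. -/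
theorem FD_ordDifferential_of_derivation {M : Type*} [AddCommGroup M] [Module K M] [Module F M]
    [IsScalarTower K F M] (δ : Derivation K F M) {t' y f : F} (ht' : v.ord t' = 1)
    (hδ : δ t' ≠ 0) (hy : δ y = f • δ t') :
    v.ordDifferential (D K F y) = v.ord f := by
  have := FD_dCoordGenerates x v hdeg
  have hnt := FD_nontrivial_kaehler v hdeg
  obtain ⟨u, hu0, huo, hu⟩ := FD_D_unif x v hdeg ht'
  have h1 : δ t' = u • δ.liftKaehlerDifferential v.dCoord := by
    rw [← Derivation.liftKaehlerDifferential_comp_D δ t', hu, map_smul]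
  have h2 : δ y = v.differentialCoeff (D K F y) • δ.liftKaehlerDifferential v.dCoord := by
    rw [← Derivation.liftKaehlerDifferential_comp_D δ y, ← map_smul,
      v.differentialCoeff_smul_dCoord]
  have h3 : δ.liftKaehlerDifferential v.dCoord ≠ 0 := by
    intro h0
    rw [h0, smul_zero] at h1
    exact hδ h1
  rw [h1, h2, smul_smul, ← sub_eq_zero, ← sub_smul] at hy
  have h4 : v.differentialCoeff (D K F y) = f * u := by
    rcases smul_eq_zero.1 hy with h | h
    · exact sub_eq_zero.1 h
    · exact absurd h h3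
  rw [Place.ordDifferential, h4]
  rcases eq_or_ne f 0 with rfl | hf0
  · simp
  · rw [v.ord_mul hf0 hu0, huo, add_zero]

end Local

/-- over an algebraically closed field every place of a function field has degree one. -/
theorem FD_deg_one [IsAlgClosed K] (x : F) [FiniteDimensional K⟮x⟯ F] (v : Place K F) :
    v.deg = 1 :=
  S24_deg_eq_one (S24_isFunctionField1_of_isAlgebraic x (Algebra.IsAlgebraic.of_finite _ _)) v

end Fermat.Agent.Lib
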