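import Fermat.Agent.Lib.RiemannBasic

/-!
# Package R (TRACK 3), part 1: Riemann's theorem

`RR_Hyp K F` collects the hypotheses; `RR_genus K F` is the Riemann genus;
`RR_riemann_ineq`, `RR_riemann_eq` are Riemann's theorem (Stichtenoth 1.4.14 -- 1.4.17).
Characteristic free.
-/

set_option autoImplicit false

open AlgebraicCurve IntermediateField WithZero

namespace Fermat.Agent.Lib

variable {K F : Type*} [Field K] [Field F] [Algebra K F]

/-- an element with a pole is transcendental over the constants. -/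
theorem RR_transcendental_of_pole (v : Place K F) {x : F} (hx : v.ord x < 0) :
    Transcendental K x := by
  intro halg
  have hint : IsIntegral K x := halg.isIntegral
  have hint' : IsIntegral v.toValuationSubring x := hint.tower_top
  obtain ⟨y, hy⟩ := IsIntegrallyClosed.algebraMap_eq_of_integral hint'
  have h1 := S24.BL_ord_nonneg v y
  have h2 : (y : F) = x := hy
  rw [h2] at h1
  omega

/-- the powers of a transcendental element are linearly independent. -/
theorem RR_linearIndependent_pow {A : Type*} [Field A] [Algebra K A] {x : A}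
    (hx : Transcendental K x) : LinearIndependent K (fun i : ℕ => x ^ i) := by
  have h1 := (Polynomial.basisMonomials K).linearIndependent
  have hinj : Function.Injective (Polynomial.aeval (R := K) x) := transcendental_iff_injective.1 hx
  have h2 := h1.map' (Polynomial.aeval (R := K) x).toLinearMap
    (LinearMap.ker_eq_bot.2 hinj)
  have h3 : (⇑(Polynomial.aeval (R := K) x).toLinearMap ∘ ⇑(Polynomial.basisMonomials K)) =
      fun i : ℕ => x ^ i := by
    funext i
    simp [Polynomial.coe_basisMonomials]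
  rwa [h3] at h2

theorem RR_div_inv (hP : HasPrincipalDivisors K F) (z : F) :
    RR_div hP z⁻¹ = - RR_div hP z := by
  ext v
  rw [Finsupp.neg_apply, RR_div_apply, RR_div_apply, v.ord_inv]

/-- the pole divisor `(x)_∞`. -/
noncomputable def RR_poleDiv (hP : HasPrincipalDivisors K F) (x : F) : Divisor K F :=
  (RR_div hP x).mapRange (fun n => max (-n) 0) (by simp)

theorem RR_poleDiv_apply (hP : HasPrincipalDivisors K F) (x : F) (v : Place K F) :
    RR_poleDiv hP x v = max (-v.ord x) 0 := by
  rw [RR_poleDiv, Finsupp.mapRange_apply, RR_div_apply]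

theorem RR_poleDiv_nonneg (hP : HasPrincipalDivisors K F) (x : F) : 0 ≤ RR_poleDiv hP x := by
  rw [Finsupp.le_def]
  intro v
  rw [RR_poleDiv_apply]
  exact le_max_right _ _

/-- the divisor `|div u|`. -/
noncomputable def RR_absDiv (hP : HasPrincipalDivisors K F) (u : F) : Divisor K F :=
  (RR_div hP u).mapRange (fun n => |n|) (by simp)

theorem RR_absDiv_apply (hP : HasPrincipalDivisors K F) (u : F) (v : Place K F) :
    RR_absDiv hP u v = |v.ord u| := by
  rw [RR_absDiv, Finsupp.mapRange_apply, RR_div_apply]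

theorem RR_absDiv_nonneg (hP : HasPrincipalDivisors K F) (u : F) : 0 ≤ RR_absDiv hP u := by
  rw [Finsupp.le_def]
  intro v
  rw [RR_absDiv_apply]
  exact abs_nonneg _

/-- `x ^ i * u ∈ L(l • (x)_∞ + C)` as soon as `i ≤ l` and `|div u| ≤ C`. -/
theorem RR_pow_mul_mem (hP : HasPrincipalDivisors K F) (x u : F) (C : Divisor K F)
    (hC : RR_absDiv hP u ≤ C) {i l : ℕ} (hil : i ≤ l) :
    x ^ i * u ∈ riemannRochSpace (l • RR_poleDiv hP x + C) := by
  rw [mem_riemannRochSpace_iff]
  intro v
  by_cases h0 : x ^ i * u = 0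
  · exact Or.inl h0
  right
  have hx : x ^ i ≠ 0 := left_ne_zero_of_mul h0
  have hu : u ≠ 0 := right_ne_zero_of_mul h0
  rw [v.ord_mul hx hu]
  have h1 : v.ord (x ^ i) = i * v.ord x := by
    have := v.ord_zpow x i
    simpa using this
  rw [h1, Finsupp.add_apply, Finsupp.smul_apply, RR_poleDiv_apply]
  have h2 := Finsupp.le_def.1 hC v
  rw [RR_absDiv_apply] at h2
  have h3 := neg_abs_le (v.ord u)
  have h4 : -((l : ℤ) * max (-v.ord x) 0) ≤ (i : ℤ) * v.ord x := by
    rcases le_or_gt 0 (v.ord x) with h | h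
    · have : max (-v.ord x) 0 = 0 := max_eq_right (by omega)
      rw [this, mul_zero, neg_zero]
      positivity
    · have : max (-v.ord x) 0 = -v.ord x := max_eq_left (by omega)
      rw [this]
      have hil' : (i : ℤ) ≤ l := by exact_mod_cast hil
      nlinarith
  rw [nsmul_eq_mul]
  linarith

/-- **Key lower bound**: `dim L(l B + C) ≥ (l + 1) [F : K(x)]`. -/
theorem RR_finrank_ge (hdeg : ∀ v : Place K F, v.deg = 1) (hP : HasPrincipalDivisors K F)
    (v₀ : Place K F) {x : F} (hx : v₀.ord x < 0) [FiniteDimensional K⟮x⟯ F] :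
    ∃ C : Divisor K F, 0 ≤ C ∧ ∀ l : ℕ,
      (l + 1) * Module.finrank K⟮x⟯ F ≤
        Module.finrank K (riemannRochSpace (l • RR_poleDiv hP x + C)) := by
  classical
  set n := Module.finrank K⟮x⟯ F with hn
  let c := Module.finBasis K⟮x⟯ F
  refine ⟨∑ j, RR_absDiv hP (c j), Finset.sum_nonneg fun j _ => RR_absDiv_nonneg hP _, ?_⟩
  intro l
  have htr : Transcendental K x := RR_transcendental_of_pole v₀ hx
  have htr' : Transcendental K (AdjoinSimple.gen K x) := by
    intro halg
    apply htr
    have := IsAlgebraic.algHom (IsScalarTower.toAlgHom K K⟮x⟯ F) halg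
    simpa using this
  have hb : LinearIndependent K (fun i : Fin (l + 1) => (AdjoinSimple.gen K x) ^ (i : ℕ)) :=
    (RR_linearIndependent_pow htr').comp _ Fin.val_injective
  have hind := linearIndependent_smul hb c.linearIndependent
  have hmem : ∀ p : Fin (l + 1) × Fin n, (AdjoinSimple.gen K x) ^ (p.1 : ℕ) • c p.2 ∈
      riemannRochSpace (l • RR_poleDiv hP x + ∑ j, RR_absDiv hP (c j)) := by
    intro p
    have h1 : (AdjoinSimple.gen K x) ^ (p.1 : ℕ) • c p.2 = x ^ (p.1 : ℕ) * c p.2 := by
      rw [IntermediateField.smul_def]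
      simp
    rw [h1]
    apply RR_pow_mul_mem hP x (c p.2) _ _ (Nat.lt_succ_iff.1 p.1.2)
    exact Finset.single_le_sum (f := fun j => RR_absDiv hP (c j))
      (fun j _ => RR_absDiv_nonneg hP _) (Finset.mem_univ p.2)
  have hind' : LinearIndependent K (fun p : Fin (l + 1) × Fin n =>
      (⟨(AdjoinSimple.gen K x) ^ (p.1 : ℕ) • c p.2, hmem p⟩ :
        riemannRochSpace (l • RR_poleDiv hP x + ∑ j, RR_absDiv hP (c j)))) := by
    apply LinearIndependent.of_comp (Submodule.subtype _)
    exact hind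
  have hfin := RR_finite_of hdeg hP v₀ (l • RR_poleDiv hP x + ∑ j, RR_absDiv hP (c j))
  have := hind'.fintype_card_le_finrank
  simpa using this

theorem RR_poleDiv_degree_pos (hdeg : ∀ v : Place K F, v.deg = 1)
    (hP : HasPrincipalDivisors K F) (v₀ : Place K F) {x : F} (hx : v₀.ord x < 0) :
    0 < (RR_poleDiv hP x).degree := by
  classical
  have h1 : Finsupp.single v₀ (1 : ℤ) ≤ RR_poleDiv hP x := by
    rw [Finsupp.le_def]
    intro v
    rw [Finsupp.single_apply, RR_poleDiv_apply]
    split_ifs with h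
    · subst h
      exact le_max_of_le_left (by omega)
    · exact le_max_right _ _
  have h2 := RR_degree_mono hdeg h1
  rw [Divisor.degree_single, hdeg v₀] at h2
  simp only [Nat.cast_one, mul_one] at h2
  omega

theorem RR_poleDiv_degree_le (hdeg : ∀ v : Place K F, v.deg = 1)
    (hP : HasPrincipalDivisors K F) {x : F} {n : ℤ}
    (h : ∀ s : Finset (Place K F), (∀ v ∈ s, v.ord x < 0) → ∑ v ∈ s, (-v.ord x) ≤ n) :
    (RR_poleDiv hP x).degree ≤ n := by
  rw [RR_degree_eq_sum hdeg]
  have hs : ∀ v ∈ (RR_poleDiv hP x).support, v.ord x < 0 := by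
    intro v hv
    rw [Finsupp.mem_support_iff, RR_poleDiv_apply] at hv
    by_contra hcon
    exact hv (max_eq_right (by omega))
  have h1 := h _ hs
  have h2 : ∑ v ∈ (RR_poleDiv hP x).support, RR_poleDiv hP x v =
      ∑ v ∈ (RR_poleDiv hP x).support, (-v.ord x) :=
    Finset.sum_congr rfl fun v hv => by
      rw [RR_poleDiv_apply]
      exact max_eq_left (by have := hs v hv; omega)
  rw [h2]
  exact h1

/-- `deg (l B) - dim L(l B)` is bounded. -/
theorem RR_defect_multiple_le (hdeg : ∀ v : Place K F, v.deg = 1)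
    (hP : HasPrincipalDivisors K F) (v₀ : Place K F) {x : F} (hx : v₀.ord x < 0)
    [FiniteDimensional K⟮x⟯ F]
    (hle : (RR_poleDiv hP x).degree ≤ (Module.finrank K⟮x⟯ F : ℤ)) :
    ∃ γ : ℤ, ∀ l : ℕ, (l • RR_poleDiv hP x).degree -
      Module.finrank K (riemannRochSpace (l • RR_poleDiv hP x)) ≤ γ := by
  obtain ⟨C, hC, hl⟩ := RR_finrank_ge hdeg hP v₀ hx
  refine ⟨C.degree - Module.finrank K⟮x⟯ F, fun l => ?_⟩
  have h1 := RR_finrank_le_of_le hdeg hP v₀
    (show l • RR_poleDiv hP x ≤ l • RR_poleDiv hP x + C from le_add_of_nonneg_right hC)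
  have h2 : ((l : ℤ) + 1) * Module.finrank K⟮x⟯ F ≤
      Module.finrank K (riemannRochSpace (l • RR_poleDiv hP x + C)) := by
    exact_mod_cast hl l
  rw [map_add, add_sub_cancel_left] at h1
  rw [map_nsmul, nsmul_eq_mul]
  have h3 : (l : ℤ) * (RR_poleDiv hP x).degree ≤ l * Module.finrank K⟮x⟯ F :=
    mul_le_mul_of_nonneg_left hle (by positivity)
  linarith

/-- a finite-dimensional subspace of positive dimension contains a nonzero vector. -/
theorem RR_exists_ne_zero_of_finrank_pos {D : Divisor K F}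
    (h : 0 < Module.finrank K (riemannRochSpace D)) :
    ∃ z : F, z ≠ 0 ∧ z ∈ riemannRochSpace D := by
  have hnt : Nontrivial (riemannRochSpace D) := Module.nontrivial_of_finrank_pos h
  obtain ⟨z, hz⟩ := exists_ne (0 : riemannRochSpace D)
  exact ⟨z, fun h0 => hz (Subtype.ext h0), z.2⟩

/-- Abstract hypotheses for Riemann's theorem (no characteristic assumption). -/
structure RR_Hyp (K F : Type*) [Field K] [Field F] [Algebra K F] : Prop where
  deg_one : ∀ v : Place K F, v.deg = 1
  principal : HasPrincipalDivisors K F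
  exists_x : ∃ x : F, (∃ v : Place K F, v.ord x < 0) ∧ FiniteDimensional K⟮x⟯ F ∧
    ∀ s : Finset (Place K F), (∀ v ∈ s, v.ord x < 0) →
      ∑ v ∈ s, (-v.ord x) ≤ (Module.finrank K⟮x⟯ F : ℤ)

theorem RR_Hyp.nonempty (h : RR_Hyp K F) : Nonempty (Place K F) := by
  obtain ⟨x, ⟨v, -⟩, -⟩ := h.exists_x
  exact ⟨v⟩

/-- **R1**: `L(D)` is finite-dimensional. -/
theorem RR_finite (h : RR_Hyp K F) (D : Divisor K F) :
    Module.Finite K (riemannRochSpace D) :=
  RR_finite_of h.deg_one h.principal h.nonempty.some D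

/-- Stichtenoth 1.4.14: `deg A - dim L(A)` is bounded above. -/
theorem RR_defect_le (h : RR_Hyp K F) :
    ∃ γ : ℤ, ∀ A : Divisor K F,
      A.degree - Module.finrank K (riemannRochSpace A) ≤ γ := by
  classical
  obtain ⟨x, ⟨v₀, hx⟩, hfin, hsum⟩ := h.exists_x
  have hdeg := h.deg_one
  have hP := h.principal
  have hB := RR_poleDiv_degree_pos hdeg hP v₀ hx
  obtain ⟨γ, hγ⟩ := RR_defect_multiple_le hdeg hP v₀ hx (RR_poleDiv_degree_le hdeg hP hsum)
  refine ⟨γ, fun A => ?_⟩
  set B := RR_poleDiv hP x with hBdef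
  -- `A₁ ≥ A`, `A₁ ≥ 0`
  set A₁ : Divisor K F := 0 + ∑ v ∈ A.support, Finsupp.single v (((A v).toNat : ℕ) : ℤ) with hA₁
  have hAA₁ : A ≤ A₁ := RR_le_sum_toNat A
  have hA₁0 : 0 ≤ A₁ := by
    rw [hA₁, zero_add]
    exact Finset.sum_nonneg fun v _ => RR_single_nonneg v _
  -- choose `l` large
  set l : ℕ := (γ + A₁.degree + 1).toNat with hl
  have hl' : γ + A₁.degree + 1 ≤ l := Int.self_le_toNat _
  have h1 := hγ l
  have h2 := RR_finrank_le_of_le hdeg hP v₀
    (show l • B - A₁ ≤ l • B from sub_le_self _ hA₁0)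
  rw [map_sub, sub_sub_cancel] at h2
  have h3 : (l • B).degree = l * B.degree := by rw [map_nsmul, nsmul_eq_mul]
  have h4 : (l : ℤ) ≤ l * B.degree := by
    have : (0 : ℤ) ≤ l := by positivity
    nlinarith
  have hpos : 0 < Module.finrank K (riemannRochSpace (l • B - A₁)) := by
    have : (0 : ℤ) < Module.finrank K (riemannRochSpace (l • B - A₁)) := by linarith
    exact_mod_cast this
  obtain ⟨z, hz0, hz⟩ := RR_exists_ne_zero_of_finrank_pos hpos
  -- `D = A₁ - div z ≤ l B`
  have hD : A₁ + RR_div hP z⁻¹ ≤ l • B := by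
    have := (RR_mem_iff_div hP hz0).1 hz
    rw [RR_div_inv]
    rw [Finsupp.le_def] at this ⊢
    intro v
    have := this v
    simp only [Finsupp.add_apply, Finsupp.sub_apply, Finsupp.neg_apply,
      Finsupp.zero_apply] at this ⊢
    linarith
  have h5 := RR_defect_mono hdeg hP v₀ hAA₁
  have h6 := RR_defect_mono hdeg hP v₀ hD
  rw [RR_finrank_add_div hP A₁ (inv_ne_zero hz0), map_add, RR_div_degree, add_zero] at h6
  linarith

/-- The Riemann genus: `g = 1 + max_D (deg D - dim L(D))`. -/
noncomputable def RR_genus (K F : Type*) [Field K] [Field F] [Algebra K F] : ℕ :=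
  sSup {n : ℕ | ∃ D : Divisor K F,
    (n : ℤ) = D.degree + 1 - Module.finrank K (riemannRochSpace D)}

theorem RR_genus_set_bddAbove (h : RR_Hyp K F) :
    BddAbove {n : ℕ | ∃ D : Divisor K F,
      (n : ℤ) = D.degree + 1 - Module.finrank K (riemannRochSpace D)} := by
  obtain ⟨γ, hγ⟩ := RR_defect_le h
  refine ⟨(γ + 1).toNat, ?_⟩
  rintro n ⟨D, hD⟩
  have := hγ D
  have h1 : (n : ℤ) ≤ γ + 1 := by linarith
  have h2 := Int.self_le_toNat (γ + 1)
  have : (n : ℤ) ≤ ((γ + 1).toNat : ℤ) := le_trans h1 h2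
  exact_mod_cast this

theorem RR_genus_set_nonempty (h : RR_Hyp K F) :
    {n : ℕ | ∃ D : Divisor K F,
      (n : ℤ) = D.degree + 1 - Module.finrank K (riemannRochSpace D)}.Nonempty := by
  refine ⟨0, 0, ?_⟩
  rw [RR_finrank_zero h.deg_one h.principal h.nonempty.some]
  simp

/-- **R2a, Riemann's inequality**: `dim L(D) ≥ deg D + 1 - g`. -/
theorem RR_riemann_ineq (h : RR_Hyp K F) (D : Divisor K F) :
    D.degree + 1 - (RR_genus K F : ℤ) ≤ Module.finrank K (riemannRochSpace D) := by
  rcases le_or_gt (D.degree + 1 - Module.finrank K (riemannRochSpace D)) 0 with h0 | h0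
  · have : (0 : ℤ) ≤ RR_genus K F := by positivity
    linarith
  · have hmem : (D.degree + 1 - Module.finrank K (riemannRochSpace D)).toNat ∈
        {n : ℕ | ∃ D : Divisor K F,
          (n : ℤ) = D.degree + 1 - Module.finrank K (riemannRochSpace D)} :=
      ⟨D, Int.toNat_of_nonneg h0.le⟩
    have h1 := le_csSup (RR_genus_set_bddAbove h) hmem
    have h2 : ((D.degree + 1 - Module.finrank K (riemannRochSpace D)).toNat : ℤ) ≤
        (RR_genus K F : ℤ) := by exact_mod_cast h1
    rw [Int.toNat_of_nonneg h0.le] at h2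
    linarith

/-- the genus is attained. -/
theorem RR_genus_attained (h : RR_Hyp K F) :
    ∃ D : Divisor K F,
      (RR_genus K F : ℤ) = D.degree + 1 - Module.finrank K (riemannRochSpace D) :=
  Nat.sSup_mem (RR_genus_set_nonempty h) (RR_genus_set_bddAbove h)

/-- **R2b, Riemann's theorem**: `dim L(D) = deg D + 1 - g` for `deg D ≥ c`. -/
theorem RR_riemann_eq (h : RR_Hyp K F) : ∃ c : ℤ, ∀ D : Divisor K F, c ≤ D.degree →
    (Module.finrank K (riemannRochSpace D) : ℤ) = D.degree + 1 - RR_genus K F := by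
  obtain ⟨A₀, hA₀⟩ := RR_genus_attained h
  have hdeg := h.deg_one
  have hP := h.principal
  have v₀ := h.nonempty.some
  refine ⟨A₀.degree + RR_genus K F, fun A hA => ?_⟩
  apply le_antisymm _ (RR_riemann_ineq h A)
  have h1 := RR_riemann_ineq h (A - A₀)
  rw [map_sub] at h1
  have hpos : 0 < Module.finrank K (riemannRochSpace (A - A₀)) := by
    have : (0 : ℤ) < Module.finrank K (riemannRochSpace (A - A₀)) := by linarith
    exact_mod_cast this
  obtain ⟨z, hz0, hz⟩ := RR_exists_ne_zero_of_finrank_pos hpos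
  have hle : A₀ ≤ A + RR_div hP z := by
    have := (RR_mem_iff_div hP hz0).1 hz
    rw [Finsupp.le_def] at this ⊢
    intro v
    have := this v
    simp only [Finsupp.add_apply, Finsupp.sub_apply, Finsupp.zero_apply] at this ⊢
    linarith
  have h2 := RR_defect_mono hdeg hP v₀ hle
  rw [RR_finrank_add_div hP A hz0, map_add, RR_div_degree, add_zero] at h2
  linarith

/-- there are divisors of every degree. -/
theorem RR_exists_degree (h : RR_Hyp K F) (n : ℤ) : ∃ D : Divisor K F, D.degree = n := by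
  obtain ⟨v₀⟩ := h.nonempty
  exact ⟨Finsupp.single v₀ n, by rw [Divisor.degree_single, h.deg_one]; simp⟩

/-- the genus is characterised by Riemann's theorem. -/
theorem RR_genus_unique (h : RR_Hyp K F) (g' : ℤ) (c' : ℤ)
    (hg' : ∀ D : Divisor K F, c' ≤ D.degree →
      (Module.finrank K (riemannRochSpace D) : ℤ) = D.degree + 1 - g') :
    g' = RR_genus K F := by
  obtain ⟨c, hc⟩ := RR_riemann_eq h
  obtain ⟨D, hD⟩ := RR_exists_degree h (max c c')
  have h1 := hc D (by rw [hD]; exact le_max_left _ _)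
  have h2 := hg' D (by rw [hD]; exact le_max_right _ _)
  linarith

/-- `dim L(D) ≤ deg D + 1` if `deg D ≥ 0` (Stichtenoth 1.4.9 / 1.4.12). -/
theorem RR_finrank_le_degree_add_one (h : RR_Hyp K F) (D : Divisor K F) (hD : 0 ≤ D.degree) :
    (Module.finrank K (riemannRochSpace D) : ℤ) ≤ D.degree + 1 := by
  have hdeg := h.deg_one
  have hP := h.principal
  have v₀ := h.nonempty.some
  rcases Nat.eq_zero_or_pos (Module.finrank K (riemannRochSpace D)) with h0 | hpos
  · rw [h0]
    push_cast
    linarith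
  obtain ⟨z, hz0, hz⟩ := RR_exists_ne_zero_of_finrank_pos hpos
  have hle : (0 : Divisor K F) ≤ D + RR_div hP z := (RR_mem_iff_div hP hz0).1 hz
  have h2 := RR_finrank_le_of_le hdeg hP v₀ hle
  rw [RR_finrank_add_div hP D hz0, RR_finrank_zero hdeg hP v₀, map_add, RR_div_degree,
    add_zero, map_zero, sub_zero] at h2
  push_cast at h2
  linarith

end Fermat.Agent.Lib
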