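import Mathlib
import Fermat.Agent.Lib.FFSep

/-!
# Function fields, package P0 (generic): finiteness of the branch locus (helper2, TRACK 3)

`K` algebraically closed, `x : F` transcendental, `F / K(x)` finite separable.

* `FFS_different_ne_bot`  : the different of `B / K[x]` is nonzero (`B` = integral closure);
* `FFS_finite_branch`     : `{v | 0 ≤ ord_v x ∧ ∀ c, ord_v (x - c) ≠ 1}` is finite;
* `FFS_exists_branch_finset` : `∃ T₀ : Finset (Place K F), ∀ Q ∉ T₀, 0 ≤ ord_Q x ∧ ∃ c, ord_Q (x - c) = 1`.
-/

set_option autoImplicit false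
set_option synthInstance.maxHeartbeats 400000
set_option maxHeartbeats 1000000

open AlgebraicCurve IntermediateField IsDedekindDomain
open scoped IntermediateField.algebraAdjoinAdjoin

universe u v

attribute [local instance] FractionRing.liftAlgebra

namespace Fermat.Agent.Lib

open Fermat.Agent.S24

variable {K : Type u} {F : Type v} [Field K] [Field F] [Algebra K F]

section

variable {x : F} (hx : Transcendental K x) [FiniteDimensional K⟮x⟯ F]
  [Algebra.IsSeparable K⟮x⟯ F]

include hx in
/-- separability of the fraction fields, in the form Mathlib's different ideal wants. -/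
theorem FFS_isSeparable_fractionRing :
    letI := FFS_isDedekindDomain hx
    Algebra.IsSeparable (FractionRing (Algebra.adjoin K ({x} : Set F)))
      (FractionRing (integralClosure (Algebra.adjoin K ({x} : Set F)) F)) := by
  let := FFS_isDedekindDomain hx
  have := BG_isFractionRing (K := K) (x := x)
  have H : RingHom.comp (algebraMap (FractionRing (Algebra.adjoin K ({x} : Set F)))
      (FractionRing (integralClosure (Algebra.adjoin K ({x} : Set F)) F)))
      ↑(FractionRing.algEquiv (Algebra.adjoin K ({x} : Set F)) K⟮x⟯).symm.toRingEquiv =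
        RingHom.comp
          ↑(FractionRing.algEquiv (integralClosure (Algebra.adjoin K ({x} : Set F)) F)
            F).symm.toRingEquiv (algebraMap K⟮x⟯ F) := by
    apply IsLocalization.ringHom_ext (nonZeroDivisors (Algebra.adjoin K ({x} : Set F)))
    ext a
    simp only [RingHom.coe_comp, RingHom.coe_coe, AlgEquiv.coe_ringEquiv, Function.comp_apply,
      AlgEquiv.commutes, ← IsScalarTower.algebraMap_apply]
    rw [IsScalarTower.algebraMap_apply (Algebra.adjoin K ({x} : Set F))
      (integralClosure (Algebra.adjoin K ({x} : Set F)) F) F, AlgEquiv.commutes,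
      ← IsScalarTower.algebraMap_apply]
  exact Algebra.IsSeparable.of_equiv_equiv _ _ H

include hx in
/-- the different of `B / K[x]` is nonzero. -/
theorem FFS_different_ne_bot :
    letI := FFS_isDedekindDomain hx
    letI := BG_isPrincipalIdealRing hx
    differentIdeal (Algebra.adjoin K ({x} : Set F))
      (integralClosure (Algebra.adjoin K ({x} : Set F)) F) ≠ ⊥ := by
  let := FFS_isDedekindDomain hx
  let := BG_isPrincipalIdealRing hx
  have := FFS_finite hx
  have := FFS_isSeparable_fractionRing hx
  exact differentIdeal_ne_bot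

end

section Primes

variable {x : F} (hx : Transcendental K x)

/-- the prime `(x - c)` of `K[x]`. -/
def FFS_p (K : Type u) {F : Type v} [Field K] [Field F] [Algebra K F] (x : F) (c : K) :
    Ideal (Algebra.adjoin K ({x} : Set F)) :=
  Ideal.span {BL_gen (K := K) x - algebraMap K (Algebra.adjoin K ({x} : Set F)) c}

include hx in
theorem FFS_gen_sub_eq (c : K) :
    BL_gen (K := K) x - algebraMap K (Algebra.adjoin K ({x} : Set F)) c =
      BL_equiv hx (Polynomial.X - Polynomial.C c) := by
  apply Subtype.ext
  rw [BL_equiv_coe]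
  simp [BL_gen]

include hx in
theorem FFS_p_isMaximal (c : K) : (FFS_p K x c).IsMaximal := by
  have := BG_isPrincipalIdealRing hx
  apply PrincipalIdealRing.isMaximal_of_irreducible
  rw [FFS_gen_sub_eq hx c]
  exact (MulEquiv.irreducible_iff (BL_equiv hx).toMulEquiv).mpr (Polynomial.irreducible_X_sub_C c)

include hx in
theorem FFS_sub_ne_zero (c : K) : x - algebraMap K F c ≠ 0 := by
  intro h
  apply hx
  rw [sub_eq_zero.1 h]
  exact isAlgebraic_algebraMap c

include hx in
theorem FFS_p_ne_bot (c : K) : FFS_p K x c ≠ ⊥ := by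
  rw [FFS_p, Ne, Ideal.span_singleton_eq_bot]
  intro h
  have : x - algebraMap K F c = 0 := congrArg Subtype.val h
  exact FFS_sub_ne_zero hx c this

end Primes

section Branch

variable {x : F} (hx : Transcendental K x) [FiniteDimensional K⟮x⟯ F]
  [Algebra.IsSeparable K⟮x⟯ F]

include hx in
/-- a place at which some `x - c` vanishes to order `≥ 2` comes from a prime dividing the
different. -/
theorem FFS_branch_dvd (v : Place K F) (c : K) (hv : 2 ≤ v.ord (x - algebraMap K F c)) :
    letI := FFS_isDedekindDomain hx
    letI := BG_isFractionRing (K := K) (x := x)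
    letI := BG_isPrincipalIdealRing hx
    ∃ w : HeightOneSpectrum (integralClosure (Algebra.adjoin K ({x} : Set F)) F),
      Place.ofHeightOneSpectrum (K := K) (F := F) w = v ∧
      w.asIdeal ∣ differentIdeal (Algebra.adjoin K ({x} : Set F))
        (integralClosure (Algebra.adjoin K ({x} : Set F)) F) := by
  let := FFS_isDedekindDomain hx
  let := BG_isFractionRing (K := K) (x := x)
  let := BG_isPrincipalIdealRing hx
  have := FFS_finite hx
  have := FFS_isSeparable_fractionRing hx
  have := FFS_p_isMaximal hx c
  have hxc0 := FFS_sub_ne_zero hx c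
  -- `x ∈ O_v`
  have hxcv : x - algebraMap K F c ∈ v.toValuationSubring :=
    (BG_mem_iff_ord_nonneg v hxc0).mpr (by omega)
  have hcv : algebraMap K F c ∈ v.toValuationSubring := v.algebraMap_mem' c
  have hxv : x ∈ v.toValuationSubring := by
    have := v.toValuationSubring.add_mem _ _ hxcv hcv
    simpa using this
  obtain ⟨w, hw⟩ := BG_exists_heightOneSpectrum (B := integralClosure
    (Algebra.adjoin K ({x} : Set F)) F) v (fun b => BL_mem_of_isIntegral v hxv (b := (b : F)) b.2)
  refine ⟨w, hw, ?_⟩
  set a : Algebra.adjoin K ({x} : Set F) :=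
    BL_gen (K := K) x - algebraMap K (Algebra.adjoin K ({x} : Set F)) c with ha
  set b : integralClosure (Algebra.adjoin K ({x} : Set F)) F :=
    algebraMap (Algebra.adjoin K ({x} : Set F)) _ a with hb
  have hbF : algebraMap (integralClosure (Algebra.adjoin K ({x} : Set F)) F) F b =
      x - algebraMap K F c := rfl
  have hb0 : b ≠ 0 := by
    intro h
    apply hxc0
    rw [← hbF, h, map_zero]
  have hord : v.ord (x - algebraMap K F c) = -WithZero.log (w.intValuation b) := by
    rw [← hw, BG_ord_ofHeightOneSpectrum, ← hbF, HeightOneSpectrum.valuation_of_algebraMap]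
  have hmem : b ∈ w.asIdeal ^ 2 := by
    rw [← HeightOneSpectrum.intValuation_le_pow_iff_mem]
    apply WithZero.le_exp_of_log_le
    push_cast
    omega
  have hmap : (FFS_p K x c).map (algebraMap (Algebra.adjoin K ({x} : Set F))
      (integralClosure (Algebra.adjoin K ({x} : Set F)) F)) = Ideal.span {b} := by
    rw [FFS_p, Ideal.map_span, Set.image_singleton]
  have hdvd : w.asIdeal ^ 2 ∣ (FFS_p K x c).map (algebraMap (Algebra.adjoin K ({x} : Set F))
      (integralClosure (Algebra.adjoin K ({x} : Set F)) F)) := by
    rw [hmap, Ideal.dvd_iff_le, Ideal.span_le, Set.singleton_subset_iff]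
    exact hmem
  have h := pow_sub_one_dvd_differentIdeal (A := Algebra.adjoin K ({x} : Set F))
    w.asIdeal 2 (FFS_p_ne_bot hx c) hdvd
  simpa using h

include hx in
/-- **finiteness of the branch locus**: only finitely many places are zeros of order `≥ 2` of
some `x - c`. -/
theorem FFS_finite_branch :
    {v : Place K F | ∃ c : K, 2 ≤ v.ord (x - algebraMap K F c)}.Finite := by
  let := FFS_isDedekindDomain hx
  let := BG_isFractionRing (K := K) (x := x)
  let := BG_isPrincipalIdealRing hx
  have hfin := Ideal.finite_factors (FFS_different_ne_bot hx)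
  refine (hfin.image (Place.ofHeightOneSpectrum (K := K) (F := F))).subset ?_
  rintro v ⟨c, hc⟩
  obtain ⟨w, hw, hdvd⟩ := FFS_branch_dvd hx v c hc
  exact ⟨w, hdvd, hw⟩

omit [Algebra.IsSeparable K⟮x⟯ F] in
include hx in
/-- at a place which is not a pole of `x`, `x` takes a value `c`. -/
theorem FFS_exists_value [IsAlgClosed K] (v : Place K F) (hv : 0 ≤ v.ord x) :
    ∃ c : K, 0 < v.ord (x - algebraMap K F c) := by
  have hF : S24_IsFunctionField1 K F :=
    S24_isFunctionField1_of_isAlgebraic x (Algebra.IsAlgebraic.of_finite _ _)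
  have hx0 : x ≠ 0 := fun h => hx (h ▸ isAlgebraic_zero)
  have hxv : x ∈ v.toValuationSubring := (BG_mem_iff_ord_nonneg v hx0).mpr hv
  obtain ⟨a, ha⟩ := S24_residue_surjective hF v
    (IsLocalRing.residue v.toValuationSubring ⟨x, hxv⟩)
  refine ⟨a, ?_⟩
  have hmem : (⟨x, hxv⟩ : v.toValuationSubring) - algebraMap K v.toValuationSubring a ∈
      IsLocalRing.maximalIdeal v.toValuationSubring := by
    rw [← Ideal.Quotient.eq_zero_iff_mem]
    show IsLocalRing.residue v.toValuationSubring
      ((⟨x, hxv⟩ : v.toValuationSubring) - algebraMap K v.toValuationSubring a) = 0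
    rw [map_sub, ← ha]
    exact sub_eq_zero.2 rfl
  have hne : (⟨x, hxv⟩ : v.toValuationSubring) - algebraMap K v.toValuationSubring a ≠ 0 := by
    intro h0
    exact FFS_sub_ne_zero hx a (congrArg Subtype.val h0)
  exact (BL_mem_maximalIdeal_iff v hne).1 hmem

include hx in
/-- **P0, branch locus**: outside a finite set of places, `x` is regular and `x - x(Q)` is a
uniformizer. -/
theorem FFS_exists_branch_finset [IsAlgClosed K] :
    ∃ T₀ : Finset (Place K F), ∀ Q : Place K F, Q ∉ T₀ →
      0 ≤ Q.ord x ∧ ∃ c : K, Q.ord (x - algebraMap K F c) = 1 := by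
  classical
  refine ⟨FFS_poles hx ∪ (FFS_finite_branch hx).toFinset, fun Q hQ => ?_⟩
  rw [Finset.mem_union, not_or, FFS_mem_poles, Set.Finite.mem_toFinset] at hQ
  obtain ⟨h1, h2⟩ := hQ
  have h0 : 0 ≤ Q.ord x := not_lt.1 h1
  refine ⟨h0, ?_⟩
  obtain ⟨c, hc⟩ := FFS_exists_value hx Q h0
  refine ⟨c, ?_⟩
  have h3 : ¬ 2 ≤ Q.ord (x - algebraMap K F c) := fun h => h2 ⟨c, h⟩
  omega

end Branch

end Fermat.Agent.Lib
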