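import Mathlib

/-!
# DESC D1: automorphisms of an algebraically closed field shifting a transcendental

`DSC_exists_aut_shift`: for `K` algebraically closed over `k`, `c ∈ K` transcendental over `k`
and `a ∈ k`, there is a `k`-automorphism `σ` of `K` with `σ c = c + a`.

Proof: extend `{c}` to a transcendence basis `t`, take the automorphism of the polynomial ring
`k[t]` which shifts the variable `c` by `a`, and extend it to the algebraic closure `K` of
`k[t]`.
-/

set_option autoImplicit false

namespace Fermat.Agent.Lib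

open MvPolynomial

/-- the shift endomorphism of `MvPolynomial ι k`: `X i₀ ↦ X i₀ + C a`, other variables fixed. -/
noncomputable def DSC_shiftHom {k ι : Type*} [CommRing k] (i₀ : ι) (a : k) :
    MvPolynomial ι k →ₐ[k] MvPolynomial ι k :=
  letI := Classical.decEq ι
  MvPolynomial.aeval (fun i => if i = i₀ then X i + C a else X i)

theorem DSC_shiftHom_X_self {k ι : Type*} [CommRing k] (i₀ : ι) (a : k) :
    DSC_shiftHom i₀ a (X i₀ : MvPolynomial ι k) = X i₀ + C a := by
  classical
  simp [DSC_shiftHom]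

theorem DSC_shiftHom_X_of_ne {k ι : Type*} [CommRing k] {i₀ i : ι} (h : i ≠ i₀) (a : k) :
    DSC_shiftHom i₀ a (X i : MvPolynomial ι k) = X i := by
  classical
  simp [DSC_shiftHom, h]

theorem DSC_shiftHom_comp {k ι : Type*} [CommRing k] (i₀ : ι) (a b : k) :
    (DSC_shiftHom i₀ a).comp (DSC_shiftHom i₀ b) = DSC_shiftHom (ι := ι) i₀ (a + b) := by
  classical
  apply MvPolynomial.algHom_ext
  intro i
  by_cases h : i = i₀
  · subst h
    simp only [AlgHom.comp_apply, DSC_shiftHom_X_self, map_add, MvPolynomial.algHom_C,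
      MvPolynomial.algebraMap_eq]
    rw [add_assoc, ← C_add]
  · simp only [AlgHom.comp_apply, DSC_shiftHom_X_of_ne h]

theorem DSC_shiftHom_zero {k ι : Type*} [CommRing k] (i₀ : ι) :
    DSC_shiftHom (ι := ι) i₀ (0 : k) = AlgHom.id k _ := by
  classical
  apply MvPolynomial.algHom_ext
  intro i
  by_cases h : i = i₀
  · subst h
    simp [DSC_shiftHom_X_self]
  · simp [DSC_shiftHom_X_of_ne h]

/-- the shift automorphism of `MvPolynomial ι k`. -/
noncomputable def DSC_shiftEquiv {k ι : Type*} [CommRing k] (i₀ : ι) (a : k) :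
    MvPolynomial ι k ≃ₐ[k] MvPolynomial ι k :=
  AlgEquiv.ofAlgHom (DSC_shiftHom i₀ a) (DSC_shiftHom i₀ (-a))
    (by rw [DSC_shiftHom_comp, add_neg_cancel, DSC_shiftHom_zero])
    (by rw [DSC_shiftHom_comp, neg_add_cancel, DSC_shiftHom_zero])

theorem DSC_shiftEquiv_X_self {k ι : Type*} [CommRing k] (i₀ : ι) (a : k) :
    DSC_shiftEquiv i₀ a (X i₀ : MvPolynomial ι k) = X i₀ + C a :=
  DSC_shiftHom_X_self i₀ a

/-- **D1**. -/
theorem DSC_exists_aut_shift {k K : Type*} [Field k] [Field K] [Algebra k K] [IsAlgClosed K]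
    (c : K) (hc : Transcendental k c) (a : k) :
    ∃ σ : K ≃ₐ[k] K, σ c = c + algebraMap k K a := by
  classical
  -- a transcendence basis containing `c`
  have hs : AlgebraicIndepOn k id ({c} : Set K) := by
    have : AlgebraicIndependent k (fun x : ({c} : Set K) => (x : K)) :=
      (algebraicIndependent_singleton_iff (⟨c, rfl⟩ : ({c} : Set K))).2 hc
    exact this
  obtain ⟨t, hct, ht⟩ := exists_isTranscendenceBasis_superset hs
  have hcm : c ∈ t := hct rfl
  set v : t → K := fun x => (x : K) with hv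
  set i₀ : t := ⟨c, hcm⟩ with hi₀
  have : IsAlgClosure (Algebra.adjoin k (Set.range v)) K :=
    IsAlgClosed.isAlgClosure_of_transcendence_basis v ht
  -- the automorphism of the polynomial subring
  let e : Algebra.adjoin k (Set.range v) ≃ₐ[k] Algebra.adjoin k (Set.range v) :=
    ht.1.aevalEquiv.symm.trans ((DSC_shiftEquiv i₀ a).trans ht.1.aevalEquiv)
  let σ₀ : K ≃+* K := IsAlgClosure.equivOfEquiv K K e.toRingEquiv
  have hσ₀ : ∀ s : Algebra.adjoin k (Set.range v),
      σ₀ (algebraMap _ K s) = algebraMap _ K (e s) := fun s =>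
    IsAlgClosure.equivOfEquiv_algebraMap K K e.toRingEquiv s
  have hcomm : ∀ x : k, σ₀ (algebraMap k K x) = algebraMap k K x := by
    intro x
    have h1 : algebraMap k K x
        = algebraMap (Algebra.adjoin k (Set.range v)) K
            (algebraMap k (Algebra.adjoin k (Set.range v)) x) := rfl
    rw [h1, hσ₀, AlgEquiv.commutes]
  refine ⟨AlgEquiv.ofRingEquiv (f := σ₀) hcomm, ?_⟩
  change σ₀ c = _
  have hcS : c = algebraMap (Algebra.adjoin k (Set.range v)) K (ht.1.aevalEquiv (X i₀)) := by
    rw [AlgebraicIndependent.algebraMap_aevalEquiv, aeval_X]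
  rw [hcS, hσ₀]
  change algebraMap _ K (ht.1.aevalEquiv (DSC_shiftEquiv i₀ a
    (ht.1.aevalEquiv.symm (ht.1.aevalEquiv (X i₀))))) = _
  rw [AlgEquiv.symm_apply_apply, DSC_shiftEquiv_X_self,
    AlgebraicIndependent.algebraMap_aevalEquiv, AlgebraicIndependent.algebraMap_aevalEquiv]
  simp [v, i₀]

end Fermat.Agent.Lib
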