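import Fermat.Agent.Lib.RiemannThm

/-!
# Package R (TRACK 3), part 2: non-special divisors

* `RR_infinite_places`: a function field with `RR_Hyp` over an infinite field has infinitely many
  places.
* `RR_bad_finite`: if `dim L(D) > deg D + 1 - g`, then `L(D + P) = L(D)` for all but finitely
  many places `P`.
* `RR_nonspecial_finset`, `RR_nonspecial`: there are `g` distinct places `Q_1, ..., Q_g` outside
  any given finite set with `dim L(Q_1 + ... + Q_g) = 1`.
Characteristic free; no duality is used.
-/

set_option autoImplicit false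

open AlgebraicCurve IntermediateField WithZero

namespace Fermat.Agent.Lib

variable {K F : Type*} [Field K] [Field F] [Algebra K F]

/-- an element of `L(D + v) \ L(D)` has the exact valuation `exp (D v + 1)` at `v`. -/
theorem RR_val_eq_of_mem_of_not_mem (v : Place K F) (D : Divisor K F) {f : F}
    (hf : f ∈ riemannRochSpace (D + Finsupp.single v 1)) (hf' : f ∉ riemannRochSpace D) :
    v.adicValuation f = exp (D v + 1) := by
  classical
  have hat : v.adicValuation f ≤ exp (D v + 1) := by
    have := hf v
    rwa [Finsupp.add_apply, Finsupp.single_apply, if_pos rfl] at this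
  apply RR_val_eq_of_lt_of_le v _ hat
  by_contra hcon
  rw [not_lt] at hcon
  apply hf'
  intro w
  by_cases hw : w = v
  · subst hw; exact hcon
  · have := hf w
    rwa [Finsupp.add_apply, Finsupp.single_apply, if_neg (Ne.symm hw), add_zero] at this

/-- if `L(D + P) ≠ L(D)`, `E ≥ D` and `E P = D P`, then `dim L(E + P) ≥ dim L(E) + 1`. -/
theorem RR_finrank_succ_le (h : RR_Hyp K F) (P : Place K F) {D E : Divisor K F}
    (hDE : D ≤ E) (hP : E P = D P)
    (hne : ¬ riemannRochSpace (D + Finsupp.single P 1) ≤ riemannRochSpace D) :
    Module.finrank K (riemannRochSpace E) + 1 ≤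
      Module.finrank K (riemannRochSpace (E + Finsupp.single P 1)) := by
  obtain ⟨f, hf, hf'⟩ := SetLike.not_le_iff_exists.1 hne
  have hval := RR_val_eq_of_mem_of_not_mem P D hf hf'
  have hfE : f ∈ riemannRochSpace (E + Finsupp.single P 1) :=
    RR_mono (add_le_add_left hDE _) hf
  have hfE' : f ∉ riemannRochSpace E := by
    intro hcon
    have := hcon P
    rw [hval, hP, exp_le_exp] at this
    omega
  have hlt : riemannRochSpace E < riemannRochSpace (E + Finsupp.single P 1) := by
    refine lt_of_le_of_ne (RR_mono (le_add_of_nonneg_right ?_)) ?_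
    · have := RR_single_nonneg (K := K) P 1
      rwa [Nat.cast_one] at this
    · intro heq
      exact hfE' (heq ▸ hfE)
  have hfin := RR_finite h (E + Finsupp.single P 1)
  exact Nat.succ_le_of_lt (Submodule.finrank_lt_finrank_of_lt hlt)

/-- adding `s` distinct "bad" places raises the dimension by at least `|s|`. -/
theorem RR_finrank_add_card_le (h : RR_Hyp K F) (D : Divisor K F) (s : Finset (Place K F))
    (hs : ∀ P ∈ s, ¬ riemannRochSpace (D + Finsupp.single P 1) ≤ riemannRochSpace D) :
    Module.finrank K (riemannRochSpace D) + s.card ≤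
      Module.finrank K (riemannRochSpace (D + ∑ P ∈ s, Finsupp.single P (1 : ℤ))) := by
  classical
  induction s using Finset.induction_on with
  | empty =>
    rw [Finset.sum_empty, add_zero, Finset.card_empty, add_zero]
  | insert a s ha ih =>
    have ih' := ih fun P hP => hs P (Finset.mem_insert_of_mem hP)
    have hDE : D ≤ D + ∑ P ∈ s, Finsupp.single P (1 : ℤ) :=
      le_add_of_nonneg_right (Finset.sum_nonneg fun P _ => by
        have := RR_single_nonneg (K := K) P 1
        rwa [Nat.cast_one] at this)
    have hEa : (D + ∑ P ∈ s, Finsupp.single P (1 : ℤ)) a = D a := by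
      rw [Finsupp.add_apply, Finsupp.finsetSum_apply]
      have : ∑ P ∈ s, (Finsupp.single P (1 : ℤ)) a = 0 := by
        apply Finset.sum_eq_zero
        intro P hP
        rw [Finsupp.single_apply, if_neg]
        rintro rfl
        exact ha hP
      rw [this, add_zero]
    have h1 := RR_finrank_succ_le h a hDE hEa (hs a (Finset.mem_insert_self a s))
    have key : D + ∑ P ∈ insert a s, Finsupp.single P (1 : ℤ) =
        (D + ∑ P ∈ s, Finsupp.single P (1 : ℤ)) + Finsupp.single a 1 := by
      rw [Finset.sum_insert ha]
      abel
    rw [key, Finset.card_insert_of_notMem ha]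
    omega

theorem RR_degree_add_sum_single (h : RR_Hyp K F) (D : Divisor K F) (s : Finset (Place K F)) :
    (D + ∑ P ∈ s, Finsupp.single P (1 : ℤ)).degree = D.degree + s.card := by
  rw [map_add, map_sum]
  simp [Divisor.degree_single, h.deg_one]

/-- **Finiteness of special places**: if `dim L(D) > deg D + 1 - g`, then `L(D + P) = L(D)`
for all but finitely many places `P`. -/
theorem RR_bad_finite (h : RR_Hyp K F) (D : Divisor K F)
    (hD : D.degree + 1 - (RR_genus K F : ℤ) < Module.finrank K (riemannRochSpace D)) :
    {P : Place K F |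
      ¬ riemannRochSpace (D + Finsupp.single P 1) ≤ riemannRochSpace D}.Finite := by
  by_contra hinf
  obtain ⟨c, hc⟩ := RR_riemann_eq h
  obtain ⟨s, hs, hcard⟩ := (Set.not_finite.1 hinf).exists_subset_card_eq (c - D.degree).toNat
  have h1 := RR_finrank_add_card_le h D s (fun P hP => hs hP)
  have h2 := RR_degree_add_sum_single h D s
  have h3 : c ≤ (D + ∑ P ∈ s, Finsupp.single P (1 : ℤ)).degree := by
    rw [h2, hcard]
    have := Int.self_le_toNat (c - D.degree)
    linarith
  have h4 := hc _ h3
  rw [h2] at h4
  have h5 : (Module.finrank K (riemannRochSpace D) : ℤ) + s.card ≤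
      Module.finrank K (riemannRochSpace (D + ∑ P ∈ s, Finsupp.single P (1 : ℤ))) := by
    exact_mod_cast h1
  linarith

/-- a function field over an infinite field has infinitely many places. -/
theorem RR_infinite_places [Infinite K] (h : RR_Hyp K F) : Infinite (Place K F) := by
  classical
  obtain ⟨x, ⟨v₀, hx⟩, -, -⟩ := h.exists_x
  have hP := h.principal
  have hx0 : x ≠ 0 := by
    rintro rfl
    simp at hx
  -- `x - c` has a pole at `v₀`
  have hpole : ∀ c : K, ¬ v₀.adicValuation (x - algebraMap K F c) ≤ 1 := by
    intro c hc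
    have h1 : v₀.adicValuation x ≤ 1 := by
      have := Valuation.map_add v₀.adicValuation (x - algebraMap K F c) (algebraMap K F c)
      rw [sub_add_cancel] at this
      exact this.trans (max_le hc (v₀.adicValuation_algebraMap_le_one c))
    rw [v₀.adicValuation_le_one_iff] at h1
    rcases h1 with h1 | h1
    · exact hx0 h1
    · omega
  have hne : ∀ c : K, x - algebraMap K F c ≠ 0 := by
    intro c h0
    apply hpole c
    rw [h0]
    simp
  -- hence a zero
  have hzero : ∀ c : K, ∃ v : Place K F, 0 < v.ord (x - algebraMap K F c) := by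
    intro c
    by_contra hcon
    simp only [not_exists, not_lt] at hcon
    have h1 : 0 ≤ - RR_div hP (x - algebraMap K F c) := by
      rw [Finsupp.le_def]
      intro v
      rw [Finsupp.neg_apply, RR_div_apply, Finsupp.zero_apply]
      have := hcon v
      omega
    have h2 := RR_eq_zero_of_degree_eq_zero h.deg_one h1 (by rw [map_neg, RR_div_degree, neg_zero])
    have h3 : v₀.ord (x - algebraMap K F c) = 0 := by
      rw [← RR_div_apply hP, ← neg_eq_zero, ← Finsupp.neg_apply, h2]
      rfl
    apply hpole c
    rw [v₀.adicValuation_le_one_iff]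
    right
    omega
  choose φ hφ using hzero
  have hinj : Function.Injective φ := by
    intro c c' hcc
    by_contra hne'
    have h1 := hφ c
    have h2 := hφ c'
    rw [← hcc] at h2
    have h3 : (φ c).adicValuation (x - algebraMap K F c) < 1 := by
      rw [(φ c).adicValuation_eq_exp_neg_ord (hne c), ← exp_zero, exp_lt_exp]
      omega
    have h4 : (φ c).adicValuation (x - algebraMap K F c') < 1 := by
      rw [(φ c).adicValuation_eq_exp_neg_ord (hne c'), ← exp_zero, exp_lt_exp]
      omega
    have h5 : (φ c).adicValuation (algebraMap K F (c - c')) < 1 := by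
      have : algebraMap K F (c - c') = (x - algebraMap K F c') - (x - algebraMap K F c) := by
        rw [map_sub]; ring
      rw [this]
      exact lt_of_le_of_lt (Valuation.map_sub _ _ _) (max_lt h4 h3)
    have h6 : algebraMap K F (c - c') ≠ 0 := by
      rw [Ne, map_eq_zero, sub_eq_zero]
      exact hne'
    rw [(φ c).adicValuation_eq_exp_neg_ord h6, S24.BL_ord_algebraMap] at h5
    simp at h5
  exact Infinite.of_injective φ hinj

/-- **R3, finset form**: for every `j ≤ g` and every finite set `T` of places there are `j`
distinct places outside `T` with `dim L(∑ P) = 1`. -/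
theorem RR_nonspecial_finset [Infinite K] (h : RR_Hyp K F) (T : Finset (Place K F)) (j : ℕ)
    (hj : j ≤ RR_genus K F) :
    ∃ S : Finset (Place K F), S.card = j ∧ Disjoint S T ∧
      Module.finrank K (riemannRochSpace (∑ P ∈ S, Finsupp.single P (1 : ℤ))) = 1 := by
  classical
  induction j with
  | zero =>
    refine ⟨∅, rfl, Finset.disjoint_empty_left _, ?_⟩
    rw [Finset.sum_empty]
    exact RR_finrank_zero h.deg_one h.principal h.nonempty.some
  | succ j ih =>
    obtain ⟨S, hcard, hdisj, hfr⟩ := ih (Nat.le_of_succ_le hj)
    set D : Divisor K F := ∑ P ∈ S, Finsupp.single P (1 : ℤ) with hD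
    have hdegD : D.degree = j := by
      have := RR_degree_add_sum_single h 0 S
      rw [zero_add, map_zero, zero_add, hcard] at this
      exact this
    have hbad := RR_bad_finite h D (by
      rw [hdegD, hfr]
      have : ((j : ℤ) + 1) ≤ RR_genus K F := by exact_mod_cast hj
      push_cast
      linarith)
    have hinf := RR_infinite_places h
    obtain ⟨P, hP⟩ := Infinite.exists_notMem_finset (S ∪ T ∪ hbad.toFinset)
    simp only [Finset.mem_union, Set.Finite.mem_toFinset, Set.mem_ofPred_eq, not_or,
      not_not] at hP
    obtain ⟨⟨hPS, hPT⟩, hPbad⟩ := hP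
    refine ⟨insert P S, ?_, ?_, ?_⟩
    · rw [Finset.card_insert_of_notMem hPS, hcard]
    · rw [Finset.disjoint_insert_left]
      exact ⟨hPT, hdisj⟩
    · rw [Finset.sum_insert hPS, add_comm]
      have heq : riemannRochSpace (D + Finsupp.single P 1) = riemannRochSpace D :=
        le_antisymm hPbad (RR_mono (le_add_of_nonneg_right (by
          have := RR_single_nonneg (K := K) P 1
          rwa [Nat.cast_one] at this)))
      rw [heq, hfr]

/-- **R3**: there are `g` distinct places `Q_1, ..., Q_g` outside `T` with
`dim L(Q_1 + ... + Q_g) = 1`. -/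
theorem RR_nonspecial [Infinite K] (h : RR_Hyp K F) (T : Finset (Place K F)) :
    ∃ Q : Fin (RR_genus K F) → Place K F, Function.Injective Q ∧ (∀ i, Q i ∉ T) ∧
      Module.finrank K (riemannRochSpace (∑ i, Finsupp.single (Q i) (1 : ℤ))) = 1 := by
  classical
  obtain ⟨S, hcard, hdisj, hfr⟩ := RR_nonspecial_finset h T (RR_genus K F) le_rfl
  let e : Fin (RR_genus K F) ≃ S := (S.equivFinOfCardEq hcard).symm
  refine ⟨fun i => (e i : Place K F), ?_, ?_, ?_⟩
  · intro i i' hii
    exact e.injective (Subtype.ext hii)
  · intro i hi
    exact Finset.disjoint_left.1 hdisj (e i).2 hi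
  · have : ∑ i, Finsupp.single ((e i : Place K F)) (1 : ℤ) =
        ∑ P ∈ S, Finsupp.single P (1 : ℤ) := by
      rw [← Finset.sum_coe_sort S (fun P => Finsupp.single P (1 : ℤ))]
      exact Equiv.sum_comp e (fun P : S => Finsupp.single (P : Place K F) (1 : ℤ))
    rw [this, hfr]

end Fermat.Agent.Lib
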