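import Mathlib
import Fermat.Prelude.Def_AlgebraicCurve_BaseChangeGalois
import Fermat.Agent.Lib.RiemannCharZero
import Fermat.Agent.Lib.RiemannNonspecial
import Fermat.Agent.S24.PlaceOfVal
import Fermat.Agent.S24.PlaceVal

/-!
# Pillar G, package G5 = DESC (descent of Kummer classes from `K` to `k`), part 1: the core

Abstract setting (`DSC_Datum`): `k ⊆ K` algebraically closed fields of characteristic `0`,
`F/K` a function field of one variable, `E ⊆ F` a subfield which is a function field over `k`,
such that `F` is the fraction field of the `K`-span of `E`, and a group `G` acting semilinearly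
on `F`, fixing `E` pointwise and moving every element of `K ∖ k` infinitely often
(for `K = ℂ`, `k = ℚ̄`: `G = Aut(ℂ/ℚ̄)` acting on `q`-expansion coefficients).

Main contents of this file: the structure `DSC_Datum`, the action on constants
(`DSC_Datum.base`, `DSC_Datum.mem_of_base_fixed`, `DSC_Datum.smul_comb`), and the regrouping
lemmas `DSC_rep_coeff`, `DSC_rep_elem` for elements of the `K`-span of `E`.
-/

set_option autoImplicit false
set_option linter.unusedSectionVars false
set_option linter.style.haveILetI false

open AlgebraicCurve IntermediateField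

namespace Fermat.Agent.Lib

/-- abstract descent datum: `E = F_k ⊆ F = F_K`, a group `G` acting semilinearly on `F`, fixing
`E` pointwise, moving every element of `K ∖ k` infinitely often. -/
structure DSC_Datum (k K F : Type*) [Field k] [Field K] [Field F] [Algebra k K] [Algebra K F]
    [Algebra k F] [IsScalarTower k K F] (E : IntermediateField k F) (G : Type*) [Group G] where
  /-- the action -/
  act : G →* SemilinearAut K F
  fix : ∀ (g : G) (a : F), a ∈ E → act g • a = a
  orbit : ∀ c : K, c ∉ Set.range (algebraMap k K) →
    (Set.range fun g : G => SemilinearAut.baseAut (act g) c).Infinite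
  gen : ∀ z : F, ∃ A B : F, A ∈ Submodule.span K (E : Set F) ∧
    B ∈ Submodule.span K (E : Set F) ∧ B ≠ 0 ∧ z * B = A
  /-- the transcendental generator -/
  x : E
  x_tr : Transcendental K (x : F)
  fin : FiniteDimensional K⟮(x : F)⟯ F
  finE : FiniteDimensional k⟮x⟯ E

variable {k K F : Type*} [Field k] [Field K] [Field F] [Algebra k K] [Algebra K F]
  [Algebra k F] [IsScalarTower k K F] {E : IntermediateField k F} {G : Type*} [Group G]

namespace DSC_Datum

variable (S : DSC_Datum k K F E G)

/-- the action of `g` on the constants. -/
noncomputable def base (g : G) : K ≃+* K := SemilinearAut.baseAut (S.act g)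

theorem smul_algebraMap (g : G) (c : K) :
    S.act g • algebraMap K F c = algebraMap K F (S.base g c) :=
  SemilinearAut.smul_algebraMap (S.act g) c

theorem base_algebraMap (g : G) (α : k) : S.base g (algebraMap k K α) = algebraMap k K α := by
  have h1 : S.act g • algebraMap k F α = algebraMap k F α :=
    S.fix g _ (E.algebraMap_mem α)
  rw [IsScalarTower.algebraMap_apply k K F, S.smul_algebraMap] at h1
  exact (algebraMap K F).injective h1

theorem base_mul (g h : G) (c : K) : S.base (g * h) c = S.base g (S.base h c) := by
  simp [base, map_mul]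

theorem base_one (c : K) : S.base 1 c = c := by
  simp [base, map_one]

/-- the action of `g` on the constants, as a `k`-linear equivalence. -/
noncomputable def baseLin (g : G) : K ≃ₗ[k] K where
  toFun := S.base g
  invFun := (S.base g).symm
  left_inv := (S.base g).left_inv
  right_inv := (S.base g).right_inv
  map_add' := map_add _
  map_smul' := fun α c => by
    simp only [RingHom.id_apply, Algebra.smul_def, map_mul, S.base_algebraMap]

@[simp] theorem baseLin_apply (g : G) (c : K) : S.baseLin g c = S.base g c := rfl

/-- a constant fixed by `G` lies in `k`. -/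
theorem mem_of_base_fixed (c : K) (h : ∀ g : G, S.base g c = c) :
    c ∈ Set.range (algebraMap k K) := by
  by_contra hc
  have hinf := S.orbit c hc
  apply hinf
  refine Set.Finite.subset (Set.finite_singleton c) ?_
  rintro _ ⟨g, rfl⟩
  exact h g

theorem smul_mul (g : G) (a b : F) : S.act g • (a * b) = S.act g • a * S.act g • b :=
  smul_mul' _ _ _

theorem smul_add (g : G) (a b : F) : S.act g • (a + b) = S.act g • a + S.act g • b :=
  _root_.smul_add _ _ _

theorem smul_sub (g : G) (a b : F) : S.act g • (a - b) = S.act g • a - S.act g • b :=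
  _root_.smul_sub _ _ _

theorem smul_zero (g : G) : S.act g • (0 : F) = 0 := _root_.smul_zero _

theorem smul_ne_zero (g : G) {a : F} (ha : a ≠ 0) : S.act g • a ≠ 0 := by
  intro h
  apply ha
  have := congrArg (fun z => (S.act g)⁻¹ • z) h
  simpa using this

theorem smul_sum {ι : Type*} (g : G) (s : Finset ι) (f : ι → F) :
    S.act g • (∑ i ∈ s, f i) = ∑ i ∈ s, S.act g • f i :=
  Finset.smul_sum

/-- `g` acts on a `K`-combination of elements of `E` through the coefficients. -/
theorem smul_comb {ι : Type*} (g : G) (s : Finset ι) (c : ι → K) (a : ι → F)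
    (ha : ∀ i ∈ s, a i ∈ E) :
    S.act g • (∑ i ∈ s, algebraMap K F (c i) * a i)
      = ∑ i ∈ s, algebraMap K F (S.base g (c i)) * a i := by
  rw [S.smul_sum]
  refine Finset.sum_congr rfl fun i hi => ?_
  rw [S.smul_mul, S.smul_algebraMap, S.fix g _ (ha i hi)]

end DSC_Datum

/-- regrouping with `k`-linearly independent coefficients. -/
theorem DSC_rep_coeff (E : IntermediateField k F) {A : F}
    (hA : A ∈ Submodule.span K (E : Set F)) :
    ∃ (r : ℕ) (c : Fin r → K) (a : Fin r → F), (∀ i, a i ∈ E) ∧ LinearIndependent k c ∧
      A = ∑ i, algebraMap K F (c i) * a i := by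
  classical
  obtain ⟨m, d, b, rfl⟩ := Submodule.mem_span_set'.1 hA
  let W : Submodule k K := Submodule.span k (Set.range d)
  haveI : Module.Finite k W := Module.Finite.span_of_finite k (Set.finite_range d)
  let ε := Module.finBasis k W
  have hd : ∀ j, d j ∈ W := fun j => Submodule.subset_span ⟨j, rfl⟩
  refine ⟨Module.finrank k W, fun l => (ε l : K),
    fun l => ∑ j, algebraMap k F (ε.repr ⟨d j, hd j⟩ l) * (b j : F), ?_, ?_, ?_⟩
  · intro l
    refine E.sum_mem fun j _ => E.mul_mem (E.algebraMap_mem _) (b j).2
  · have := ε.linearIndependent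
    exact this.map' W.subtype (Submodule.ker_subtype W)
  · have hdj : ∀ j, d j = ∑ l, algebraMap k K (ε.repr ⟨d j, hd j⟩ l) * (ε l : K) := by
      intro j
      have h1 := ε.sum_repr ⟨d j, hd j⟩
      have h2 := congrArg (fun z : W => (z : K)) h1
      simp only [Submodule.coe_sum, Submodule.coe_smul, Algebra.smul_def] at h2
      exact h2.symm
    calc ∑ j, d j • (b j : F) = ∑ j, ∑ l, algebraMap K F (ε l : K) *
          (algebraMap k F (ε.repr ⟨d j, hd j⟩ l) * (b j : F)) := by
          refine Finset.sum_congr rfl fun j _ => ?_
          conv_lhs => rw [hdj j]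
          rw [Algebra.smul_def, map_sum, Finset.sum_mul]
          refine Finset.sum_congr rfl fun l _ => ?_
          rw [map_mul, ← IsScalarTower.algebraMap_apply k K F]
          ring
      _ = ∑ l, algebraMap K F (ε l : K) *
          ∑ j, algebraMap k F (ε.repr ⟨d j, hd j⟩ l) * (b j : F) := by
          rw [Finset.sum_comm]
          refine Finset.sum_congr rfl fun l _ => ?_
          rw [Finset.mul_sum]

/-- regrouping with `k`-linearly independent elements of `E`. -/
theorem DSC_rep_elem (E : IntermediateField k F) {A : F}
    (hA : A ∈ Submodule.span K (E : Set F)) :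
    ∃ (r : ℕ) (c : Fin r → K) (a : Fin r → F), (∀ i, a i ∈ E) ∧ LinearIndependent k a ∧
      A = ∑ i, algebraMap K F (c i) * a i := by
  classical
  obtain ⟨m, d, b, rfl⟩ := Submodule.mem_span_set'.1 hA
  let W : Submodule k F := Submodule.span k (Set.range fun j => (b j : F))
  haveI : Module.Finite k W := Module.Finite.span_of_finite k (Set.finite_range _)
  let ε := Module.finBasis k W
  have hb : ∀ j, (b j : F) ∈ W := fun j => Submodule.subset_span ⟨j, rfl⟩
  have hWE : ∀ z ∈ W, z ∈ E := by
    intro z hz
    have : W ≤ (E.toSubalgebra.toSubmodule : Submodule k F) := by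
      rw [Submodule.span_le]
      rintro _ ⟨j, rfl⟩
      exact (b j).2
    exact this hz
  refine ⟨Module.finrank k W, fun l => ∑ j, algebraMap k K (ε.repr ⟨b j, hb j⟩ l) * d j,
    fun l => (ε l : F), fun l => hWE _ (ε l).2, ?_, ?_⟩
  · have := ε.linearIndependent
    exact this.map' W.subtype (Submodule.ker_subtype W)
  · have hbj : ∀ j, (b j : F) = ∑ l, algebraMap k F (ε.repr ⟨b j, hb j⟩ l) * (ε l : F) := by
      intro j
      have h1 := ε.sum_repr ⟨b j, hb j⟩
      have h2 := congrArg (fun z : W => (z : F)) h1
      simp only [Submodule.coe_sum, Submodule.coe_smul, Algebra.smul_def] at h2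
      exact h2.symm
    calc ∑ j, d j • (b j : F) = ∑ j, ∑ l, algebraMap K F
          (algebraMap k K (ε.repr ⟨b j, hb j⟩ l) * d j) * (ε l : F) := by
          refine Finset.sum_congr rfl fun j _ => ?_
          conv_lhs => rw [hbj j]
          rw [Algebra.smul_def, Finset.mul_sum]
          refine Finset.sum_congr rfl fun l _ => ?_
          rw [map_mul, ← IsScalarTower.algebraMap_apply k K F]
          ring
      _ = ∑ l, algebraMap K F (∑ j, algebraMap k K (ε.repr ⟨b j, hb j⟩ l) * d j) *
          (ε l : F) := by
          rw [Finset.sum_comm]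
          refine Finset.sum_congr rfl fun l _ => ?_
          rw [map_sum, Finset.sum_mul]


end Fermat.Agent.Lib
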