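import Mathlib
import Fermat.Agent.Lib.DescCore

/-!
# Pillar G, package G5 = DESC, part 2: valuations at `E`-rational places

For a descent datum `S : DSC_Datum k K F E G` and a place `w` of `F/K` which is nontrivial on `E`
("`E`-rational", `DSC_IsRat`):
* `DSC_exists_res` : the restriction of `w` to `E` is (a multiple of) a place of `E/k`;
* `DSC_exists_const` : elements of `E ∩ O_w` are congruent to constants of `k` modulo `m_w`;
* `DSC_val_sum` : for `c i ∈ K` linearly independent over `k` and `a i ∈ E`,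
  `w (∑ c i • a i) = max w (a i)`  (the valuation is a Gauss extension);
* `DSC_val_smul`, `DSC_ord_smul` : `w (g • z) = w z` for all `g ∈ G`, and
  `DSC_smul_place : g • w = w`.
-/

set_option autoImplicit false
set_option linter.unusedSectionVars false
set_option linter.style.haveILetI false

open AlgebraicCurve IntermediateField WithZero

namespace Fermat.Agent.Lib

open Fermat.Agent.S24

variable {k K F : Type*} [Field k] [Field K] [Field F] [Algebra k K] [Algebra K F]
  [Algebra k F] [IsScalarTower k K F] {E : IntermediateField k F} {G : Type*} [Group G]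

/-- a place of `F/K` is `E`-rational if it is nontrivial on `E`. -/
def DSC_IsRat (E : IntermediateField k F) (w : Place K F) : Prop :=
  ∃ y : F, y ∈ E ∧ w.ord y ≠ 0

theorem DSC_ord_algebraMap_k (w : Place K F) (α : k) : w.ord (algebraMap k F α) = 0 := by
  rw [IsScalarTower.algebraMap_apply k K F]
  exact BL_ord_algebraMap w _

/-- the restriction of `ord_w` to `E` is an abstract valuation. -/
theorem DSC_isVal_res (E : IntermediateField k F) (w : Place K F) :
    IsVal (K := k) (fun a : E => w.ord (a : F)) where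
  mul := fun f g hf hg => by
    have hf' : (f : F) ≠ 0 := fun h => hf (Subtype.ext h)
    have hg' : (g : F) ≠ 0 := fun h => hg (Subtype.ext h)
    show w.ord ((f * g : E) : F) = _
    rw [MulMemClass.coe_mul, w.ord_mul hf' hg']
  add := fun f g hf hg hfg => by
    have hf' : (f : F) ≠ 0 := fun h => hf (Subtype.ext h)
    have hg' : (g : F) ≠ 0 := fun h => hg (Subtype.ext h)
    have hfg' : (f : F) + (g : F) ≠ 0 := fun h => hfg (Subtype.ext h)
    exact (S24_isVal_ord w).add _ _ hf' hg' hfg'
  const := fun c _ => DSC_ord_algebraMap_k w c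

variable [IsAlgClosed k]

/-- the place of `E/k` under an `E`-rational place of `F/K`. -/
theorem DSC_exists_res (w : Place K F) (hw : DSC_IsRat E w) :
    ∃ (v : Place k E) (m : ℤ), 0 < m ∧ (∃ π : E, π ≠ 0 ∧ w.ord (π : F) = m) ∧
      ∀ a : E, a ≠ 0 → w.ord (a : F) = m * v.ord a := by
  obtain ⟨y, hyE, hy⟩ := hw
  have hy0 : y ≠ 0 := by
    rintro rfl
    simp at hy
  -- an element of positive order
  obtain ⟨z, hz0, hz⟩ : ∃ z : E, z ≠ 0 ∧ 0 < w.ord (z : F) := by
    rcases lt_or_gt_of_ne hy with h | h
    · refine ⟨⟨y, hyE⟩⁻¹, inv_ne_zero fun h0 => hy0 (congrArg Subtype.val h0), ?_⟩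
      show 0 < w.ord ((y)⁻¹)
      rw [w.ord_inv]
      omega
    · exact ⟨⟨y, hyE⟩, fun h0 => hy0 (congrArg Subtype.val h0), h⟩
  obtain ⟨m, hm, hπ, hord⟩ := (DSC_isVal_res E w).exists_mul_ord z hz0 hz
  exact ⟨_, m, hm, hπ, hord⟩

theorem DSC_deg_one (S : DSC_Datum k K F E G) (v : Place k E) : v.deg = 1 := by
  haveI := S.finE
  exact S24_deg_eq_one (S24_isFunctionField1_of_isAlgebraic S.x (Algebra.IsAlgebraic.of_finite _ _)) v

/-- the residue field of `E` at an `E`-rational place is `k`. -/
theorem DSC_exists_const (S : DSC_Datum k K F E G) (w : Place K F) (hw : DSC_IsRat E w)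
    {a : F} (ha : a ∈ E) (h : w.adicValuation a ≤ 1) :
    ∃ α : k, w.adicValuation (a - algebraMap k F α) < 1 := by
  obtain ⟨v, m, hm, -, hord⟩ := DSC_exists_res w hw
  by_cases ha0 : a = 0
  · refine ⟨0, ?_⟩
    simp [ha0]
  have ha0' : (⟨a, ha⟩ : E) ≠ 0 := fun h0 => ha0 (congrArg Subtype.val h0)
  have h1 : 0 ≤ v.ord (⟨a, ha⟩ : E) := by
    have h2 := hord ⟨a, ha⟩ ha0'
    have h3 : 0 ≤ w.ord a := by
      rcases w.adicValuation_le_one_iff.1 h with h4 | h4
      · exact absurd h4 ha0
      · exact h4
    simp only at h2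
    rw [h2] at h3
    exact nonneg_of_mul_nonneg_right h3 hm
  have h2 : v.adicValuation (⟨a, ha⟩ : E) ≤ 1 := v.adicValuation_le_one_iff.2 (Or.inr h1)
  obtain ⟨α, hα⟩ := RR_exists_const v (DSC_deg_one S v) h2
  refine ⟨α, ?_⟩
  by_cases hz : a - algebraMap k F α = 0
  · rw [hz]; simp
  have hz' : (⟨a, ha⟩ - algebraMap k E α : E) ≠ 0 := by
    intro h0
    apply hz
    have := congrArg Subtype.val h0
    simpa using this
  have h3 : 0 < v.ord (⟨a, ha⟩ - algebraMap k E α : E) := by
    rw [v.adicValuation_eq_exp_neg_ord hz', ← exp_zero, exp_lt_exp] at hα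
    omega
  have h4 := hord _ hz'
  have h5 : ((⟨a, ha⟩ - algebraMap k E α : E) : F) = a - algebraMap k F α := by
    simp
  rw [h5] at h4
  rw [w.adicValuation_eq_exp_neg_ord hz, ← exp_zero, exp_lt_exp, h4]
  have := mul_pos hm h3
  omega

theorem DSC_val_algebraMap_le (w : Place K F) (c : K) : w.adicValuation (algebraMap K F c) ≤ 1 :=
  w.adicValuation_le_one_iff.2 (Or.inr (BL_ord_algebraMap w c).ge)

theorem DSC_val_algebraMap_eq (w : Place K F) {c : K} (hc : c ≠ 0) :
    w.adicValuation (algebraMap K F c) = 1 := by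
  have h0 : algebraMap K F c ≠ 0 := by
    rwa [Ne, map_eq_zero]
  rw [w.adicValuation_eq_exp_neg_ord h0, BL_ord_algebraMap, neg_zero, exp_zero]

/-- **Key lemma.** At an `E`-rational place, the valuation of a `K`-combination of elements of
`E` with `k`-linearly independent coefficients is the maximum of the valuations. -/
theorem DSC_val_sum (S : DSC_Datum k K F E G) (w : Place K F) (hw : DSC_IsRat E w) {r : ℕ}
    (c : Fin r → K) (a : Fin r → F) (ha : ∀ i, a i ∈ E) (hc : LinearIndependent k c)
    (i₀ : Fin r) (hmax : ∀ i, w.adicValuation (a i) ≤ w.adicValuation (a i₀)) :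
    w.adicValuation (∑ i, algebraMap K F (c i) * a i) = w.adicValuation (a i₀) := by
  classical
  by_cases h0 : a i₀ = 0
  · have hall : ∀ i, a i = 0 := by
      intro i
      have := hmax i
      rw [h0, map_zero] at this
      exact (Valuation.zero_iff _).1 (le_antisymm this zero_le)
    simp [hall]
  -- normalise
  have hb : ∀ i, w.adicValuation (a i / a i₀) ≤ 1 := by
    intro i
    rw [map_div₀]
    exact div_le_one_of_le₀ (hmax i) zero_le
  have hbE : ∀ i, a i / a i₀ ∈ E := fun i => E.div_mem (ha i) (ha i₀)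
  choose β hβ using fun i => DSC_exists_const S w hw (hbE i) (hb i)
  have hβ0 : β i₀ ≠ 0 := by
    intro h
    have := hβ i₀
    rw [h, map_zero, sub_zero, div_self h0, map_one] at this
    exact lt_irrefl _ this
  set γ : K := ∑ i, algebraMap k K (β i) * c i with hγ
  have hγ0 : γ ≠ 0 := by
    intro h
    have h1 : ∑ i, β i • c i = 0 := by
      rw [← h, hγ]
      exact Finset.sum_congr rfl fun i _ => Algebra.smul_def _ _
    have := (Fintype.linearIndependent_iff.1 hc) β h1 i₀
    exact hβ0 this
  have hsplit : ∑ i, algebraMap K F (c i) * (a i / a i₀)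
      = algebraMap K F γ + ∑ i, algebraMap K F (c i) * (a i / a i₀ - algebraMap k F (β i)) := by
    rw [hγ, map_sum, ← Finset.sum_add_distrib]
    refine Finset.sum_congr rfl fun i _ => ?_
    rw [map_mul, ← IsScalarTower.algebraMap_apply k K F]
    ring
  have hrest : w.adicValuation
      (∑ i, algebraMap K F (c i) * (a i / a i₀ - algebraMap k F (β i))) < 1 := by
    refine Valuation.map_sum_lt _ one_ne_zero fun i _ => ?_
    rw [map_mul]
    calc w.adicValuation (algebraMap K F (c i)) *
          w.adicValuation (a i / a i₀ - algebraMap k F (β i))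
        ≤ 1 * w.adicValuation (a i / a i₀ - algebraMap k F (β i)) :=
          mul_le_mul_left (DSC_val_algebraMap_le w (c i)) _
      _ < 1 := by rw [one_mul]; exact hβ i
  have hone : w.adicValuation (∑ i, algebraMap K F (c i) * (a i / a i₀)) = 1 := by
    rw [hsplit, Valuation.map_add_eq_of_lt_left _ (by rw [DSC_val_algebraMap_eq w hγ0]; exact hrest),
      DSC_val_algebraMap_eq w hγ0]
  have hfac : ∑ i, algebraMap K F (c i) * a i
      = a i₀ * ∑ i, algebraMap K F (c i) * (a i / a i₀) := by
    rw [Finset.mul_sum]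
    refine Finset.sum_congr rfl fun i _ => ?_
    field_simp
  rw [hfac, map_mul, hone, mul_one]

/-- the valuation at an `E`-rational place is `G`-invariant on the `K`-span of `E`. -/
theorem DSC_val_smul_span (S : DSC_Datum k K F E G) (w : Place K F) (hw : DSC_IsRat E w)
    (g : G) {A : F} (hA : A ∈ Submodule.span K (E : Set F)) :
    w.adicValuation (S.act g • A) = w.adicValuation A := by
  obtain ⟨r, c, a, ha, hc, rfl⟩ := DSC_rep_coeff E hA
  rcases Nat.eq_zero_or_pos r with rfl | hr
  · simp [S.smul_zero]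
  haveI : Nonempty (Fin r) := ⟨⟨0, hr⟩⟩
  obtain ⟨i₀, hi₀⟩ := Finite.exists_max fun i => w.adicValuation (a i)
  rw [S.smul_comb g Finset.univ c a fun i _ => ha i]
  have hc' : LinearIndependent k fun i => S.base g (c i) :=
    hc.map' (S.baseLin g : K →ₗ[k] K) (LinearEquiv.ker _)
  rw [DSC_val_sum S w hw c a ha hc i₀ hi₀,
    DSC_val_sum S w hw (fun i => S.base g (c i)) a ha hc' i₀ hi₀]

/-- the valuation at an `E`-rational place is `G`-invariant. -/
theorem DSC_val_smul (S : DSC_Datum k K F E G) (w : Place K F) (hw : DSC_IsRat E w)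
    (g : G) (z : F) : w.adicValuation (S.act g • z) = w.adicValuation z := by
  obtain ⟨A, B, hA, hB, hB0, hz⟩ := S.gen z
  have h1 : S.act g • z * S.act g • B = S.act g • A := by rw [← S.smul_mul, hz]
  have h2 := congrArg w.adicValuation h1
  rw [map_mul, DSC_val_smul_span S w hw g hA, DSC_val_smul_span S w hw g hB, ← hz, map_mul] at h2
  have h3 : w.adicValuation B ≠ 0 := (Valuation.ne_zero_iff _).2 hB0
  exact mul_right_cancel₀ h3 h2

theorem DSC_ord_smul (S : DSC_Datum k K F E G) (w : Place K F) (hw : DSC_IsRat E w)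
    (g : G) (z : F) : w.ord (S.act g • z) = w.ord z := by
  by_cases hz : z = 0
  · rw [hz, S.smul_zero]
  have h := DSC_val_smul S w hw g z
  rw [w.adicValuation_eq_exp_neg_ord hz, w.adicValuation_eq_exp_neg_ord (S.smul_ne_zero g hz),
    exp_inj] at h
  omega

/-- **`E`-rational places are fixed by `G`.** -/
theorem DSC_smul_place (S : DSC_Datum k K F E G) (w : Place K F) (hw : DSC_IsRat E w)
    (g : G) : S.act g • w = w := by
  apply Place.ext
  rw [SemilinearAut.smul_toValuationSubring]
  ext z
  rw [ValuationSubring.mem_pointwise_smul_iff_inv_smul_mem, ← map_inv,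
    ← BL_adicValuation_le_one_iff, ← BL_adicValuation_le_one_iff, DSC_val_smul S w hw]

end Fermat.Agent.Lib
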