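import Mathlib
import Fermat.Agent.Lib.DescVal

/-!
# Pillar G, package G5 = DESC, part 3: unramifiedness, Artin's lemma, fixed field

For a descent datum `S : DSC_Datum k K F E G`:
* `DSC_exists_unif`, `DSC_place_res` : an `E`-rational place `w` of `F/K` has a uniformizer in `E`,
  and restricts to a place of `E/k` with the same orders;
* `DSC_linearIndependent` : `k`-linearly independent elements of `E` are `K`-linearly independent;
* `DSC_mem_of_fixed` : `F^G = E`.
-/

set_option autoImplicit false
set_option linter.unusedSectionVars false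
set_option linter.style.haveILetI false

open AlgebraicCurve IntermediateField WithZero

namespace Fermat.Agent.Lib

open Fermat.Agent.S24

variable {k K F : Type*} [Field k] [Field K] [Field F] [Algebra k K] [Algebra K F]
  [Algebra k F] [IsScalarTower k K F] {E : IntermediateField k F} {G : Type*} [Group G]

/-- there is an element of order one at every place. -/
theorem DSC_exists_ord_one (w : Place K F) : ∃ t : F, t ≠ 0 ∧ w.ord t = 1 := by
  obtain ⟨π, hπ⟩ := IsDiscreteValuationRing.exists_irreducible w.toValuationSubring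
  refine ⟨(π : F), ?_, w.ord_coe_irreducible hπ⟩
  intro h
  have := w.ord_coe_irreducible hπ
  rw [h, w.ord_zero] at this
  exact zero_ne_one this

/-- `G` preserves the `K`-span of `E`. -/
theorem DSC_smul_mem_span (S : DSC_Datum k K F E G) (g : G) {A : F}
    (hA : A ∈ Submodule.span K (E : Set F)) : S.act g • A ∈ Submodule.span K (E : Set F) := by
  obtain ⟨m, d, b, rfl⟩ := Submodule.mem_span_set'.1 hA
  have h1 : ∑ j, d j • (b j : F) = ∑ j ∈ Finset.univ, algebraMap K F (d j) * (b j : F) :=
    Finset.sum_congr rfl fun j _ => Algebra.smul_def _ _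
  rw [h1, S.smul_comb g Finset.univ d (fun j => (b j : F)) fun j _ => (b j).2]
  refine Submodule.sum_mem _ fun j _ => ?_
  rw [← Algebra.smul_def]
  exact Submodule.smul_mem _ _ (Submodule.subset_span (b j).2)

theorem DSC_comb_mem_span (E : IntermediateField k F) {ι : Type*} (s : Finset ι) (c : ι → K)
    (a : ι → F) (ha : ∀ i ∈ s, a i ∈ E) :
    ∑ i ∈ s, algebraMap K F (c i) * a i ∈ Submodule.span K (E : Set F) := by
  refine Submodule.sum_mem _ fun j hj => ?_
  rw [← Algebra.smul_def]
  exact Submodule.smul_mem _ _ (Submodule.subset_span (ha j hj))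

section Artin

/-- **Artin's lemma**: `k`-linearly independent elements of `E` are `K`-linearly independent. -/
theorem DSC_linearIndependent (S : DSC_Datum k K F E G) :
    ∀ (r : ℕ) (a : Fin r → F), (∀ i, a i ∈ E) → LinearIndependent k a → LinearIndependent K a := by
  intro r
  induction r with
  | zero => intro a _ _; exact linearIndependent_empty_type
  | succ r ih =>
    intro a ha hk
    rw [linearIndependent_finSucc] at hk ⊢
    obtain ⟨hk1, hk2⟩ := hk
    have hK1 := ih (Fin.tail a) (fun i => ha _) hk1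
    refine ⟨hK1, fun hmem => hk2 ?_⟩
    obtain ⟨c, hc⟩ := (Submodule.mem_span_range_iff_exists_fun K).1 hmem
    have hc' : a 0 = ∑ i, algebraMap K F (c i) * Fin.tail a i := by
      rw [← hc]
      exact Finset.sum_congr rfl fun j _ => Algebra.smul_def _ _
    have hfix : ∀ (g : G) (i : Fin r), S.base g (c i) = c i := by
      intro g
      have h1 : S.act g • a 0 = a 0 := S.fix g _ (ha 0)
      have h2 : S.act g • a 0 = ∑ i, algebraMap K F (S.base g (c i)) * Fin.tail a i := by
        conv_lhs => rw [hc']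
        exact S.smul_comb g Finset.univ c (Fin.tail a) fun i _ => ha _
      have h3 : ∑ i, (S.base g (c i) - c i) • Fin.tail a i = 0 := by
        have : ∑ i, (S.base g (c i) - c i) • Fin.tail a i
            = ∑ i, algebraMap K F (S.base g (c i)) * Fin.tail a i
              - ∑ i, algebraMap K F (c i) * Fin.tail a i := by
          rw [← Finset.sum_sub_distrib]
          refine Finset.sum_congr rfl fun i _ => ?_
          rw [Algebra.smul_def, map_sub, sub_mul]
        rw [this, ← h2, ← hc', h1, sub_self]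
      intro i
      have := (Fintype.linearIndependent_iff.1 hK1) _ h3 i
      exact sub_eq_zero.1 this
    have hmem' : ∀ i, c i ∈ Set.range (algebraMap k K) := fun i =>
      S.mem_of_base_fixed (c i) fun g => hfix g i
    choose γ hγ using hmem'
    rw [Submodule.mem_span_range_iff_exists_fun]
    refine ⟨γ, ?_⟩
    rw [hc']
    refine Finset.sum_congr rfl fun i _ => ?_
    rw [Algebra.smul_def, ← hγ i, ← IsScalarTower.algebraMap_apply k K F]

/-- a `G`-fixed element of the `K`-span of `E` lies in `E`. -/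
theorem DSC_mem_of_fixed_span (S : DSC_Datum k K F E G) {A : F}
    (hA : A ∈ Submodule.span K (E : Set F)) (hfix : ∀ g : G, S.act g • A = A) : A ∈ E := by
  obtain ⟨r, c, a, ha, hli, rfl⟩ := DSC_rep_elem E hA
  have hK := DSC_linearIndependent S r a ha hli
  have hc : ∀ (g : G) (i : Fin r), S.base g (c i) = c i := by
    intro g
    have h1 := hfix g
    rw [S.smul_comb g Finset.univ c a fun i _ => ha i] at h1
    have h3 : ∑ i, (S.base g (c i) - c i) • a i = 0 := by
      have : ∑ i, (S.base g (c i) - c i) • a i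
          = ∑ i, algebraMap K F (S.base g (c i)) * a i - ∑ i, algebraMap K F (c i) * a i := by
        rw [← Finset.sum_sub_distrib]
        refine Finset.sum_congr rfl fun i _ => ?_
        rw [Algebra.smul_def, map_sub, sub_mul]
      rw [this, h1, sub_self]
    intro i
    exact sub_eq_zero.1 ((Fintype.linearIndependent_iff.1 hK) _ h3 i)
  have hmem' : ∀ i, c i ∈ Set.range (algebraMap k K) := fun i =>
    S.mem_of_base_fixed (c i) fun g => hc g i
  choose γ hγ using hmem'
  refine E.sum_mem fun i _ => E.mul_mem ?_ (ha i)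
  rw [← hγ i, ← IsScalarTower.algebraMap_apply k K F]
  exact E.algebraMap_mem _

/-- `z` has a denominator of length `r` in the `K`-span of `E`. -/
def DSC_HasDenom (K : Type*) {k F : Type*} [Field k] [Field K] [Field F] [Algebra K F]
    [Algebra k F] (E : IntermediateField k F) (z : F) (r : ℕ) : Prop :=
  ∃ (c : Fin r → K) (b : Fin r → F), (∀ i, b i ∈ E) ∧
    (∑ i, algebraMap K F (c i) * b i ≠ 0) ∧
    z * ∑ i, algebraMap K F (c i) * b i ∈ Submodule.span K (E : Set F)

/-- **The fixed field of `G` is `E`.** -/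
theorem DSC_mem_of_fixed (S : DSC_Datum k K F E G) (z : F) (hfix : ∀ g : G, S.act g • z = z) :
    z ∈ E := by
  classical
  have hex : ∃ r, DSC_HasDenom K E z r := by
    obtain ⟨A, B, hA, hB, hB0, hz⟩ := S.gen z
    obtain ⟨m, d, b, rfl⟩ := Submodule.mem_span_set'.1 hB
    have h1 : ∑ j, d j • (b j : F) = ∑ j, algebraMap K F (d j) * (b j : F) :=
      Finset.sum_congr rfl fun j _ => Algebra.smul_def _ _
    refine ⟨m, d, fun j => (b j : F), fun j => (b j).2, ?_, ?_⟩
    · rwa [← h1]
    · rw [← h1, hz]; exact hA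
  obtain ⟨n, hn, hmin⟩ : ∃ n, DSC_HasDenom K E z n ∧ ∀ r, r < n → ¬ DSC_HasDenom K E z r :=
    ⟨Nat.find hex, Nat.find_spec hex, fun r hr => Nat.find_min hex hr⟩
  obtain ⟨c, b, hb, hB0, hzB⟩ := hn
  rcases Nat.eq_zero_or_pos n with h0 | hpos
  · exfalso
    apply hB0
    subst h0
    exact Finset.sum_of_isEmpty _
  obtain ⟨r, rfl⟩ : ∃ r, n = r + 1 := ⟨n - 1, by omega⟩
  have hminr : ¬ DSC_HasDenom K E z r := hmin r (by omega)
  -- the first coefficient is nonzero
  have hc0 : c 0 ≠ 0 := by
    intro h0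
    apply hminr
    rw [Fin.sum_univ_succ, h0, map_zero, zero_mul, zero_add] at hB0 hzB
    exact ⟨fun i => c i.succ, fun i => b i.succ, fun i => hb _, hB0, hzB⟩
  -- normalise
  set B : F := ∑ i, algebraMap K F (c i) * b i with hBdef
  set c' : Fin (r + 1) → K := fun i => (c 0)⁻¹ * c i with hc'
  set B' : F := ∑ i, algebraMap K F (c' i) * b i with hB'def
  have hBB' : B' = algebraMap K F (c 0)⁻¹ * B := by
    rw [hB'def, hBdef, Finset.mul_sum]
    refine Finset.sum_congr rfl fun i _ => ?_
    rw [hc', map_mul, mul_assoc]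
  have hB'0 : B' ≠ 0 := by
    rw [hBB']
    refine mul_ne_zero ?_ hB0
    rw [Ne, map_eq_zero]
    exact inv_ne_zero hc0
  have hB'span : B' ∈ Submodule.span K (E : Set F) :=
    DSC_comb_mem_span E Finset.univ c' b fun i _ => hb i
  have hzB' : z * B' ∈ Submodule.span K (E : Set F) := by
    have : z * B' = (c 0)⁻¹ • (z * B) := by
      rw [hBB', Algebra.smul_def]; ring
    rw [this]
    exact Submodule.smul_mem _ _ hzB
  have hc'0 : c' 0 = 1 := by
    rw [hc']
    exact inv_mul_cancel₀ hc0
  -- `B'` is fixed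
  have hB'fix : ∀ g : G, S.act g • B' = B' := by
    intro g
    by_contra hne
    apply hminr
    have h1 : S.act g • B' - B'
        = ∑ i : Fin r, algebraMap K F (S.base g (c' i.succ) - c' i.succ) * b i.succ := by
      rw [hB'def, S.smul_comb g Finset.univ c' b fun i _ => hb i, ← Finset.sum_sub_distrib,
        Fin.sum_univ_succ, hc'0, map_one, sub_self, zero_add]
      refine Finset.sum_congr rfl fun i _ => ?_
      rw [map_sub, sub_mul]
    refine ⟨fun i => S.base g (c' i.succ) - c' i.succ, fun i => b i.succ, fun i => hb _, ?_, ?_⟩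
    · rw [← h1]
      exact sub_ne_zero.2 hne
    · rw [← h1]
      have h2 : z * (S.act g • B' - B') = S.act g • (z * B') - z * B' := by
        rw [S.smul_mul, hfix g]; ring
      rw [h2]
      exact Submodule.sub_mem _ (DSC_smul_mem_span S g hzB') hzB'
  have hB'E : B' ∈ E := DSC_mem_of_fixed_span S hB'span hB'fix
  have hzB'E : z * B' ∈ E := by
    refine DSC_mem_of_fixed_span S hzB' fun g => ?_
    rw [S.smul_mul, hfix g, hB'fix g]
  have : z = z * B' / B' := by
    field_simp
  rw [this]
  exact E.div_mem hzB'E hB'E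

end Artin

section Unramified

variable [IsAlgClosed k]

/-- at an `E`-rational place, the valuation of a nonzero element of the `K`-span of `E` is the
valuation of an element of `E`. -/
theorem DSC_exists_val_eq_span (S : DSC_Datum k K F E G) (w : Place K F) (hw : DSC_IsRat E w)
    {A : F} (hA : A ∈ Submodule.span K (E : Set F)) (hA0 : A ≠ 0) :
    ∃ a : F, a ∈ E ∧ a ≠ 0 ∧ w.adicValuation a = w.adicValuation A := by
  obtain ⟨r, c, a, ha, hc, rfl⟩ := DSC_rep_coeff E hA
  rcases Nat.eq_zero_or_pos r with rfl | hr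
  · exact absurd (Finset.sum_of_isEmpty _) hA0
  haveI : Nonempty (Fin r) := ⟨⟨0, hr⟩⟩
  obtain ⟨i₀, hi₀⟩ := Finite.exists_max fun i => w.adicValuation (a i)
  have h := DSC_val_sum S w hw c a ha hc i₀ hi₀
  refine ⟨a i₀, ha i₀, ?_, h.symm⟩
  intro h0
  rw [h0, map_zero] at h
  exact hA0 ((Valuation.zero_iff _).1 h)

/-- at an `E`-rational place, every order is the order of an element of `E`. -/
theorem DSC_exists_ord_eq (S : DSC_Datum k K F E G) (w : Place K F) (hw : DSC_IsRat E w)
    {z : F} (hz : z ≠ 0) : ∃ a : F, a ∈ E ∧ a ≠ 0 ∧ w.ord a = w.ord z := by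
  obtain ⟨A, B, hA, hB, hB0, hzB⟩ := S.gen z
  have hA0 : A ≠ 0 := by
    rw [← hzB]
    exact mul_ne_zero hz hB0
  obtain ⟨a, haE, ha0, ha⟩ := DSC_exists_val_eq_span S w hw hA hA0
  obtain ⟨b, hbE, hb0, hb⟩ := DSC_exists_val_eq_span S w hw hB hB0
  refine ⟨a / b, E.div_mem haE hbE, div_ne_zero ha0 hb0, ?_⟩
  have h1 : w.ord a = w.ord A := by
    rw [w.adicValuation_eq_exp_neg_ord ha0, w.adicValuation_eq_exp_neg_ord hA0, exp_inj] at ha
    omega
  have h2 : w.ord b = w.ord B := by
    rw [w.adicValuation_eq_exp_neg_ord hb0, w.adicValuation_eq_exp_neg_ord hB0, exp_inj] at hb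
    omega
  have h3 : w.ord A = w.ord z + w.ord B := by
    rw [← hzB, w.ord_mul hz hB0]
  rw [div_eq_mul_inv, w.ord_mul ha0 (inv_ne_zero hb0), w.ord_inv, h1, h2, h3]
  ring

/-- an `E`-rational place has a uniformizer in `E`. -/
theorem DSC_exists_unif (S : DSC_Datum k K F E G) (w : Place K F) (hw : DSC_IsRat E w) :
    ∃ π : F, π ∈ E ∧ π ≠ 0 ∧ w.ord π = 1 := by
  obtain ⟨t, ht0, ht⟩ := DSC_exists_ord_one w
  obtain ⟨a, haE, ha0, ha⟩ := DSC_exists_ord_eq S w hw ht0
  exact ⟨a, haE, ha0, ha.trans ht⟩

/-- **Restriction.** An `E`-rational place of `F/K` restricts to a place of `E/k`, with the same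
orders. -/
theorem DSC_place_res (S : DSC_Datum k K F E G) (w : Place K F) (hw : DSC_IsRat E w) :
    ∃ v : Place k E, ∀ a : E, w.ord (a : F) = v.ord a := by
  obtain ⟨v, m, hm, -, hord⟩ := DSC_exists_res w hw
  obtain ⟨π, hπE, hπ0, hπ⟩ := DSC_exists_unif S w hw
  have hπ0' : (⟨π, hπE⟩ : E) ≠ 0 := fun h0 => hπ0 (congrArg Subtype.val h0)
  have h1 := hord ⟨π, hπE⟩ hπ0'
  simp only at h1
  rw [hπ] at h1
  have hm1 : m = 1 := Int.eq_one_of_mul_eq_one_right hm.le h1.symm
  refine ⟨v, fun a => ?_⟩
  by_cases ha : a = 0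
  · rw [ha, v.ord_zero]
    exact w.ord_zero
  · rw [hord a ha, hm1, one_mul]

end Unramified

end Fermat.Agent.Lib
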