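import Mathlib
import Fermat.Agent.Lib.DescFix

/-!
# Pillar G, package G5 = DESC, part 4: extension of places

For a descent datum `S : DSC_Datum k K F E G` (`k`, `K` algebraically closed of characteristic `0`):
* `DSC_rrHyp_E`, `DSC_rrHyp_F` : Riemann's theorem is available for `E/k` and `F/K`;
* `DSC_const_mem` : `E ∩ K = k`;
* `DSC_place_ext` : every place of `E/k` is the restriction of an (`E`-rational) place of `F/K`,
  with the same orders;
* `DSC_dvd_ord_iff` : divisibility of the divisor of `a ∈ E` by `n` is the same over `E` and `F`.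
-/

set_option autoImplicit false
set_option linter.unusedSectionVars false
set_option linter.style.haveILetI false

open AlgebraicCurve IntermediateField WithZero

namespace Fermat.Agent.Lib

open Fermat.Agent.S24

variable {k K F : Type*} [Field k] [Field K] [Field F] [Algebra k K] [Algebra K F]
  [Algebra k F] [IsScalarTower k K F] {E : IntermediateField k F} {G : Type*} [Group G]

/-- `E ∩ K = k`. -/
theorem DSC_const_mem (S : DSC_Datum k K F E G) {c : K} (h : algebraMap K F c ∈ E) :
    c ∈ Set.range (algebraMap k K) := by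
  refine S.mem_of_base_fixed c fun g => ?_
  have h1 := S.fix g _ h
  rw [S.smul_algebraMap] at h1
  exact (algebraMap K F).injective h1

theorem DSC_transcendental_x (S : DSC_Datum k K F E G) : Transcendental k S.x := by
  intro halg
  apply S.x_tr
  have h1 : IsAlgebraic k (S.x : F) := by
    have := halg.algebraMap (A := F)
    exact this
  exact h1.tower_top K

variable [IsAlgClosed k] [CharZero k] [IsAlgClosed K]

theorem DSC_rrHyp_E (S : DSC_Datum k K F E G) : RR_Hyp k E := by
  haveI := S.finE
  exact RR_hyp_of_charZero (DSC_transcendental_x S)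

theorem DSC_rrHyp_F (S : DSC_Datum k K F E G) : RR_Hyp K F := by
  haveI : CharZero K := charZero_of_injective_algebraMap (algebraMap k K).injective
  haveI := S.fin
  exact RR_hyp_of_charZero S.x_tr

/-- a non-constant function has a pole. -/
theorem DSC_exists_pole {K F : Type*} [Field K] [Field F] [Algebra K F] (h : RR_Hyp K F) (y : F)
    (hy : ¬ ∃ c : K, y = algebraMap K F c) : ∃ w : Place K F, w.ord y < 0 := by
  by_contra hcon
  apply hy
  rw [← RR_mem_zero_iff h.deg_one h.principal h.nonempty.some]
  intro w
  rw [Finsupp.zero_apply, exp_zero]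
  by_contra hw
  exact hcon ⟨w, w.not_adicValuation_le_one_iff.1 hw⟩

/-- for every place `v` there is a function whose only pole is `v`. -/
theorem DSC_exists_pole_only {K F : Type*} [Field K] [Field F] [Algebra K F] (h : RR_Hyp K F)
    (v : Place K F) : ∃ y : F, v.ord y < 0 ∧ ∀ v' : Place K F, v' ≠ v → 0 ≤ v'.ord y := by
  classical
  set D : Divisor K F := Finsupp.single v ((RR_genus K F : ℤ) + 1) with hD
  have hdeg : D.degree = (RR_genus K F : ℤ) + 1 := by
    rw [hD, Divisor.degree_single, h.deg_one v]
    simp
  have h1 := RR_riemann_ineq h D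
  rw [hdeg] at h1
  have h2 : 2 ≤ Module.finrank K (riemannRochSpace D) := by
    have : (2 : ℤ) ≤ Module.finrank K (riemannRochSpace D) := by linarith
    exact_mod_cast this
  have h3 : ¬ riemannRochSpace D ≤ riemannRochSpace (0 : Divisor K F) := by
    intro hle
    haveI := RR_finite h (0 : Divisor K F)
    have := Submodule.finrank_mono hle
    rw [RR_finrank_zero h.deg_one h.principal h.nonempty.some] at this
    omega
  obtain ⟨y, hy, hy'⟩ := SetLike.not_le_iff_exists.1 h3
  have hother : ∀ v' : Place K F, v' ≠ v → v'.adicValuation y ≤ 1 := by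
    intro v' hv'
    have := hy v'
    rwa [hD, Finsupp.single_apply, if_neg (Ne.symm hv'), exp_zero] at this
  refine ⟨y, ?_, fun v' hv' => ?_⟩
  · by_contra hcon
    apply hy'
    intro v'
    rw [Finsupp.zero_apply, exp_zero]
    by_cases hv' : v' = v
    · subst hv'
      by_contra hw
      exact hcon (v'.not_adicValuation_le_one_iff.1 hw)
    · exact hother v' hv'
  · rcases v'.adicValuation_le_one_iff.1 (hother v' hv') with h0 | h0
    · rw [h0, v'.ord_zero]
    · exact h0

/-- **Extension.** Every place of `E/k` is the restriction of a place of `F/K`, with the same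
orders. -/
theorem DSC_place_ext (S : DSC_Datum k K F E G) (v : Place k E) :
    ∃ w : Place K F, DSC_IsRat E w ∧ ∀ a : E, w.ord (a : F) = v.ord a := by
  obtain ⟨y, hy, hy'⟩ := DSC_exists_pole_only (DSC_rrHyp_E S) v
  have hnc : ¬ ∃ c : K, (y : F) = algebraMap K F c := by
    rintro ⟨c, hc⟩
    have hmem : algebraMap K F c ∈ E := hc ▸ y.2
    obtain ⟨γ, hγ⟩ := DSC_const_mem S hmem
    have h1 : y = algebraMap k E γ := by
      apply Subtype.ext
      rw [hc, ← hγ, ← IsScalarTower.algebraMap_apply k K F]
      rfl
    rw [h1, BL_ord_algebraMap] at hy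
    exact lt_irrefl _ hy
  obtain ⟨w, hw⟩ := DSC_exists_pole (DSC_rrHyp_F S) (y : F) hnc
  have hrat : DSC_IsRat E w := ⟨(y : F), y.2, hw.ne⟩
  obtain ⟨v', hv'⟩ := DSC_place_res S w hrat
  have hvv : v' = v := by
    by_contra hne
    have := hy' v' hne
    rw [← hv' y] at this
    omega
  subst hvv
  exact ⟨w, hrat, hv'⟩

/-- the orders of `a ∈ E` at a place of `F/K` which is not `E`-rational vanish. -/
theorem DSC_ord_eq_zero_of_not_isRat {w : Place K F} (hw : ¬ DSC_IsRat E w) {a : F}
    (ha : a ∈ E) : w.ord a = 0 := by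
  by_contra h
  exact hw ⟨a, ha, h⟩

/-- divisibility of the divisor of `a ∈ E` by `n` is the same over `E/k` and over `F/K`. -/
theorem DSC_dvd_ord_iff (S : DSC_Datum k K F E G) (n : ℤ) (a : E) :
    (∀ v : Place k E, n ∣ v.ord a) ↔ ∀ w : Place K F, n ∣ w.ord (a : F) := by
  constructor
  · intro h w
    by_cases hw : DSC_IsRat E w
    · obtain ⟨v, hv⟩ := DSC_place_res S w hw
      rw [hv a]
      exact h v
    · rw [DSC_ord_eq_zero_of_not_isRat hw a.2]
      exact dvd_zero n
  · intro h v
    obtain ⟨w, -, hw⟩ := DSC_place_ext S v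
    rw [← hw a]
    exact h w

end Fermat.Agent.Lib
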