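import Mathlib
import Fermat.Agent.Lib.DescExt

/-!
# Pillar G, package G5 = DESC, part 4 (helper28): supports on `E`-rational places

For a descent datum `S : DSC_Datum k K F E G` (`k ⊆ K` algebraically closed of characteristic `0`):
* `DSC_exists_isRat` : there is an `E`-rational place;
* `DSC_isRat_smul_iff` : `G` preserves `E`-rationality of places;
* **step 2** `DSC_isRat_of_finite_orbit` : a place with finite `G`-orbit is `E`-rational;
* **step 4** `DSC_eq_const_mul` : a function without zeros and poles outside the `E`-rational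
  places is a constant times an element of `E`;
* `DSC_infinite_isRat` : there are infinitely many `E`-rational places;
* `DSC_inj` : if `f₀ ∈ E` is `c · uⁿ` in `F`, then it is `c' · u'ⁿ` with `c' ∈ k`, `u' ∈ E`.
-/

set_option autoImplicit false
set_option linter.unusedSectionVars false
set_option linter.style.haveILetI false

open AlgebraicCurve IntermediateField WithZero

namespace Fermat.Agent.Lib

open Fermat.Agent.S24

variable {k K F : Type*} [Field k] [Field K] [Field F] [Algebra k K] [Algebra K F]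
  [Algebra k F] [IsScalarTower k K F] {E : IntermediateField k F} {G : Type*} [Group G]

/-- `G` preserves `E`-rationality. -/
theorem DSC_isRat_smul (S : DSC_Datum k K F E G) (g : G) {w : Place K F}
    (hw : DSC_IsRat E w) : DSC_IsRat E (S.act g • w) := by
  obtain ⟨y, hyE, hy⟩ := hw
  refine ⟨y, hyE, ?_⟩
  have h := SemilinearAut.ord_smul (S.act g) w y
  rw [S.fix g y hyE] at h
  rwa [h]

theorem DSC_isRat_smul_iff (S : DSC_Datum k K F E G) (g : G) (w : Place K F) :
    DSC_IsRat E (S.act g • w) ↔ DSC_IsRat E w := by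
  refine ⟨fun h => ?_, DSC_isRat_smul S g⟩
  have := DSC_isRat_smul S g⁻¹ h
  rwa [← mul_smul, ← map_mul, inv_mul_cancel, map_one, one_smul] at this

theorem DSC_val_const_sub_lt_one (w : Place K F) {c : K}
    (h : w.adicValuation (algebraMap K F c) < 1) : c = 0 := by
  by_contra hc
  rw [DSC_val_algebraMap_eq w hc] at h
  exact lt_irrefl _ h

/-- the residue in `K` of an element at a place is unique. -/
theorem DSC_residue_unique (w : Place K F) {z : F} {c c' : K}
    (h : w.adicValuation (z - algebraMap K F c) < 1)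
    (h' : w.adicValuation (z - algebraMap K F c') < 1) : c = c' := by
  have h1 : w.adicValuation (algebraMap K F (c' - c)) < 1 := by
    have : algebraMap K F (c' - c) = (z - algebraMap K F c) - (z - algebraMap K F c') := by
      rw [map_sub]; ring
    rw [this]
    exact lt_of_le_of_lt (Valuation.map_sub _ _ _) (max_lt h h')
  have := DSC_val_const_sub_lt_one w h1
  exact (sub_eq_zero.1 this).symm

theorem DSC_val_lt_one_iff (w : Place K F) {z : F} :
    w.adicValuation z < 1 ↔ z = 0 ∨ 0 < w.ord z := by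
  rcases eq_or_ne z 0 with rfl | hz
  · simp
  · rw [w.adicValuation_eq_exp_neg_ord hz, ← exp_zero, exp_lt_exp, or_iff_right hz]
    omega

theorem DSC_val_eq_one_iff (w : Place K F) {z : F} (hz : z ≠ 0) :
    w.adicValuation z = 1 ↔ w.ord z = 0 := by
  rw [w.adicValuation_eq_exp_neg_ord hz, ← exp_zero, exp_inj]
  omega

/-- the valuation of `g • z` at `g • w`. -/
theorem DSC_val_smul_place (S : DSC_Datum k K F E G) (g : G) (w : Place K F) (z : F) :
    (S.act g • w).adicValuation (S.act g • z) = w.adicValuation z := by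
  rcases eq_or_ne z 0 with rfl | hz
  · simp [S.smul_zero]
  · rw [(S.act g • w).adicValuation_eq_exp_neg_ord (S.smul_ne_zero g hz),
      w.adicValuation_eq_exp_neg_ord hz, SemilinearAut.ord_smul]

theorem DSC_x_sub_ne_zero (S : DSC_Datum k K F E G) (α : k) :
    (S.x : F) - algebraMap k F α ≠ 0 := by
  intro h
  apply S.x_tr
  rw [sub_eq_zero.1 h, IsScalarTower.algebraMap_apply k K F]
  exact isAlgebraic_algebraMap _

section main

variable [IsAlgClosed k] [CharZero k] [IsAlgClosed K]

/-- there is an `E`-rational place. -/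
theorem DSC_exists_isRat (S : DSC_Datum k K F E G) : ∃ w : Place K F, DSC_IsRat E w := by
  classical
  haveI : CharZero K := charZero_of_injective_algebraMap (algebraMap k K).injective
  haveI := S.fin
  have hsum := BG_sum_zeros S.x_tr
  have hpos : 0 < Module.finrank K⟮(S.x : F)⟯ F := Module.finrank_pos
  have hne : (BG_zeros S.x_tr).Nonempty := by
    by_contra h
    rw [Finset.not_nonempty_iff_eq_empty] at h
    rw [h, Finset.sum_empty] at hsum
    have : (0 : ℤ) < (Module.finrank K⟮(S.x : F)⟯ F : ℤ) := by exact_mod_cast hpos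
    omega
  obtain ⟨w, hw⟩ := hne
  rw [BG_mem_zeros] at hw
  exact ⟨w, (S.x : F), S.x.2, hw.ne'⟩

/-- **Step 2.** A place of `F/K` with finite `G`-orbit is `E`-rational. -/
theorem DSC_isRat_of_finite_orbit (S : DSC_Datum k K F E G) (w : Place K F)
    (hfin : (Set.range fun g : G => S.act g • w).Finite) : DSC_IsRat E w := by
  classical
  by_contra hw
  have hx0 : w.ord (S.x : F) = 0 := DSC_ord_eq_zero_of_not_isRat hw S.x.2
  have hx1 : w.adicValuation (S.x : F) ≤ 1 := w.adicValuation_le_one_iff.2 (Or.inr hx0.ge)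
  obtain ⟨c, hc⟩ := RR_exists_const w ((DSC_rrHyp_F S).deg_one w) hx1
  by_cases hck : c ∈ Set.range (algebraMap k K)
  · obtain ⟨α, rfl⟩ := hck
    apply hw
    refine ⟨(S.x : F) - algebraMap k F α, E.sub_mem S.x.2 (E.algebraMap_mem α), ?_⟩
    have hne := DSC_x_sub_ne_zero S α
    rw [← IsScalarTower.algebraMap_apply k K F] at hc
    rcases (DSC_val_lt_one_iff w).1 hc with h | h
    · exact absurd h hne
    · omega
  · have hinf := S.orbit c hck
    apply hinf
    -- the residue of `x` at a place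
    let r : Place K F → K := fun w' =>
      if h : ∃ c' : K, w'.adicValuation ((S.x : F) - algebraMap K F c') < 1 then h.choose else 0
    have hr : ∀ g : G, r (S.act g • w) = SemilinearAut.baseAut (S.act g) c := by
      intro g
      have h1 : (S.act g • w).adicValuation
          ((S.x : F) - algebraMap K F (SemilinearAut.baseAut (S.act g) c)) < 1 := by
        have := DSC_val_smul_place S g w ((S.x : F) - algebraMap K F c)
        rw [S.smul_sub, S.fix g _ S.x.2, S.smul_algebraMap] at this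
        have h2 : S.base g c = SemilinearAut.baseAut (S.act g) c := rfl
        rw [← h2, this]
        exact hc
      have hex : ∃ c' : K,
          (S.act g • w).adicValuation ((S.x : F) - algebraMap K F c') < 1 := ⟨_, h1⟩
      simp only [r, dif_pos hex]
      exact DSC_residue_unique _ hex.choose_spec h1
    refine (hfin.image r).subset ?_
    rintro _ ⟨g, rfl⟩
    exact ⟨S.act g • w, ⟨g, rfl⟩, hr g⟩

/-- there are infinitely many `E`-rational places. -/
theorem DSC_infinite_isRat (S : DSC_Datum k K F E G) :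
    {w : Place K F | DSC_IsRat E w}.Infinite := by
  classical
  have hex : ∀ β : k, ∃ w : Place K F, 0 < w.ord ((S.x : F) - algebraMap k F β) := by
    intro β
    have hne := DSC_x_sub_ne_zero S β
    have hnc : ¬ ∃ c : K, ((S.x : F) - algebraMap k F β)⁻¹ = algebraMap K F c := by
      rintro ⟨c, hc⟩
      apply S.x_tr
      have h1 : (S.x : F) = algebraMap K F (c⁻¹ + algebraMap k K β) := by
        rw [map_add, map_inv₀, ← hc, inv_inv, ← IsScalarTower.algebraMap_apply k K F]
        ring
      rw [h1]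
      exact isAlgebraic_algebraMap _
    obtain ⟨w, hw⟩ := DSC_exists_pole (DSC_rrHyp_F S) _ hnc
    rw [w.ord_inv] at hw
    exact ⟨w, by omega⟩
  choose W hW using hex
  haveI : Infinite k := inferInstance
  refine Set.infinite_of_injective_forall_mem (f := W) ?_ ?_
  · intro β β' h
    by_contra hne
    have h1 : (W β).adicValuation ((S.x : F) - algebraMap k F β) < 1 :=
      (DSC_val_lt_one_iff _).2 (Or.inr (hW β))
    have h2 : (W β).adicValuation ((S.x : F) - algebraMap k F β') < 1 := by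
      rw [h]
      exact (DSC_val_lt_one_iff _).2 (Or.inr (hW β'))
    rw [IsScalarTower.algebraMap_apply k K F] at h1 h2
    have := DSC_residue_unique _ h1 h2
    exact hne ((algebraMap k K).injective this)
  · intro β
    exact ⟨(S.x : F) - algebraMap k F β, E.sub_mem S.x.2 (E.algebraMap_mem β), (hW β).ne'⟩

/-- if `f` has no zeros or poles outside the `E`-rational places, then `g • f` has the same
divisor as `f`. -/
theorem DSC_ord_smul_of_supp (S : DSC_Datum k K F E G) {f : F}
    (hf : ∀ w : Place K F, ¬ DSC_IsRat E w → w.ord f = 0) (g : G) (w : Place K F) :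
    w.ord (S.act g • f) = w.ord f := by
  by_cases hw : DSC_IsRat E w
  · exact DSC_ord_smul S w hw g f
  · have hw' : ¬ DSC_IsRat E (S.act g⁻¹ • w) := fun h => hw ((DSC_isRat_smul_iff S g⁻¹ w).1 h)
    have h1 := SemilinearAut.ord_smul (S.act g) (S.act g⁻¹ • w) f
    rw [← mul_smul, ← map_mul, mul_inv_cancel, map_one, one_smul] at h1
    rw [h1, hf _ hw', hf _ hw]

/-- a function without zeros and poles is constant. -/
theorem DSC_const_of_ord_eq_zero (S : DSC_Datum k K F E G) {f : F} (hf0 : f ≠ 0)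
    (hf : ∀ w : Place K F, w.ord f = 0) : ∃ c : K, c ≠ 0 ∧ f = algebraMap K F c := by
  have hH := DSC_rrHyp_F S
  obtain ⟨w₀⟩ := hH.nonempty
  have hmem : f ∈ riemannRochSpace (0 : Divisor K F) := by
    rw [RR_mem_iff_val]
    intro v
    rw [v.adicValuation_eq_exp_neg_ord hf0, hf v]
    simp
  obtain ⟨c, hc⟩ := (RR_mem_zero_iff hH.deg_one hH.principal w₀).1 hmem
  refine ⟨c, ?_, hc⟩
  rintro rfl
  rw [map_zero] at hc
  exact hf0 hc

/-- a function without zeros and poles outside the `E`-rational places, which is `≡ 1` at some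
`E`-rational place, lies in `E`. -/
theorem DSC_mem_of_supp_of_residue (S : DSC_Datum k K F E G) {f : F} (hf0 : f ≠ 0)
    (hf : ∀ w : Place K F, ¬ DSC_IsRat E w → w.ord f = 0)
    (w₀ : Place K F) (hw₀ : DSC_IsRat E w₀) (h1 : w₀.adicValuation (f - 1) < 1) : f ∈ E := by
  refine DSC_mem_of_fixed S f fun g => ?_
  have hgf0 : S.act g • f ≠ 0 := S.smul_ne_zero g hf0
  have hq0 : S.act g • f / f ≠ 0 := div_ne_zero hgf0 hf0
  have hq : ∀ w : Place K F, w.ord (S.act g • f / f) = 0 := by
    intro w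
    rw [div_eq_mul_inv, w.ord_mul hgf0 (inv_ne_zero hf0), w.ord_inv,
      DSC_ord_smul_of_supp S hf g w]
    ring
  obtain ⟨d, hd0, hd⟩ := DSC_const_of_ord_eq_zero S hq0 hq
  have hgf : S.act g • f = algebraMap K F d * f := by
    rw [← hd]
    field_simp
  -- `g • f ≡ 1` at `w₀`
  have h2 : w₀.adicValuation (S.act g • f - 1) < 1 := by
    have h3 : S.act g • (f - 1) = S.act g • f - 1 := by
      rw [S.smul_sub, smul_one]
    rw [← h3, DSC_val_smul S w₀ hw₀]
    exact h1
  -- so `d = 1`
  have hval1 : w₀.adicValuation f = 1 := by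
    have h4 : f = (f - 1) + 1 := by ring
    rw [h4, Valuation.map_add_eq_of_lt_right _ (by rwa [map_one]), map_one]
  have h5 : w₀.adicValuation (algebraMap K F (d - 1)) < 1 := by
    have h6 : algebraMap K F (d - 1) * f = (S.act g • f - 1) - (f - 1) := by
      rw [hgf, map_sub, map_one]; ring
    have h7 : w₀.adicValuation (algebraMap K F (d - 1) * f) < 1 := by
      rw [h6]
      exact lt_of_le_of_lt (Valuation.map_sub _ _ _) (max_lt h2 h1)
    rwa [map_mul, hval1, mul_one] at h7
  have hd1 : d = 1 := sub_eq_zero.1 (DSC_val_const_sub_lt_one w₀ h5)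
  rw [hgf, hd1, map_one, one_mul]

/-- **Step 4.** A function without zeros and poles outside the `E`-rational places is a constant
times an element of `E`. -/
theorem DSC_eq_const_mul (S : DSC_Datum k K F E G) {f : F} (hf0 : f ≠ 0)
    (hf : ∀ w : Place K F, ¬ DSC_IsRat E w → w.ord f = 0) :
    ∃ (c : K) (f₀ : F), c ≠ 0 ∧ f₀ ∈ E ∧ f₀ ≠ 0 ∧ f = algebraMap K F c * f₀ := by
  obtain ⟨w₀, hw₀⟩ := DSC_exists_isRat S
  obtain ⟨π, hπE, hπ0, hπ⟩ := DSC_exists_unif S w₀ hw₀
  set m : ℤ := w₀.ord f with hm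
  -- `f₁ = f / π ^ m` is a unit at `w₀`
  set f₁ : F := f * (π ^ m)⁻¹ with hf₁
  have hπm0 : π ^ m ≠ 0 := zpow_ne_zero _ hπ0
  have hf₁0 : f₁ ≠ 0 := mul_ne_zero hf0 (inv_ne_zero hπm0)
  have hord1 : w₀.ord f₁ = 0 := by
    rw [hf₁, w₀.ord_mul hf0 (inv_ne_zero hπm0), w₀.ord_inv, w₀.ord_zpow, hπ]
    ring
  have hval1 : w₀.adicValuation f₁ = 1 := (DSC_val_eq_one_iff w₀ hf₁0).2 hord1
  obtain ⟨c, hc⟩ := RR_exists_const w₀ ((DSC_rrHyp_F S).deg_one w₀) hval1.le
  have hc0 : c ≠ 0 := by
    rintro rfl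
    rw [map_zero, sub_zero, hval1] at hc
    exact lt_irrefl _ hc
  have hcF : algebraMap K F c ≠ 0 := by rwa [Ne, map_eq_zero]
  -- `f₂ = f₁ / c ≡ 1` at `w₀`
  set f₂ : F := f₁ * (algebraMap K F c)⁻¹ with hf₂
  have hf₂0 : f₂ ≠ 0 := mul_ne_zero hf₁0 (inv_ne_zero hcF)
  have hres : w₀.adicValuation (f₂ - 1) < 1 := by
    have h1 : f₂ - 1 = (f₁ - algebraMap K F c) * (algebraMap K F c)⁻¹ := by
      rw [hf₂]
      field_simp
    rw [h1, map_mul, map_inv₀, DSC_val_algebraMap_eq w₀ hc0, inv_one, mul_one]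
    exact hc
  have hsupp : ∀ w : Place K F, ¬ DSC_IsRat E w → w.ord f₂ = 0 := by
    intro w hw
    rw [hf₂, w.ord_mul hf₁0 (inv_ne_zero hcF), w.ord_inv, BL_ord_algebraMap, hf₁,
      w.ord_mul hf0 (inv_ne_zero hπm0), w.ord_inv, w.ord_zpow, hf w hw,
      DSC_ord_eq_zero_of_not_isRat hw hπE]
    ring
  have hf₂E : f₂ ∈ E := DSC_mem_of_supp_of_residue S hf₂0 hsupp w₀ hw₀ hres
  refine ⟨c, f₂ * π ^ m, hc0, E.mul_mem hf₂E (zpow_mem hπE m), mul_ne_zero hf₂0 hπm0, ?_⟩
  rw [hf₂, hf₁]
  field_simp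

/-- **Injectivity of descent on Kummer classes**: if `f₀ ∈ E` is `c · uⁿ` in `F` (`c ∈ K`), then
`f₀ = c' · u'ⁿ` with `c' ∈ k` and `u' ∈ E`. -/
theorem DSC_inj (S : DSC_Datum k K F E G) (n : ℕ) (hn : 0 < n) (f₀ : E) (hf₀ : f₀ ≠ 0)
    (c : K) (u : F) (h : (f₀ : F) = algebraMap K F c * u ^ n) :
    ∃ (c' : k) (u' : E), c' ≠ 0 ∧ u' ≠ 0 ∧ f₀ = algebraMap k E c' * u' ^ n := by
  have hf₀F : (f₀ : F) ≠ 0 := fun h0 => hf₀ (Subtype.ext h0)
  have hc0 : c ≠ 0 := by
    rintro rfl
    rw [map_zero, zero_mul] at h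
    exact hf₀F h
  have hcF : algebraMap K F c ≠ 0 := by rwa [Ne, map_eq_zero]
  have hu0 : u ≠ 0 := by
    rintro rfl
    rw [zero_pow hn.ne', mul_zero] at h
    exact hf₀F h
  have hsupp : ∀ w : Place K F, ¬ DSC_IsRat E w → w.ord u = 0 := by
    intro w hw
    have h1 : w.ord (f₀ : F) = 0 := DSC_ord_eq_zero_of_not_isRat hw f₀.2
    rw [h, w.ord_mul hcF (pow_ne_zero n hu0), BL_ord_algebraMap, zero_add,
      ← zpow_natCast, w.ord_zpow] at h1
    have hn' : (n : ℤ) ≠ 0 := by exact_mod_cast hn.ne'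
    exact (mul_eq_zero.1 h1).resolve_left hn'
  obtain ⟨d, u₁, hd0, hu₁E, hu₁0, hu⟩ := DSC_eq_const_mul S hu0 hsupp
  have he : algebraMap K F (c * d ^ n) = (f₀ : F) * (u₁ ^ n)⁻¹ := by
    rw [h, hu, map_mul, map_pow, mul_pow]
    field_simp
  have hmem : algebraMap K F (c * d ^ n) ∈ E := by
    rw [he]
    exact E.mul_mem f₀.2 (E.inv_mem (pow_mem hu₁E n))
  obtain ⟨c', hc'⟩ := DSC_const_mem S hmem
  refine ⟨c', ⟨u₁, hu₁E⟩, ?_, fun h0 => hu₁0 (congrArg Subtype.val h0), ?_⟩
  · rintro rfl
    rw [map_zero] at hc'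
    exact mul_ne_zero hc0 (pow_ne_zero n hd0) hc'.symm
  · apply Subtype.ext
    show (f₀ : F) = algebraMap k F c' * u₁ ^ n
    rw [IsScalarTower.algebraMap_apply k K F, hc', he]
    field_simp

end main

end Fermat.Agent.Lib
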