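import Mathlib
import Fermat.Agent.Lib.DescRat

/-!
# Pillar G, package G5 = DESC, part 6: the main theorem

`DSC_main` : for a descent datum `S : DSC_Datum k K F E G` (`k ⊆ K` algebraically closed of
characteristic `0`) and `f ∈ F` with `n ∣ div f` whose `G`-orbit meets only finitely many classes
modulo `K^× · F^{× n}`, there are `f₀ ∈ E` with `n ∣ div f₀` (over `E/k`), `c ∈ K^×`, `u ∈ F^×`
with `f = c · uⁿ · f₀`.
-/

set_option autoImplicit false
set_option linter.unusedSectionVars false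
set_option linter.style.haveILetI false

open AlgebraicCurve IntermediateField WithZero

namespace Fermat.Agent.Lib

open Fermat.Agent.S24

section Generic

variable {K F : Type*} [Field K] [Field F] [Algebra K F]

theorem DSC_mem_rr_iff {A : Divisor K F} {h : F} (hh : h ≠ 0) :
    h ∈ riemannRochSpace A ↔ ∀ w : Place K F, 0 ≤ w.ord h + A w := by
  rw [mem_riemannRochSpace_iff]
  refine forall_congr' fun w => ?_
  rw [or_iff_right hh]
  constructor <;> intro h <;> linarith

/-- the effective divisor `div h + A` has finite support. -/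
theorem DSC_finite_ne_zero (hP : HasPrincipalDivisors K F) (A : Divisor K F) (h : F) :
    {w : Place K F | w.ord h + A w ≠ 0}.Finite := by
  refine Set.Finite.subset (RR_div hP h + A).support.finite_toSet ?_
  intro w hw
  rw [Finset.mem_coe, Finsupp.mem_support_iff, Finsupp.add_apply, RR_div_apply]
  exact hw

/-- lowering the dimension of `L(A)` by one, by subtracting a place of an infinite set `I`. -/
theorem DSC_exists_finrank_pred (hR : RR_Hyp K F) (I : Set (Place K F)) (hI : I.Infinite)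
    (A : Divisor K F) (d : ℕ) (hA : Module.finrank K (riemannRochSpace A) = d + 2) :
    ∃ Q ∈ I, Module.finrank K (riemannRochSpace (A - Finsupp.single Q 1)) = d + 1 := by
  classical
  obtain ⟨h, hh0, hh⟩ := RR_exists_ne_zero_of_finrank_pos (D := A) (by omega)
  obtain ⟨Q, hQI, hQ⟩ := (hI.sdiff (DSC_finite_ne_zero hR.principal A h)).nonempty
  have hQ0 : Q.ord h + A Q = 0 := by
    by_contra hne
    exact hQ hne
  refine ⟨Q, hQI, ?_⟩
  set A' : Divisor K F := A - Finsupp.single Q 1 with hA'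
  have hAA' : A' + Finsupp.single Q 1 = A := sub_add_cancel _ _
  have hfin' := RR_finite hR A'
  have hfinA := RR_finite hR A
  have h1 := (RR_finite_add_single Q (hR.deg_one Q) A' hfin').2
  rw [hAA', hA] at h1
  have hnot : h ∉ riemannRochSpace A' := by
    intro hmem
    have := (DSC_mem_rr_iff hh0).1 hmem Q
    rw [hA', Finsupp.sub_apply, Finsupp.single_apply, if_pos rfl] at this
    omega
  have hle : riemannRochSpace A' ≤ riemannRochSpace A := by
    rw [← hAA']
    refine RR_mono (le_add_of_nonneg_right ?_)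
    have := RR_single_nonneg (K := K) Q 1
    rwa [Nat.cast_one] at this
  have hlt : riemannRochSpace A' < riemannRochSpace A :=
    lt_of_le_of_ne hle fun heq => hnot (heq ▸ hh)
  have h2 := Submodule.finrank_lt_finrank_of_lt hlt
  rw [hA] at h2
  omega

/-- **Normalisation of a divisor class of degree `0`**: adding a divisor supported on a given
infinite set of places one can make `L(D + R)` one-dimensional. -/
theorem DSC_exists_finrank_one (hR : RR_Hyp K F) (I : Set (Place K F)) (hI : I.Infinite)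
    (D : Divisor K F) (hD : D.degree = 0) :
    ∃ R : Divisor K F, (∀ w, R w ≠ 0 → w ∈ I) ∧
      Module.finrank K (riemannRochSpace (D + R)) = 1 := by
  classical
  have key : ∀ (d : ℕ) (R : Divisor K F), (∀ w, R w ≠ 0 → w ∈ I) →
      Module.finrank K (riemannRochSpace (D + R)) = d + 1 →
      ∃ R : Divisor K F, (∀ w, R w ≠ 0 → w ∈ I) ∧
        Module.finrank K (riemannRochSpace (D + R)) = 1 := by
    intro d
    induction d with
    | zero => intro R hRI hfr; exact ⟨R, hRI, hfr⟩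
    | succ d ih =>
      intro R hRI hfr
      obtain ⟨Q, hQI, hQ⟩ := DSC_exists_finrank_pred hR I hI (D + R) d hfr
      refine ih (R - Finsupp.single Q 1) ?_ ?_
      · intro w hw
        by_cases hwQ : w = Q
        · rw [hwQ]; exact hQI
        · apply hRI
          rwa [Finsupp.sub_apply, Finsupp.single_apply, if_neg (Ne.symm hwQ), sub_zero] at hw
      · rwa [← add_sub_assoc]
  obtain ⟨P, hP⟩ := hI.nonempty
  set R₀ : Divisor K F := Finsupp.single P (RR_genus K F : ℤ) with hR₀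
  have hdeg : (D + R₀).degree = (RR_genus K F : ℤ) := by
    rw [map_add, hD, hR₀, Divisor.degree_single, hR.deg_one P]
    simp
  have h1 := RR_riemann_ineq hR (D + R₀)
  rw [hdeg] at h1
  have h2 : 1 ≤ Module.finrank K (riemannRochSpace (D + R₀)) := by
    have : (1 : ℤ) ≤ Module.finrank K (riemannRochSpace (D + R₀)) := by linarith
    exact_mod_cast this
  refine key (Module.finrank K (riemannRochSpace (D + R₀)) - 1) R₀ ?_ (by omega)
  intro w hw
  rw [hR₀, Finsupp.single_apply] at hw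
  by_cases hwP : P = w
  · rw [← hwP]; exact hP
  · rw [if_neg hwP] at hw
    exact absurd rfl hw

/-- the divisor `div f / n`. -/
theorem DSC_exists_div_quot (hP : HasPrincipalDivisors K F) (n : ℕ) (hn : 0 < n) (f : F)
    (hf : ∀ w : Place K F, (n : ℤ) ∣ w.ord f) :
    ∃ D : Divisor K F, D.degree = 0 ∧ ∀ w : Place K F, (n : ℤ) * D w = w.ord f := by
  classical
  have hn0 : (n : ℤ) ≠ 0 := by exact_mod_cast hn.ne'
  refine ⟨(RR_div hP f).mapRange (fun m => m / (n : ℤ)) (by simp), ?_, ?_⟩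
  · have h1 : (n : ℤ) • (RR_div hP f).mapRange (fun m => m / (n : ℤ)) (by simp) = RR_div hP f := by
      ext w
      rw [Finsupp.smul_apply, Finsupp.mapRange_apply, RR_div_apply, smul_eq_mul,
        Int.mul_ediv_cancel' (hf w)]
    have h2 := congrArg Divisor.degree h1
    rw [map_zsmul, RR_div_degree, smul_eq_mul] at h2
    rcases mul_eq_zero.1 h2 with h3 | h3
    · exact absurd h3 hn0
    · exact h3
  · intro w
    rw [Finsupp.mapRange_apply, RR_div_apply, Int.mul_ediv_cancel' (hf w)]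

end Generic

section Main

variable {k K F : Type*} [Field k] [Field K] [Field F] [Algebra k K] [Algebra K F]
  [Algebra k F] [IsScalarTower k K F] {E : IntermediateField k F} {G : Type*} [Group G]
  [IsAlgClosed k] [CharZero k] [IsAlgClosed K]

/-- a divisor supported on `E`-rational places is `G`-invariant. -/
theorem DSC_div_smul (S : DSC_Datum k K F E G) (R : Divisor K F)
    (hR : ∀ w, R w ≠ 0 → DSC_IsRat E w) (g : G) (w : Place K F) :
    R (S.act g • w) = R w := by
  by_cases hw : DSC_IsRat E w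
  · rw [DSC_smul_place S w hw g]
  · have h1 : R w = 0 := by
      by_contra h
      exact hw (hR w h)
    have h2 : R (S.act g • w) = 0 := by
      by_contra h
      exact hw ((DSC_isRat_smul_iff S g w).1 (hR _ h))
    rw [h1, h2]

/-- the order of `c · uⁿ · f`. -/
theorem DSC_ord_kummer_mul (w : Place K F) (n : ℕ) {c : K} {u f : F} (hc : c ≠ 0) (hu : u ≠ 0)
    (hf : f ≠ 0) : w.ord (algebraMap K F c * u ^ n * f) = n * w.ord u + w.ord f := by
  have hcF : algebraMap K F c ≠ 0 := by rwa [Ne, map_eq_zero]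
  have hun : u ^ n ≠ 0 := pow_ne_zero _ hu
  rw [w.ord_mul (mul_ne_zero hcF hun) hf, w.ord_mul hcF hun, BL_ord_algebraMap, zero_add,
    ← zpow_natCast, w.ord_zpow]

/-- **Invariance of the effective divisor** `div h + D + R` (where `n D = div f`, `R` is
`E`-rational and `L(D + R) = K h`) under those `τ ∈ G` which fix the Kummer class of `f`. -/
theorem DSC_eff_smul (S : DSC_Datum k K F E G) (n : ℕ) (hn : 0 < n) {f : F} (hf0 : f ≠ 0)
    (D R : Divisor K F) (hD : ∀ w, (n : ℤ) * D w = w.ord f)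
    (hR : ∀ w, R w ≠ 0 → DSC_IsRat E w) {h : F} (hh0 : h ≠ 0)
    (hh : h ∈ riemannRochSpace (D + R))
    (hone : ∀ h' ∈ riemannRochSpace (D + R), ∃ c : K, h' = algebraMap K F c * h)
    (τ : G) (c : K) (u : F) (hc : c ≠ 0) (hu : u ≠ 0)
    (hτ : S.act τ • f = algebraMap K F c * u ^ n * f) (w : Place K F) :
    (S.act τ • w).ord h + (D + R) (S.act τ • w) = w.ord h + (D + R) w := by
  have hn0 : (n : ℤ) ≠ 0 := by exact_mod_cast hn.ne'
  have c2 : ∀ w : Place K F, D (S.act τ • w) + (S.act τ • w).ord u = D w := by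
    intro w
    have h1 := SemilinearAut.ord_smul (S.act τ) w f
    rw [hτ, DSC_ord_kummer_mul _ n hc hu hf0, ← hD, ← hD] at h1
    apply mul_left_cancel₀ hn0
    rw [← h1]
    ring
  have hτh0 : S.act τ • h ≠ 0 := S.smul_ne_zero τ hh0
  have huh0 : u * S.act τ • h ≠ 0 := mul_ne_zero hu hτh0
  have hnonneg := (DSC_mem_rr_iff hh0).1 hh
  have c3 : u * S.act τ • h ∈ riemannRochSpace (D + R) := by
    rw [DSC_mem_rr_iff huh0]
    intro w'
    set w₁ : Place K F := (S.act τ)⁻¹ • w' with hw₁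
    have hw' : S.act τ • w₁ = w' := by
      rw [hw₁, ← mul_smul, mul_inv_cancel, one_smul]
    have h1 := SemilinearAut.ord_smul (S.act τ) w₁ h
    rw [hw'] at h1
    have h2 := c2 w₁
    rw [hw'] at h2
    have h3 := DSC_div_smul S R hR τ w₁
    rw [hw'] at h3
    have h4 := hnonneg w₁
    rw [Finsupp.add_apply] at h4 ⊢
    rw [w'.ord_mul hu hτh0, h1, h3]
    linarith
  obtain ⟨c₂, hc₂⟩ := hone _ c3
  have hc₂0 : c₂ ≠ 0 := by
    rintro rfl
    rw [map_zero, zero_mul] at hc₂
    exact huh0 hc₂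
  have hc₂F : algebraMap K F c₂ ≠ 0 := by rwa [Ne, map_eq_zero]
  have c5 : (S.act τ • w).ord h = (S.act τ • w).ord u + w.ord h := by
    have h1 : (S.act τ • w).ord (u * S.act τ • h) = (S.act τ • w).ord h := by
      rw [hc₂, (S.act τ • w).ord_mul hc₂F hh0, BL_ord_algebraMap, zero_add]
    rw [← h1, (S.act τ • w).ord_mul hu hτh0, SemilinearAut.ord_smul]
  have h2 := c2 w
  have h3 := DSC_div_smul S R hR τ w
  rw [Finsupp.add_apply, Finsupp.add_apply, c5, h3]
  linarith

/-- **DESC, abstract main theorem.** -/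
theorem DSC_main (S : DSC_Datum k K F E G) (n : ℕ) (hn : 0 < n) (f : F) (hf0 : f ≠ 0)
    (hf : ∀ w : Place K F, (n : ℤ) ∣ w.ord f)
    (hfin : ∃ T : Finset G, ∀ σ : G, ∃ σ₀ ∈ T, ∃ (c : K) (u : F), c ≠ 0 ∧ u ≠ 0 ∧
      S.act σ • f = algebraMap K F c * u ^ n * (S.act σ₀ • f)) :
    ∃ (f₀ : E) (c : K) (u : F), c ≠ 0 ∧ u ≠ 0 ∧ f₀ ≠ 0 ∧
      (∀ v : Place k E, (n : ℤ) ∣ v.ord f₀) ∧
      f = algebraMap K F c * u ^ n * (f₀ : F) := by
  classical
  have hRR := DSC_rrHyp_F S
  have hn0 : (n : ℤ) ≠ 0 := by exact_mod_cast hn.ne'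
  obtain ⟨D, hDdeg, hD⟩ := DSC_exists_div_quot hRR.principal n hn f hf
  obtain ⟨R, hRI, hfr⟩ := DSC_exists_finrank_one hRR {w | DSC_IsRat E w}
    (DSC_infinite_isRat S) D hDdeg
  obtain ⟨h, hh0, hh⟩ := RR_exists_ne_zero_of_finrank_pos (D := D + R) (by omega)
  have hone : ∀ h' ∈ riemannRochSpace (D + R), ∃ c : K, h' = algebraMap K F c * h := by
    intro h' hh'
    have hnz : (⟨h, hh⟩ : riemannRochSpace (D + R)) ≠ 0 := fun h0 => hh0 (congrArg Subtype.val h0)
    obtain ⟨c, hc⟩ := (finrank_eq_one_iff_of_nonzero' _ hnz).1 hfr ⟨h', hh'⟩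
    refine ⟨c, ?_⟩
    have := congrArg Subtype.val hc
    simp only [Submodule.coe_smul] at this
    rw [← this, Algebra.smul_def]
  have hnonneg := (DSC_mem_rr_iff hh0).1 hh
  have hT₀ : {w : Place K F | w.ord h + (D + R) w ≠ 0}.Finite :=
    DSC_finite_ne_zero hRR.principal (D + R) h
  -- the support of the effective divisor is `E`-rational
  have hsuppE : ∀ w : Place K F, w.ord h + (D + R) w ≠ 0 → DSC_IsRat E w := by
    intro w hw
    apply DSC_isRat_of_finite_orbit S w
    obtain ⟨T, hT⟩ := hfin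
    refine Set.Finite.subset (Set.Finite.biUnion T.finite_toSet
      fun σ₀ _ => hT₀.image fun w' => S.act σ₀ • w') ?_
    rintro _ ⟨σ, rfl⟩
    obtain ⟨σ₀, hσ₀, c, u, hc, hu, hσ⟩ := hT σ
    rw [Set.mem_iUnion₂]
    refine ⟨σ₀, hσ₀, S.act (σ₀⁻¹ * σ) • w, ?_, ?_⟩
    · have hτ : S.act (σ₀⁻¹ * σ) • f
          = algebraMap K F (S.base σ₀⁻¹ c) * (S.act σ₀⁻¹ • u) ^ n * f := by
        rw [map_mul, mul_smul, hσ, S.smul_mul, S.smul_mul, S.smul_algebraMap, smul_pow',
          ← mul_smul, ← map_mul, inv_mul_cancel, map_one, one_smul]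
      have hc' : S.base σ₀⁻¹ c ≠ 0 := by
        rw [Ne, map_eq_zero]; exact hc
      have := DSC_eff_smul S n hn hf0 D R hD hRI hh0 hh hone (σ₀⁻¹ * σ) _ _ hc'
        (S.smul_ne_zero σ₀⁻¹ hu) hτ w
      show (S.act (σ₀⁻¹ * σ) • w).ord h + (D + R) (S.act (σ₀⁻¹ * σ) • w) ≠ 0
      rw [this]
      exact hw
    · show S.act σ₀ • S.act (σ₀⁻¹ * σ) • w = S.act σ • w
      rw [← mul_smul, ← map_mul, mul_inv_cancel_left]
  -- the function `f hⁿ` has `E`-rational divisor
  have hhn0 : h ^ n ≠ 0 := pow_ne_zero _ hh0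
  have hf'0 : f * h ^ n ≠ 0 := mul_ne_zero hf0 hhn0
  have hord' : ∀ w : Place K F, w.ord (f * h ^ n) = n * (D w + w.ord h) := by
    intro w
    rw [w.ord_mul hf0 hhn0, ← zpow_natCast, w.ord_zpow, ← hD]
    ring
  have hsupp : ∀ w : Place K F, ¬ DSC_IsRat E w → w.ord (f * h ^ n) = 0 := by
    intro w hw
    have h1 : w.ord h + (D + R) w = 0 := by
      by_contra hne
      exact hw (hsuppE w hne)
    have h2 : R w = 0 := by
      by_contra hne
      exact hw (hRI w hne)
    rw [Finsupp.add_apply, h2, add_zero] at h1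
    rw [hord', add_comm, h1, mul_zero]
  obtain ⟨c, f₀, hc0, hf₀E, hf₀0, hff⟩ := DSC_eq_const_mul S hf'0 hsupp
  have hcF : algebraMap K F c ≠ 0 := by rwa [Ne, map_eq_zero]
  refine ⟨⟨f₀, hf₀E⟩, c, h⁻¹, hc0, inv_ne_zero hh0, fun h0 => hf₀0 (congrArg Subtype.val h0),
    ?_, ?_⟩
  · rw [DSC_dvd_ord_iff S (n : ℤ) ⟨f₀, hf₀E⟩]
    intro w
    show (n : ℤ) ∣ w.ord f₀
    have h1 := hord' w
    rw [hff, w.ord_mul hcF hf₀0, BL_ord_algebraMap, zero_add] at h1
    rw [h1]
    exact dvd_mul_right _ _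
  · show f = algebraMap K F c * h⁻¹ ^ n * f₀
    rw [inv_pow]
    field_simp
    exact hff

/-- conjugates of Kummer generators are Kummer generators. -/
theorem DSC_dvd_ord_smul (S : DSC_Datum k K F E G) (n : ℤ) {f : F}
    (hf : ∀ w : Place K F, n ∣ w.ord f) (g : G) (w : Place K F) : n ∣ w.ord (S.act g • f) := by
  have h := SemilinearAut.ord_smul (S.act g) ((S.act g)⁻¹ • w) f
  rw [← mul_smul, mul_inv_cancel, one_smul] at h
  rw [h]
  exact hf _

/-- **DESC, abstract main theorem**, with the finiteness given by a class map `κ` into a finite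
set which separates the classes of Kummer generators modulo `K^× · F^{× n}`. -/
theorem DSC_main_kappa (S : DSC_Datum k K F E G) (n : ℕ) (hn : 0 < n) {X : Type*} [Finite X]
    (κ : F → X)
    (hκ : ∀ f₁ f₂ : F, f₁ ≠ 0 → (∀ w : Place K F, (n : ℤ) ∣ w.ord f₁) →
      f₂ ≠ 0 → (∀ w : Place K F, (n : ℤ) ∣ w.ord f₂) → κ f₁ = κ f₂ →
      ∃ (c : K) (u : F), c ≠ 0 ∧ u ≠ 0 ∧ f₂ = algebraMap K F c * u ^ n * f₁)
    (f : F) (hf0 : f ≠ 0) (hf : ∀ w : Place K F, (n : ℤ) ∣ w.ord f) :
    ∃ (f₀ : E) (c : K) (u : F), c ≠ 0 ∧ u ≠ 0 ∧ f₀ ≠ 0 ∧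
      (∀ v : Place k E, (n : ℤ) ∣ v.ord f₀) ∧
      f = algebraMap K F c * u ^ n * (f₀ : F) := by
  classical
  refine DSC_main S n hn f hf0 hf ?_
  haveI : Fintype X := Fintype.ofFinite X
  let rep : X → G := fun ξ =>
    if h : ∃ σ : G, κ (S.act σ • f) = ξ then h.choose else 1
  refine ⟨Finset.univ.image rep, fun σ => ?_⟩
  have hex : ∃ σ' : G, κ (S.act σ' • f) = κ (S.act σ • f) := ⟨σ, rfl⟩
  have hrep : κ (S.act (rep (κ (S.act σ • f))) • f) = κ (S.act σ • f) := by
    show κ (S.act (if h : ∃ σ' : G, κ (S.act σ' • f) = κ (S.act σ • f) then h.choose else 1) • f)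
      = _
    rw [dif_pos hex]
    exact hex.choose_spec
  refine ⟨rep (κ (S.act σ • f)), Finset.mem_image_of_mem _ (Finset.mem_univ _), ?_⟩
  exact hκ _ _ (S.smul_ne_zero _ hf0) (DSC_dvd_ord_smul S n hf _) (S.smul_ne_zero _ hf0)
    (DSC_dvd_ord_smul S n hf _) hrep

end Main

end Fermat.Agent.Lib
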