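import Mathlib

/-!
# Package SEMI (Deuring), part 1 (helper25): linear algebra over a valuation ring

`A ⊂ K` a valuation subring, `res : A → k` its residue map.  For a `K`-subspace `U` of `ι → K`
(`ι` finite) let `DU_laRed U ⊂ ι → k` be the set of the coordinatewise reductions of the vectors
of `U` with coordinates in `A`.  Then `dim_k (DU_laRed U) = dim_K U`
(a saturated submodule of `A^ι` is a direct summand; proof by elimination, no discreteness and no
completeness is needed).
-/

set_option autoImplicit false

namespace Fermat.Agent.Lib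

section Scaling

variable {K : Type*} [Field K] (A : ValuationSubring K)

/-- among finitely many elements of `K`, not all zero, one divides all the others in `A`. -/
theorem DU_exists_max {ι : Type*} (s : Finset ι) (c : ι → K) (h : ∃ i ∈ s, c i ≠ 0) :
    ∃ i₀ ∈ s, c i₀ ≠ 0 ∧ ∀ i ∈ s, c i / c i₀ ∈ A := by
  classical
  obtain ⟨j, hj, hcj⟩ := h
  have hne : s.Nonempty := ⟨j, hj⟩
  obtain ⟨i₀, hi₀, hmax⟩ := Finset.exists_max_image s (fun i => A.valuation (c i)) hne
  have h0 : c i₀ ≠ 0 := by
    intro h0
    have h1 := hmax j hj
    rw [h0, map_zero] at h1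
    have h2 : A.valuation (c j) = 0 := le_antisymm h1 zero_le
    exact hcj ((map_eq_zero _).mp h2)
  refine ⟨i₀, hi₀, h0, fun i hi => ?_⟩
  rw [← A.valuation_le_one_iff, map_div₀]
  have hv0 : A.valuation (c i₀) ≠ 0 := (map_ne_zero _).mpr h0
  exact (div_le_one₀ (zero_lt_iff.mpr hv0)).mpr (hmax i hi)

end Scaling

section LA

variable {K k : Type*} [Field K] [Field k] (A : ValuationSubring K) (res : A →+* k)
  {ι : Type*}

/-- the reductions of the integral vectors of `U` -/
def DU_laRed (hsurj : Function.Surjective res) (U : Submodule K (ι → K)) :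
    Submodule k (ι → k) where
  carrier := {c | ∃ a : ι → A, (fun i => ((a i : A) : K)) ∈ U ∧ c = fun i => res (a i)}
  zero_mem' := ⟨fun _ => 0, by
    have : (fun _ : ι => (((0 : A) : A) : K)) = 0 := by
      funext i; simp
    rw [this]; exact U.zero_mem, by funext i; simp⟩
  add_mem' := by
    rintro c d ⟨a, ha, rfl⟩ ⟨b, hb, rfl⟩
    refine ⟨fun i => a i + b i, ?_, by funext i; simp⟩
    have : (fun i => (((a i + b i : A)) : K)) =
        (fun i => ((a i : A) : K)) + (fun i => ((b i : A) : K)) := by
      funext i; simp
    rw [this]; exact U.add_mem ha hb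
  smul_mem' := by
    rintro t c ⟨a, ha, rfl⟩
    obtain ⟨τ, rfl⟩ := hsurj t
    refine ⟨fun i => τ * a i, ?_, by funext i; simp⟩
    have : (fun i => (((τ * a i : A)) : K)) = (τ : K) • (fun i => ((a i : A) : K)) := by
      funext i; simp
    rw [this]; exact U.smul_mem _ ha

variable {A res}

theorem DU_mem_laRed {hsurj : Function.Surjective res} {U : Submodule K (ι → K)}
    {c : ι → k} : c ∈ DU_laRed A res hsurj U ↔
      ∃ a : ι → A, (fun i => ((a i : A) : K)) ∈ U ∧ c = fun i => res (a i) := Iff.rfl

theorem DU_laRed_mono {hsurj : Function.Surjective res} {U U' : Submodule K (ι → K)}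
    (h : U ≤ U') : DU_laRed A res hsurj U ≤ DU_laRed A res hsurj U' := by
  rintro c ⟨a, ha, rfl⟩
  exact ⟨a, h ha, rfl⟩

variable [Finite ι]

/-- the easy inequality, by elimination. -/
theorem DU_la_ge (hsurj : Function.Surjective res) :
    ∀ (d : ℕ) (U : Submodule K (ι → K)), Module.finrank K U = d →
      d ≤ Module.finrank k (DU_laRed A res hsurj U) := by
  classical
  have := Fintype.ofFinite ι
  intro d
  induction d with
  | zero => intro U _; exact Nat.zero_le _
  | succ d ih =>
    intro U hU
    -- a nonzero vector of `U`
    have hUne : U ≠ ⊥ := by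
      intro h
      rw [h, finrank_bot] at hU
      omega
    obtain ⟨u, huU, hu0⟩ := Submodule.exists_mem_ne_zero_of_ne_bot hUne
    have hex : ∃ i ∈ (Finset.univ : Finset ι), u i ≠ 0 := by
      by_contra hcon
      push Not at hcon
      exact hu0 (funext fun i => hcon i (Finset.mem_univ i))
    obtain ⟨i₀, -, hi₀, hdiv⟩ := DU_exists_max A Finset.univ u hex
    -- normalised vector
    let a : ι → A := fun i => ⟨u i / u i₀, hdiv i (Finset.mem_univ i)⟩
    have haU : (fun i => ((a i : A) : K)) ∈ U := by
      have : (fun i => ((a i : A) : K)) = (u i₀)⁻¹ • u := by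
        funext i
        simp [a, div_eq_inv_mul]
      rw [this]
      exact U.smul_mem _ huU
    have hai₀ : a i₀ = 1 := by
      apply Subtype.ext
      simp [a, div_self hi₀]
    -- the hyperplane section
    let φ : (ι → K) →ₗ[K] K := LinearMap.proj i₀
    let U' : Submodule K (ι → K) := U ⊓ LinearMap.ker φ
    have hU'le : U' ≤ U := inf_le_left
    -- dimension of U'
    have hdim : Module.finrank K U' = d := by
      let ψ : U →ₗ[K] K := φ.comp U.subtype
      have hψsurj : Function.Surjective ψ := by
        intro t
        refine ⟨⟨t • (fun i => ((a i : A) : K)), U.smul_mem _ haU⟩, ?_⟩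
        simp [ψ, φ, hai₀]
      have h1 := LinearMap.finrank_range_add_finrank_ker ψ
      rw [LinearMap.range_eq_top.mpr hψsurj, finrank_top, Module.finrank_self, hU] at h1
      have h2 : Module.finrank K (LinearMap.ker ψ) = Module.finrank K U' := by
        have e : LinearMap.ker ψ ≃ₗ[K] U' :=
          { toFun := fun v => ⟨(v.1 : ι → K), ⟨v.1.2,
              LinearMap.mem_ker.mpr (LinearMap.mem_ker.mp v.2)⟩⟩
            invFun := fun w => ⟨⟨(w : ι → K), w.2.1⟩,
              LinearMap.mem_ker.mpr (LinearMap.mem_ker.mp w.2.2)⟩
            map_add' := fun _ _ => rfl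
            map_smul' := fun _ _ => rfl
            left_inv := fun _ => rfl
            right_inv := fun _ => rfl }
        exact e.finrank_eq
      omega
    have hih := ih U' hdim
    -- the reduction of `a` is not in the reduction of `U'`
    set R' := DU_laRed A res hsurj U' with hR'
    set R := DU_laRed A res hsurj U with hR
    have hR'R : R' ≤ R := DU_laRed_mono hU'le
    let abar : ι → k := fun i => res (a i)
    have habarR : abar ∈ R := ⟨a, haU, rfl⟩
    have habar : abar ∉ R' := by
      rintro ⟨b, hb, hbeq⟩
      have h1 : ((b i₀ : A) : K) = 0 := by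
        have := hb.2
        simpa [φ] using this
      have h2 : b i₀ = 0 := Subtype.ext h1
      have h3 := congrFun hbeq i₀
      simp only [abar, hai₀, h2, map_one, map_zero] at h3
      exact one_ne_zero h3
    have hlt : R' < R := lt_of_le_of_ne hR'R (fun h => habar (h ▸ habarR))
    have := Submodule.finrank_lt_finrank_of_lt hlt
    omega

/-- the other inequality: independent reductions have independent lifts. -/
theorem DU_la_le (hsurj : Function.Surjective res) (U : Submodule K (ι → K)) :
    Module.finrank k (DU_laRed A res hsurj U) ≤ Module.finrank K U := by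
  classical
  have := Fintype.ofFinite ι
  set R := DU_laRed A res hsurj U with hR
  let b := Module.finBasis k R
  -- lifts
  have hlift : ∀ l, ∃ a : ι → A, (fun i => ((a i : A) : K)) ∈ U ∧
      ((b l : R) : ι → k) = fun i => res (a i) := fun l => (b l).2
  choose a haU ha using hlift
  let v : Fin (Module.finrank k R) → U := fun l => ⟨fun i => ((a l i : A) : K), haU l⟩
  have hli : LinearIndependent K v := by
    rw [Fintype.linearIndependent_iff]
    intro g hg
    by_contra hcon
    push Not at hcon
    obtain ⟨l₁, hl₁⟩ := hcon
    obtain ⟨l₀, -, hl₀, hdiv⟩ := DU_exists_max A Finset.univ g ⟨l₁, Finset.mem_univ _, hl₁⟩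
    let μ : Fin (Module.finrank k R) → A := fun l => ⟨g l / g l₀, hdiv l (Finset.mem_univ l)⟩
    have hμ₀ : μ l₀ = 1 := Subtype.ext (by simp [μ, div_self hl₀])
    -- the relation with coefficients `μ`
    have hrel : ∀ i, ∑ l, μ l * a l i = 0 := by
      intro i
      apply Subtype.ext
      have h1 : (∑ l, g l • v l : U) = 0 := hg
      have h2 := congrArg (fun w : U => (w : ι → K) i) h1
      simp only [Submodule.coe_sum, Submodule.coe_smul, Finset.sum_apply, Pi.smul_apply,
        smul_eq_mul, ZeroMemClass.coe_zero, Pi.zero_apply, v] at h2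
      have h3 : (((∑ l, μ l * a l i : A)) : K) = (g l₀)⁻¹ * ∑ l, g l * ((a l i : A) : K) := by
        rw [Finset.mul_sum]
        push_cast
        refine Finset.sum_congr rfl fun l _ => ?_
        simp only [μ]
        field_simp
      rw [h3, h2, mul_zero]
      rfl
    -- reduce
    have hred : ∑ l, res (μ l) • (b l : R) = 0 := by
      apply Subtype.ext
      funext i
      have h1 := congrArg res (hrel i)
      rw [map_sum, map_zero] at h1
      simp only [Submodule.coe_sum, Submodule.coe_smul, Finset.sum_apply, Pi.smul_apply,
        smul_eq_mul, ZeroMemClass.coe_zero, Pi.zero_apply]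
      rw [← h1]
      refine Finset.sum_congr rfl fun l _ => ?_
      rw [ha l, map_mul]
    have h4 := (Fintype.linearIndependent_iff.mp b.linearIndependent) (fun l => res (μ l)) hred l₀
    rw [hμ₀, map_one] at h4
    exact one_ne_zero h4
  have := hli.fintype_card_le_finrank
  simpa using this

/-- **LA**: `dim_k (reduction of U) = dim_K U`. -/
theorem DU_la (hsurj : Function.Surjective res) (U : Submodule K (ι → K)) :
    Module.finrank k (DU_laRed A res hsurj U) = Module.finrank K U :=
  le_antisymm (DU_la_le hsurj U) (DU_la_ge hsurj _ U rfl)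

end LA

end Fermat.Agent.Lib
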