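import Mathlib
import Fermat.Prelude.Def_ModularCurve_CanonicalDivisor
import Fermat.Agent.S24.LocalDiff
import Fermat.Agent.Lib.FFSep

/-!
# Package DIFF, part TD (trace dual), file 1: the local ring of `K(π)` at `π = 0`

`K` a field, `F / K` a field extension, `π : F`.  For a place `v` of `F` with `0 < ord_v π`
and `a ∈ K(π)` regular at `v`, we show `a = p(π) / q(π)` with `q(0) ≠ 0`; hence `a` is regular at
every place over `π = 0`, `a ≡ ρ mod π` for a constant `ρ`, etc.
-/

set_option autoImplicit false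

open AlgebraicCurve IntermediateField Polynomial

namespace Fermat.Agent.Lib

open Fermat.Agent.S24

variable {K F : Type*} [Field K] [Field F] [Algebra K F]

/-! ### valuations of places -/

lemma FDT_val_le_one_iff (v : Place K F) (x : F) :
    v.adicValuation x ≤ 1 ↔ x ∈ v.toValuationSubring :=
  BL_adicValuation_le_one_iff v x

lemma FDT_ord_nonneg_iff (v : Place K F) (x : F) :
    0 ≤ v.ord x ↔ x ∈ v.toValuationSubring := by
  rcases eq_or_ne x 0 with rfl | hx
  · simp
  · exact (BL_mem_iff_ord_nonneg v hx).symm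

lemma FDT_val_lt_one_iff (v : Place K F) {x : F} (hx : x ≠ 0) :
    v.adicValuation x < 1 ↔ 0 < v.ord x := by
  have h := WithZero.log_lt_log (v.adicValuation_ne_zero hx) (one_ne_zero)
  rw [WithZero.log_one] at h
  rw [Place.ord, neg_pos]
  exact h.symm

lemma FDT_val_eq_one_iff (v : Place K F) {x : F} (hx : x ≠ 0) :
    v.adicValuation x = 1 ↔ v.ord x = 0 := by
  have h1 := FDT_val_lt_one_iff v hx
  have h2 := FDT_val_lt_one_iff v (inv_ne_zero hx)
  rw [v.ord_inv, map_inv₀] at h2
  constructor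
  · intro h
    rw [h] at h1 h2
    simp only [lt_self_iff_false, false_iff, not_lt, inv_one] at h1 h2
    omega
  · intro h
    rw [h] at h1 h2
    simp only [lt_self_iff_false, iff_false, not_lt, neg_zero] at h1 h2
    have h3 : v.adicValuation x ≤ 1 := by
      have := inv_le_one₀ (a := (v.adicValuation x)⁻¹) (by
        rw [inv_pos]; exact zero_lt_iff.mpr (v.adicValuation_ne_zero hx))
      rw [inv_inv] at this
      exact this.mpr h2
    exact le_antisymm h3 h1

lemma FDT_val_algebraMap (v : Place K F) {c : K} (hc : c ≠ 0) :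
    v.adicValuation (algebraMap K F c) = 1 := by
  have hne : algebraMap K F c ≠ 0 := by
    rw [Ne, map_eq_zero_iff _ (algebraMap K F).injective]; exact hc
  rw [FDT_val_eq_one_iff v hne, BL_ord_algebraMap]

lemma FDT_val_algebraMap_le (v : Place K F) (c : K) :
    v.adicValuation (algebraMap K F c) ≤ 1 := by
  rw [FDT_val_le_one_iff]
  exact v.algebraMap_mem' c

lemma FDT_val_aeval_le (v : Place K F) {π : F} (hπ : v.adicValuation π ≤ 1) (p : K[X]) :
    v.adicValuation (aeval π p) ≤ 1 := by
  rw [FDT_val_le_one_iff] at hπ ⊢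
  induction p using Polynomial.induction_on with
  | C a => simpa using v.algebraMap_mem' a
  | add p q hp hq => rw [map_add]; exact v.toValuationSubring.add_mem _ _ hp hq
  | monomial n a ih =>
    rw [pow_succ, ← mul_assoc, map_mul, Polynomial.aeval_X]
    exact v.toValuationSubring.mul_mem _ _ ih hπ

/-- a polynomial in `π` with non-zero constant term is a unit at every zero of `π`. -/
lemma FDT_val_aeval_eq_one (v : Place K F) {π : F} (hπ : v.adicValuation π < 1) {p : K[X]}
    (hp : p.eval 0 ≠ 0) : v.adicValuation (aeval π p) = 1 := by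
  have h := Polynomial.divX_mul_X_add p
  have h1 : aeval π p = aeval π p.divX * π + algebraMap K F (p.coeff 0) := by
    conv_lhs => rw [← h]
    simp
  have hc : p.coeff 0 ≠ 0 := by rwa [Polynomial.coeff_zero_eq_eval_zero]
  have h2 : v.adicValuation (aeval π p.divX * π) < 1 := by
    rw [map_mul]
    exact mul_lt_one_of_nonneg_of_lt_one_right (FDT_val_aeval_le v hπ.le _) zero_le hπ
  rw [h1, Valuation.map_add_eq_of_lt_right _ (by rw [FDT_val_algebraMap v hc]; exact h2),
    FDT_val_algebraMap v hc]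

/-- a polynomial in `π` with zero constant term vanishes at every zero of `π`. -/
lemma FDT_val_aeval_lt_one (v : Place K F) {π : F} (hπ : v.adicValuation π < 1) {p : K[X]}
    (hp : p.eval 0 = 0) : v.adicValuation (aeval π p) < 1 := by
  have h := Polynomial.divX_mul_X_add p
  have h1 : aeval π p = aeval π p.divX * π := by
    conv_lhs => rw [← h]
    rw [Polynomial.coeff_zero_eq_eval_zero, hp]
    simp
  rw [h1, map_mul]
  exact mul_lt_one_of_nonneg_of_lt_one_right (FDT_val_aeval_le v hπ.le _) zero_le hπ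

/-! ### representation of the elements of `K(π)` regular at `π = 0` -/

/-- `a` is a quotient `p(π)/q(π)` with `q(0) ≠ 0`. -/
def FDT_Reg (K : Type*) {F : Type*} [Field K] [Field F] [Algebra K F] (π a : F) : Prop :=
  ∃ p q : K[X], q.eval 0 ≠ 0 ∧ a * aeval π q = aeval π p

lemma FDT_reg_aux (v : Place K F) {π : F} (hπ0 : π ≠ 0) (hπ : v.adicValuation π < 1) {a : F}
    (ha : v.adicValuation a ≤ 1) :
    ∀ (n : ℕ) (p q : K[X]), q.natDegree = n → q ≠ 0 → a * aeval π q = aeval π p →
      FDT_Reg K π a := by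
  intro n
  induction n with
  | zero =>
    intro p q hq hq0 h
    refine ⟨p, q, ?_, h⟩
    rw [Polynomial.eq_C_of_natDegree_eq_zero hq] at hq0 ⊢
    simpa using hq0
  | succ n ih =>
    intro p q hq hq0 h
    by_cases hq' : q.eval 0 = 0
    · -- `q = X * q₂`
      have hqX := Polynomial.divX_mul_X_add q
      rw [Polynomial.coeff_zero_eq_eval_zero, hq', map_zero, add_zero] at hqX
      have hp' : p.eval 0 = 0 := by
        by_contra hp0
        have h1 := FDT_val_aeval_eq_one v hπ hp0
        have h2 : v.adicValuation (a * aeval π q) < 1 := by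
          rw [map_mul]
          exact mul_lt_one_of_nonneg_of_lt_one_right ha zero_le (FDT_val_aeval_lt_one v hπ hq')
        rw [h, h1] at h2
        exact lt_irrefl _ h2
      have hpX := Polynomial.divX_mul_X_add p
      rw [Polynomial.coeff_zero_eq_eval_zero, hp', map_zero, add_zero] at hpX
      have hq2 : q.divX ≠ 0 := by
        intro h0
        rw [h0, zero_mul] at hqX
        exact hq0 hqX.symm
      have hdeg : q.divX.natDegree = n := by
        rw [Polynomial.natDegree_divX_eq_natDegree_tsub_one, hq]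
        rfl
      apply ih p.divX q.divX hdeg hq2
      have h3 : (a * aeval π q.divX) * π = aeval π p.divX * π := by
        have e1 : aeval π q = aeval π q.divX * π := by
          conv_lhs => rw [← hqX]
          simp
        have e2 : aeval π p = aeval π p.divX * π := by
          conv_lhs => rw [← hpX]
          simp
        rw [mul_assoc, ← e1, ← e2, h]
      exact mul_right_cancel₀ hπ0 h3
    · exact ⟨p, q, hq', h⟩

/-- **Lemma R**: an element of `K(π)` which is regular at one zero of `π` is a quotient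
`p(π)/q(π)` with `q(0) ≠ 0`. -/
theorem FDT_reg_of_mem (v : Place K F) {π : F} (hπ : 0 < v.ord π) {a : F} (ha : a ∈ K⟮π⟯)
    (hav : a ∈ v.toValuationSubring) : FDT_Reg K π a := by
  have hπ0 : π ≠ 0 := by rintro rfl; simp at hπ
  have hπv : v.adicValuation π < 1 := (FDT_val_lt_one_iff v hπ0).2 hπ
  rw [IntermediateField.mem_adjoin_simple_iff] at ha
  obtain ⟨r, s, hrs⟩ := ha
  by_cases hs : aeval π s = 0
  · refine ⟨0, 1, by simp, ?_⟩
    rw [hrs, hs, div_zero]
    simp
  · have hs0 : s ≠ 0 := by rintro rfl; simp at hs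
    refine FDT_reg_aux v hπ0 hπv ((FDT_val_le_one_iff v a).2 hav) s.natDegree r s rfl hs0 ?_
    rw [hrs, div_mul_cancel₀ _ hs]

lemma FDT_Reg.mem_adjoin {π a : F} (h : FDT_Reg K π a) (hπ : Transcendental K π) : a ∈ K⟮π⟯ := by
  obtain ⟨p, q, hq, h⟩ := h
  have hq0 : q ≠ 0 := by rintro rfl; simp at hq
  have hqπ : aeval π q ≠ 0 := fun h0 => hq0 ((transcendental_iff.1 hπ) q h0)
  rw [IntermediateField.mem_adjoin_simple_iff]
  exact ⟨p, q, by rw [← h, mul_div_cancel_right₀ _ hqπ]⟩

/-- regular elements are regular at every zero of `π`. -/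
lemma FDT_Reg.val_le {π a : F} (h : FDT_Reg K π a) (v : Place K F) (hπ : v.adicValuation π < 1) :
    v.adicValuation a ≤ 1 := by
  obtain ⟨p, q, hq, h⟩ := h
  have h1 := FDT_val_aeval_eq_one v hπ hq
  have h2 := congrArg v.adicValuation h
  rw [map_mul, h1, mul_one] at h2
  rw [h2]
  exact FDT_val_aeval_le v hπ.le p

lemma FDT_Reg.mem {π a : F} (h : FDT_Reg K π a) (v : Place K F) (hπ : 0 < v.ord π) :
    a ∈ v.toValuationSubring := by
  have hπ0 : π ≠ 0 := by rintro rfl; simp at hπ
  exact (FDT_val_le_one_iff v a).1 (h.val_le v ((FDT_val_lt_one_iff v hπ0).2 hπ))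

/-- the value at `π = 0` and the next Taylor coefficient: `a = ρ + π a₁`. -/
lemma FDT_Reg.exists_const {π a : F} (h : FDT_Reg K π a) (hπ : Transcendental K π) :
    ∃ (ρ : K) (a₁ : F), FDT_Reg K π a₁ ∧ a = algebraMap K F ρ + π * a₁ := by
  obtain ⟨p, q, hq, h⟩ := h
  have hq0 : q ≠ 0 := by rintro rfl; simp at hq
  have hqπ : aeval π q ≠ 0 := fun h0 => hq0 ((transcendental_iff.1 hπ) q h0)
  set ρ : K := p.eval 0 / q.eval 0 with hρ
  set r : K[X] := p - C ρ * q with hr
  have hr0 : r.eval 0 = 0 := by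
    rw [hr, eval_sub, eval_mul, eval_C, hρ, div_mul_cancel₀ _ hq, sub_self]
  have hrX := Polynomial.divX_mul_X_add r
  rw [Polynomial.coeff_zero_eq_eval_zero, hr0, map_zero, add_zero] at hrX
  refine ⟨ρ, aeval π r.divX / aeval π q, ⟨r.divX, q, hq, div_mul_cancel₀ _ hqπ⟩, ?_⟩
  have e1 : aeval π r = aeval π r.divX * π := by
    conv_lhs => rw [← hrX]
    simp
  have e2 : aeval π r = aeval π p - algebraMap K F ρ * aeval π q := by
    rw [hr]; simp
  field_simp
  rw [h, mul_comm π, ← e1, e2]
  ring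

lemma FDT_reg_algebraMap (π : F) (c : K) : FDT_Reg K π (algebraMap K F c) :=
  ⟨C c, 1, by simp, by simp⟩

lemma FDT_reg_self (π : F) : FDT_Reg K π π := ⟨X, 1, by simp, by simp⟩

lemma FDT_reg_zero (π : F) : FDT_Reg K π (0 : F) := ⟨0, 1, by simp, by simp⟩

lemma FDT_reg_one (π : F) : FDT_Reg K π (1 : F) := ⟨1, 1, by simp, by simp⟩

lemma FDT_Reg.add {π a b : F} (ha : FDT_Reg K π a) (hb : FDT_Reg K π b) : FDT_Reg K π (a + b) := by
  obtain ⟨p, q, hq, h⟩ := ha
  obtain ⟨p', q', hq', h'⟩ := hb
  refine ⟨p * q' + p' * q, q * q', by simp [hq, hq'], ?_⟩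
  simp only [map_mul, map_add]
  rw [← h, ← h']
  ring

lemma FDT_Reg.mul {π a b : F} (ha : FDT_Reg K π a) (hb : FDT_Reg K π b) : FDT_Reg K π (a * b) := by
  obtain ⟨p, q, hq, h⟩ := ha
  obtain ⟨p', q', hq', h'⟩ := hb
  refine ⟨p * p', q * q', by simp [hq, hq'], ?_⟩
  simp only [map_mul]
  rw [← h, ← h']
  ring

lemma FDT_Reg.neg {π a : F} (ha : FDT_Reg K π a) : FDT_Reg K π (-a) := by
  obtain ⟨p, q, hq, h⟩ := ha
  exact ⟨-p, q, hq, by simp [h]⟩

lemma FDT_Reg.sub {π a b : F} (ha : FDT_Reg K π a) (hb : FDT_Reg K π b) : FDT_Reg K π (a - b) := by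
  rw [sub_eq_add_neg]; exact ha.add hb.neg

end Fermat.Agent.Lib
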