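import Mathlib
import Fermat.Prelude.Def_ModularCurve_CanonicalDivisor
import Fermat.Agent.S24.LocalDiff
import Fermat.Agent.Lib.DiffTDLocal

/-!
# Package DIFF, part TD, file 3: the power basis `1, y, …, y^(n-1)` of the semilocal ring

Data: a finite set `S` of zeros of `π` with `∑_{v ∈ S} ord_v π = n`, and `y` such that `y - c v`
is a uniformizer at `v ∈ S` for distinct constants `c v`.  Then for `f_j ∈ K(π)` (`j < n`):
* `∑ f_j y^j = 0` implies `f_j = 0` for all `j` (`FDT_linIndep`);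
* if `∑ f_j y^j` is regular at all `v ∈ S` then all `f_j` are regular at `π = 0` (`FDT_coeff_reg`).
-/

set_option autoImplicit false

open AlgebraicCurve IntermediateField Polynomial

namespace Fermat.Agent.Lib

open Fermat.Agent.S24

variable {K F : Type*} [Field K] [Field F] [Algebra K F]

/-! ### Step C: orders of polynomials in `y` -/

/-- `ord_v q(y)` is the multiplicity of `c` as a root of `q`, if `y - c` is a uniformizer. -/
lemma FDT_ord_aeval (v : Place K F) {y : F} {c : K} (hy : v.ord (y - algebraMap K F c) = 1)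
    {q : K[X]} (hq : q ≠ 0) :
    aeval y q ≠ 0 ∧ v.ord (aeval y q) = (q.rootMultiplicity c : ℤ) := by
  have hyc0 : y - algebraMap K F c ≠ 0 := by
    intro h0; rw [h0] at hy; simp at hy
  have hycv : v.adicValuation (y - algebraMap K F c) < 1 :=
    (FDT_val_lt_one_iff v hyc0).2 (by rw [hy]; exact one_pos)
  obtain ⟨r, hqr, hndvd⟩ := Polynomial.exists_eq_pow_rootMultiplicity_mul_and_not_dvd q hq c
  have hr : r.eval c ≠ 0 := by
    intro h0
    exact hndvd ((Polynomial.dvd_iff_isRoot).2 h0)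
  have hr' : (r.comp (X + C c)).eval 0 ≠ 0 := by
    rw [Polynomial.eval_comp]; simpa using hr
  have h1 := FDT_val_aeval_eq_one v hycv hr'
  have h2 : aeval (y - algebraMap K F c) (r.comp (X + C c)) = aeval y r := by
    rw [Polynomial.aeval_comp]
    simp
  rw [h2] at h1
  have hr0 : aeval y r ≠ 0 := by
    intro h0; rw [h0] at h1; simp at h1
  have h3 : aeval y q = (y - algebraMap K F c) ^ (q.rootMultiplicity c) * aeval y r := by
    conv_lhs => rw [hqr]
    simp
  have hpow0 : (y - algebraMap K F c) ^ (q.rootMultiplicity c) ≠ 0 := pow_ne_zero _ hyc0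
  refine ⟨by rw [h3]; exact mul_ne_zero hpow0 hr0, ?_⟩
  rw [h3, v.ord_mul hpow0 hr0, (FDT_val_eq_one_iff v hr0).1 h1, add_zero]
  have := v.ord_zpow (y - algebraMap K F c) (q.rootMultiplicity c : ℤ)
  rw [zpow_natCast] at this
  rw [this, hy, mul_one]

/-- **Step C**: a non-zero polynomial `q(y)` divisible by `π` at all places of `S` has degree
`≥ ∑_{v ∈ S} ord_v π`. -/
theorem FDT_natDegree_ge (S : Finset (Place K F)) {π y : F} (c : Place K F → K)
    (hc : ∀ v ∈ S, ∀ w ∈ S, c v = c w → v = w)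
    (hy : ∀ v ∈ S, v.ord (y - algebraMap K F (c v)) = 1) (hπ0 : π ≠ 0)
    {q : K[X]} (hq : q ≠ 0)
    (hdiv : ∀ v ∈ S, ∃ γ : F, γ ∈ v.toValuationSubring ∧ aeval y q = π * γ) :
    ∑ v ∈ S, v.ord π ≤ (q.natDegree : ℤ) := by
  classical
  have h1 : ∀ v ∈ S, v.ord π ≤ (q.rootMultiplicity (c v) : ℤ) := by
    intro v hv
    obtain ⟨hne, hord⟩ := FDT_ord_aeval v (hy v hv) hq
    obtain ⟨γ, hγ, hγe⟩ := hdiv v hv
    have hγ0 : γ ≠ 0 := by
      rintro rfl; rw [mul_zero] at hγe; exact hne hγe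
    rw [← hord, hγe, v.ord_mul hπ0 hγ0]
    have := (FDT_ord_nonneg_iff v γ).2 hγ
    omega
  calc ∑ v ∈ S, v.ord π ≤ ∑ v ∈ S, (q.rootMultiplicity (c v) : ℤ) := Finset.sum_le_sum h1
    _ = ((∑ v ∈ S, q.roots.count (c v) : ℕ) : ℤ) := by
        push_cast
        apply Finset.sum_congr rfl
        intro v _
        rw [Polynomial.count_roots]
    _ = ((∑ a ∈ S.image c, q.roots.count a : ℕ) : ℤ) := by
        congr 1
        rw [Finset.sum_image]
        intro v hv w hw h
        exact hc v hv w hw h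
    _ ≤ ((∑ a ∈ q.roots.toFinset ∪ S.image c, q.roots.count a : ℕ) : ℤ) := by
        exact_mod_cast Finset.sum_le_sum_of_subset Finset.subset_union_right
    _ = ((∑ a ∈ q.roots.toFinset, q.roots.count a : ℕ) : ℤ) := by
        congr 1
        symm
        apply Finset.sum_subset Finset.subset_union_left
        intro a _ ha
        rw [Multiset.mem_toFinset] at ha
        exact Multiset.count_eq_zero_of_notMem ha
    _ = (q.roots.card : ℤ) := by rw [Multiset.toFinset_sum_count_eq]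
    _ ≤ (q.natDegree : ℤ) := by exact_mod_cast Polynomial.card_roots' q

/-! ### Step D -/

section D

variable (S : Finset (Place K F)) {π y : F} (c : Place K F → K) {n : ℕ}

/-- the standing hypotheses of this file. -/
structure FDT_Gen (S : Finset (Place K F)) (π y : F) (c : Place K F → K) (n : ℕ) : Prop where
  trans : Transcendental K π
  pos : ∀ v ∈ S, 0 < v.ord π
  sum : ∑ v ∈ S, v.ord π = (n : ℤ)
  inj : ∀ v ∈ S, ∀ w ∈ S, c v = c w → v = w
  unif : ∀ v ∈ S, v.ord (y - algebraMap K F (c v)) = 1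

variable {S c}

lemma FDT_Gen.ne_zero (h : FDT_Gen S π y c n) : π ≠ 0 := by
  intro h0
  exact h.trans (h0 ▸ isAlgebraic_zero)

lemma FDT_Gen.val_lt (h : FDT_Gen S π y c n) {v : Place K F} (hv : v ∈ S) :
    v.adicValuation π < 1 :=
  (FDT_val_lt_one_iff v h.ne_zero).2 (h.pos v hv)

lemma FDT_Gen.y_mem (h : FDT_Gen S π y c n) {v : Place K F} (hv : v ∈ S) :
    y ∈ v.toValuationSubring := by
  have h1 : y - algebraMap K F (c v) ∈ v.toValuationSubring := by
    rw [← FDT_ord_nonneg_iff, h.unif v hv]; norm_num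
  have h2 := v.toValuationSubring.add_mem _ _ h1 (v.algebraMap_mem' (c v))
  simpa using h2

lemma FDT_Gen.sum_mem (h : FDT_Gen S π y c n) {v : Place K F} (hv : v ∈ S) (a : ℕ → F)
    (ha : ∀ j < n, a j ∈ v.toValuationSubring) :
    ∑ j ∈ Finset.range n, a j * y ^ j ∈ v.toValuationSubring := by
  apply Subring.sum_mem
  intro j hj
  exact v.toValuationSubring.mul_mem _ _ (ha j (Finset.mem_range.1 hj)) (pow_mem (h.y_mem hv) j)

/-- a constant of positive order is zero. -/
lemma FDT_const_eq_zero (v : Place K F) {ρ : K} (h : v.adicValuation (algebraMap K F ρ) < 1) :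
    ρ = 0 := by
  by_contra h0
  rw [FDT_val_algebraMap v h0] at h
  exact lt_irrefl _ h

/-- **Lemma D0**. -/
theorem FDT_Gen.key (h : FDT_Gen S π y c n) (a : ℕ → F) (ha : ∀ j < n, FDT_Reg K π (a j))
    (hone : ∃ j₀ < n, a j₀ = 1) (γ : F) (hγ : ∀ v ∈ S, γ ∈ v.toValuationSubring)
    (heq : ∑ j ∈ Finset.range n, a j * y ^ j = π * γ) : False := by
  classical
  obtain ⟨j₀, hj₀, hj₀1⟩ := hone
  have hn : 0 < n := lt_of_le_of_lt (Nat.zero_le _) hj₀
  -- `S` is non-empty
  have hSne : S.Nonempty := by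
    by_contra hS
    rw [Finset.not_nonempty_iff_eq_empty] at hS
    have := h.sum
    rw [hS, Finset.sum_empty] at this
    have : (n : ℤ) = 0 := this.symm
    omega
  obtain ⟨v₀, hv₀⟩ := hSne
  -- Taylor coefficients
  have hex : ∀ j : ℕ, ∃ (ρ : K) (a₁ : F), j < n → (FDT_Reg K π a₁ ∧
      a j = algebraMap K F ρ + π * a₁) := by
    intro j
    by_cases hj : j < n
    · obtain ⟨ρ, a₁, h1, h2⟩ := (ha j hj).exists_const h.trans
      exact ⟨ρ, a₁, fun _ => ⟨h1, h2⟩⟩
    · exact ⟨0, 0, fun hj' => absurd hj' hj⟩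
  choose ρ a₁ hρ using hex
  have hρ₀ : ρ j₀ = 1 := by
    have h1 := (hρ j₀ hj₀).2
    rw [hj₀1] at h1
    have h2 : algebraMap K F (1 - ρ j₀) = π * a₁ j₀ := by
      rw [map_sub, map_one]
      linear_combination h1
    have h3 : v₀.adicValuation (algebraMap K F (1 - ρ j₀)) < 1 := by
      rw [h2, map_mul]
      exact mul_lt_one_of_nonneg_of_lt_one_left zero_le (h.val_lt hv₀)
        ((hρ j₀ hj₀).1.val_le v₀ (h.val_lt hv₀))
    have := FDT_const_eq_zero v₀ h3
    exact (sub_eq_zero.1 this).symm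
  set q : K[X] := ∑ j ∈ Finset.range n, C (ρ j) * X ^ j with hq
  have hqcoeff : ∀ i, q.coeff i = if i < n then ρ i else 0 := by
    intro i
    rw [hq, Polynomial.finsetSum_coeff]
    simp only [Polynomial.coeff_C_mul, Polynomial.coeff_X_pow]
    by_cases hi : i < n
    · rw [if_pos hi, Finset.sum_eq_single i]
      · simp
      · intro j _ hji
        rw [if_neg (fun h' => hji h'.symm)]; simp
      · intro hi'
        exact absurd (Finset.mem_range.2 hi) hi'
    · rw [if_neg hi]
      apply Finset.sum_eq_zero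
      intro j hj
      rw [if_neg]
      · simp
      · intro hij
        exact hi (hij ▸ Finset.mem_range.1 hj)
  have hq0 : q ≠ 0 := by
    intro h0
    have := hqcoeff j₀
    rw [h0, if_pos hj₀, hρ₀] at this
    simp at this
  have hqdeg : q.natDegree < n := by
    rw [Polynomial.natDegree_lt_iff_degree_lt hq0, Polynomial.degree_lt_iff_coeff_zero]
    intro m hm
    rw [hqcoeff, if_neg (not_lt.2 hm)]
  have hqy : aeval y q = π * (γ - ∑ j ∈ Finset.range n, a₁ j * y ^ j) := by
    rw [mul_sub, ← heq, Finset.mul_sum, ← Finset.sum_sub_distrib, hq, map_sum]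
    apply Finset.sum_congr rfl
    intro j hj
    have := (hρ j (Finset.mem_range.1 hj)).2
    rw [this]
    simp only [map_mul, aeval_C, map_pow, aeval_X]
    ring
  have hdiv : ∀ v ∈ S, ∃ γ' : F, γ' ∈ v.toValuationSubring ∧ aeval y q = π * γ' := by
    intro v hv
    refine ⟨_, ?_, hqy⟩
    exact sub_mem (hγ v hv)
      (h.sum_mem hv a₁ (fun j hj => (hρ j hj).1.mem v (h.pos v hv)))
  have := FDT_natDegree_ge S c h.inj h.unif h.ne_zero hq0 hdiv
  rw [h.sum] at this
  have : n ≤ q.natDegree := by exact_mod_cast this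
  omega

lemma FDT_Gen.nonempty (h : FDT_Gen S π y c n) (hn : 0 < n) : S.Nonempty := by
  by_contra hS
  rw [Finset.not_nonempty_iff_eq_empty] at hS
  have := h.sum
  rw [hS, Finset.sum_empty] at this
  have : (n : ℤ) = 0 := this.symm
  omega

/-- normalisation: divide by a coefficient of maximal valuation. -/
lemma FDT_Gen.normalize (h : FDT_Gen S π y c n) (f : ℕ → F) (hf : ∀ j < n, f j ∈ K⟮π⟯)
    (hne : ∃ j < n, f j ≠ 0) :
    ∃ j₀ < n, f j₀ ≠ 0 ∧ ∀ j < n, FDT_Reg K π (f j / f j₀) := by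
  obtain ⟨j₁, hj₁, hj₁0⟩ := hne
  have hn : 0 < n := lt_of_le_of_lt (Nat.zero_le _) hj₁
  obtain ⟨v₀, hv₀⟩ := h.nonempty hn
  obtain ⟨j₀, hj₀, hmax⟩ := Finset.exists_max_image (Finset.range n)
    (fun j => v₀.adicValuation (f j)) ⟨j₁, Finset.mem_range.2 hj₁⟩
  rw [Finset.mem_range] at hj₀
  have hj₀0 : f j₀ ≠ 0 := by
    intro h0
    have := hmax j₁ (Finset.mem_range.2 hj₁)
    simp only [h0, map_zero] at this
    exact v₀.adicValuation_ne_zero hj₁0 (le_antisymm this zero_le)
  refine ⟨j₀, hj₀, hj₀0, fun j hj => ?_⟩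
  apply FDT_reg_of_mem v₀ (h.pos v₀ hv₀) (div_mem (hf j hj) (hf j₀ hj₀))
  rw [← FDT_val_le_one_iff, map_div₀]
  exact div_le_one_of_le₀ (hmax j (Finset.mem_range.2 hj)) zero_le

/-- **linear independence** of `1, y, …, y^(n-1)` over `K(π)`. -/
theorem FDT_Gen.linIndep (h : FDT_Gen S π y c n) (f : ℕ → F) (hf : ∀ j < n, f j ∈ K⟮π⟯)
    (hsum : ∑ j ∈ Finset.range n, f j * y ^ j = 0) : ∀ j < n, f j = 0 := by
  by_contra hcon
  push Not at hcon
  obtain ⟨j₀, hj₀, hj₀0, hreg⟩ := h.normalize f hf hcon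
  refine h.key (fun j => f j / f j₀) hreg ⟨j₀, hj₀, div_self hj₀0⟩ 0 (fun v _ => zero_mem _) ?_
  rw [mul_zero]
  have : ∑ j ∈ Finset.range n, f j / f j₀ * y ^ j
      = (∑ j ∈ Finset.range n, f j * y ^ j) / f j₀ := by
    rw [Finset.sum_div]
    apply Finset.sum_congr rfl
    intro j _
    ring
  rw [this, hsum, zero_div]

/-- **integrality of the coefficients**: if `∑ f_j y^j` is regular at all places of `S`,
then all `f_j ∈ K(π)` are regular at `π = 0`. -/
theorem FDT_Gen.coeff_reg (h : FDT_Gen S π y c n) (f : ℕ → F) (hf : ∀ j < n, f j ∈ K⟮π⟯)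
    (hb : ∀ v ∈ S, ∑ j ∈ Finset.range n, f j * y ^ j ∈ v.toValuationSubring) :
    ∀ j < n, FDT_Reg K π (f j) := by
  by_cases hne : ∃ j < n, f j ≠ 0
  · obtain ⟨j₀, hj₀, hj₀0, hreg⟩ := h.normalize f hf hne
    have hn : 0 < n := lt_of_le_of_lt (Nat.zero_le _) hj₀
    obtain ⟨v₀, hv₀⟩ := h.nonempty hn
    by_cases hr : FDT_Reg K π (f j₀)
    · intro j hj
      have : f j = f j / f j₀ * f j₀ := by field_simp
      rw [this]
      exact (hreg j hj).mul hr
    · exfalso
      -- `s = (f j₀)⁻¹` vanishes at `π = 0`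
      have hs_mem : (f j₀)⁻¹ ∈ K⟮π⟯ := inv_mem (hf j₀ hj₀)
      have hval : 1 < v₀.adicValuation (f j₀) := by
        by_contra hle
        rw [not_lt, FDT_val_le_one_iff] at hle
        exact hr (FDT_reg_of_mem v₀ (h.pos v₀ hv₀) (hf j₀ hj₀) hle)
      have hsval : v₀.adicValuation (f j₀)⁻¹ < 1 := by
        rw [map_inv₀]
        exact inv_lt_one_of_one_lt₀ hval
      have hsreg : FDT_Reg K π (f j₀)⁻¹ :=
        FDT_reg_of_mem v₀ (h.pos v₀ hv₀) hs_mem ((FDT_val_le_one_iff v₀ _).1 hsval.le)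
      obtain ⟨ρ, s', hs', hse⟩ := hsreg.exists_const h.trans
      have hρ : ρ = 0 := by
        apply FDT_const_eq_zero v₀
        have : algebraMap K F ρ = (f j₀)⁻¹ - π * s' := by rw [hse]; ring
        rw [this]
        refine lt_of_le_of_lt (Valuation.map_sub _ _ _) (max_lt hsval ?_)
        rw [map_mul]
        exact mul_lt_one_of_nonneg_of_lt_one_left zero_le (h.val_lt hv₀)
          (hs'.val_le v₀ (h.val_lt hv₀))
      rw [hρ, map_zero, zero_add] at hse
      refine h.key (fun j => f j / f j₀) hreg ⟨j₀, hj₀, div_self hj₀0⟩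
        (s' * ∑ j ∈ Finset.range n, f j * y ^ j)
        (fun v hv => v.toValuationSubring.mul_mem _ _ (hs'.mem v (h.pos v hv)) (hb v hv)) ?_
      have : ∑ j ∈ Finset.range n, f j / f j₀ * y ^ j
          = (f j₀)⁻¹ * ∑ j ∈ Finset.range n, f j * y ^ j := by
        rw [Finset.mul_sum]
        apply Finset.sum_congr rfl
        intro j _
        ring
      rw [this, hse]
      ring
  · push Not at hne
    intro j hj
    rw [hne j hj]
    exact FDT_reg_zero π

end D

end Fermat.Agent.Lib
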