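import Mathlib
import Fermat.Prelude.Def_ModularCurve_CanonicalDivisor
import Fermat.Agent.S24.LocalDiff
import Fermat.Agent.Lib.DiffTDLocal
import Fermat.Agent.Lib.DiffTDBasis

/-!
# Package DIFF, part TD, file 4: implicit differentiation

For `g(y) = ∑_{j ≤ n} a_j y^j = 0` with `a_j ∈ K(π)` regular at `π = 0`, `a_n = 1`:
`g'(y) dy = - (∑ a_j' y^j) dπ` and `∑ a_j' y^j` is a unit at every place of the fibre `S`.
-/

set_option autoImplicit false

open AlgebraicCurve IntermediateField Polynomial KaehlerDifferential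

namespace Fermat.Agent.Lib

open Fermat.Agent.S24

variable {K F : Type*} [Field K] [Field F] [Algebra K F]

/-- **F1**: the derivative of a regular element of `K(π)` is a regular multiple of `dπ`. -/
theorem FDT_Reg.exists_deriv {π a : F} (h : FDT_Reg K π a) (hπ : Transcendental K π) :
    ∃ a' : F, FDT_Reg K π a' ∧ D K F a = a' • D K F π := by
  obtain ⟨p, q, hq, he⟩ := h
  have hq0 : q ≠ 0 := by rintro rfl; simp at hq
  have hqπ : aeval π q ≠ 0 := fun h0 => hq0 ((transcendental_iff.1 hπ) q h0)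
  have hreg : FDT_Reg K π a := ⟨p, q, hq, he⟩
  have hinv : FDT_Reg K π (aeval π q)⁻¹ := ⟨1, q, hq, by simp [inv_mul_cancel₀ hqπ]⟩
  have hpoly : ∀ r : K[X], FDT_Reg K π (aeval π r) := fun r => ⟨r, 1, by simp, by simp⟩
  refine ⟨(aeval π (derivative p) - a * aeval π (derivative q)) * (aeval π q)⁻¹,
    ((hpoly _).sub (hreg.mul (hpoly _))).mul hinv, ?_⟩
  have h1 := congrArg (D K F) he
  rw [Derivation.leibniz, Derivation.comp_aeval_eq, Derivation.comp_aeval_eq] at h1
  -- `a • q'(π) • dπ + q(π) • da = p'(π) • dπ`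
  have h2 : aeval π q • D K F a
      = (aeval π (derivative p) - a * aeval π (derivative q)) • D K F π := by
    rw [sub_smul, ← h1, mul_smul]
    abel
  have h3 : D K F a = (aeval π q)⁻¹ • (aeval π q • D K F a) := by
    rw [smul_smul, inv_mul_cancel₀ hqπ, one_smul]
  rw [h3, h2, smul_smul]
  congr 1
  ring

/-- **F2**: derivation of `∑_{j < m} a_j y^j`. -/
theorem FDT_deriv_sum {M : Type*} [AddCommGroup M] [Module K M] [Module F M]
    [IsScalarTower K F M] (δ : Derivation K F M) (a : ℕ → F) (y : F) (m : ℕ) :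
    δ (∑ j ∈ Finset.range m, a j * y ^ j)
      = ∑ j ∈ Finset.range m, y ^ j • δ (a j)
        + (∑ j ∈ Finset.range m, a j * ((j : F) * y ^ (j - 1))) • δ y := by
  rw [map_sum, Finset.sum_smul, ← Finset.sum_add_distrib]
  apply Finset.sum_congr rfl
  intro j _
  rw [Derivation.leibniz, Derivation.leibniz_pow, add_comm]
  congr 1
  rw [← Nat.cast_smul_eq_nsmul F j (y ^ (j - 1) • δ y), smul_smul, smul_smul, mul_assoc]

section unit

variable {S : Finset (Place K F)} {π y : F} {c : Place K F → K} {n : ℕ}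

/-- sum of root multiplicities at distinct points. -/
lemma FDT_sum_rootMultiplicity_le (S : Finset (Place K F)) (c : Place K F → K)
    (hc : ∀ v ∈ S, ∀ w ∈ S, c v = c w → v = w) (q : K[X]) :
    ∑ v ∈ S, (q.rootMultiplicity (c v) : ℤ) ≤ (q.natDegree : ℤ) := by
  classical
  calc ∑ v ∈ S, (q.rootMultiplicity (c v) : ℤ)
      = ((∑ v ∈ S, q.roots.count (c v) : ℕ) : ℤ) := by
        push_cast
        apply Finset.sum_congr rfl
        intro v _
        rw [Polynomial.count_roots]
    _ = ((∑ a ∈ S.image c, q.roots.count a : ℕ) : ℤ) := by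
        congr 1
        rw [Finset.sum_image]
        intro v hv w hw h
        exact hc v hv w hw h
    _ ≤ ((∑ a ∈ q.roots.toFinset ∪ S.image c, q.roots.count a : ℕ) : ℤ) := by
        exact_mod_cast Finset.sum_le_sum_of_subset Finset.subset_union_right
    _ = ((∑ a ∈ q.roots.toFinset, q.roots.count a : ℕ) : ℤ) := by
        congr 1
        symm
        apply Finset.sum_subset Finset.subset_union_left
        intro a _ ha
        rw [Multiset.mem_toFinset] at ha
        exact Multiset.count_eq_zero_of_notMem ha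
    _ = (q.roots.card : ℤ) := by rw [Multiset.toFinset_sum_count_eq]
    _ ≤ (q.natDegree : ℤ) := by exact_mod_cast Polynomial.card_roots' q

/-- **F3**: if `q(y) = π γ` with `q ≠ 0` of degree `≤ n` and `γ` regular on `S`, then `γ` is a unit
at every place of `S`. -/
theorem FDT_Gen.unit_of_natDegree_le (h : FDT_Gen S π y c n) {q : K[X]} (hq : q ≠ 0)
    (hdeg : q.natDegree ≤ n) {γ : F} (hγ : ∀ v ∈ S, γ ∈ v.toValuationSubring)
    (he : aeval y q = π * γ) : ∀ v ∈ S, γ ≠ 0 ∧ v.ord γ = 0 := by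
  classical
  have hπ0 := h.ne_zero
  have h1 : ∀ v ∈ S, γ ≠ 0 ∧ (q.rootMultiplicity (c v) : ℤ) = v.ord π + v.ord γ := by
    intro v hv
    obtain ⟨hne, hord⟩ := FDT_ord_aeval v (h.unif v hv) hq
    have hγ0 : γ ≠ 0 := by
      rintro rfl; rw [mul_zero] at he; exact hne he
    refine ⟨hγ0, ?_⟩
    rw [← hord, he, v.ord_mul hπ0 hγ0]
  have h2 : ∀ v ∈ S, 0 ≤ v.ord γ := fun v hv => (FDT_ord_nonneg_iff v γ).2 (hγ v hv)
  have h3 := FDT_sum_rootMultiplicity_le S c h.inj q
  have h4 : ∑ v ∈ S, (q.rootMultiplicity (c v) : ℤ) = ∑ v ∈ S, v.ord π + ∑ v ∈ S, v.ord γ := by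
    rw [← Finset.sum_add_distrib]
    exact Finset.sum_congr rfl (fun v hv => (h1 v hv).2)
  rw [h4, h.sum] at h3
  have h5 : ∑ v ∈ S, v.ord γ ≤ 0 := by
    have : (q.natDegree : ℤ) ≤ n := by exact_mod_cast hdeg
    omega
  have h6 : ∑ v ∈ S, v.ord γ = 0 := le_antisymm h5 (Finset.sum_nonneg h2)
  intro v hv
  exact ⟨(h1 v hv).1, (Finset.sum_eq_zero_iff_of_nonneg h2).1 h6 v hv⟩

/-- **F4**: implicit differentiation.  If `∑_{j ≤ n} a_j y^j = 0` with regular `a_j ∈ K(π)`,
`a_n = 1`, then `ord_v (∑ j a_j y^(j-1)) = ord_v (dπ/dt_v)` at every `v ∈ S`. -/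
theorem FDT_Gen.ord_deriv (h : FDT_Gen S π y c n) (a : ℕ → F)
    (ha : ∀ j < n + 1, FDT_Reg K π (a j)) (han : a n = 1)
    (heq : ∑ j ∈ Finset.range (n + 1), a j * y ^ j = 0)
    (hd : ∑ j ∈ Finset.range (n + 1), a j * ((j : F) * y ^ (j - 1)) ≠ 0)
    {v : Place K F} (hv : v ∈ S) [v.DCoordGenerates] [Nontrivial Ω[F⁄K]]
    (hu : ∃ u : F, u ≠ 0 ∧ v.ord u = 0 ∧ D K F (y - algebraMap K F (c v)) = u • v.dCoord) :
    v.ord (∑ j ∈ Finset.range (n + 1), a j * ((j : F) * y ^ (j - 1)))
      = v.ordDifferential (D K F π) := by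
  classical
  have hπ0 := h.ne_zero
  -- Taylor coefficients and derivatives
  have hex : ∀ j : ℕ, ∃ (ρ : K) (a₁ a₂ : F), j < n + 1 → (FDT_Reg K π a₁ ∧ FDT_Reg K π a₂ ∧
      a j = algebraMap K F ρ + π * a₁ ∧ D K F (a j) = (a₁ + π * a₂) • D K F π) := by
    intro j
    by_cases hj : j < n + 1
    · obtain ⟨ρ, a₁, h1, h2⟩ := (ha j hj).exists_const h.trans
      obtain ⟨a₂, h3, h4⟩ := h1.exists_deriv h.trans
      refine ⟨ρ, a₁, a₂, fun _ => ⟨h1, h3, h2, ?_⟩⟩
      rw [h2, map_add, Derivation.map_algebraMap, zero_add, Derivation.leibniz, h4, add_smul,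
        smul_smul, add_comm]
    · exact ⟨0, 0, 0, fun hj' => absurd hj' hj⟩
  choose ρ a₁ a₂ hρ using hex
  have hn1 : n < n + 1 := Nat.lt_succ_self n
  obtain ⟨v₀, hv₀⟩ : S.Nonempty := ⟨v, hv⟩
  have hρn : ρ n = 1 := by
    have h1 := (hρ n hn1).2.2.1
    rw [han] at h1
    have h2 : algebraMap K F (1 - ρ n) = π * a₁ n := by
      rw [map_sub, map_one]
      linear_combination h1
    have h3 : v₀.adicValuation (algebraMap K F (1 - ρ n)) < 1 := by
      rw [h2, map_mul]
      exact mul_lt_one_of_nonneg_of_lt_one_left zero_le (h.val_lt hv₀)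
        ((hρ n hn1).1.val_le v₀ (h.val_lt hv₀))
    have := FDT_const_eq_zero v₀ h3
    exact (sub_eq_zero.1 this).symm
  set q : K[X] := ∑ j ∈ Finset.range (n + 1), C (ρ j) * X ^ j with hq
  have hqcoeff : ∀ i, q.coeff i = if i < n + 1 then ρ i else 0 := by
    intro i
    rw [hq, Polynomial.finsetSum_coeff]
    simp only [Polynomial.coeff_C_mul, Polynomial.coeff_X_pow]
    by_cases hi : i < n + 1
    · rw [if_pos hi, Finset.sum_eq_single i]
      · simp
      · intro j _ hji
        rw [if_neg (fun h' => hji h'.symm)]; simp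
      · intro hi'
        exact absurd (Finset.mem_range.2 hi) hi'
    · rw [if_neg hi]
      apply Finset.sum_eq_zero
      intro j hj
      rw [if_neg]
      · simp
      · intro hij
        exact hi (hij ▸ Finset.mem_range.1 hj)
  have hq0 : q ≠ 0 := by
    intro h0
    have := hqcoeff n
    rw [h0, if_pos hn1, hρn] at this
    simp at this
  have hqdeg : q.natDegree ≤ n := by
    rw [Polynomial.natDegree_le_iff_coeff_eq_zero]
    intro m hm
    rw [hqcoeff, if_neg (by omega)]
  set A₁ : F := ∑ j ∈ Finset.range (n + 1), a₁ j * y ^ j with hA₁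
  set A₂ : F := ∑ j ∈ Finset.range (n + 1), a₂ j * y ^ j with hA₂
  have hsum_mem : ∀ (b : ℕ → F), (∀ j < n + 1, FDT_Reg K π (b j)) → ∀ w ∈ S,
      ∑ j ∈ Finset.range (n + 1), b j * y ^ j ∈ w.toValuationSubring := by
    intro b hb w hw
    apply Subring.sum_mem
    intro j hj
    exact w.toValuationSubring.mul_mem _ _ ((hb j (Finset.mem_range.1 hj)).mem w (h.pos w hw))
      (pow_mem (h.y_mem hw) j)
  have hA₁mem := hsum_mem a₁ (fun j hj => (hρ j hj).1)
  have hA₂mem := hsum_mem a₂ (fun j hj => (hρ j hj).2.1)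
  have hqy : aeval y q = π * (-A₁) := by
    have : aeval y q = ∑ j ∈ Finset.range (n + 1), a j * y ^ j - π * A₁ := by
      rw [hA₁, Finset.mul_sum, ← Finset.sum_sub_distrib, hq, map_sum]
      apply Finset.sum_congr rfl
      intro j hj
      have := (hρ j (Finset.mem_range.1 hj)).2.2.1
      rw [this]
      simp only [map_mul, aeval_C, map_pow, aeval_X]
      ring
    rw [this, heq]; ring
  obtain ⟨hA₁0', hA₁ord'⟩ := h.unit_of_natDegree_le hq0 hqdeg
    (fun w hw => neg_mem (hA₁mem w hw)) hqy v hv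
  have hA₁0 : A₁ ≠ 0 := neg_ne_zero.1 hA₁0'
  have hA₁val : v.adicValuation A₁ = 1 := by
    rw [FDT_val_eq_one_iff v hA₁0]
    have : v.ord (-A₁) = v.ord A₁ := by
      rw [Place.ord, Place.ord, Valuation.map_neg]
    rw [← this]; exact hA₁ord'
  -- the unit `A₁ + π A₂`
  have hUval : v.adicValuation (A₁ + π * A₂) = 1 := by
    have hlt : v.adicValuation (π * A₂) < v.adicValuation A₁ := by
      rw [hA₁val, map_mul]
      exact mul_lt_one_of_nonneg_of_lt_one_left zero_le (h.val_lt hv)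
        ((FDT_val_le_one_iff v _).2 (hA₂mem v hv))
    rw [Valuation.map_add_eq_of_lt_left _ hlt, hA₁val]
  have hU0 : A₁ + π * A₂ ≠ 0 := by
    intro h0; rw [h0] at hUval; simp at hUval
  -- differentiate the equation
  obtain ⟨u, hu0, huord, hDy⟩ := hu
  have hDy' : D K F y = u • v.dCoord := by
    rw [← hDy, map_sub, Derivation.map_algebraMap, sub_zero]
  have hDπ := (v.differentialCoeff_smul_dCoord (D K F π)).symm
  have h1 := FDT_deriv_sum (D K F) a y (n + 1)
  rw [heq, map_zero] at h1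
  have h2 : ∑ j ∈ Finset.range (n + 1), y ^ j • D K F (a j)
      = (A₁ + π * A₂) • D K F π := by
    rw [hA₁, hA₂, Finset.mul_sum, ← Finset.sum_add_distrib, Finset.sum_smul]
    apply Finset.sum_congr rfl
    intro j hj
    rw [(hρ j (Finset.mem_range.1 hj)).2.2.2, smul_smul]
    congr 1
    ring
  rw [h2, hDy', hDπ, smul_smul, smul_smul, ← add_smul] at h1
  have h3 : (A₁ + π * A₂) * v.differentialCoeff (D K F π)
      + (∑ j ∈ Finset.range (n + 1), a j * ((j : F) * y ^ (j - 1))) * u = 0 := by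
    rcases smul_eq_zero.1 h1.symm with h | h
    · exact h
    · exact absurd h v.dCoord_ne_zero
  set gd : F := ∑ j ∈ Finset.range (n + 1), a j * ((j : F) * y ^ (j - 1)) with hgd
  have h4 : gd * u = -((A₁ + π * A₂) * v.differentialCoeff (D K F π)) := by
    linear_combination h3
  have hdc0 : v.differentialCoeff (D K F π) ≠ 0 := by
    intro h0
    rw [h0, mul_zero, neg_zero] at h4
    exact mul_ne_zero hd hu0 h4
  have h5 := congrArg v.ord h4
  have hneg : v.ord (-((A₁ + π * A₂) * v.differentialCoeff (D K F π)))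
      = v.ord ((A₁ + π * A₂) * v.differentialCoeff (D K F π)) := by
    rw [Place.ord, Place.ord, Valuation.map_neg]
  rw [hneg, v.ord_mul hd hu0, v.ord_mul hU0 hdc0, huord, (FDT_val_eq_one_iff v hU0).1 hUval,
    add_zero, zero_add] at h5
  rw [h5, Place.ordDifferential]

end unit

end Fermat.Agent.Lib
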