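import Mathlib
import Fermat.Prelude.Def_ModularCurve_CanonicalDivisor
import Fermat.Agent.S24.LocalDiff
import Fermat.Agent.Lib.FFSep
import Fermat.Agent.Lib.DiffTDLocal

/-!
# Package DIFF, part TD, file 2: a local generator at the zeros of `π`

`K` algebraically closed, `π : F` transcendental, `F / K(π)` finite separable.  There is `y : F`,
integral over `K[π]`, and distinct constants `c v` such that `y - c v` is a uniformizer at every
zero `v` of `π` (weak approximation = Chinese remainder theorem in the integral closure).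
-/

set_option autoImplicit false

open AlgebraicCurve IntermediateField Polynomial IsDedekindDomain
open scoped IntermediateField.algebraAdjoinAdjoin

namespace Fermat.Agent.Lib

open Fermat.Agent.S24

variable {K F : Type*} [Field K] [Field F] [Algebra K F]

/-- in a Dedekind domain with fraction field `F`, an element of `w \ w²` has order `1` at the
place of `w`. -/
lemma FDT_ord_eq_one_of_mem {B : Type*} [CommRing B] [IsDedekindDomain B] [Algebra B F]
    [IsFractionRing B F] [Algebra K B] [IsScalarTower K B F] (w : HeightOneSpectrum B) {d : B}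
    (h1 : d ∈ w.asIdeal) (h2 : d ∉ w.asIdeal ^ 2) :
    (Place.ofHeightOneSpectrum (K := K) (F := F) w).ord (algebraMap B F d) = 1 := by
  have hd0 : d ≠ 0 := by rintro rfl; exact h2 (zero_mem _)
  have hv0 : w.intValuation d ≠ 0 := w.intValuation_ne_zero d hd0
  rw [BG_ord_ofHeightOneSpectrum, w.valuation_of_algebraMap]
  have e1 : w.intValuation d ≤ WithZero.exp (-((1 : ℕ) : ℤ)) := by
    rw [w.intValuation_le_pow_iff_mem, pow_one]; exact h1
  have e2 : ¬ w.intValuation d ≤ WithZero.exp (-((2 : ℕ) : ℤ)) := by
    rw [w.intValuation_le_pow_iff_mem]; exact h2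
  rw [← WithZero.exp_log hv0] at e1 e2
  rw [WithZero.exp_le_exp] at e1 e2
  push_cast at e1 e2
  omega

variable [IsAlgClosed K] {π : F} (hπ : Transcendental K π) [FiniteDimensional K⟮π⟯ F]
  [Algebra.IsSeparable K⟮π⟯ F]

include hπ in
/-- **weak approximation** at the zeros of `π`. -/
theorem FDT_exists_gen :
    ∃ (y : F) (c : Place K F → K), IsIntegral (Algebra.adjoin K ({π} : Set F)) y ∧
      (∀ v w : Place K F, 0 < v.ord π → 0 < w.ord π → c v = c w → v = w) ∧
      ∀ v : Place K F, 0 < v.ord π → v.ord (y - algebraMap K F (c v)) = 1 := by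
  classical
  let _ := FFS_isDedekindDomain hπ
  let _ := BG_isFractionRing (K := K) (x := π)
  set S := FFS_zeros hπ with hS
  have hSmem : ∀ v, v ∈ S ↔ 0 < v.ord π := FFS_mem_zeros hπ
  have hex : ∀ i : S, ∃ w : HeightOneSpectrum (integralClosure (Algebra.adjoin K ({π} : Set F)) F),
      Place.ofHeightOneSpectrum (K := K) (F := F) w = i.1 :=
    fun i => FFS_exists_prime hπ i.1 ((hSmem _).1 i.2)
  choose W hW using hex
  have hWinj : Function.Injective W := by
    intro i j hij
    apply Subtype.ext
    rw [← hW i, ← hW j, hij]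
  -- distinct constants
  let c₀ : S → K := fun i => Infinite.natEmbedding K (Fintype.equivFin S i : ℕ)
  have hc₀ : Function.Injective c₀ := by
    intro i j hij
    have := (Infinite.natEmbedding K).injective hij
    exact (Fintype.equivFin S).injective (Fin.ext this)
  -- uniformizers
  have hex2 : ∀ i : S, ∃ t : integralClosure (Algebra.adjoin K ({π} : Set F)) F,
      t ∈ (W i).asIdeal ∧ t ∉ (W i).asIdeal ^ 2 := by
    intro i
    obtain ⟨t, ht1, ht2⟩ := Ideal.exists_mem_pow_notMem_pow_succ (W i).asIdeal (W i).ne_bot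
      (W i).isPrime.ne_top 1
    exact ⟨t, by simpa using ht1, ht2⟩
  choose t ht1 ht2 using hex2
  obtain ⟨y, hy⟩ := IsDedekindDomain.exists_forall_sub_mem_ideal (s := Finset.univ)
    (fun i : S => (W i).asIdeal) (fun _ => 2) (fun i _ => (W i).prime)
    (fun i _ j _ hij h => hij (hWinj (HeightOneSpectrum.ext h)))
    (fun i => algebraMap K _ (c₀ i.1) + t i.1)
  refine ⟨(y : F), fun v => if h : v ∈ S then c₀ ⟨v, h⟩ else 0, y.2, ?_, ?_⟩
  · intro v w hv hw h
    simp only [dif_pos ((hSmem v).2 hv), dif_pos ((hSmem w).2 hw)] at h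
    exact congrArg Subtype.val (hc₀ h)
  · intro v hv
    have hvS := (hSmem v).2 hv
    simp only [dif_pos hvS]
    set i : S := ⟨v, hvS⟩ with hi
    have h3 := hy i (Finset.mem_univ _)
    simp only at h3
    set d : integralClosure (Algebra.adjoin K ({π} : Set F)) F := y - algebraMap K _ (c₀ i)
      with hd
    have hd1 : d ∈ (W i).asIdeal := by
      have : d = t i + (y - (algebraMap K _ (c₀ i) + t i)) := by rw [hd]; ring
      rw [this]
      exact Ideal.add_mem _ (ht1 i) (Ideal.pow_le_self (by norm_num) h3)
    have hd2 : d ∉ (W i).asIdeal ^ 2 := by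
      intro hmem
      apply ht2 i
      have : t i = d - (y - (algebraMap K _ (c₀ i) + t i)) := by rw [hd]; ring
      rw [this]
      exact Ideal.sub_mem _ hmem h3
    have := FDT_ord_eq_one_of_mem (K := K) (F := F) (W i) hd1 hd2
    rw [hW i] at this
    rw [← this]
    rfl

end Fermat.Agent.Lib
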