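import Mathlib
import Fermat.Prelude.Def_ModularCurve_CanonicalDivisor
import Fermat.Agent.S24.LocalDiff
import Fermat.Agent.Lib.FFSep
import Fermat.Agent.Lib.DiffLocal
import Fermat.Agent.Lib.DiffTDLocal
import Fermat.Agent.Lib.DiffTDGen
import Fermat.Agent.Lib.DiffTDBasis
import Fermat.Agent.Lib.DiffTDDeriv

/-!
# Package DIFF, part TD, file 5: the local trace dual (Euler's formula)

`FD_traceDual_iff`: for a separating `π` and `z : F`,
`Tr(z · B_S) ⊆ O_S  ↔  ord_v z ≥ - ord_v (dπ/dt_v)` for all zeros `v` of `π`,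
where `B_S` is the ring of functions regular at all zeros of `π` and `O_S ⊆ K(π)` the local
ring of `π = 0`.
-/

set_option autoImplicit false

open AlgebraicCurve IntermediateField Polynomial KaehlerDifferential
open scoped Pointwise

namespace Fermat.Agent.Lib

open Fermat.Agent.S24

variable {K F : Type*} [Field K] [Field F] [Algebra K F]

section poly

variable {E : Type*} [Field E] [Algebra E F]

/-- `g'(y)` as a sum over `range m`. -/
lemma FDT_aeval_derivative_eq_sum (g : E[X]) (y : F) {m : ℕ} (hm : g.natDegree < m) :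
    aeval y (derivative g)
      = ∑ j ∈ Finset.range m, algebraMap E F (g.coeff j) * ((j : F) * y ^ (j - 1)) := by
  have h1 : g = ∑ j ∈ Finset.range m, monomial j (g.coeff j) := by
    conv_lhs => rw [g.as_sum_range' m hm]
  conv_lhs => rw [h1]
  rw [map_sum, map_sum]
  apply Finset.sum_congr rfl
  intro j _
  rw [derivative_monomial, aeval_monomial, map_mul, map_natCast]
  ring

lemma FDT_aeval_eq_sum (g : E[X]) (y : F) {m : ℕ} (hm : g.natDegree < m) :
    aeval y g = ∑ j ∈ Finset.range m, algebraMap E F (g.coeff j) * y ^ j := by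
  rw [aeval_eq_sum_range' hm]
  apply Finset.sum_congr rfl
  intro j _
  rw [Algebra.smul_def]

end poly

section main

variable [IsAlgClosed K] {π : F} (hπ : Transcendental K π) [FiniteDimensional K⟮π⟯ F]
  [Algebra.IsSeparable K⟮π⟯ F]

/-- the data produced by weak approximation, packaged. -/
theorem FDT_exists_data :
    ∃ (y : F) (c : Place K F → K),
      FDT_Gen (FFS_zeros hπ) π y c (Module.finrank K⟮π⟯ F) := by
  obtain ⟨y, c, -, hc, hy⟩ := FDT_exists_gen hπ
  refine ⟨y, c, hπ, ?_, FFS_sum_zeros hπ, ?_, ?_⟩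
  · intro v hv
    exact (FFS_mem_zeros hπ v).1 hv
  · intro v hv w hw h
    exact hc v w ((FFS_mem_zeros hπ v).1 hv) ((FFS_mem_zeros hπ w).1 hw) h
  · intro v hv
    exact hy v ((FFS_mem_zeros hπ v).1 hv)

variable {S : Finset (Place K F)} {y : F} {c : Place K F → K}

omit [IsAlgClosed K] [Algebra.IsSeparable K⟮π⟯ F] in
/-- **E1**: the minimal polynomial of `y` over `K(π)` has degree `n = [F : K(π)]`. -/
theorem FDT_Gen.natDegree_minpoly (h : FDT_Gen S π y c (Module.finrank K⟮π⟯ F)) :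
    (minpoly K⟮π⟯ y).natDegree = Module.finrank K⟮π⟯ F := by
  have hint : IsIntegral K⟮π⟯ y := Algebra.IsIntegral.isIntegral y
  have hmonic := minpoly.monic hint
  refine le_antisymm (minpoly.natDegree_le y) ?_
  by_contra hlt
  rw [not_le] at hlt
  have h1 := FDT_aeval_eq_sum (minpoly K⟮π⟯ y) y hlt
  rw [minpoly.aeval] at h1
  have h2 := h.linIndep (fun j => algebraMap K⟮π⟯ F ((minpoly K⟮π⟯ y).coeff j))
    (fun j _ => ((minpoly K⟮π⟯ y).coeff j).2) h1.symm _ hlt
  rw [Polynomial.coeff_natDegree, hmonic.leadingCoeff, map_one] at h2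
  exact one_ne_zero h2

omit [IsAlgClosed K] [Algebra.IsSeparable K⟮π⟯ F] in
/-- the coefficients of the minimal polynomial of `y` are regular at `π = 0`. -/
theorem FDT_Gen.minpoly_coeff_reg (h : FDT_Gen S π y c (Module.finrank K⟮π⟯ F)) (j : ℕ) :
    FDT_Reg K π (algebraMap K⟮π⟯ F ((minpoly K⟮π⟯ y).coeff j)) := by
  have hint : IsIntegral K⟮π⟯ y := Algebra.IsIntegral.isIntegral y
  have hmonic := minpoly.monic hint
  have hdeg := h.natDegree_minpoly
  set n := Module.finrank K⟮π⟯ F with hn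
  set g := minpoly K⟮π⟯ y with hg
  rcases lt_trichotomy j n with hj | hj | hj
  · -- `y^n = - ∑_{j<n} a_j y^j` is regular
    have h1 := FDT_aeval_eq_sum g y (m := n + 1) (by omega)
    rw [hg, minpoly.aeval, Finset.sum_range_succ, ← hg, ← hdeg, Polynomial.coeff_natDegree,
      hmonic.leadingCoeff, map_one, one_mul, hdeg] at h1
    have h2 : ∑ i ∈ Finset.range n, (-(algebraMap K⟮π⟯ F (g.coeff i))) * y ^ i = y ^ n := by
      rw [Finset.sum_congr rfl (fun i _ => neg_mul _ _), Finset.sum_neg_distrib]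
      linear_combination h1
    have h3 := h.coeff_reg (fun i => -(algebraMap K⟮π⟯ F (g.coeff i)))
      (fun i _ => neg_mem (g.coeff i).2)
      (fun v hv => by rw [h2]; exact pow_mem (h.y_mem hv) n) j hj
    simpa using h3.neg
  · rw [hj, ← hdeg, Polynomial.coeff_natDegree, hmonic.leadingCoeff, map_one]
    exact FDT_reg_one π
  · rw [Polynomial.coeff_eq_zero_of_natDegree_lt (by omega), map_zero]
    exact FDT_reg_zero π

/-- the local ring of `K(π)` at `π = 0`, as a valuation subring. -/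
noncomputable def FDT_O (v₀ : Place K F) (π : F) : ValuationSubring K⟮π⟯ :=
  v₀.toValuationSubring.comap (algebraMap K⟮π⟯ F)

omit [IsAlgClosed K] [FiniteDimensional K⟮π⟯ F] [Algebra.IsSeparable K⟮π⟯ F] in
lemma FDT_mem_O_iff (v₀ : Place K F) (hv₀ : 0 < v₀.ord π) (a : K⟮π⟯) :
    a ∈ FDT_O v₀ π ↔ FDT_Reg K π (algebraMap K⟮π⟯ F a) := by
  constructor
  · intro ha
    exact FDT_reg_of_mem v₀ hv₀ a.2 ha
  · intro ha
    exact ha.mem v₀ hv₀

omit [IsAlgClosed K] [Algebra.IsSeparable K⟮π⟯ F] in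
/-- **E2**: `y` is integral over the local ring. -/
theorem FDT_Gen.isIntegral (h : FDT_Gen S π y c (Module.finrank K⟮π⟯ F)) (v₀ : Place K F)
    (hv₀ : 0 < v₀.ord π) : IsIntegral (FDT_O v₀ π) y := by
  have hint : IsIntegral K⟮π⟯ y := Algebra.IsIntegral.isIntegral y
  have hmonic := minpoly.monic hint
  have hlift : minpoly K⟮π⟯ y ∈ Polynomial.lifts (algebraMap (FDT_O v₀ π) K⟮π⟯) := by
    rw [Polynomial.lifts_iff_coeff_lifts]
    intro j
    exact ⟨⟨_, (FDT_mem_O_iff v₀ hv₀ _).2 (h.minpoly_coeff_reg j)⟩, rfl⟩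
  obtain ⟨q, hq, -, hqm⟩ := Polynomial.lifts_and_degree_eq_and_monic hlift hmonic
  refine ⟨q, hqm, ?_⟩
  rw [← Polynomial.aeval_def, ← Polynomial.aeval_map_algebraMap K⟮π⟯ y q, hq, minpoly.aeval]

omit [IsAlgClosed K] [Algebra.IsSeparable K⟮π⟯ F] in
/-- **E1'**: `y` generates `F` over `K(π)`. -/
theorem FDT_Gen.adjoin_eq_top (h : FDT_Gen S π y c (Module.finrank K⟮π⟯ F)) :
    Algebra.adjoin K⟮π⟯ {y} = ⊤ := by
  have hint : IsIntegral K⟮π⟯ y := Algebra.IsIntegral.isIntegral y
  have h1 := (Field.primitive_element_iff_minpoly_natDegree_eq K⟮π⟯ y).2 h.natDegree_minpoly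
  rw [← IntermediateField.adjoin_simple_toSubalgebra_of_isAlgebraic hint.isAlgebraic, h1,
    IntermediateField.top_toSubalgebra]

omit [IsAlgClosed K] [Algebra.IsSeparable K⟮π⟯ F] in
/-- **E3**: the semilocal ring is `O[y]`. -/
theorem FDT_Gen.mem_adjoin_iff (h : FDT_Gen S π y c (Module.finrank K⟮π⟯ F)) (v₀ : Place K F)
    (hv₀ : v₀ ∈ S) (b : F) :
    b ∈ Algebra.adjoin (FDT_O v₀ π) {y} ↔ ∀ v ∈ S, b ∈ v.toValuationSubring := by
  have hv₀' := h.pos v₀ hv₀
  constructor
  · intro hb v hv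
    induction hb using Algebra.adjoin_induction with
    | mem x hx =>
      rw [Set.mem_singleton_iff] at hx
      rw [hx]; exact h.y_mem hv
    | algebraMap r =>
      exact ((FDT_mem_O_iff v₀ hv₀' _).1 r.2).mem v (h.pos v hv)
    | add x z _ _ hx hz => exact add_mem hx hz
    | mul x z _ _ hx hz => exact mul_mem hx hz
  · intro hb
    have hint : IsIntegral K⟮π⟯ y := Algebra.IsIntegral.isIntegral y
    have hmonic := minpoly.monic hint
    have hdeg := h.natDegree_minpoly
    have hn : 0 < Module.finrank K⟮π⟯ F := Module.finrank_pos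
    have hb' : b ∈ Algebra.adjoin K⟮π⟯ {y} := by rw [h.adjoin_eq_top]; trivial
    rw [Algebra.adjoin_singleton_eq_range_aeval] at hb'
    obtain ⟨f, hf⟩ := hb'
    have hf' : aeval y f = b := hf
    have hg1 : minpoly K⟮π⟯ y ≠ 1 := by
      intro h1
      rw [h1, natDegree_one] at hdeg
      omega
    set r := f %ₘ minpoly K⟮π⟯ y with hr
    have hrdeg : r.natDegree < Module.finrank K⟮π⟯ F := by
      rw [← hdeg]
      exact natDegree_modByMonic_lt f hmonic hg1
    have hry : aeval y r = b := by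
      rw [hr, aeval_modByMonic_eq_self_of_root (minpoly.aeval _ _), hf']
    have hsum := FDT_aeval_eq_sum r y hrdeg
    rw [hry] at hsum
    have hreg := h.coeff_reg (fun j => algebraMap K⟮π⟯ F (r.coeff j)) (fun j _ => (r.coeff j).2)
      (fun v hv => by rw [← hsum]; exact hb v hv)
    rw [hsum]
    apply Subalgebra.sum_mem
    intro j hj
    have hjO : r.coeff j ∈ FDT_O v₀ π :=
      (FDT_mem_O_iff v₀ hv₀' _).2 (hreg j (Finset.mem_range.1 hj))
    have : algebraMap K⟮π⟯ F (r.coeff j) * y ^ j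
        = (⟨r.coeff j, hjO⟩ : FDT_O v₀ π) • y ^ j := by
      rw [Algebra.smul_def]; rfl
    rw [this]
    exact Subalgebra.smul_mem _ (pow_mem (Algebra.self_mem_adjoin_singleton _ y) j) _

/-- **F4 for the minimal polynomial**: `ord_v g'(y) = ord_v (dπ/dt_v)` on the fibre. -/
theorem FDT_Gen.ord_aeval_derivative (h : FDT_Gen S π y c (Module.finrank K⟮π⟯ F))
    {v : Place K F} (hv : v ∈ S) :
    v.ord (aeval y (derivative (minpoly K⟮π⟯ y))) = v.ordDifferential (D K F π) := by
  have hint : IsIntegral K⟮π⟯ y := Algebra.IsIntegral.isIntegral y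
  have hmonic := minpoly.monic hint
  have hdeg := h.natDegree_minpoly
  have hlt : (minpoly K⟮π⟯ y).natDegree < Module.finrank K⟮π⟯ F + 1 := by omega
  have hvdeg : v.deg = 1 := FD_deg_one π v
  have := FD_dCoordGenerates π v hvdeg
  have := FD_nontrivial_kaehler v hvdeg
  have hu := FD_D_unif π v hvdeg (h.unif v hv)
  have hgd0 : aeval y (derivative (minpoly K⟮π⟯ y)) ≠ 0 :=
    (Algebra.IsSeparable.isSeparable K⟮π⟯ y).aeval_derivative_ne_zero (minpoly.aeval _ _)
  have e1 := FDT_aeval_derivative_eq_sum (minpoly K⟮π⟯ y) y hlt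
  have e2 := FDT_aeval_eq_sum (minpoly K⟮π⟯ y) y hlt
  rw [minpoly.aeval] at e2
  rw [e1] at hgd0 ⊢
  refine h.ord_deriv (fun j => algebraMap K⟮π⟯ F ((minpoly K⟮π⟯ y).coeff j))
    (fun j _ => h.minpoly_coeff_reg j) ?_ e2.symm hgd0 hv hu
  rw [← hdeg, Polynomial.coeff_natDegree, hmonic.leadingCoeff, map_one]

/-- **(TD)** the local trace dual: for a separating `π` and `z : F`, `Tr(z · B_S) ⊆ O_S` iff
`ord_v z ≥ - ord_v (dπ/dt_v)` at all zeros `v` of `π`. -/
theorem FD_traceDual_iff (π : F) (hπ : Transcendental K π)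
    [FiniteDimensional K⟮π⟯ F] [Algebra.IsSeparable K⟮π⟯ F] (z : F) :
    (∀ b : F, (∀ v : Place K F, 0 < v.ord π → 0 ≤ v.ord b) →
        ∀ v : Place K F, 0 < v.ord π →
          0 ≤ v.ord (algebraMap K⟮π⟯ F (Algebra.trace K⟮π⟯ F (z * b)))) ↔
    (∀ v : Place K F, 0 < v.ord π → z = 0 ∨ - v.ordDifferential (D K F π) ≤ v.ord z) := by
  classical
  obtain ⟨y, c, h⟩ := FDT_exists_data hπ
  have hSmem : ∀ v, v ∈ FFS_zeros hπ ↔ 0 < v.ord π := FFS_mem_zeros hπ
  have hn : 0 < Module.finrank K⟮π⟯ F := Module.finrank_pos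
  obtain ⟨v₀, hv₀⟩ := h.nonempty hn
  have hv₀' := h.pos v₀ hv₀
  have hE := traceForm_dualSubmodule_adjoin (FDT_O v₀ π) K⟮π⟯ h.adjoin_eq_top
    (h.isIntegral v₀ hv₀')
  have hgd0 : aeval y (derivative (minpoly K⟮π⟯ y)) ≠ 0 :=
    (Algebra.IsSeparable.isSeparable K⟮π⟯ y).aeval_derivative_ne_zero (minpoly.aeval _ _)
  have hE3 := h.mem_adjoin_iff v₀ hv₀
  -- the dual side
  have hdual : z ∈ (Algebra.traceForm K⟮π⟯ F).dualSubmodule
        (Subalgebra.toSubmodule (Algebra.adjoin (FDT_O v₀ π) {y})) ↔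
      (∀ b : F, (∀ v : Place K F, 0 < v.ord π → 0 ≤ v.ord b) →
        ∀ v : Place K F, 0 < v.ord π →
          0 ≤ v.ord (algebraMap K⟮π⟯ F (Algebra.trace K⟮π⟯ F (z * b)))) := by
    rw [LinearMap.BilinForm.mem_dualSubmodule]
    constructor
    · intro hz b hb v hv
      have hbS : b ∈ Algebra.adjoin (FDT_O v₀ π) {y} := by
        rw [hE3]
        intro w hw
        exact (FDT_ord_nonneg_iff w b).1 (hb w ((hSmem w).1 hw))
      obtain ⟨o, ho⟩ := Submodule.mem_one.1 (hz b hbS)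
      rw [Algebra.traceForm_apply] at ho
      rw [← ho, FDT_ord_nonneg_iff]
      exact ((FDT_mem_O_iff v₀ hv₀' _).1 o.2).mem v hv
    · intro hz b hb
      have hbS : ∀ v : Place K F, 0 < v.ord π → 0 ≤ v.ord b := by
        intro v hv
        rw [FDT_ord_nonneg_iff]
        exact (hE3 b).1 hb v ((hSmem v).2 hv)
      have h1 := hz b hbS v₀ hv₀'
      rw [FDT_ord_nonneg_iff] at h1
      rw [Algebra.traceForm_apply, Submodule.mem_one]
      exact ⟨⟨_, h1⟩, rfl⟩
  have hsmul : z ∈ (aeval y (derivative (minpoly K⟮π⟯ y)))⁻¹ •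
        (Subalgebra.toSubmodule (Algebra.adjoin (FDT_O v₀ π) {y})) ↔
      (∀ v : Place K F, 0 < v.ord π → z = 0 ∨ - v.ordDifferential (D K F π) ≤ v.ord z) := by
    rw [Submodule.mem_smul_iff_inv_mul_mem (inv_ne_zero hgd0), inv_inv, Subalgebra.mem_toSubmodule,
      hE3]
    constructor
    · intro hz v hv
      by_cases hz0 : z = 0
      · exact Or.inl hz0
      · right
        have h1 := (FDT_ord_nonneg_iff v _).2 (hz v ((hSmem v).2 hv))
        rw [v.ord_mul hgd0 hz0, h.ord_aeval_derivative ((hSmem v).2 hv)] at h1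
        omega
    · intro hz v hv
      rw [← FDT_ord_nonneg_iff]
      rcases hz v ((hSmem v).1 hv) with hz0 | hz1
      · rw [hz0, mul_zero, v.ord_zero]
      · have hz0 : z ≠ 0 ∨ z = 0 := (em _).symm
        rcases hz0 with hz0 | hz0
        · rw [v.ord_mul hgd0 hz0, h.ord_aeval_derivative hv]
          omega
        · rw [hz0, mul_zero, v.ord_zero]
  rw [← hdual, hE, hsmul]

end main

end Fermat.Agent.Lib
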