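import Mathlib

/-!
# Gauss representation of elements of a function field (helper2, package RI(d))

Abstract form of "every `f ∈ F^×` is a constant times a quotient of two integral elements with
nonzero reduction" (= V1 of the S18 plan, WITHOUT the hypothesis `PrincipalGeneratedByIntegral`):

* `RIG_scale`: content scaling over a valuation ring;
* `RIG_linearIndependent`: independence modulo the maximal ideal lifts to characteristic `0`;
* `RIG_exists_rep`: the representation `f * ι s₂ = c * ι s₁`.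
-/

set_option autoImplicit false

open Polynomial IntermediateField

namespace Fermat.Agent.Lib

section Scale

variable {L : Type*} [Field L] (A : ValuationSubring L)

/-- **content scaling**: a finite family of polynomials over `L`, not all zero, is a nonzero
constant times a family of polynomials over the valuation ring `A` one of whose coefficients
is `1`. -/
theorem RIG_scale {ι : Type*} [Fintype ι] (P : ι → L[X]) (hP : ∃ i, P i ≠ 0) :
    ∃ (c : L) (P' : ι → A[X]), c ≠ 0 ∧ (∀ i, (P' i).map A.subtype = C c * P i) ∧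
      ∃ i n, (P' i).coeff n = 1 := by
  classical
  set T : Finset L := Finset.univ.biUnion (fun i => (P i).coeffs) with hT
  have hTne : T.Nonempty := by
    obtain ⟨i, hi⟩ := hP
    obtain ⟨n, hn⟩ := Polynomial.support_nonempty.mpr hi
    exact ⟨(P i).coeff n, Finset.mem_biUnion.mpr ⟨i, Finset.mem_univ _,
      Polynomial.coeff_mem_coeffs (Polynomial.mem_support_iff.mp hn)⟩⟩
  obtain ⟨a₀, ha₀T, hmax⟩ := Finset.exists_max_image T A.valuation hTne
  obtain ⟨i₀, -, hi₀⟩ := Finset.mem_biUnion.mp ha₀T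
  obtain ⟨n₀, hn₀, rfl⟩ := Polynomial.mem_coeffs_iff.mp hi₀
  set a₀ := (P i₀).coeff n₀ with ha₀
  have ha₀ne : a₀ ≠ 0 := Polynomial.mem_support_iff.mp hn₀
  have hmem : ∀ i n, a₀⁻¹ * (P i).coeff n ∈ A := by
    intro i n
    by_cases h0 : (P i).coeff n = 0
    · rw [h0, mul_zero]; exact zero_mem _
    · have hin : (P i).coeff n ∈ T :=
        Finset.mem_biUnion.mpr ⟨i, Finset.mem_univ _,
          Polynomial.coeff_mem_coeffs h0⟩
      have := hmax _ hin
      rw [← A.valuation_le_one_iff, map_mul, map_inv₀]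
      have hv0 : A.valuation a₀ ≠ 0 := (_root_.map_ne_zero _).mpr ha₀ne
      rw [inv_mul_le_iff₀ (zero_lt_iff.mpr hv0), mul_one]
      exact this
  refine ⟨a₀⁻¹, fun i => ∑ n ∈ (P i).support, monomial n (⟨_, hmem i n⟩ : A),
    inv_ne_zero ha₀ne, fun i => ?_, i₀, n₀, ?_⟩
  · ext n
    rw [Polynomial.coeff_map, Polynomial.finsetSum_coeff, Polynomial.coeff_C_mul]
    simp only [Polynomial.coeff_monomial]
    rw [Finset.sum_ite_eq' (P i).support n]
    split_ifs with h
    · rfl
    · rw [map_zero, Polynomial.notMem_support_iff.mp h, mul_zero]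
  · rw [Polynomial.finsetSum_coeff]
    simp only [Polynomial.coeff_monomial]
    rw [Finset.sum_ite_eq' (P i₀).support n₀, if_pos hn₀]
    apply Subtype.ext
    show a₀⁻¹ * a₀ = 1
    exact inv_mul_cancel₀ ha₀ne

end Scale

section Rep

open scoped IntermediateField.algebraAdjoinAdjoin

variable {L : Type*} [Field L] (A : ValuationSubring L) {k : Type*} [Field k] (π : A →+* k)
  {F : Type*} [Field F] [Algebra L F] {Fk : Type*} [Field Fk] [Algebra k Fk]
  {B : Type*} [CommRing B] (ι : B →+* F) (ρ : B →+* Fk) (cst : A →+* B)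
  (hιC : ∀ a : A, ι (cst a) = algebraMap L F (a : L))
  (hρC : ∀ a : A, ρ (cst a) = algebraMap k Fk (π a))
  (j : B) {n : ℕ} (m : Fin n → B)
  (hind : ∀ c : Fin n → k[X], ∑ i, aeval (ρ j) (c i) * ρ (m i) = 0 → ∀ i, c i = 0)

/-- the element `∑ᵢ Pᵢ(j) mᵢ` of `B`. -/
noncomputable def RIG_comb (P : Fin n → A[X]) : B := ∑ i, (P i).eval₂ cst j * m i

include hιC in
theorem RIG_ι_eval₂ (p : A[X]) : ι (p.eval₂ cst j) = aeval (ι j) (p.map A.subtype) := by
  rw [Polynomial.hom_eval₂, Polynomial.aeval_def, Polynomial.eval₂_map]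
  congr 1
  exact RingHom.ext fun a => hιC a

include hρC in
theorem RIG_ρ_eval₂ (p : A[X]) : ρ (p.eval₂ cst j) = aeval (ρ j) (p.map π) := by
  rw [Polynomial.hom_eval₂, Polynomial.aeval_def, Polynomial.eval₂_map]
  congr 1
  exact RingHom.ext fun a => hρC a

include hιC in
theorem RIG_ι_comb (P : Fin n → A[X]) :
    ι (RIG_comb A cst j m P) = ∑ i, aeval (ι j) ((P i).map A.subtype) * ι (m i) := by
  rw [RIG_comb, map_sum]
  refine Finset.sum_congr rfl fun i _ => ?_
  rw [map_mul, RIG_ι_eval₂ A ι cst hιC]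

include hρC in
theorem RIG_ρ_comb (P : Fin n → A[X]) :
    ρ (RIG_comb A cst j m P) = ∑ i, aeval (ρ j) ((P i).map π) * ρ (m i) := by
  rw [RIG_comb, map_sum]
  refine Finset.sum_congr rfl fun i _ => ?_
  rw [map_mul, RIG_ρ_eval₂ A π ρ cst hρC]

include hρC hind in
/-- a combination with a coefficient `1` has nonzero reduction. -/
theorem RIG_ρ_comb_ne_zero (hπ : π 1 ≠ 0) (P : Fin n → A[X]) (hP : ∃ i d, (P i).coeff d = 1) :
    ρ (RIG_comb A cst j m P) ≠ 0 := by
  intro h0
  rw [RIG_ρ_comb A π ρ cst hρC] at h0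
  obtain ⟨i, d, hid⟩ := hP
  have := congrArg (fun p : k[X] => p.coeff d) (hind _ h0 i)
  simp only [Polynomial.coeff_map, hid, Polynomial.coeff_zero] at this
  exact hπ this

include hρC hind in
/-- `ρ j` is transcendental (if `n ≠ 0`): a polynomial with a coefficient `1` does not kill it. -/
theorem RIG_ρ_eval₂_ne_zero (hπ : π 1 ≠ 0) (i₀ : Fin n) (p : A[X]) (hp : ∃ d, p.coeff d = 1) :
    ρ (p.eval₂ cst j) ≠ 0 := by
  classical
  intro h0
  obtain ⟨d, hd⟩ := hp
  have h1 : ∑ i, aeval (ρ j) ((fun i => if i = i₀ then p.map π else 0) i) * ρ (m i) = 0 := by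
    rw [Finset.sum_eq_single i₀]
    · beta_reduce
      rw [if_pos rfl, ← RIG_ρ_eval₂ A π ρ cst hρC, h0, zero_mul]
    · intro i _ hi
      beta_reduce
      rw [if_neg hi, map_zero, zero_mul]
    · intro h
      exact absurd (Finset.mem_univ _) h
  have := congrArg (fun p : k[X] => p.coeff d) (hind _ h1 i₀)
  simp only [if_pos, Polynomial.coeff_map, hd, Polynomial.coeff_zero] at this
  exact hπ this

include hιC hρC hind in
/-- the `ι (m i)` are linearly independent over `L(ι j)`. -/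
theorem RIG_linearIndependent (hι : Function.Injective ι) (hπ : π 1 ≠ 0) :
    LinearIndependent L⟮ι j⟯ (fun i => ι (m i)) := by
  rw [← LinearIndependent.iff_fractionRing (R := Algebra.adjoin L ({ι j} : Set F))
    (K := L⟮ι j⟯), Fintype.linearIndependent_iff]
  intro g hg
  have hp : ∀ i, ∃ p : L[X], aeval (ι j) p = (g i : F) := fun i => by
    have h1 : ((g i : F)) ∈ (aeval (R := L) (ι j)).range := by
      rw [← Algebra.adjoin_singleton_eq_range_aeval]
      exact (g i).2
    exact h1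
  choose p hp using hp
  by_contra hne
  push Not at hne
  obtain ⟨i₁, hi₁⟩ := hne
  have hP : ∃ i, p i ≠ 0 := ⟨i₁, fun h => hi₁ (Subtype.ext (by rw [← hp, h, map_zero]; rfl))⟩
  obtain ⟨c, P', hc, hP', hone⟩ := RIG_scale A p hP
  have h1 : ι (RIG_comb A cst j m P') = 0 := by
    rw [RIG_ι_comb A ι cst hιC]
    have h2 : ∀ i, aeval (ι j) ((P' i).map A.subtype) * ι (m i) =
        algebraMap L F c * ((g i : F) * ι (m i)) := fun i => by
      rw [hP', map_mul, aeval_C, hp, mul_assoc]
    rw [Finset.sum_congr rfl fun i _ => h2 i, ← Finset.mul_sum]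
    have h3 : ∑ i, (g i : F) * ι (m i) = 0 := hg
    rw [h3, mul_zero]
  have h0 : RIG_comb A cst j m P' = 0 := hι (by rw [h1, map_zero])
  exact RIG_ρ_comb_ne_zero A π ρ cst hρC j m hind hπ P' hone (by rw [h0, map_zero])

include hιC hρC hind in
/-- **V1 without `hgen`**: every `f ∈ F^×` is `c · ι s₁ / ι s₂` with `c ∈ L^×` and
`ρ s₁, ρ s₂ ≠ 0`. -/
theorem RIG_exists_rep (hι : Function.Injective ι) (hπ : π 1 ≠ 0)
    [FiniteDimensional L⟮ι j⟯ F] (hn : Module.finrank L⟮ι j⟯ F ≤ n) (f : F) (hf : f ≠ 0) :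
    ∃ (c : L) (s₁ s₂ : B), c ≠ 0 ∧ ρ s₁ ≠ 0 ∧ ρ s₂ ≠ 0 ∧
      f * ι s₂ = algebraMap L F c * ι s₁ := by
  classical
  have hli := RIG_linearIndependent A π ι ρ cst hιC hρC j m hind hι hπ
  have hcard : Fintype.card (Fin n) = Module.finrank L⟮ι j⟯ F :=
    le_antisymm hli.fintype_card_le_finrank (by simpa using hn)
  have hspan := hli.span_eq_top_of_card_eq_finrank' hcard
  have hfmem : f ∈ Submodule.span L⟮ι j⟯ (Set.range fun i => ι (m i)) := by
    rw [hspan]; exact Submodule.mem_top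
  obtain ⟨c, hc⟩ := (Submodule.mem_span_range_iff_exists_fun _).mp hfmem
  obtain ⟨b, hb⟩ := IsLocalization.exist_integer_multiples
    (nonZeroDivisors (Algebra.adjoin L ({ι j} : Set F))) Finset.univ c
  have ha : ∀ i, ∃ a : Algebra.adjoin L ({ι j} : Set F),
      (a : F) = ((b : Algebra.adjoin L ({ι j} : Set F)) : F) * (c i : F) := fun i => by
    obtain ⟨a, ha⟩ := hb i (Finset.mem_univ i)
    refine ⟨a, ?_⟩
    have := congrArg (fun z : L⟮ι j⟯ => (z : F)) ha
    simpa [Algebra.smul_def] using this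
  choose a ha using ha
  have hbne : ((b : Algebra.adjoin L ({ι j} : Set F)) : F) ≠ 0 := by
    intro h
    exact nonZeroDivisors.coe_ne_zero b (Subtype.ext h)
  have hpoly : ∀ x : Algebra.adjoin L ({ι j} : Set F), ∃ p : L[X], aeval (ι j) p = (x : F) :=
    fun x => by
      have h1 : (x : F) ∈ (aeval (R := L) (ι j)).range := by
        rw [← Algebra.adjoin_singleton_eq_range_aeval]
        exact x.2
      exact h1
  obtain ⟨S, hS⟩ := hpoly b
  choose R hR using fun i => hpoly (a i)
  have hkey : f * aeval (ι j) S = ∑ i, aeval (ι j) (R i) * ι (m i) := by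
    rw [← hc, Finset.sum_mul]
    refine Finset.sum_congr rfl fun i _ => ?_
    rw [hR, ha, hS]
    show (c i : F) * ι (m i) * _ = _
    ring
  have hS0 : S ≠ 0 := fun h => hbne (by rw [← hS, h, map_zero])
  have hR0 : ∃ i, R i ≠ 0 := by
    by_contra hall
    push Not at hall
    have : f * aeval (ι j) S = 0 := by
      rw [hkey]
      refine Finset.sum_eq_zero fun i _ => ?_
      rw [hall i, map_zero, zero_mul]
    rw [hS] at this
    exact (mul_ne_zero hf hbne) this
  have hi₀ := hR0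
  obtain ⟨i₀, -⟩ := hi₀
  obtain ⟨cR, R', hcR, hR', hRone⟩ := RIG_scale A R hR0
  obtain ⟨cS, S', hcS, hS', ⟨⟩, d, hSone⟩ := RIG_scale A (fun _ : Unit => S) ⟨(), hS0⟩
  refine ⟨cS / cR, RIG_comb A cst j m R', (S' ()).eval₂ cst j, div_ne_zero hcS hcR,
    RIG_ρ_comb_ne_zero A π ρ cst hρC j m hind hπ R' hRone,
    RIG_ρ_eval₂_ne_zero A π ρ cst hρC j m hind hπ i₀ (S' ()) ⟨d, hSone⟩, ?_⟩
  rw [RIG_ι_comb A ι cst hιC, RIG_ι_eval₂ A ι cst hιC, hS' (), map_mul, aeval_C]
  have h2 : ∀ i, aeval (ι j) ((R' i).map A.subtype) * ι (m i) =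
      algebraMap L F cR * (aeval (ι j) (R i) * ι (m i)) := fun i => by
    rw [hR', map_mul, aeval_C, mul_assoc]
  rw [Finset.sum_congr rfl fun i _ => h2 i, ← Finset.mul_sum, ← hkey, map_div₀]
  have hcR' : algebraMap L F cR ≠ 0 := (_root_.map_ne_zero _).mpr hcR
  field_simp

end Rep

end Fermat.Agent.Lib
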