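import Fermat.Agent.Lib.GaussRep

/-!
# Reductions of integral elements lie in the span of the reduced basis (helper2)

Abstract form of the inequality `[F_k : k(j̄)] ≤ [F : K(j)]`, in the setting of
`Lib/GaussRep.lean`:

* `RIG_exists_poly`: every `f ∈ F` satisfies `f · S(j) = ∑ᵢ Rᵢ(j) mᵢ` with `S ≠ 0`;
* `RIG_ρ_mem_span`: `ρ s ∈ span_{k(ρ j)} (ρ mᵢ)` for every `s ∈ B`;
* `RIG_span_eq_top`, `RIG_finrank_le`: if `F_k` is generated over `k(ρ j)` by elements of `ρ(B)`,
  the `ρ mᵢ` span `F_k`, and `[F_k : k(ρ j)] ≤ n`.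
-/

set_option autoImplicit false

open Polynomial IntermediateField

namespace Fermat.Agent.Lib

section Span

open scoped IntermediateField.algebraAdjoinAdjoin

variable {L : Type*} [Field L] (A : ValuationSubring L) {k : Type*} [Field k] (π : A →+* k)
  {F : Type*} [Field F] [Algebra L F] {Fk : Type*} [Field Fk] [Algebra k Fk]
  {B : Type*} [CommRing B] (ι : B →+* F) (ρ : B →+* Fk) (cst : A →+* B)
  (hιC : ∀ a : A, ι (cst a) = algebraMap L F (a : L))
  (hρC : ∀ a : A, ρ (cst a) = algebraMap k Fk (π a))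
  (j : B) {n : ℕ} (m : Fin n → B)
  (hind : ∀ c : Fin n → k[X], ∑ i, aeval (ρ j) (c i) * ρ (m i) = 0 → ∀ i, c i = 0)

include hιC hρC hind in
/-- every `f ∈ F` is a combination of the `ι (m i)` with coefficients in `L(ι j)`, in
denominator-free form. -/
theorem RIG_exists_poly (hι : Function.Injective ι) (hπ : π 1 ≠ 0)
    [FiniteDimensional L⟮ι j⟯ F] (hn : Module.finrank L⟮ι j⟯ F ≤ n) (f : F) :
    ∃ (S : L[X]) (R : Fin n → L[X]), S ≠ 0 ∧
      f * aeval (ι j) S = ∑ i, aeval (ι j) (R i) * ι (m i) := by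
  classical
  have hli := RIG_linearIndependent A π ι ρ cst hιC hρC j m hind hι hπ
  have hcard : Fintype.card (Fin n) = Module.finrank L⟮ι j⟯ F :=
    le_antisymm hli.fintype_card_le_finrank (by simpa using hn)
  have hspan := hli.span_eq_top_of_card_eq_finrank' hcard
  have hfmem : f ∈ Submodule.span L⟮ι j⟯ (Set.range fun i => ι (m i)) := by
    rw [hspan]; exact Submodule.mem_top
  obtain ⟨c, hc⟩ := (Submodule.mem_span_range_iff_exists_fun _).mp hfmem
  obtain ⟨b, hb⟩ := IsLocalization.exist_integer_multiples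
    (nonZeroDivisors (Algebra.adjoin L ({ι j} : Set F))) Finset.univ c
  have ha : ∀ i, ∃ a : Algebra.adjoin L ({ι j} : Set F),
      (a : F) = ((b : Algebra.adjoin L ({ι j} : Set F)) : F) * (c i : F) := fun i => by
    obtain ⟨a, ha⟩ := hb i (Finset.mem_univ i)
    refine ⟨a, ?_⟩
    have := congrArg (fun z : L⟮ι j⟯ => (z : F)) ha
    simpa [Algebra.smul_def] using this
  choose a ha using ha
  have hbne : ((b : Algebra.adjoin L ({ι j} : Set F)) : F) ≠ 0 := by
    intro h
    exact nonZeroDivisors.coe_ne_zero b (Subtype.ext h)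
  have hpoly : ∀ x : Algebra.adjoin L ({ι j} : Set F), ∃ p : L[X], aeval (ι j) p = (x : F) :=
    fun x => by
      have h1 : (x : F) ∈ (aeval (R := L) (ι j)).range := by
        rw [← Algebra.adjoin_singleton_eq_range_aeval]
        exact x.2
      exact h1
  obtain ⟨S, hS⟩ := hpoly b
  choose R hR using fun i => hpoly (a i)
  refine ⟨S, R, fun h => hbne (by rw [← hS, h, map_zero]), ?_⟩
  rw [← hc, Finset.sum_mul]
  refine Finset.sum_congr rfl fun i _ => ?_
  rw [hR, ha, hS]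
  show (c i : F) * ι (m i) * _ = _
  ring

include hιC hρC hind in
/-- the reduction of every element of `B` lies in the `k(ρ j)`-span of the `ρ (m i)`. -/
theorem RIG_ρ_mem_span (hι : Function.Injective ι) (hπ : π 1 ≠ 0)
    (hπ0 : ∀ a : A, ¬ IsUnit a → π a = 0)
    [FiniteDimensional L⟮ι j⟯ F] (hn : Module.finrank L⟮ι j⟯ F ≤ n) (s : B) :
    ρ s ∈ Submodule.span k⟮ρ j⟯ (Set.range fun i => ρ (m i)) := by
  classical
  by_cases hs : s = 0
  · rw [hs, map_zero]; exact zero_mem _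
  have hf : ι s ≠ 0 := fun h => hs (hι (by rw [h, map_zero]))
  obtain ⟨S, R, hS0, hkey⟩ := RIG_exists_poly A π ι ρ cst hιC hρC j m hind hι hπ hn (ι s)
  obtain ⟨cS, S', hcS, hS', ⟨⟩, d, hSone⟩ := RIG_scale A (fun _ : Unit => S) ⟨(), hS0⟩
  -- the denominator
  set t : B := (S' ()).eval₂ cst j with ht
  have hιt : ι t = algebraMap L F cS * aeval (ι j) S := by
    rw [ht, RIG_ι_eval₂ A ι cst hιC, hS' (), map_mul, aeval_C]
  have hcSF : algebraMap L F cS ≠ 0 := (_root_.map_ne_zero _).mpr hcS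
  have hιt0 : ι t ≠ 0 := by
    rw [hιt]
    refine mul_ne_zero hcSF fun h => ?_
    have h2 : ∑ i, aeval (ι j) (R i) * ι (m i) = 0 := by rw [← hkey, h, mul_zero]
    -- then all `R i` vanish, so `ι s * S(j) = 0`: impossible; we only need `S(j) ≠ 0`
    have hli := RIG_linearIndependent A π ι ρ cst hιC hρC j m hind hι hπ
    have hcard : Fintype.card (Fin n) = Module.finrank L⟮ι j⟯ F :=
      le_antisymm hli.fintype_card_le_finrank (by simpa using hn)
    have hnpos : 0 < n := by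
      have := Module.finrank_pos (R := L⟮ι j⟯) (M := F)
      simp only [Fintype.card_fin] at hcard
      omega
    -- `S(j) = 0` contradicts the independence: `S(j) * ι (m 0) = 0`
    have h3 := Fintype.linearIndependent_iff.mp hli
      (fun i => if i = ⟨0, hnpos⟩ then
        (⟨aeval (ι j) S, by
          have := Polynomial.aeval_mem_adjoin_singleton (R := L) (x := ι j) (p := S)
          exact IntermediateField.algebra_adjoin_le_adjoin L _ this⟩ : L⟮ι j⟯) else 0)
      (by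
        rw [Finset.sum_eq_single ⟨0, hnpos⟩]
        · rw [if_pos rfl]
          show aeval (ι j) S * ι (m ⟨0, hnpos⟩) = 0
          rw [h, zero_mul]
        · intro i _ hi
          rw [if_neg hi, zero_smul]
        · intro h'
          exact absurd (Finset.mem_univ _) h') ⟨0, hnpos⟩
    rw [if_pos rfl] at h3
    have h4 := congrArg (fun z : L⟮ι j⟯ => (z : F)) h3
    simp only [IntermediateField.coe_zero] at h4
    -- now `S(j) = 0` as an element of `F`, with `S ≠ 0`: use the scaled polynomial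
    have h5 : ι t = 0 := by rw [hιt, h4, mul_zero]
    have h6 : t = 0 := hι (by rw [h5, map_zero])
    exact RIG_ρ_eval₂_ne_zero A π ρ cst hρC j m hind hπ ⟨0, hnpos⟩ (S' ()) ⟨d, hSone⟩
      (by rw [← ht, h6, map_zero])
  have hi₀ : 0 < n := by
    have hli := RIG_linearIndependent A π ι ρ cst hιC hρC j m hind hι hπ
    have hcard : Fintype.card (Fin n) = Module.finrank L⟮ι j⟯ F :=
      le_antisymm hli.fintype_card_le_finrank (by simpa using hn)
    have := Module.finrank_pos (R := L⟮ι j⟯) (M := F)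
    simp only [Fintype.card_fin] at hcard
    omega
  have hρt : ρ t ≠ 0 :=
    RIG_ρ_eval₂_ne_zero A π ρ cst hρC j m hind hπ ⟨0, hi₀⟩ (S' ()) ⟨d, hSone⟩
  -- the numerators, scaled by `cS`
  set R₁ : Fin n → L[X] := fun i => C cS * R i with hR₁
  have hkey₁ : ι (s * t) = ∑ i, aeval (ι j) (R₁ i) * ι (m i) := by
    rw [map_mul, hιt]
    have : ∀ i, aeval (ι j) (R₁ i) * ι (m i) =
        algebraMap L F cS * (aeval (ι j) (R i) * ι (m i)) := fun i => by
      rw [hR₁, map_mul, aeval_C, mul_assoc]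
    rw [Finset.sum_congr rfl fun i _ => this i, ← Finset.mul_sum, ← hkey]
    ring
  have hR₁0 : ∃ i, R₁ i ≠ 0 := by
    by_contra hall
    push Not at hall
    have : ι (s * t) = 0 := by
      rw [hkey₁]
      refine Finset.sum_eq_zero fun i _ => ?_
      rw [hall i, map_zero, zero_mul]
    rw [map_mul] at this
    exact (mul_ne_zero hf hιt0) this
  obtain ⟨c, R', hc, hR', hRone⟩ := RIG_scale A R₁ hR₁0
  have hcF : algebraMap L F c ≠ 0 := (_root_.map_ne_zero _).mpr hc
  have hcomb : ι (RIG_comb A cst j m R') = algebraMap L F c * ι (s * t) := by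
    rw [RIG_ι_comb A ι cst hιC, hkey₁, Finset.mul_sum]
    refine Finset.sum_congr rfl fun i _ => ?_
    rw [hR', map_mul, aeval_C, mul_assoc]
  by_cases hcA : c⁻¹ ∈ A
  · -- the coefficients are integral
    have h1 : ι (cst ⟨c⁻¹, hcA⟩ * RIG_comb A cst j m R') = ι (s * t) := by
      rw [map_mul, hιC, hcomb, ← mul_assoc, ← map_mul]
      show algebraMap L F (c⁻¹ * c) * _ = _
      rw [inv_mul_cancel₀ hc, map_one, one_mul]
    have h2 : cst ⟨c⁻¹, hcA⟩ * RIG_comb A cst j m R' = s * t := hι h1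
    have h3 := congrArg ρ h2
    rw [map_mul, map_mul, hρC, RIG_ρ_comb A π ρ cst hρC, Finset.mul_sum] at h3
    have h4 : ρ s = ∑ i, ((ρ t)⁻¹ * (algebraMap k Fk (π ⟨c⁻¹, hcA⟩) *
        aeval (ρ j) ((R' i).map π))) * ρ (m i) := by
      have hsum : ∑ i, ((ρ t)⁻¹ * (algebraMap k Fk (π ⟨c⁻¹, hcA⟩) *
          aeval (ρ j) ((R' i).map π))) * ρ (m i) =
          (ρ t)⁻¹ * ∑ i, algebraMap k Fk (π ⟨c⁻¹, hcA⟩) *
            (aeval (ρ j) ((R' i).map π) * ρ (m i)) := by
        rw [Finset.mul_sum]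
        refine Finset.sum_congr rfl fun i _ => ?_
        ring
      rw [hsum, h3]
      field_simp
    rw [h4]
    refine Submodule.sum_mem _ fun i _ => ?_
    have hmemK : ∀ p : k[X], aeval (ρ j) p ∈ k⟮ρ j⟯ := fun p =>
      IntermediateField.algebra_adjoin_le_adjoin k _
        (Polynomial.aeval_mem_adjoin_singleton (R := k) (x := ρ j) (p := p))
    have htK : ρ t ∈ k⟮ρ j⟯ := by
      rw [ht, RIG_ρ_eval₂ A π ρ cst hρC]
      exact hmemK _
    have hcoef : (ρ t)⁻¹ * (algebraMap k Fk (π ⟨c⁻¹, hcA⟩) * aeval (ρ j) ((R' i).map π)) ∈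
        k⟮ρ j⟯ :=
      mul_mem (inv_mem htK) (mul_mem (k⟮ρ j⟯.algebraMap_mem _) (hmemK _))
    have := Submodule.smul_mem (Submodule.span k⟮ρ j⟯ (Set.range fun i => ρ (m i)))
      (⟨_, hcoef⟩ : k⟮ρ j⟯) (Submodule.subset_span (Set.mem_range_self i))
    exact this
  · -- impossible: the reduction of the combination would vanish
    exfalso
    have hcA' : c ∈ A := (A.mem_or_inv_mem c).resolve_right hcA
    have hnu : ¬ IsUnit (⟨c, hcA'⟩ : A) := by
      intro hu
      obtain ⟨u, hu⟩ := hu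
      apply hcA
      have h1 : ((u⁻¹ : Aˣ) : A) * ⟨c, hcA'⟩ = 1 := by rw [← hu]; exact u.inv_mul
      have h2 := congrArg (fun z : A => (z : L)) h1
      simp only [MulMemClass.coe_mul, OneMemClass.coe_one] at h2
      have h3 : c⁻¹ = (((u⁻¹ : Aˣ) : A) : L) := by
        rw [eq_comm, ← mul_one ((((u⁻¹ : Aˣ) : A) : L)), ← mul_inv_cancel₀ hc, ← mul_assoc, h2,
          one_mul]
      rw [h3]
      exact (((u⁻¹ : Aˣ) : A)).2
    have h1 : ι (RIG_comb A cst j m R') = ι (cst ⟨c, hcA'⟩ * (s * t)) := by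
      rw [hcomb, map_mul (f := ι) (cst _), hιC]
    have h2 := congrArg ρ (hι h1)
    rw [map_mul, hρC, hπ0 _ hnu, map_zero, zero_mul] at h2
    exact RIG_ρ_comb_ne_zero A π ρ cst hρC j m hind hπ R' hRone h2

include hιC hρC hind in
/-- if `F_k` is generated over `k(ρ j)` by reductions of elements of `B`, then the `ρ (m i)`
span `F_k` over `k(ρ j)`. -/
theorem RIG_span_eq_top (hι : Function.Injective ι) (hπ : π 1 ≠ 0)
    (hπ0 : ∀ a : A, ¬ IsUnit a → π a = 0)
    [FiniteDimensional L⟮ι j⟯ F] (hn : Module.finrank L⟮ι j⟯ F ≤ n)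
    [Algebra.IsAlgebraic k⟮ρ j⟯ Fk] {σ : Type*} (g : σ → B)
    (hgen : IntermediateField.adjoin k⟮ρ j⟯ (Set.range fun d => ρ (g d)) = ⊤) :
    Submodule.span k⟮ρ j⟯ (Set.range fun i => ρ (m i)) = ⊤ := by
  rw [eq_top_iff]
  have h1 : (IntermediateField.adjoin k⟮ρ j⟯ (Set.range fun d => ρ (g d))).toSubalgebra =
      Algebra.adjoin k⟮ρ j⟯ (Set.range fun d => ρ (g d)) :=
    IntermediateField.adjoin_toSubalgebra _
  have h2 : Algebra.adjoin k⟮ρ j⟯ (Set.range fun d => ρ (g d)) = ⊤ := by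
    rw [← h1, hgen]; rfl
  have h3 : (Algebra.adjoin k⟮ρ j⟯ (Set.range fun d => ρ (g d))).toSubmodule ≤
      Submodule.span k⟮ρ j⟯ (Set.range fun i => ρ (m i)) := by
    rw [Algebra.adjoin_eq_span, Submodule.span_le]
    intro x hx
    have hx' : x ∈ ρ.range.toSubmonoid := by
      refine (Submonoid.closure_le (s := Set.range fun d => ρ (g d))
        (S := ρ.range.toSubmonoid)).mpr ?_ hx
      rintro _ ⟨d, rfl⟩
      exact ⟨g d, rfl⟩
    obtain ⟨s, rfl⟩ := hx'
    exact RIG_ρ_mem_span A π ι ρ cst hιC hρC j m hind hι hπ hπ0 hn s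
  rw [h2] at h3
  exact h3

include hιC hρC hind in
/-- **`[F_k : k(ρ j)] ≤ n`**. -/
theorem RIG_finrank_le (hι : Function.Injective ι) (hπ : π 1 ≠ 0)
    (hπ0 : ∀ a : A, ¬ IsUnit a → π a = 0)
    [FiniteDimensional L⟮ι j⟯ F] (hn : Module.finrank L⟮ι j⟯ F ≤ n)
    [Algebra.IsAlgebraic k⟮ρ j⟯ Fk] {σ : Type*} (g : σ → B)
    (hgen : IntermediateField.adjoin k⟮ρ j⟯ (Set.range fun d => ρ (g d)) = ⊤) :
    Module.finrank k⟮ρ j⟯ Fk ≤ n := by
  have h := RIG_span_eq_top A π ι ρ cst hιC hρC j m hind hι hπ hπ0 hn g hgen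
  have h1 := finrank_range_le_card (R := k⟮ρ j⟯) (fun i => ρ (m i))
  rw [Set.finrank, h, finrank_top, Fintype.card_fin] at h1
  exact h1

end Span

end Fermat.Agent.Lib
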