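import Fermat.Agent.Lib.HurwitzFin
import Fermat.Agent.Lib.DiffLocal
import Fermat.Agent.Lib.DiffTDLocal
import Fermat.Agent.Lib.DiffTDEuler
import Fermat.Agent.Lib.FFBranch

/-!
# Package H (Hurwitz), part 5: the dual lattices and the assembly

Given the local trace-dual statement `HW_TD` (package DIFF, part TD) and the lattice at infinity
(package INF), we identify the dual lattices with `HW_MS _ W'` for the divisor of `dx`
and deduce `deg (dx) = 2 g - 2`.
-/

set_option autoImplicit false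
set_option linter.unusedSectionVars false

open AlgebraicCurve IntermediateField IsDedekindDomain WithZero KaehlerDifferential Polynomial
open scoped IntermediateField.algebraAdjoinAdjoin

universe u v

namespace Fermat.Agent.Lib

open Fermat.Agent.S24

variable {K : Type u} {F : Type v} [Field K] [Field F] [Algebra K F]

/-- The local trace-dual statement (TD) at the fibre `π = 0` (package DIFF). -/
def HW_TD (K : Type u) {F : Type v} [Field K] [Field F] [Algebra K F] (π : F) : Prop :=
  ∀ z : F,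
    (∀ b : F, (∀ v : Place K F, 0 < v.ord π → 0 ≤ v.ord b) →
        ∀ v : Place K F, 0 < v.ord π →
          0 ≤ v.ord (algebraMap K⟮π⟯ F (Algebra.trace K⟮π⟯ F (z * b)))) ↔
    (∀ v : Place K F, 0 < v.ord π → z = 0 ∨ -v.ordDifferential (D K F π) ≤ v.ord z)

/-! ### transport along equalities of intermediate fields -/

theorem HWG_trace_congr {L₁ L₂ : IntermediateField K F} (h : L₁ = L₂) (z : F) :
    algebraMap L₁ F (Algebra.trace L₁ F z) = algebraMap L₂ F (Algebra.trace L₂ F z) := by
  subst h; rfl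

theorem HWG_adjoin_sub (x : F) (c : K) : K⟮x - algebraMap K F c⟯ = K⟮x⟯ := by
  apply le_antisymm
  · rw [adjoin_simple_le_iff]
    exact sub_mem (mem_adjoin_simple_self K x) (IntermediateField.algebraMap_mem _ c)
  · rw [adjoin_simple_le_iff]
    have h1 : (x - algebraMap K F c) + algebraMap K F c ∈ K⟮x - algebraMap K F c⟯ :=
      add_mem (mem_adjoin_simple_self K _) (IntermediateField.algebraMap_mem _ c)
    rwa [sub_add_cancel] at h1

theorem HWG_transcendental_sub {x : F} (hx : Transcendental K x) (c : K) :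
    Transcendental K (x - algebraMap K F c) := by
  intro h
  apply hx
  have h1 : IsAlgebraic K ((x - algebraMap K F c) + algebraMap K F c) :=
    h.add (isAlgebraic_algebraMap c)
  rwa [sub_add_cancel] at h1

/-! ### elementary facts on places -/

theorem HWG_ord_nonneg_of_sub_pos (v : Place K F) {x : F} {c : K}
    (h : 0 < v.ord (x - algebraMap K F c)) : 0 ≤ v.ord x := by
  rw [FDT_ord_nonneg_iff]
  have h1 : x - algebraMap K F c ∈ v.toValuationSubring :=
    (FDT_ord_nonneg_iff v _).1 h.le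
  have h2 := v.toValuationSubring.add_mem _ _ h1 (v.algebraMap_mem' c)
  rwa [sub_add_cancel] at h2

theorem HWG_exists_sub_pos (v : Place K F) (hdeg : v.deg = 1) {x : F} (hx : Transcendental K x)
    (h : 0 ≤ v.ord x) : ∃ c : K, 0 < v.ord (x - algebraMap K F c) := by
  have hx0 : x ≠ 0 := fun h0 => hx (h0 ▸ isAlgebraic_zero)
  have hval : v.adicValuation x ≤ 1 := (FDT_val_le_one_iff v x).2 ((FDT_ord_nonneg_iff v x).1 h)
  obtain ⟨c, hc⟩ := RR_exists_const v hdeg hval
  refine ⟨c, ?_⟩
  have hne : x - algebraMap K F c ≠ 0 := by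
    intro h0
    apply hx
    rw [sub_eq_zero.1 h0]
    exact isAlgebraic_algebraMap c
  exact (FDT_val_lt_one_iff v hne).1 hc

/-! ### clearing denominators -/

section Clear

variable {x : F} (hx : Transcendental K x) [FiniteDimensional K⟮x⟯ F]

theorem HWG_mem_fin_of_isIntegral {z : F} (hz : IsIntegral (Algebra.adjoin K ({x} : Set F)) z) :
    z ∈ HW_MS {v : Place K F | 0 ≤ v.ord x} 0 := by
  intro v hv
  have hxv : x ∈ v.toValuationSubring := (FDT_ord_nonneg_iff v x).1 hv
  have := BL_mem_of_isIntegral v hxv hz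
  rw [Finsupp.zero_apply, exp_zero]
  exact (BL_adicValuation_le_one_iff v z).2 this

theorem HWG_mem_fin_iff {z : F} :
    z ∈ HW_MS {v : Place K F | 0 ≤ v.ord x} 0 ↔
      ∀ v : Place K F, 0 ≤ v.ord x → v.adicValuation z ≤ 1 := by
  rw [HW_mem_MS]
  refine forall_congr' fun v => ?_
  simp only [Set.mem_ofPred_eq, Finsupp.zero_apply, exp_zero]

/-- some nonzero polynomial in `x` clears the denominators of `b'`. -/
theorem HWG_exists_clear (b' : F) :
    ∃ p : K[X], p ≠ 0 ∧ aeval x p * b' ∈ HW_MS {v : Place K F | 0 ≤ v.ord x} 0 := by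
  have halg : Algebra.IsAlgebraic K⟮x⟯ F := Algebra.IsAlgebraic.of_finite _ _
  have halg' : IsAlgebraic (Algebra.adjoin K ({x} : Set F)) b' :=
    (IsFractionRing.isAlgebraic_iff (Algebra.adjoin K ({x} : Set F)) K⟮x⟯ F).2
      (Algebra.IsAlgebraic.isAlgebraic b')
  obtain ⟨y, hy0, hy⟩ := halg'.exists_integral_multiple
  obtain ⟨p, hp⟩ : ∃ p : K[X], aeval x p = (y : F) := by
    have h1 : (y : F) ∈ Algebra.adjoin K ({x} : Set F) := y.2
    have h2 : (y : F) ∈ (aeval (R := K) x).range := by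
      rw [← Algebra.adjoin_singleton_eq_range_aeval]; exact h1
    exact h2
  refine ⟨p, ?_, ?_⟩
  · rintro rfl
    apply hy0
    apply Subtype.ext
    rw [← hp]; simp
  · have := HWG_mem_fin_of_isIntegral hy
    rw [hp]
    rwa [Algebra.smul_def] at this

include hx in
/-- **clearing denominators away from `x = c`**: if `b'` is regular at the places over `x = c`,
then `p(x) b'` is regular at all finite places for some polynomial `p` with `p(c) ≠ 0`. -/
theorem HWG_clear (c : K) (b' : F)
    (hb' : ∀ v : Place K F, 0 < v.ord (x - algebraMap K F c) → 0 ≤ v.ord b') :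
    ∃ p : K[X], p.eval c ≠ 0 ∧ aeval x p * b' ∈ HW_MS {v : Place K F | 0 ≤ v.ord x} 0 := by
  classical
  have hex : ∃ n : ℕ, ∃ p : K[X], p ≠ 0 ∧
      aeval x p * b' ∈ HW_MS {v : Place K F | 0 ≤ v.ord x} 0 ∧ p.natDegree = n := by
    obtain ⟨p, hp0, hp⟩ := HWG_exists_clear (K := K) (x := x) b'
    exact ⟨_, p, hp0, hp, rfl⟩
  obtain ⟨p, hp0, hp, hdeg⟩ := Nat.find_spec hex
  refine ⟨p, ?_, hp⟩
  intro hroot
  obtain ⟨q, hq⟩ := Polynomial.dvd_iff_isRoot.2 hroot
  have hq0 : q ≠ 0 := by
    rintro rfl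
    apply hp0
    rw [hq, mul_zero]
  have hdq : q.natDegree + 1 = p.natDegree := by
    rw [hq, Polynomial.natDegree_mul (Polynomial.X_sub_C_ne_zero c) hq0,
      Polynomial.natDegree_X_sub_C, add_comm]
  have hxc : x - algebraMap K F c ≠ 0 := by
    intro h0
    apply hx
    rw [sub_eq_zero.1 h0]
    exact isAlgebraic_algebraMap c
  have hpx : aeval x p = (x - algebraMap K F c) * aeval x q := by
    rw [hq, map_mul, map_sub, Polynomial.aeval_X, Polynomial.aeval_C]
  have hqmem : aeval x q * b' ∈ HW_MS {v : Place K F | 0 ≤ v.ord x} 0 := by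
    rw [HWG_mem_fin_iff]
    intro v hv
    have hvx : v.adicValuation x ≤ 1 := (FDT_val_le_one_iff v x).2 ((FDT_ord_nonneg_iff v x).1 hv)
    by_cases hvc : 0 < v.ord (x - algebraMap K F c)
    · rw [map_mul]
      have h1 := FDT_val_aeval_le v hvx q
      have h2 : v.adicValuation b' ≤ 1 :=
        (FDT_val_le_one_iff v b').2 ((FDT_ord_nonneg_iff v b').1 (hb' v hvc))
      exact mul_le_one' h1 h2
    · have h0 : 0 ≤ v.ord (x - algebraMap K F c) := by
        rw [FDT_ord_nonneg_iff]
        exact sub_mem ((FDT_ord_nonneg_iff v x).1 hv) (v.algebraMap_mem' c)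
      have h1 : v.ord (x - algebraMap K F c) = 0 := by omega
      have h2 : v.adicValuation (x - algebraMap K F c) = 1 := (FDT_val_eq_one_iff v hxc).2 h1
      have h3 := (HWG_mem_fin_iff.1 hp) v hv
      rw [hpx, mul_assoc, map_mul, h2, one_mul] at h3
      exact h3
  have hlt : q.natDegree < Nat.find hex := by omega
  exact Nat.find_min hex hlt ⟨q, hq0, hqmem, rfl⟩

end Clear

/-! ### the generic dual lattice -/

section GenDual

open Module

/-- membership in the lattice spanned by the dual basis. -/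
theorem HWG_mem_lat_dual {K R L V ι : Type*} [Field K] [Field L] [AddCommGroup V] [Module L V]
    [Module K V] [CommRing R] [IsDomain R] [Algebra K R] [Algebra R L] [Module R V]
    [IsScalarTower R L V] [IsScalarTower K R V] [Module.IsTorsionFree R L]
    [Fintype ι] [DecidableEq ι]
    (B : LinearMap.BilinForm L V) (hB : B.Nondegenerate) (b : Basis ι L V) (z : V) :
    z ∈ HW_lat K R (B.dualBasis hB b) ↔
      ∀ y ∈ HW_lat K R b, B z y ∈ Set.range (algebraMap R L) := by
  rw [HW_mem_lat_iff]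
  simp only [LinearMap.BilinForm.dualBasis_repr_apply]
  constructor
  · intro h y hy
    rw [HW_mem_lat_iff] at hy
    have hy' : y = ∑ i, b.repr y i • b i := (b.sum_repr y).symm
    rw [hy', map_sum]
    have hmem : ∀ i, B z (b.repr y i • b i) ∈ (algebraMap R L).range := by
      intro i
      rw [map_smul, smul_eq_mul]
      exact Subring.mul_mem _ (hy i) (h i)
    exact Subring.sum_mem _ fun i _ => hmem i
  · intro h i
    apply h
    have := HW_smul_mem_lat (K := K) b (1 : R) i
    rwa [one_smul] at this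

end GenDual

/-! ### the local trace dual, transported -/

section TD

variable [IsAlgClosed K]

/-- `FD_traceDual_iff` with the trace taken over any intermediate field equal to `K(π)`. -/
theorem HWG_TD_of_eq {π : F} (L : IntermediateField K F) (heq : K⟮π⟯ = L)
    (hπ : Transcendental K π) [FiniteDimensional L F] [Algebra.IsSeparable L F] (z : F) :
    (∀ b : F, (∀ v : Place K F, 0 < v.ord π → 0 ≤ v.ord b) →
        ∀ v : Place K F, 0 < v.ord π →
          0 ≤ v.ord (algebraMap L F (Algebra.trace L F (z * b)))) ↔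
    (∀ v : Place K F, 0 < v.ord π → z = 0 ∨ -v.ordDifferential (D K F π) ≤ v.ord z) := by
  subst heq
  exact FD_traceDual_iff π hπ z

end TD

/-! ### the dual of the finite lattice -/

section DualFin

theorem HWG_D_sub (x : F) (c : K) : D K F (x - algebraMap K F c) = D K F x := by
  rw [map_sub, Derivation.map_algebraMap, sub_zero]

theorem HWG_ord_nonneg_iff_val (v : Place K F) (f : F) :
    0 ≤ v.ord f ↔ v.adicValuation f ≤ 1 := by
  rw [FDT_ord_nonneg_iff, FDT_val_le_one_iff]

/-- the trace is linear over polynomials in `x`. -/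
theorem HWG_trace_aeval_mul (x : F) [FiniteDimensional K⟮x⟯ F] (p : K[X]) (w : F) :
    algebraMap K⟮x⟯ F (Algebra.trace K⟮x⟯ F (aeval x p * w)) =
      aeval x p * algebraMap K⟮x⟯ F (Algebra.trace K⟮x⟯ F w) := by
  have h1 : aeval x p * w = (aeval (AdjoinSimple.gen K x) p : K⟮x⟯) • w := by
    rw [Algebra.smul_def]
    congr 1
    exact (AdjoinSimple.coe_aeval_gen_apply (F := K) (α := x) p).symm
  rw [h1, map_smul, smul_eq_mul, map_mul]
  congr 1
  exact AdjoinSimple.coe_aeval_gen_apply (F := K) (α := x) p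

variable [IsAlgClosed K] {x : F} (hx : Transcendental K x) [FiniteDimensional K⟮x⟯ F]
  [Algebra.IsSeparable K⟮x⟯ F]

include hx in
/-- **the dual of the finite lattice** (local form): `Tr(z · B) ⊆ B` iff `z ∈ M_fin(W)`,
`W = (dx)` on the finite places. -/
theorem HWG_dual_fin (W : Divisor K F)
    (hW : ∀ v : Place K F, 0 ≤ v.ord x → W v = v.ordDifferential (D K F x)) (z : F) :
    (∀ y ∈ HW_MS {v : Place K F | 0 ≤ v.ord x} 0,
        algebraMap K⟮x⟯ F (Algebra.trace K⟮x⟯ F (z * y)) ∈
          HW_MS {v : Place K F | 0 ≤ v.ord x} 0) ↔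
      z ∈ HW_MS {v : Place K F | 0 ≤ v.ord x} W := by
  constructor
  · intro H
    rw [HW_mem_MS_iff_ord]
    intro v hv
    obtain ⟨c, hc⟩ := FFS_exists_value hx v hv
    have hπ := HWG_transcendental_sub hx c
    have key := (HWG_TD_of_eq K⟮x⟯ (HWG_adjoin_sub x c) hπ z).1 ?_ v hc
    · rwa [HWG_D_sub, ← hW v hv] at key
    · intro b' hb' v' hv'
      obtain ⟨p, hpc, hp⟩ := HWG_clear hx c b' hb'
      have hv'x : 0 ≤ v'.ord x := HWG_ord_nonneg_of_sub_pos v' hv'
      have h1 := (HWG_mem_fin_iff.1 (H _ hp)) v' hv'x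
      rw [← mul_assoc, mul_comm z, mul_assoc, HWG_trace_aeval_mul, map_mul] at h1
      have hπ0 : x - algebraMap K F c ≠ 0 := fun h0 => hπ (h0 ▸ isAlgebraic_zero)
      have h2 : v'.adicValuation (aeval x p) = 1 := by
        have h3 : aeval x p = aeval (x - algebraMap K F c) (p.comp (X + C c)) := by
          rw [Polynomial.aeval_comp, map_add, Polynomial.aeval_X, Polynomial.aeval_C,
            sub_add_cancel]
        rw [h3]
        apply FDT_val_aeval_eq_one v' ((FDT_val_lt_one_iff v' hπ0).2 hv')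
        rw [Polynomial.eval_comp, Polynomial.eval_add, Polynomial.eval_X, Polynomial.eval_C,
          zero_add]
        exact hpc
      rw [h2, one_mul] at h1
      exact (HWG_ord_nonneg_iff_val v' _).2 h1
  · intro hz y hy
    rw [HWG_mem_fin_iff]
    intro v hv
    obtain ⟨c, hc⟩ := FFS_exists_value hx v hv
    have hπ := HWG_transcendental_sub hx c
    rw [HW_mem_MS_iff_ord] at hz
    have key := (HWG_TD_of_eq K⟮x⟯ (HWG_adjoin_sub x c) hπ z).2 ?_ y ?_ v hc
    · exact (HWG_ord_nonneg_iff_val v _).1 key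
    · intro v' hv'
      have hv'x : 0 ≤ v'.ord x := HWG_ord_nonneg_of_sub_pos v' hv'
      rw [HWG_D_sub, ← hW v' hv'x]
      exact hz v' hv'x
    · intro v' hv'
      have hv'x : 0 ≤ v'.ord x := HWG_ord_nonneg_of_sub_pos v' hv'
      exact (HWG_ord_nonneg_iff_val v' _).2 ((HWG_mem_fin_iff.1 hy) v' hv'x)

omit [IsAlgClosed K] [Algebra.IsSeparable K⟮x⟯ F] in
theorem HWG_mem_inf_iff {z : F} :
    z ∈ HW_MS {v : Place K F | v.ord x < 0} 0 ↔
      ∀ v : Place K F, v.ord x < 0 → v.adicValuation z ≤ 1 := by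
  rw [HW_mem_MS]
  refine forall_congr' fun v => ?_
  simp only [Set.mem_ofPred_eq, Finsupp.zero_apply, exp_zero]

include hx in
/-- **the dual of the lattice at infinity** (local form): `W = (d(1/x))` on the poles of `x`. -/
theorem HWG_dual_inf (W : Divisor K F)
    (hW : ∀ v : Place K F, v.ord x < 0 → W v = v.ordDifferential (D K F x⁻¹)) (z : F) :
    (∀ y ∈ HW_MS {v : Place K F | v.ord x < 0} 0,
        algebraMap K⟮x⟯ F (Algebra.trace K⟮x⟯ F (z * y)) ∈
          HW_MS {v : Place K F | v.ord x < 0} 0) ↔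
      z ∈ HW_MS {v : Place K F | v.ord x < 0} W := by
  have hπ := BG_transcendental_inv hx
  have hpos : ∀ v : Place K F, 0 < v.ord x⁻¹ ↔ v.ord x < 0 := by
    intro v
    rw [v.ord_inv]
    omega
  have TD := HWG_TD_of_eq K⟮x⟯ (BG_adjoin_inv x) hπ z
  constructor
  · intro H
    rw [HW_mem_MS_iff_ord]
    intro v hv
    have key := TD.1 ?_ v ((hpos v).2 hv)
    · rwa [← hW v hv] at key
    · intro b' hb' v' hv'
      have hb'mem : b' ∈ HW_MS {v : Place K F | v.ord x < 0} 0 := by
        rw [HWG_mem_inf_iff]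
        intro w hw
        exact (HWG_ord_nonneg_iff_val w _).1 (hb' w ((hpos w).2 hw))
      exact (HWG_ord_nonneg_iff_val v' _).2
        ((HWG_mem_inf_iff.1 (H b' hb'mem)) v' ((hpos v').1 hv'))
  · intro hz y hy
    rw [HWG_mem_inf_iff]
    intro v hv
    rw [HW_mem_MS_iff_ord] at hz
    have key := TD.2 ?_ y ?_ v ((hpos v).2 hv)
    · exact (HWG_ord_nonneg_iff_val v _).1 key
    · intro v' hv'
      rw [← hW v' ((hpos v').1 hv')]
      exact hz v' ((hpos v').1 hv')
    · intro v' hv'
      exact (HWG_ord_nonneg_iff_val v' _).2 ((HWG_mem_inf_iff.1 hy) v' ((hpos v').1 hv'))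

end DualFin

/-! ### the dual lattices -/

section Lattices

open Module

variable [IsAlgClosed K] {x : F} (hx : Transcendental K x) [FiniteDimensional K⟮x⟯ F]
  [Algebra.IsSeparable K⟮x⟯ F]

include hx in
/-- `K[x]` is the set of elements of `K(x)` regular at all finite places. -/
theorem HWG_range_fin_iff (t : K⟮x⟯) :
    t ∈ Set.range (algebraMap (Algebra.adjoin K ({x} : Set F)) K⟮x⟯) ↔
      algebraMap K⟮x⟯ F t ∈ HW_MS {v : Place K F | 0 ≤ v.ord x} 0 := by
  have := BG_isPrincipalIdealRing hx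
  rw [← HWF_isIntegral_iff hx,
    isIntegral_algebraMap_iff (algebraMap K⟮x⟯ F).injective,
    IsIntegrallyClosed.isIntegral_iff]
  rfl

include hx in
theorem HWG_lat_dual_fin {ι : Type*} [Fintype ι] [DecidableEq ι] (b : Basis ι K⟮x⟯ F)
    (hb : HW_lat K (Algebra.adjoin K ({x} : Set F)) b = HW_MS {v : Place K F | 0 ≤ v.ord x} 0)
    (W : Divisor K F) (hW : ∀ v : Place K F, 0 ≤ v.ord x → W v = v.ordDifferential (D K F x)) :
    HW_lat K (Algebra.adjoin K ({x} : Set F))
        ((Algebra.traceForm K⟮x⟯ F).dualBasis (traceForm_nondegenerate K⟮x⟯ F) b) =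
      HW_MS {v : Place K F | 0 ≤ v.ord x} W := by
  ext z
  rw [HWG_mem_lat_dual, hb, ← HWG_dual_fin hx W hW z]
  refine forall₂_congr fun y _ => ?_
  rw [HWG_range_fin_iff hx, Algebra.traceForm_apply]

include hx in
theorem HWG_lat_dual_inf {ι : Type*} [Fintype ι] [DecidableEq ι] (R₂ : Subalgebra K K⟮x⟯)
    (hR₂ : ∀ t : K⟮x⟯, t ∈ R₂ ↔
      ∀ v : Place K F, v.ord x < 0 → v.adicValuation (algebraMap K⟮x⟯ F t) ≤ 1)
    (b : Basis ι K⟮x⟯ F)
    (hb : HW_lat K R₂ b = HW_MS {v : Place K F | v.ord x < 0} 0)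
    (W : Divisor K F)
    (hW : ∀ v : Place K F, v.ord x < 0 → W v = v.ordDifferential (D K F x⁻¹)) :
    HW_lat K R₂
        ((Algebra.traceForm K⟮x⟯ F).dualBasis (traceForm_nondegenerate K⟮x⟯ F) b) =
      HW_MS {v : Place K F | v.ord x < 0} W := by
  ext z
  rw [HWG_mem_lat_dual, hb, ← HWG_dual_inf hx W hW z]
  refine forall₂_congr fun y _ => ?_
  rw [HWG_mem_inf_iff, Algebra.traceForm_apply, ← hR₂]
  constructor
  · rintro ⟨r, hr⟩
    rw [← hr]
    exact r.2
  · intro h
    exact ⟨⟨_, h⟩, rfl⟩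

end Lattices

/-! ### the assembly -/

section Assembly

open Module

variable [IsAlgClosed K] {x : F} (hx : Transcendental K x) [FiniteDimensional K⟮x⟯ F]
  [Algebra.IsSeparable K⟮x⟯ F]

omit [IsAlgClosed K] [FiniteDimensional K⟮x⟯ F] [Algebra.IsSeparable K⟮x⟯ F] in
include hx in
/-- quotients of `K[x]` by nonzero elements are finite-dimensional. -/
theorem HWG_hfin (r : Algebra.adjoin K ({x} : Set F)) (hr : r ≠ 0) :
    Module.Finite K (Algebra.adjoin K ({x} : Set F) ⧸
      Ideal.span ({r} : Set (Algebra.adjoin K ({x} : Set F)))) := by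
  obtain ⟨f, hf⟩ := (BL_equiv hx).surjective r
  have hf0 : f ≠ 0 := by
    rintro rfl
    exact hr (by rw [← hf, map_zero])
  have hfinAR : Module.Finite K (AdjoinRoot f) := (AdjoinRoot.powerBasis hf0).finite
  let φ : K[X] →ₐ[K] (Algebra.adjoin K ({x} : Set F) ⧸
      Ideal.span ({r} : Set (Algebra.adjoin K ({x} : Set F)))) :=
    (Ideal.Quotient.mkₐ K _).comp (BL_equiv hx).toAlgHom
  have hφ : ∀ a ∈ Ideal.span ({f} : Set K[X]), φ a = 0 := by
    intro a ha
    obtain ⟨g, rfl⟩ := Ideal.mem_span_singleton.1 ha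
    show Ideal.Quotient.mk _ ((BL_equiv hx) (f * g)) = 0
    rw [Ideal.Quotient.eq_zero_iff_mem, map_mul, hf]
    exact Ideal.mul_mem_right _ _ (Ideal.mem_span_singleton_self r)
  let ψ : AdjoinRoot f →ₐ[K] (Algebra.adjoin K ({x} : Set F) ⧸
      Ideal.span ({r} : Set (Algebra.adjoin K ({x} : Set F)))) :=
    Ideal.Quotient.liftₐ (Ideal.span ({f} : Set K[X])) φ hφ
  refine Module.Finite.of_surjective ψ.toLinearMap ?_
  intro y
  obtain ⟨a, rfl⟩ := Ideal.Quotient.mk_surjective y
  obtain ⟨g, rfl⟩ := (BL_equiv hx).surjective a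
  exact ⟨Ideal.Quotient.mk _ g, rfl⟩

include hx in
/-- the pole divisor of `x` has degree `[F : K(x)]`. -/
theorem HWG_poleDiv_degree (h : RR_Hyp K F) :
    (RR_poleDiv h.principal x).degree = (finrank K⟮x⟯ F : ℤ) := by
  classical
  have hsub : (RR_poleDiv h.principal x).support ⊆ FFS_poles hx := by
    intro v hv
    rw [Finsupp.mem_support_iff, RR_poleDiv_apply] at hv
    rw [FFS_mem_poles]
    by_contra hc
    apply hv
    rw [not_lt] at hc
    exact max_eq_right (by omega)
  rw [RR_degree_eq_sum_of_subset h.deg_one _ hsub]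
  have h1 : ∀ v ∈ FFS_poles hx, RR_poleDiv h.principal x v = -v.ord x := by
    intro v hv
    rw [RR_poleDiv_apply]
    have := (FFS_mem_poles hx v).1 hv
    exact max_eq_left (by omega)
  rw [Finset.sum_congr rfl h1, Finset.sum_neg_distrib, FFS_sum_poles hx, neg_neg]

include hx in
/-- **Hurwitz / `deg (dx) = 2g - 2`**, assuming the lattice at infinity (package INF) and the
existence of the divisor of `dx` (package H-W). -/
theorem HW_hurwitz_of (h : RR_Hyp K F)
    (R₂ : Subalgebra K K⟮x⟯)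
    (hR₂ : ∀ t : K⟮x⟯, t ∈ R₂ ↔
      ∀ v : Place K F, v.ord x < 0 → v.adicValuation (algebraMap K⟮x⟯ F t) ≤ 1)
    (hcap : ∀ (a : Algebra.adjoin K ({x} : Set F)) (c : R₂),
      algebraMap (Algebra.adjoin K ({x} : Set F)) K⟮x⟯ a = algebraMap R₂ K⟮x⟯ c →
        ∃ k : K, algebraMap K K⟮x⟯ k = algebraMap (Algebra.adjoin K ({x} : Set F)) K⟮x⟯ a)
    (hsum : ∀ f : K⟮x⟯, ∃ (a : Algebra.adjoin K ({x} : Set F)) (c : R₂),
      f = algebraMap (Algebra.adjoin K ({x} : Set F)) K⟮x⟯ a + algebraMap R₂ K⟮x⟯ c)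
    (b' : Basis (Fin (finrank K⟮x⟯ F)) K⟮x⟯ F)
    (hb' : HW_lat K R₂ b' = HW_MS {v : Place K F | v.ord x < 0} 0)
    (W : Divisor K F) (hW : ∀ v : Place K F, W v = v.ordDifferential (D K F x))
    (hinv : ∀ v : Place K F, v.ord x < 0 →
      v.ordDifferential (D K F x⁻¹) = v.ordDifferential (D K F x) - 2 * v.ord x) :
    W.degree = 2 * (RR_genus K F : ℤ) - 2 := by
  classical
  obtain ⟨b, hb⟩ := HWF_exists_basis hx
  have hPID := BG_isPrincipalIdealRing hx
  have hB := traceForm_nondegenerate K⟮x⟯ F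
  obtain ⟨hF, hF', hχ⟩ := HW_lattice_duality (K := K)
    (R₁ := Algebra.adjoin K ({x} : Set F)) (R₂ := R₂) hcap hsum (HWG_hfin hx)
    (Algebra.traceForm K⟮x⟯ F) hB b b'
  set P := RR_poleDiv h.principal x with hPdef
  set W' : Divisor K F := W + (P + P) with hW'def
  have hW'fin : ∀ v : Place K F, 0 ≤ v.ord x → W' v = v.ordDifferential (D K F x) := by
    intro v hv
    have hPv : P v = 0 := by
      rw [hPdef, RR_poleDiv_apply]
      exact max_eq_right (by omega)
    rw [hW'def, Finsupp.add_apply, Finsupp.add_apply, hPv, hW v]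
    ring
  have hW'inf : ∀ v : Place K F, v.ord x < 0 → W' v = v.ordDifferential (D K F x⁻¹) := by
    intro v hv
    have hPv : P v = -v.ord x := by
      rw [hPdef, RR_poleDiv_apply]
      exact max_eq_left (by omega)
    rw [hW'def, Finsupp.add_apply, Finsupp.add_apply, hPv, hW v, hinv v hv]
    ring
  rw [hb, hb'] at hF hχ
  rw [HWG_lat_dual_fin hx b hb W' hW'fin, HWG_lat_dual_inf hx R₂ hR₂ b' hb' W' hW'inf] at hF' hχ
  have hcompl : {v : Place K F | 0 ≤ v.ord x}ᶜ = {v : Place K F | v.ord x < 0} := by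
    ext v
    simp
  have hn : 0 < finrank K⟮x⟯ F := finrank_pos
  have hSc : ({v : Place K F | 0 ≤ v.ord x}ᶜ).Nonempty := by
    rw [hcompl]
    by_contra hne
    have hempty : FFS_poles hx = ∅ := by
      rw [Finset.eq_empty_iff_forall_notMem]
      intro v hv
      exact hne ⟨v, (FFS_mem_poles hx v).1 hv⟩
    have := FFS_sum_poles hx
    rw [hempty, Finset.sum_empty] at this
    omega
  have hS : ({v : Place K F | 0 ≤ v.ord x}).Nonempty := by
    by_contra hne
    have hempty : FFS_zeros hx = ∅ := by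
      rw [Finset.eq_empty_iff_forall_notMem]
      intro v hv
      exact hne ⟨v, ((FFS_mem_zeros hx v).1 hv).le⟩
    have := FFS_sum_zeros hx
    rw [hempty, Finset.sum_empty] at this
    omega
  have hbase : ∃ D₀ : Divisor K F, HW_Fred (HW_MS {v : Place K F | 0 ≤ v.ord x} D₀)
      (HW_MS {v : Place K F | 0 ≤ v.ord x}ᶜ D₀) := ⟨0, by rw [hcompl]; exact hF⟩
  have h0 := (HW_chi_divisor _ h hS hSc hbase 0).2
  have h1 := (HW_chi_divisor _ h hS hSc hbase W').2
  rw [hcompl] at h0 h1
  have hdeg : W'.degree = W.degree + 2 * (finrank K⟮x⟯ F : ℤ) := by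
    rw [hW'def, map_add, map_add, hPdef, HWG_poleDiv_degree hx h]
    ring
  have hdeg0 : (0 : Divisor K F).degree = 0 := map_zero _
  rw [Fintype.card_fin] at hχ
  rw [hdeg0] at h0
  rw [hdeg] at h1
  linarith

end Assembly

end Fermat.Agent.Lib
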