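import Fermat.Agent.Lib.FFBranch
import Fermat.Agent.Lib.DiffLocal

/-!
# Hurwitz, package H-W (TRACK 3, helper23): the divisor of `dx`

`K` algebraically closed, `x : F` transcendental over `K`, `F / K(x)` finite separable.

* `HWW_D_ne_zero`          : `dx ≠ 0`;
* `HWW_ordDifferential_eq_zero` : `ord_v(dx) = 0` if `x - c` is a uniformizer at `v`;
* `HWW_exists_divisor` (W1): `v ↦ ord_v(dx)` has finite support, i.e. is a divisor;
* `HWW_ordDifferential_inv` (W2): `ord_v(d(1/x)) = ord_v(dx) - 2 ord_v(x)`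
  (stated at poles, true at every place where `x ≠ 0`, see `HWW_ordDifferential_inv'`).
-/

set_option autoImplicit false

open AlgebraicCurve KaehlerDifferential IntermediateField

namespace Fermat.Agent.Lib

universe u v

variable {K : Type u} {F : Type v} [Field K] [Field F] [Algebra K F]

section

variable [IsAlgClosed K] {x : F} [FiniteDimensional K⟮x⟯ F] [Algebra.IsSeparable K⟮x⟯ F]

omit [IsAlgClosed K] in
/-- for a separating `x`, `dx ≠ 0` as soon as there is one place of degree one. -/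
theorem HWW_D_ne_zero_of_place (v : Place K F) (hdeg : v.deg = 1) : D K F x ≠ 0 := by
  intro h0
  have hnt := FD_nontrivial_kaehler v hdeg
  have hspan := FD_span_D (K := K) x
  rw [h0, Submodule.span_zero_singleton] at hspan
  obtain ⟨ω, hω⟩ := exists_ne (0 : Ω[F⁄K])
  have : ω ∈ (⊥ : Submodule F Ω[F⁄K]) := hspan ▸ Submodule.mem_top
  exact hω ((Submodule.mem_bot F).1 this)

/-- the coefficient of `dx` at any place is nonzero. -/
theorem HWW_differentialCoeff_ne_zero (v : Place K F) :
    v.differentialCoeff (D K F x) ≠ 0 := by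
  have hdeg := FD_deg_one (K := K) x v
  have := FD_dCoordGenerates x v hdeg
  intro h0
  apply HWW_D_ne_zero_of_place (x := x) v hdeg
  rw [← v.differentialCoeff_smul_dCoord (D K F x), h0, zero_smul]

/-- `ord_v(dx) = 0` if `x - c` is a uniformizer at `v`. -/
theorem HWW_ordDifferential_eq_zero (v : Place K F) {c : K}
    (hc : v.ord (x - algebraMap K F c) = 1) : v.ordDifferential (D K F x) = 0 := by
  have hdeg := FD_deg_one (K := K) x v
  rw [FD_ordDifferential_D_of_sub x v hdeg (c := c) (by rw [hc]; simp), hc, sub_self]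

/-- **(W1)** the divisor of `dx`: the function `v ↦ ord_v(dx)` has finite support. -/
theorem HWW_exists_divisor (hx : Transcendental K x) :
    ∃ W : Divisor K F, ∀ v : Place K F, W v = v.ordDifferential (D K F x) := by
  classical
  obtain ⟨T₀, hT₀⟩ := FFS_exists_branch_finset (K := K) (F := F) hx
  refine ⟨Finsupp.onFinset T₀ (fun v => v.ordDifferential (D K F x)) ?_, fun v => ?_⟩
  · intro v hv
    by_contra hvT
    obtain ⟨-, c, hc⟩ := hT₀ v hvT
    exact hv (HWW_ordDifferential_eq_zero v hc)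
  · rw [Finsupp.onFinset_apply]

/-- `ord_v(d(1/x)) = ord_v(dx) - 2 ord_v(x)` at every place (`x ≠ 0`). -/
theorem HWW_ordDifferential_inv' (hx0 : x ≠ 0) (v : Place K F) :
    v.ordDifferential (D K F x⁻¹) = v.ordDifferential (D K F x) - 2 * v.ord x := by
  have hdeg := FD_deg_one (K := K) x v
  have := FD_dCoordGenerates x v hdeg
  have hnt := FD_nontrivial_kaehler v hdeg
  have hc := HWW_differentialCoeff_ne_zero (x := x) v
  have hD : D K F x⁻¹ = (-(x⁻¹ ^ 2)) • D K F x := by
    rw [Derivation.leibniz_inv, inv_pow]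
  have hne : -(x⁻¹ ^ 2) ≠ 0 := neg_ne_zero.2 (pow_ne_zero _ (inv_ne_zero hx0))
  rw [hD, v.ordDifferential_smul hne hc]
  have h1 : v.ord (-(x⁻¹ ^ 2)) = -(2 * v.ord x) := by
    have h2 : -(x⁻¹ ^ 2) = (-1 : F) * x ^ (-2 : ℤ) := by
      rw [zpow_neg, neg_one_mul, inv_pow]
      norm_cast
    rw [h2, v.ord_mul (neg_ne_zero.2 one_ne_zero) (zpow_ne_zero _ hx0), v.ord_zpow]
    have h3 : v.ord (-1 : F) = 0 := by
      have h4 : ((-1 : F)) * (-1) = 1 := by ring
      have h5 := v.ord_mul (neg_ne_zero.2 (one_ne_zero (α := F)))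
        (neg_ne_zero.2 (one_ne_zero (α := F)))
      rw [h4, v.ord_one] at h5
      omega
    rw [h3]
    ring
  rw [h1]
  ring

/-- **(W2)** at a pole of `x`: `d(x⁻¹) = -x⁻² dx`, so
`ord_v(d(1/x)) = ord_v(dx) - 2 ord_v(x)`. -/
theorem HWW_ordDifferential_inv (v : Place K F) (hv : v.ord x < 0) :
    v.ordDifferential (D K F x⁻¹) = v.ordDifferential (D K F x) - 2 * v.ord x := by
  have hx0 : x ≠ 0 := by
    rintro rfl
    rw [v.ord_zero] at hv
    exact lt_irrefl _ hv
  exact HWW_ordDifferential_inv' hx0 v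

end

end Fermat.Agent.Lib
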