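import Mathlib
import Fermat.Prelude.Def_FLTPrelim_Ramification
import Fermat.Agent.Lib.ValFraction

/-!
# A criterion for membership in the inertia group of a valuation subring

* `inertiaCrit_mem_inertia_of_forall` : if `σ • A = A` and `σ x - x ∈ 𝔪_A` for all `x ∈ A`,
  then `σ ∈ A.inertiaSubgroupIn K`.
* `inertiaCrit_mem_inertia_of_forall_isIntegral` : for a valuation subring `A` of `ℚ̄` lying over a
  prime `ℓ`, if `σ b - b ∈ 𝔪_A` for all algebraic integers `b`, then `σ ∈ A.inertiaSubgroupIn ℚ`.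
-/

set_option autoImplicit false

open scoped Pointwise

namespace Fermat.Agent.Lib

section General

variable {K L : Type*} [Field K] [Field L] [Algebra K L]

/-- If `σ` maps `A` into `A` and so does `σ⁻¹`, then `σ` is in the decomposition group. -/
theorem inertiaCrit_mem_decomposition_of_forall (A : ValuationSubring L) (σ : L ≃ₐ[K] L)
    (h1 : ∀ x ∈ A, σ x ∈ A) (h2 : ∀ x ∈ A, σ.symm x ∈ A) :
    σ ∈ A.decompositionSubgroup K := by
  show σ • A = A
  ext x
  constructor
  · rintro ⟨y, hy, rfl⟩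
    exact h1 y hy
  · intro hx
    exact ⟨σ.symm x, h2 x hx, by simp⟩

/-- Criterion for membership in the inertia group. -/
theorem inertiaCrit_mem_inertia_of_forall (A : ValuationSubring L) (σ : L ≃ₐ[K] L)
    (hσ : σ ∈ A.decompositionSubgroup K)
    (h : ∀ x, x ∈ A → σ x - x ∈ A.nonunits) :
    σ ∈ A.inertiaSubgroupIn K := by
  refine ⟨⟨σ, hσ⟩, ?_, rfl⟩
  show (⟨σ, hσ⟩ : A.decompositionSubgroup K) ∈ MonoidHom.ker _
  rw [MonoidHom.mem_ker]
  ext y
  obtain ⟨x, rfl⟩ := IsLocalRing.residue_surjective y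
  show (⟨σ, hσ⟩ : A.decompositionSubgroup K) • (IsLocalRing.residue A x) = IsLocalRing.residue A x
  rw [← IsLocalRing.ResidueField.residue_smul]
  rw [← sub_eq_zero, ← map_sub, IsLocalRing.residue_eq_zero_iff,
    ← ValuationSubring.coe_mem_nonunits_iff]
  exact h x.1 x.2

end General

section Integral

variable {K L : Type*} [Field K] [Field L] [Algebra K L] [CharZero L]

omit [CharZero L] in
/-- Algebraic integers lie in every valuation subring. -/
theorem inertiaCrit_mem_of_isIntegral (A : ValuationSubring L) {x : L}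
    (hx : IsIntegral ℤ x) : x ∈ A := by
  have h1 : IsIntegral A x := hx.tower_top
  obtain ⟨y, hy⟩ := IsIntegrallyClosed.algebraMap_eq_of_integral (R := A) (K := L) h1
  rw [← hy]
  exact y.2

theorem inertiaCrit_aux_mem (A : ValuationSubring L) {ℓ : ℕ} (hℓ : ℓ.Prime)
    (hA : (ℓ : L) ∈ A.nonunits) (hLalg : ∀ x : L, IsAlgebraic ℤ x) (σ : L ≃ₐ[K] L)
    (h : ∀ b : L, IsIntegral ℤ b → σ b - b ∈ A.nonunits) {x : L} (hx : x ∈ A) :
    σ x ∈ A ∧ σ x - x ∈ A.nonunits := by
  obtain ⟨s, y, hs, hy, hsA, hsu, hsy⟩ :=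
    exists_integral_fraction_of_mem_valuationSubring hℓ A hA (hLalg x) hx
  have hs0 : s ≠ 0 := by
    rintro rfl
    exact hsu (by rw [A.mem_nonunits_iff]; simp)
  have hvs : A.valuation s = 1 := by
    have h1 : A.valuation s ≤ 1 := (A.valuation_le_one_iff _).mpr hsA
    have h2 : ¬ A.valuation s < 1 := fun h' => hsu (A.mem_nonunits_iff.mpr h')
    exact le_antisymm h1 (not_lt.mp h2)
  have hσs : σ s - s ∈ A.nonunits := h s hs
  have hσy : σ y - y ∈ A.nonunits := h y hy
  have hvσs : A.valuation (σ s) = 1 := by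
    have h1 : A.valuation (σ s - s) < 1 := A.mem_nonunits_iff.mp hσs
    have h2 : σ s = s + (σ s - s) := by ring
    rw [h2]
    have := Valuation.map_add_eq_of_lt_left A.valuation (x := s) (y := σ s - s) (by rw [hvs]; exact h1)
    rw [this, hvs]
  have hσs0 : σ s ≠ 0 := by
    intro h0
    rw [h0, map_zero] at hvσs
    exact zero_ne_one hvσs
  have hx' : x = y / s := by
    field_simp
    rw [mul_comm]; exact hsy
  have hσx : σ x = σ y / σ s := by rw [hx', map_div₀]
  have hyA : y ∈ A := inertiaCrit_mem_of_isIntegral A hy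
  have hvy : A.valuation y ≤ 1 := (A.valuation_le_one_iff _).mpr hyA
  have hσyA : σ y ∈ A := inertiaCrit_mem_of_isIntegral A (hy.map (σ.toAlgHom.restrictScalars ℤ))
  have hvσy : A.valuation (σ y) ≤ 1 := (A.valuation_le_one_iff _).mpr hσyA
  constructor
  · rw [hσx, ← A.valuation_le_one_iff, map_div₀, hvσs, div_one]
    exact hvσy
  · rw [A.mem_nonunits_iff]
    have key : σ x - x = ((σ y - y) * s - y * (σ s - s)) / (s * σ s) := by
      rw [hσx, hx']
      field_simp
      ring
    rw [key, map_div₀, map_mul, hvs, hvσs, mul_one, div_one]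
    refine lt_of_le_of_lt (Valuation.map_sub _ _ _) (max_lt ?_ ?_)
    · rw [map_mul, hvs, mul_one]
      exact A.mem_nonunits_iff.mp hσy
    · rw [map_mul]
      calc A.valuation y * A.valuation (σ s - s) ≤ 1 * A.valuation (σ s - s) :=
            mul_le_mul_left hvy _
        _ = A.valuation (σ s - s) := one_mul _
        _ < 1 := A.mem_nonunits_iff.mp hσs

/-- If `σ` moves every algebraic integer only by an element of the maximal ideal of `A`
(a valuation subring over a prime `ℓ` of a field algebraic over `ℚ`), then `σ` belongs to the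
inertia group of `A`. -/
theorem inertiaCrit_mem_inertia_of_forall_isIntegral (A : ValuationSubring L) {ℓ : ℕ}
    (hℓ : ℓ.Prime) (hA : (ℓ : L) ∈ A.nonunits) (hLalg : ∀ x : L, IsAlgebraic ℤ x)
    (σ : L ≃ₐ[K] L) (h : ∀ b : L, IsIntegral ℤ b → σ b - b ∈ A.nonunits) :
    σ ∈ A.inertiaSubgroupIn K := by
  have h' : ∀ b : L, IsIntegral ℤ b → σ.symm b - b ∈ A.nonunits := by
    intro b hb
    have hb' : IsIntegral ℤ (σ.symm b) := hb.map (σ.symm.toAlgHom.restrictScalars ℤ)
    have := h (σ.symm b) hb'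
    rw [AlgEquiv.apply_symm_apply] at this
    rw [A.mem_nonunits_iff] at this ⊢
    rw [← Valuation.map_neg]
    simpa using this
  have hdec : σ ∈ A.decompositionSubgroup K :=
    inertiaCrit_mem_decomposition_of_forall A σ
      (fun x hx => (inertiaCrit_aux_mem A hℓ hA hLalg σ h hx).1)
      (fun x hx => (inertiaCrit_aux_mem A hℓ hA hLalg σ.symm h' hx).1)
  exact inertiaCrit_mem_inertia_of_forall A σ hdec
    (fun x hx => (inertiaCrit_aux_mem A hℓ hA hLalg σ h hx).2)

end Integral

end Fermat.Agent.Lib
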