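import Mathlib

/-!
# Lifting inertia along a closed normal subgroup of a profinite group

Let a profinite group `G` act continuously on a discrete commutative ring `B`, let `H` be a closed
normal subgroup and `Q` a prime ideal of `B`. If `σ : G` moves every `H`-invariant element only by
an element of `Q`, then `τ * σ` lies in the inertia group of `Q` for some `τ ∈ H`.
-/

set_option autoImplicit false

open scoped Pointwise

namespace Fermat.Agent.Lib

universe u

section

variable {G : Type u} {B : Type*} [Group G] [CommRing B] [MulSemiringAction G B]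
  [TopologicalSpace G] [IsTopologicalGroup G] [CompactSpace G] [TotallyDisconnectedSpace G]
  [TopologicalSpace B] [DiscreteTopology B] [ContinuousSMul G B]

omit [TopologicalSpace G] [IsTopologicalGroup G] [CompactSpace G] [TotallyDisconnectedSpace G]
  [TopologicalSpace B] [DiscreteTopology B] [ContinuousSMul G B] in
theorem inertiaLift_isInvariant (H : Subgroup G) :
    Algebra.IsInvariant (FixedPoints.subalgebra ℤ B H) B H :=
  ⟨fun b hb => ⟨⟨b, hb⟩, rfl⟩⟩

theorem inertiaLift_exists (H : Subgroup G) [H.Normal] (hH : IsClosed (H : Set G))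
    (Q : Ideal B) [Q.IsPrime] (σ : G)
    (hσ : ∀ a : B, (∀ h : H, h • a = a) → σ • a - a ∈ Q) :
    ∃ τ ∈ H, ∀ b : B, (τ * σ) • b - b ∈ Q := by
  classical
  have : CompactSpace H := isCompact_iff_compactSpace.mp hH.isCompact
  have := inertiaLift_isInvariant (B := B) H
  let S := FixedPoints.subalgebra ℤ B H
  -- `σ⁻¹` preserves invariants
  have hinv : ∀ a : B, (∀ h : H, h • a = a) → ∀ h : H, h • (σ⁻¹ • a) = σ⁻¹ • a := by
    intro a ha h
    have hmem : σ * (h : G) * σ⁻¹ ∈ H := Subgroup.Normal.conj_mem inferInstance _ h.2 σ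
    have := ha ⟨_, hmem⟩
    have h2 : (σ * (h : G) * σ⁻¹) • a = a := this
    calc h • (σ⁻¹ • a) = (h : G) • (σ⁻¹ • a) := rfl
      _ = σ⁻¹ • ((σ * (h : G) * σ⁻¹) • a) := by simp [mul_smul]
      _ = σ⁻¹ • a := by rw [h2]
  -- the two primes have the same contraction
  have hunder : (σ • Q).under S = Q.under S := by
    ext a
    simp only [Ideal.under_def, Ideal.mem_comap]
    rw [Ideal.mem_pointwise_smul_iff_inv_smul_mem]
    have h1 := hσ (σ⁻¹ • (a : B)) (hinv _ a.2)
    rw [smul_inv_smul] at h1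
    show σ⁻¹ • (a : B) ∈ Q ↔ (a : B) ∈ Q
    constructor
    · intro h
      have := Q.add_mem h1 h
      simpa using this
    · intro h
      have := Q.sub_mem h h1
      simpa using this
  obtain ⟨τ₁, hτ₁⟩ := Algebra.IsInvariant.exists_smul_of_under_eq_of_profinite
    (A := S) (B := B) (G := H) (σ • Q) Q hunder
  -- `σ₂ := τ₁ * σ` stabilises `Q`
  have hσS : ∀ a : B, (∀ h : H, h • a = a) → ∀ h : H, h • (σ • a) = σ • a := by
    intro a ha h
    have hmem : σ⁻¹ * (h : G) * σ ∈ H := by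
      have := Subgroup.Normal.conj_mem (inferInstance : H.Normal) _ h.2 σ⁻¹
      simpa using this
    have h2 : (σ⁻¹ * (h : G) * σ) • a = a := ha ⟨_, hmem⟩
    calc h • (σ • a) = (h : G) • (σ • a) := rfl
      _ = σ • ((σ⁻¹ * (h : G) * σ) • a) := by simp [mul_smul]
      _ = σ • a := by rw [h2]
  have hstab : ((τ₁ : G) * σ) • Q = Q := by
    rw [mul_smul]; exact hτ₁.symm
  have hσ₂S : ∀ a : B, (∀ h : H, h • a = a) → ((τ₁ : G) * σ) • a - a ∈ Q := by
    intro a ha
    have h1 : ((τ₁ : G) * σ) • a = σ • a := by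
      rw [mul_smul]; exact hσS a ha τ₁
    rw [h1]; exact hσ a ha
  have : Q.LiesOver (Q.under S) := ⟨rfl⟩
  have hmap : Q = Q.map (MulSemiringAction.toRingEquiv G B ((τ₁ : G) * σ)) := by
    conv_lhs => rw [← hstab]
    rfl
  let e : (B ⧸ Q) ≃+* (B ⧸ Q) :=
    Ideal.quotientEquiv Q Q (MulSemiringAction.toRingEquiv G B ((τ₁ : G) * σ)) hmap
  have he : ∀ b : B, e (Ideal.Quotient.mk Q b) = Ideal.Quotient.mk Q (((τ₁ : G) * σ) • b) :=
    fun b => rfl
  let φ : (B ⧸ Q) ≃ₐ[S ⧸ Q.under S] (B ⧸ Q) := AlgEquiv.ofRingEquiv (f := e) (by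
    intro x
    obtain ⟨a, rfl⟩ := Ideal.Quotient.mk_surjective x
    show e (Ideal.Quotient.mk Q (a : B)) = Ideal.Quotient.mk Q (a : B)
    rw [he, Ideal.Quotient.eq]
    exact hσ₂S a a.2)
  obtain ⟨ρ, hρ⟩ := Ideal.Quotient.stabilizerHom_surjective_of_profinite (G := H) (Q.under S) Q φ
  let r : G := ((ρ : H) : G)
  have hrH : r ∈ H := (ρ : H).2
  have hrQ : r • Q = Q := ρ.2
  refine ⟨r⁻¹ * (τ₁ : G), H.mul_mem (H.inv_mem hrH) τ₁.2, ?_⟩
  intro b
  have h1 : Ideal.Quotient.mk Q (r • b) = Ideal.Quotient.mk Q (((τ₁ : G) * σ) • b) := by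
    have := congrArg (fun f => f (Ideal.Quotient.mk Q b)) hρ
    exact this
  rw [Ideal.Quotient.eq] at h1
  -- apply `r⁻¹`
  have h2 : r⁻¹ • (r • b - ((τ₁ : G) * σ) • b) ∈ Q := by
    have : r • b - ((τ₁ : G) * σ) • b ∈ r • Q := by rw [hrQ]; exact h1
    rwa [Ideal.mem_pointwise_smul_iff_inv_smul_mem] at this
  have h3 : (r⁻¹ * (τ₁ : G) * σ) • b - b = -(r⁻¹ • (r • b - ((τ₁ : G) * σ) • b)) := by
    rw [smul_sub, inv_smul_smul]
    simp only [mul_smul, neg_sub]
  rw [h3]
  exact Q.neg_mem h2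

end

end Fermat.Agent.Lib
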