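import Mathlib.RingTheory.Valuation.ValuationSubring
import Mathlib.Algebra.Polynomial.Roots
import Mathlib.Algebra.Polynomial.Lifts

/-!
# S13, package LP1: a Newton-polygon inequality

If `f` has coefficients in a valuation subring `A` and `s` is a finite set of roots of `f` in `A`,
then `v (f(0)) ≤ ∏_{t ∈ s} v t`.
-/

set_option autoImplicit false

namespace Fermat.Agent.Lib

open Polynomial

theorem newton_coeff_zero_le {K : Type*} [Field K] (A : ValuationSubring K) (f : Polynomial K)
    (hf : ∀ i, f.coeff i ∈ A) (s : Finset K) (hs : ∀ t ∈ s, t ∈ A ∧ f.eval t = 0) :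
    A.valuation (f.coeff 0) ≤ ∏ t ∈ s, A.valuation t := by
  classical
  by_cases hf0 : f = 0
  · simp [hf0]
  -- lift `f` to `A[X]`
  have hinj : Function.Injective (algebraMap A K) := Subtype.coe_injective
  obtain ⟨g, hg⟩ : ∃ g : Polynomial A, g.map (algebraMap A K) = f := by
    have : f ∈ Polynomial.lifts (algebraMap A K) := by
      rw [Polynomial.lifts_iff_coeff_lifts]
      intro n
      exact ⟨⟨f.coeff n, hf n⟩, rfl⟩
    exact (Polynomial.mem_lifts f).mp this
  have hg0 : g ≠ 0 := by
    rintro rfl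
    exact hf0 (by rw [← hg, Polynomial.map_zero])
  -- the roots, in `A`
  set ms : Multiset A := s.attach.val.map (fun t ↦ (⟨t.1, (hs t.1 t.2).1⟩ : A)) with hms
  have hnodup : ms.Nodup := by
    refine Multiset.Nodup.map ?_ s.attach.nodup
    intro a b hab
    exact Subtype.ext (congrArg (fun z : A ↦ (z : K)) hab)
  have hle : ms ≤ g.roots := by
    rw [Multiset.le_iff_subset hnodup]
    intro a ha
    rw [hms, Multiset.mem_map] at ha
    obtain ⟨t, _, rfl⟩ := ha
    rw [Polynomial.mem_roots hg0, Polynomial.IsRoot]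
    apply hinj
    rw [map_zero, ← Polynomial.eval₂_at_apply, ← Polynomial.eval_map, hg]
    exact (hs t.1 t.2).2
  obtain ⟨q, hq⟩ := (Multiset.prod_X_sub_C_dvd_iff_le_roots hg0 ms).mpr hle
  have hc0 : g.coeff 0 = (ms.map fun a ↦ -a).prod * q.coeff 0 := by
    rw [hq, Polynomial.mul_coeff_zero, Polynomial.coeff_zero_eq_eval_zero,
      Polynomial.eval_multiset_prod, Multiset.map_map]
    congr 2
    apply Multiset.map_congr rfl
    intro a _
    simp
  have hfc : f.coeff 0 = ((g.coeff 0 : A) : K) := by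
    rw [← hg, Polynomial.coeff_map]
    rfl
  rw [hfc, hc0, MulMemClass.coe_mul, map_mul]
  have h1 : A.valuation ((q.coeff 0 : A) : K) ≤ 1 := A.valuation_le_one _
  have h2 : A.valuation (((ms.map fun a ↦ -a).prod : A) : K) = ∏ t ∈ s, A.valuation t := by
    rw [hms, Multiset.map_map]
    have : ((Multiset.map ((fun a : A ↦ -a) ∘ fun t : {x // x ∈ s} ↦
        (⟨t.1, (hs t.1 t.2).1⟩ : A)) s.attach.val).prod : A) =
        ∏ t ∈ s.attach, (-(⟨t.1, (hs t.1 t.2).1⟩ : A)) := rfl
    rw [this]
    push_cast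
    rw [map_prod]
    rw [← Finset.prod_attach s (fun t ↦ A.valuation t)]
    apply Finset.prod_congr rfl
    intro t _
    rw [Valuation.map_neg]
  rw [h2]
  calc (∏ t ∈ s, A.valuation t) * A.valuation ((q.coeff 0 : A) : K)
      ≤ (∏ t ∈ s, A.valuation t) * 1 := by gcongr
    _ = ∏ t ∈ s, A.valuation t := mul_one _

end Fermat.Agent.Lib
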