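import Mathlib
import Fermat.Agent.Lib.SepDeriv
import Fermat.Agent.Lib.FFSep
import Fermat.Agent.Lib.RiemannCharZero

/-!
# Abstract function fields in characteristic `ℓ` (TRACK 3, package SEPP, helper17)

`k` algebraically closed of characteristic `ℓ`, `E / k` ANY field, `x : E` transcendental with
`E / k(x)` finite separable.  With `d = KaehlerDifferential.D k E` (the universal derivation):

* `SA_d_ne_zero`            : `d x ≠ 0`;
* `SA_isSeparable`          : `d g ≠ 0` ⇒ `E / k(g)` is finite separable;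
* `SA_exists_root`          : `d f = 0` ⇒ `f = h ^ ℓ`;
* `SA_hasPrincipalDivisors`, `SA_RR_hyp`.

This is `Lib/SepField.lean` (helper2) without the ambient Laurent series field.
-/

set_option autoImplicit false
set_option linter.unusedSectionVars false
set_option linter.unusedVariables false
set_option linter.style.longLine false

open IntermediateField AlgebraicCurve Polynomial

namespace Fermat.Agent.Lib

open Fermat.Agent.S24

section Deriv

variable {k E V : Type*} [Field k] [Field E] [Algebra k E] [AddCommGroup V] [Module k V]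
  [Module E V] [IsScalarTower k E V]

/-- a derivation killing `x` kills `k(x)`. -/
theorem SA_deriv_adjoin (D : Derivation k E V) {x : E} (hx : D x = 0) {c : E} (hc : c ∈ k⟮x⟯) :
    D c = 0 := by
  induction hc using IntermediateField.adjoin_induction with
  | mem y hy =>
    rw [Set.mem_singleton_iff] at hy
    rw [hy, hx]
  | algebraMap a => exact D.map_algebraMap a
  | add a b _ _ ha hb => rw [map_add, ha, hb, add_zero]
  | inv a _ ha => rw [Derivation.leibniz_inv, ha, smul_zero]
  | mul a b _ _ ha hb => rw [Derivation.leibniz, ha, hb, smul_zero, smul_zero, add_zero]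

/-- a derivation killing `x` kills every element separable over `k(x)`. -/
theorem SA_deriv_separable (D : Derivation k E V) {x : E} (hx : D x = 0) {y : E}
    (hy : IsSeparable k⟮x⟯ y) : D y = 0 := by
  -- the `k(x)`-linear version of `D`
  let D' : Derivation k⟮x⟯ E V :=
    { toFun := D
      map_add' := map_add D
      map_smul' := fun c z => by
        rw [RingHom.id_apply, Algebra.smul_def, Derivation.leibniz,
          SA_deriv_adjoin D hx (c := algebraMap k⟮x⟯ E c) c.2, smul_zero, add_zero]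
        rfl
      map_one_eq_zero' := D.map_one_eq_zero
      leibniz' := fun a b => D.leibniz a b }
  have h1 : D' (aeval y (minpoly k⟮x⟯ y)) = aeval y (derivative (minpoly k⟮x⟯ y)) • D' y :=
    Derivation.map_aeval D' _ y
  rw [minpoly.aeval, map_zero] at h1
  have h2 : aeval y (derivative (minpoly k⟮x⟯ y)) ≠ 0 :=
    (Polynomial.Separable.aeval_derivative_ne_zero hy (minpoly.aeval _ _))
  have h3 : D' y = 0 := by
    rcases smul_eq_zero.1 h1.symm with h | h
    · exact absurd h h2
    · exact h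
  exact h3

end Deriv

section Kaehler

variable {k : Type*} {E : Type*} [Field k] [Field E] [Algebra k E]

/-- `E` is essentially of finite type over `k` if it is finite over `k(x)`. -/
theorem SA_essFiniteType (x : E) [FiniteDimensional k⟮x⟯ E] : Algebra.EssFiniteType k E := by
  rw [← IntermediateField.fg_top_iff]
  classical
  obtain ⟨s, hs⟩ := (Module.finite_def (R := k⟮x⟯) (M := E)).1 inferInstance
  refine ⟨insert x s, ?_⟩
  rw [eq_top_iff]
  rintro y -
  have hy : y ∈ Submodule.span k⟮x⟯ (s : Set E) := by rw [hs]; trivial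
  have hx : k⟮x⟯ ≤ adjoin k ((insert x s : Finset E) : Set E) := by
    rw [adjoin_simple_le_iff]
    exact subset_adjoin _ _ (by simp)
  induction hy using Submodule.span_induction with
  | mem z hz => exact subset_adjoin _ _ (by simp [hz])
  | zero => exact zero_mem _
  | add a b _ _ ha hb => exact add_mem ha hb
  | smul c a _ ha =>
    rw [Algebra.smul_def]
    exact mul_mem (hx c.2) ha

/-- **the differential of a separating element is nonzero.** -/
theorem SA_d_ne_zero {x : E} (hx : Transcendental k x) [FiniteDimensional k⟮x⟯ E]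
    [Algebra.IsSeparable k⟮x⟯ E] : KaehlerDifferential.D k E x ≠ 0 := by
  intro h0
  have hall : ∀ y : E, KaehlerDifferential.D k E y = 0 := fun y =>
    SA_deriv_separable (KaehlerDifferential.D k E) h0 (Algebra.IsSeparable.isSeparable k⟮x⟯ y)
  have hsub : Subsingleton Ω[E⁄k] := by
    have h1 := KaehlerDifferential.span_range_derivation k E
    have h2 : Set.range (KaehlerDifferential.D k E) ⊆ {0} := by
      rintro _ ⟨y, rfl⟩
      exact hall y
    have h3 : (⊤ : Submodule E Ω[E⁄k]) ≤ ⊥ := by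
      rw [← h1, Submodule.span_le]
      intro z hz
      exact h2 hz
    exact ⟨fun a b => by
      have ha : a ∈ (⊥ : Submodule E Ω[E⁄k]) := h3 trivial
      have hb : b ∈ (⊥ : Submodule E Ω[E⁄k]) := h3 trivial
      rw [Submodule.mem_bot] at ha hb
      rw [ha, hb]⟩
  have hunr : Algebra.FormallyUnramified k E := ⟨hsub⟩
  have hess : Algebra.EssFiniteType k E := SA_essFiniteType x
  have hsep : Algebra.IsSeparable k E := Algebra.FormallyUnramified.isSeparable k E
  exact hx (Algebra.IsSeparable.isSeparable k x).isIntegral.isAlgebraic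

end Kaehler

section Root

variable {k E V : Type*} [Field k] [Field E] [Algebra k E] [AddCommGroup V] [Module k V]
  [Module E V] [IsScalarTower k E V]

/-- the set of elements `∑_{j<ℓ} a_j^ℓ x^j`, `a_j ∈ E`. -/
def SA_Rep {E : Type*} [Field E] (ℓ : ℕ) (x c : E) : Prop :=
  ∃ a : ℕ → E, c = ∑ j ∈ Finset.range ℓ, a j ^ ℓ * x ^ j

theorem SA_rep_iff {E : Type*} [Field E] (ℓ : ℕ) (x c : E) : SA_Rep ℓ x c ↔ SD_Rep E ℓ x c := by
  constructor
  · rintro ⟨a, ha⟩
    exact ⟨a, fun j => IntermediateField.algebraMap_mem _ (a j), ha⟩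
  · rintro ⟨a, -, ha⟩
    exact ⟨a, ha⟩

theorem SA_rep_of_rep {ℓ : ℕ} {x c : E} (h : SD_Rep k ℓ x c) : SA_Rep ℓ x c := by
  obtain ⟨a, -, ha⟩ := h
  exact ⟨a, ha⟩

/-- the representable elements are closed under adjoining a representable element to `k(x)`. -/
theorem SA_rep_adjoin (ℓ : ℕ) [hℓ : Fact ℓ.Prime] [CharP k ℓ] [PerfectField k] (x w : E)
    (hw : SA_Rep ℓ x w) {z : E} (hz : z ∈ k⟮x⟯⟮w⟯) : SA_Rep ℓ x z := by
  have hE : CharP E ℓ := charP_of_injective_algebraMap (algebraMap k E).injective ℓ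
  induction hz using IntermediateField.adjoin_induction with
  | mem z hz =>
    rw [Set.mem_singleton_iff] at hz
    rw [hz]
    exact hw
  | algebraMap c => exact SA_rep_of_rep (SD_decomp (k := k) ℓ x c.2)
  | add a b _ _ ha hb =>
    rw [SA_rep_iff] at ha hb ⊢
    exact SD_rep_add ℓ x ha hb
  | inv a _ ha =>
    rw [SA_rep_iff] at ha ⊢
    exact SD_rep_inv ℓ x (IntermediateField.algebraMap_mem _ a) ha
  | mul a b _ _ ha hb =>
    rw [SA_rep_iff] at ha hb ⊢
    exact SD_rep_mul ℓ x ha hb

/-- every element of `E` is `∑_{j<ℓ} a_j^ℓ x^j` if `E / k(x)` is separable algebraic. -/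
theorem SA_rep_all (ℓ : ℕ) [hℓ : Fact ℓ.Prime] [CharP k ℓ] [PerfectField k] (x : E)
    [Algebra.IsSeparable k⟮x⟯ E] (y : E) : SA_Rep ℓ x y := by
  have hkx : CharP k⟮x⟯ ℓ := charP_of_injective_algebraMap (algebraMap k k⟮x⟯).injective ℓ
  have : ExpChar k⟮x⟯ ℓ := ExpChar.prime hℓ.out
  have h1 : k⟮x⟯⟮y⟯ = k⟮x⟯⟮y ^ ℓ⟯ :=
    IntermediateField.adjoin_simple_eq_adjoin_pow_expChar_of_isSeparable' k⟮x⟯ E y ℓ
  have h2 : y ∈ k⟮x⟯⟮y ^ ℓ⟯ := by
    rw [← h1]
    exact IntermediateField.mem_adjoin_simple_self _ y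
  refine SA_rep_adjoin (k := k) ℓ x (y ^ ℓ) ?_ h2
  rw [SA_rep_iff]
  exact SD_rep_pow ℓ x (IntermediateField.algebraMap_mem _ y)

/-- a representable element killed by a derivation `D` with `D x ≠ 0` is an `ℓ`-th power. -/
theorem SA_exists_root_of_rep (ℓ : ℕ) [hℓ : Fact ℓ.Prime] [CharP E ℓ] (D : Derivation k E V)
    {x : E} (hx : D x ≠ 0) {f : E} (hrep : SA_Rep ℓ x f) (hf : D f = 0) :
    ∃ h : E, h ^ ℓ = f := by
  obtain ⟨a, ha⟩ := hrep
  have hℓpos : 0 < ℓ := hℓ.out.pos
  have h1 : D f = (∑ j ∈ Finset.range ℓ, a j ^ ℓ * ((j : E) * x ^ (j - 1))) • D x := by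
    rw [ha, map_sum, Finset.sum_smul]
    refine Finset.sum_congr rfl fun j _ => ?_
    rw [Derivation.leibniz, SD_deriv_pow_char ℓ, smul_zero, add_zero, Derivation.leibniz_pow,
      mul_smul, mul_smul, Nat.cast_smul_eq_nsmul]
  rw [hf] at h1
  have h2 : ∑ j ∈ Finset.range ℓ, a j ^ ℓ * ((j : E) * x ^ (j - 1)) = 0 := by
    rcases smul_eq_zero.1 h1.symm with h | h
    · exact h
    · exact absurd h hx
  obtain ⟨m, rfl⟩ : ∃ m, ℓ = m + 1 := ⟨ℓ - 1, by omega⟩
  rw [Finset.sum_range_succ'] at h2
  simp only [Nat.cast_zero, zero_mul, mul_zero, add_zero, Nat.add_sub_cancel] at h2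
  have hpow : ∀ n : ℕ, ((n : E)) ^ (m + 1) = (n : E) := by
    intro n
    have := map_natCast (frobenius E (m + 1)) n
    rwa [frobenius_def] at this
  have h3 : ∑ i ∈ Finset.range m, (((i + 1 : ℕ) : E) * a (i + 1)) ^ (m + 1) * x ^ i = 0 := by
    rw [← h2]
    refine Finset.sum_congr rfl fun i _ => ?_
    rw [mul_pow, hpow]
    ring
  have h4 := SD_pow_indep (m + 1) D hx m (Nat.le_succ m)
    (fun i => ((i + 1 : ℕ) : E) * a (i + 1)) h3
  have h5 : ∀ j, 1 ≤ j → j < m + 1 → a j = 0 := by
    intro j hj1 hj2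
    obtain ⟨i, rfl⟩ : ∃ i, j = i + 1 := ⟨j - 1, by omega⟩
    have h6 := h4 i (by omega)
    rcases mul_eq_zero.1 h6 with h7 | h7
    · exfalso
      rw [CharP.cast_eq_zero_iff E (m + 1)] at h7
      exact absurd (Nat.le_of_dvd (by omega) h7) (by omega)
    · exact h7
  refine ⟨a 0, ?_⟩
  rw [ha, Finset.sum_eq_single 0]
  · rw [pow_zero, mul_one]
  · intro j hj hj0
    rw [h5 j (Nat.pos_of_ne_zero hj0) (Finset.mem_range.1 hj), zero_pow (by omega), zero_mul]
  · intro h0
    exact absurd (Finset.mem_range.2 (by omega)) h0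

/-- **`ℓ`-th roots**: if `E / k(x)` is separable algebraic and `D x ≠ 0`, every `f` with
`D f = 0` is an `ℓ`-th power in `E`. -/
theorem SA_exists_root (ℓ : ℕ) [hℓ : Fact ℓ.Prime] [CharP k ℓ] [PerfectField k]
    (D : Derivation k E V) {x : E} (hx : D x ≠ 0) [Algebra.IsSeparable k⟮x⟯ E] {f : E}
    (hf : D f = 0) : ∃ h : E, h ^ ℓ = f := by
  have hE : CharP E ℓ := charP_of_injective_algebraMap (algebraMap k E).injective ℓ
  exact SA_exists_root_of_rep ℓ D hx (SA_rep_all (k := k) ℓ x f) hf

end Root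

section Strict

variable {k E : Type*} [Field k] [Field E] [Algebra k E]

/-- a transcendental `h` does not lie in `k(h ^ ℓ)` (characteristic `ℓ`). -/
theorem SA_not_mem_adjoin_pow (ℓ : ℕ) [hℓ : Fact ℓ.Prime] [CharP k ℓ] {h : E}
    (hh : Transcendental k h) : h ∉ k⟮h ^ ℓ⟯ := by
  intro hmem
  rw [IntermediateField.mem_adjoin_simple_iff] at hmem
  obtain ⟨p, q, hpq⟩ := hmem
  by_cases hq : aeval (h ^ ℓ) q = 0
  · rw [hq, div_zero] at hpq
    exact hh (hpq ▸ isAlgebraic_zero)
  have hq0 : q ≠ 0 := fun h0 => hq (by rw [h0, map_zero])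
  have h1 : aeval h (X * expand k ℓ q - expand k ℓ p) = 0 := by
    rw [map_sub, map_mul, aeval_X, expand_aeval, expand_aeval]
    rw [eq_div_iff hq] at hpq
    rw [hpq, sub_self]
  have h2 : X * expand k ℓ q - expand k ℓ p = 0 := by
    by_contra hne
    exact hh ⟨_, hne, h1⟩
  have h3 := congrArg derivative h2
  rw [derivative_sub, derivative_mul, derivative_X, one_mul, derivative_expand, derivative_expand,
    CharP.cast_eq_zero k[X] ℓ] at h3
  simp only [zero_mul, mul_zero, add_zero, sub_zero, derivative_zero] at h3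
  exact hq0 ((expand_eq_zero hℓ.out.pos).1 h3)

end Strict

section AlgClosed

variable {k E : Type*} [Field k] [Field E] [Algebra k E] [IsAlgClosed k]

/-- an element with `d g ≠ 0` is transcendental over `k`. -/
theorem SA_transcendental {V : Type*} [AddCommGroup V] [Module k V] [Module E V]
    [IsScalarTower k E V] (D : Derivation k E V) {g : E} (hg : D g ≠ 0) : Transcendental k g := by
  intro halg
  obtain ⟨a, rfl⟩ := BL_mem_range_of_isIntegral halg.isIntegral
  exact hg (D.map_algebraMap a)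

/-- a non-constant element is transcendental over `k`. -/
theorem SA_transcendental_of_ne {f : E} (hf : ∀ c : k, f ≠ algebraMap k E c) :
    Transcendental k f := by
  intro halg
  obtain ⟨a, rfl⟩ := BL_mem_range_of_isIntegral halg.isIntegral
  exact hf a rfl

/-- **separability**: `E / k(g)` is finite separable as soon as `d g ≠ 0`. -/
theorem SA_isSeparable (ℓ : ℕ) [hℓ : Fact ℓ.Prime] [CharP k ℓ]
    {V : Type*} [AddCommGroup V] [Module k V] [Module E V]
    [IsScalarTower k E V] (D : Derivation k E V) {x : E} [hfin : FiniteDimensional k⟮x⟯ E]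
    {g : E} (hg : D g ≠ 0) : FiniteDimensional k⟮g⟯ E ∧ Algebra.IsSeparable k⟮g⟯ E := by
  have hE : CharP E ℓ := charP_of_injective_algebraMap (algebraMap k E).injective ℓ
  have h1 : FiniteDimensional k⟮g⟯ E := BL_finite_of_transcendental hfin (SA_transcendental D hg)
  have h2 : Algebra.IsAlgebraic k⟮g⟯ E := Algebra.IsAlgebraic.of_finite _ _
  exact ⟨h1, SD_algebra_isSeparable ℓ D hg⟩

/-- **induction principle**: every non-constant element of `E` is obtained from elements with
`d g ≠ 0` by taking `ℓ`-th powers. -/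
theorem SA_induction (ℓ : ℕ) [hℓ : Fact ℓ.Prime] [CharP k ℓ]
    {V : Type*} [AddCommGroup V] [Module k V] [Module E V]
    [IsScalarTower k E V] (D : Derivation k E V) {x : E} (hx : D x ≠ 0)
    [hfin : FiniteDimensional k⟮x⟯ E] (P : E → Prop) (h1 : ∀ g : E, D g ≠ 0 → P g)
    (h2 : ∀ h : E, P h → P (h ^ ℓ)) (f : E) (hf : ∀ c : k, f ≠ algebraMap k E c) : P f := by
  have hsep := (SA_isSeparable ℓ D (x := x) hx).2
  have key : ∀ n : ℕ, ∀ f : E, (∀ c : k, f ≠ algebraMap k E c) →
      Module.finrank k⟮f⟯ E = n → P f := by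
    intro n
    induction n using Nat.strong_induction_on with
    | _ n ih =>
      intro f hf hn
      by_cases hD : D f = 0
      · obtain ⟨h, rfl⟩ := SA_exists_root ℓ D hx hD
        have hh : ∀ c : k, h ≠ algebraMap k E c := by
          intro c hc
          exact hf (c ^ ℓ) (by rw [hc, map_pow])
        have htr : Transcendental k h := SA_transcendental_of_ne hh
        have htrf : Transcendental k (h ^ ℓ) := SA_transcendental_of_ne hf
        have hfinf : FiniteDimensional k⟮h ^ ℓ⟯ E := BL_finite_of_transcendental hfin htrf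
        have hlt : k⟮h ^ ℓ⟯ < k⟮h⟯ := by
          refine lt_of_le_of_ne ?_ ?_
          · rw [IntermediateField.adjoin_simple_le_iff]
            exact pow_mem (IntermediateField.mem_adjoin_simple_self k h) ℓ
          · intro heq
            apply SA_not_mem_adjoin_pow ℓ htr
            rw [heq]
            exact IntermediateField.mem_adjoin_simple_self k h
        have hrank := IntermediateField.finrank_lt_of_gt hlt
        rw [hn] at hrank
        exact h2 h (ih _ hrank h hh rfl)
      · exact h1 f hD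
  exact key _ f hf rfl

section FunctionField

variable {x : E}

/-- every element `g` with `d g ≠ 0` is separating (`d` the universal derivation). -/
theorem SA_separating_of_d_ne_zero (ℓ : ℕ) [hℓ : Fact ℓ.Prime] [CharP k ℓ]
    (hx : Transcendental k x) [FiniteDimensional k⟮x⟯ E]
    {g : E} (hg : KaehlerDifferential.D k E g ≠ 0) :
    Transcendental k g ∧ FiniteDimensional k⟮g⟯ E ∧ Algebra.IsSeparable k⟮g⟯ E :=
  ⟨SA_transcendental _ hg, (SA_isSeparable ℓ (KaehlerDifferential.D k E) (x := x) hg).1,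
    (SA_isSeparable ℓ (KaehlerDifferential.D k E) (x := x) hg).2⟩

/-- **induction principle** (universal derivation). -/
theorem SA_induction' (ℓ : ℕ) [hℓ : Fact ℓ.Prime] [CharP k ℓ]
    (hx : Transcendental k x) [FiniteDimensional k⟮x⟯ E]
    [Algebra.IsSeparable k⟮x⟯ E] (P : E → Prop)
    (h1 : ∀ g : E, Transcendental k g → FiniteDimensional k⟮g⟯ E → Algebra.IsSeparable k⟮g⟯ E →
      P g)
    (h2 : ∀ h : E, P h → P (h ^ ℓ)) (f : E) (hf : ∀ c : k, f ≠ algebraMap k E c) : P f := by
  refine SA_induction ℓ (KaehlerDifferential.D k E) (SA_d_ne_zero hx) P (fun g hg => ?_) h2 f hf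
  obtain ⟨ha, hb, hc⟩ := SA_separating_of_d_ne_zero ℓ hx hg
  exact h1 g ha hb hc

/-- every nonzero element has a divisor of degree `0`. -/
theorem SA_exists_principal_divisor (ℓ : ℕ) [hℓ : Fact ℓ.Prime] [CharP k ℓ]
    (hx : Transcendental k x) [FiniteDimensional k⟮x⟯ E]
    [Algebra.IsSeparable k⟮x⟯ E] (f : E) (hf : f ≠ 0) :
    ∃ D : Divisor k E, (∀ v : Place k E, D v = v.ord f) ∧ Divisor.degree D = 0 := by
  by_cases hc : ∃ c : k, f = algebraMap k E c
  · obtain ⟨c, rfl⟩ := hc
    refine ⟨0, fun v => ?_, map_zero _⟩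
    rw [BL_ord_algebraMap]
    rfl
  · have hc' : ∀ c : k, f ≠ algebraMap k E c := fun c h => hc ⟨c, h⟩
    refine SA_induction' ℓ hx
      (fun f => ∃ D : Divisor k E, (∀ v : Place k E, D v = v.ord f) ∧ Divisor.degree D = 0)
      ?_ ?_ f hc'
    · intro g hg hfin hsep
      exact FFS_exists_principal_divisor hg
    · rintro h ⟨D, hD, hdeg⟩
      refine ⟨(ℓ : ℤ) • D, fun v => ?_, ?_⟩
      · rw [Finsupp.smul_apply, hD, smul_eq_mul, ← zpow_natCast, Place.ord_zpow]
      · rw [map_zsmul, hdeg, smul_zero]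

theorem SA_hasPrincipalDivisors (ℓ : ℕ) [hℓ : Fact ℓ.Prime] [CharP k ℓ]
    (hx : Transcendental k x) [FiniteDimensional k⟮x⟯ E]
    [Algebra.IsSeparable k⟮x⟯ E] : HasPrincipalDivisors k E :=
  ⟨fun f hf => SA_exists_principal_divisor ℓ hx f hf⟩

/-- every non-constant element has a zero. -/
theorem SA_exists_zero (ℓ : ℕ) [hℓ : Fact ℓ.Prime] [CharP k ℓ]
    (hx : Transcendental k x) [FiniteDimensional k⟮x⟯ E]
    [Algebra.IsSeparable k⟮x⟯ E] (f : E) (hc : ∀ c : k, f ≠ algebraMap k E c) :
    ∃ v : Place k E, 0 < v.ord f := by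
  refine SA_induction' ℓ hx (fun f => ∃ v : Place k E, 0 < v.ord f) ?_ ?_ f hc
  · intro g hg hfin hsep
    have hsum := FFS_sum_zeros hg
    by_contra hcon
    have hcon' : ∀ v : Place k E, v.ord g ≤ 0 := fun v => not_lt.1 fun h => hcon ⟨v, h⟩
    have hempty : FFS_zeros hg = ∅ := by
      rw [Finset.eq_empty_iff_forall_notMem]
      intro v hv
      rw [FFS_mem_zeros] at hv
      exact absurd hv (not_lt.2 (hcon' v))
    rw [hempty, Finset.sum_empty] at hsum
    have hpos : 0 < Module.finrank k⟮g⟯ E := Module.finrank_pos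
    have : (0 : ℤ) < Module.finrank k⟮g⟯ E := by exact_mod_cast hpos
    omega
  · rintro h ⟨v, hv⟩
    refine ⟨v, ?_⟩
    rw [← zpow_natCast, Place.ord_zpow]
    have : (0 : ℤ) < (ℓ : ℤ) := by exact_mod_cast hℓ.out.pos
    positivity

/-- **constants**: an element without zeros is constant. -/
theorem SA_const (ℓ : ℕ) [hℓ : Fact ℓ.Prime] [CharP k ℓ]
    (hx : Transcendental k x) [FiniteDimensional k⟮x⟯ E]
    [Algebra.IsSeparable k⟮x⟯ E] (g : E) (hord : ∀ Q : Place k E, Q.ord g ≤ 0) :
    ∃ c : k, g = algebraMap k E c := by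
  by_contra hcon
  have hcon' : ∀ c : k, g ≠ algebraMap k E c := fun c h => hcon ⟨c, h⟩
  obtain ⟨v, hv⟩ := SA_exists_zero ℓ hx g hcon'
  exact absurd hv (not_lt.2 (hord v))

omit [IsAlgClosed k] in
theorem SA_isFunctionField1 [FiniteDimensional k⟮x⟯ E] : S24_IsFunctionField1 k E :=
  S24_isFunctionField1_of_isAlgebraic x (Algebra.IsAlgebraic.of_finite _ _)

theorem SA_deg_one [FiniteDimensional k⟮x⟯ E] (v : Place k E) : v.deg = 1 :=
  S24_deg_eq_one (SA_isFunctionField1 (x := x)) v

/-- **`RR_Hyp`** for a field `E / k` with a separating element `x`, characteristic `ℓ`. -/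
theorem SA_RR_hyp (ℓ : ℕ) [hℓ : Fact ℓ.Prime] [CharP k ℓ]
    (hx : Transcendental k x) [FiniteDimensional k⟮x⟯ E]
    [Algebra.IsSeparable k⟮x⟯ E] : RR_Hyp k E := by
  have hZ : ∀ v, v ∈ FFS_poles hx ↔ v.ord x < 0 := FFS_mem_poles hx
  have hsum : ∑ v ∈ FFS_poles hx, (-v.ord x) = (Module.finrank k⟮x⟯ E : ℤ) := by
    rw [Finset.sum_neg_distrib, FFS_sum_poles hx, neg_neg]
  have hpos : 0 < Module.finrank k⟮x⟯ E := Module.finrank_pos
  refine RR_hyp_of_zeros (fun v => SA_deg_one (x := x) v) (SA_hasPrincipalDivisors ℓ hx) x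
    (FFS_poles hx) hZ ?_ hsum.le
  by_contra hempty
  rw [Finset.not_nonempty_iff_eq_empty] at hempty
  rw [hempty, Finset.sum_empty] at hsum
  have : (0 : ℤ) < Module.finrank k⟮x⟯ E := by exact_mod_cast hpos
  omega

end FunctionField

end AlgClosed

end Fermat.Agent.Lib
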