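import Mathlib
import Fermat.Prelude.Def_FLTPrelim_Ramification
import Fermat.Agent.Lib.InertiaCriterion
import Fermat.Agent.Lib.InertiaLift

/-!
# An everywhere unramified open normal subgroup of `Gal(ℚ̄/ℚ)` is everything

Block G1 of the S13 plan (Minkowski): an open normal subgroup `H` of `Gal(ℚ̄/ℚ)` which for every
prime `ℓ` contains the inertia group of some valuation subring of `ℚ̄` over `ℓ` is the whole group.

The proof: the fixed field `K` of `H` is a finite Galois extension of `ℚ`. If `K ≠ ℚ` then by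
Minkowski's theorem some prime `p` is ramified in `K`, so that for the prime `P` of `𝓞 K` below the
given valuation subring `A` over `p` there is `σ̄ ≠ 1` in the inertia group of `P`. Lift `σ̄` to `σ₁`
in `Gal(ℚ̄/ℚ)`; by `inertiaLift_exists` some `τ σ₁` with `τ ∈ H` lies in the inertia group of `A`,
which is contained in `H`; hence `σ₁ ∈ H` and `σ̄ = 1`, a contradiction.
-/

set_option autoImplicit false

open scoped Pointwise NumberField

namespace Fermat.Agent.Lib

noncomputable section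

/-- Minkowski, in terms of inertia groups: in a Galois number field `K ≠ ℚ` there is a prime number
`p` such that every prime of `K` over `p` has a nontrivial inertia group. -/
theorem ut_exists_inertia_ne_one (K : Type*) [Field K] [NumberField K] [IsGalois ℚ K]
    (H : 1 < Module.finrank ℚ K) :
    ∃ p : ℕ, p.Prime ∧ ∀ (P : Ideal (𝓞 K)), P.IsPrime → (p : 𝓞 K) ∈ P →
      ∃ σ : K ≃ₐ[ℚ] K, σ ≠ 1 ∧ ∀ x : 𝓞 K, σ • x - x ∈ P := by
  obtain ⟨p, hp, hP⟩ :=
    NumberField.exists_not_isUnramifiedAt_int_of_isGalois (K := K) (𝒪 := 𝓞 K) H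
  refine ⟨p, hp, fun P hPprime hpP => ?_⟩
  have hnot := hP P hPprime hpP
  have hpmax : (Ideal.span {(p : ℤ)}).IsMaximal := by
    have : Fact p.Prime := ⟨hp⟩
    exact Int.ideal_span_isMaximal_of_prime p
  have hlies : P.LiesOver (Ideal.span {(p : ℤ)}) := by
    constructor
    refine hpmax.eq_of_le Ideal.IsPrime.ne_top' ?_
    rw [Ideal.span_singleton_le_iff_mem, Ideal.under_def, Ideal.mem_comap]
    simpa using hpP
  have hcard := Ideal.card_inertia_eq_ramificationIdxIn (G := K ≃ₐ[ℚ] K)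
    (Ideal.span {(p : ℤ)}) P
  rw [Ideal.ramificationIdxIn_eq_ramificationIdx (Ideal.span {(p : ℤ)}) P (K ≃ₐ[ℚ] K)] at hcard
  have hne : P.ramificationIdx ℤ ≠ 1 := fun h => hnot (Ideal.ramificationIdx_eq_one_iff.mp h)
  by_contra hcon
  push Not at hcon
  apply hne
  rw [← hcard, Nat.card_eq_one_iff_unique]
  refine ⟨⟨fun a b => ?_⟩, ⟨1⟩⟩
  have h1 : ∀ c : P.inertia (K ≃ₐ[ℚ] K), (c : K ≃ₐ[ℚ] K) = 1 := by
    intro c
    by_contra hc
    obtain ⟨x, hx⟩ := hcon c.1 hc
    exact hx (c.2 x)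
  exact Subtype.ext ((h1 a).trans (h1 b).symm)

local notation "ℚbar" => AlgebraicClosure ℚ
local notation "Gℚ" => (AlgebraicClosure ℚ ≃ₐ[ℚ] AlgebraicClosure ℚ)

theorem ut_isAlgClosure : IsAlgClosure ℚ ℚbar :=
  ⟨inferInstance, AlgebraicClosure.isAlgebraic ℚ⟩

theorem ut_isGalois : IsGalois ℚ ℚbar :=
  have := ut_isAlgClosure
  IsAlgClosure.isGalois ℚ ℚbar

/-- The ring of all algebraic integers. -/
abbrev UtZbar : Subalgebra ℤ ℚbar := integralClosure ℤ ℚbar

/-- The Galois action on algebraic integers. -/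
local instance utMulSemiringAction : MulSemiringAction Gℚ UtZbar where
  smul σ b := ⟨σ b.1, b.2.map (σ.toAlgHom.restrictScalars ℤ)⟩
  one_smul _ := rfl
  mul_smul _ _ _ := rfl
  smul_zero σ := Subtype.ext (map_zero σ)
  smul_add σ _ _ := Subtype.ext (map_add σ _ _)
  smul_one σ := Subtype.ext (map_one σ)
  smul_mul σ _ _ := Subtype.ext (map_mul σ _ _)

theorem ut_coe_smul (σ : Gℚ) (b : UtZbar) : ((σ • b : UtZbar) : ℚbar) = σ b.1 := rfl

/-- The discrete topology on the algebraic integers. -/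
local instance utTopologicalSpace : TopologicalSpace UtZbar := ⊥

local instance utDiscreteTopology : DiscreteTopology UtZbar := ⟨rfl⟩

local instance utContinuousSMul : ContinuousSMul Gℚ UtZbar := by
  have : Algebra.IsAlgebraic ℚ ℚbar := AlgebraicClosure.isAlgebraic ℚ
  have : Algebra.IsIntegral ℚ ℚbar := Algebra.IsAlgebraic.isIntegral
  rw [continuousSMul_iff_stabilizer_isOpen]
  intro b
  convert stabilizer_isOpen_of_isIntegral (K := ℚ) (L := ℚbar) b.1 using 1
  ext σ
  simp only [SetLike.mem_coe, MulAction.mem_stabilizer_iff]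
  exact ⟨fun h => congrArg Subtype.val h, fun h => Subtype.ext h⟩

/-- An open-ness hypothesis in elementary form implies open-ness. -/
theorem ut_isOpen (H : Subgroup Gℚ)
    (hopen : ∃ S : Finset ℚbar, ∀ σ : Gℚ, (∀ s ∈ S, σ s = s) → σ ∈ H) :
    IsOpen (H : Set Gℚ) := by
  obtain ⟨S, hS⟩ := hopen
  let E : IntermediateField ℚ ℚbar := IntermediateField.adjoin ℚ (S : Set ℚbar)
  have : Algebra.IsAlgebraic ℚ ℚbar := AlgebraicClosure.isAlgebraic ℚ
  have : Algebra.IsIntegral ℚ ℚbar := Algebra.IsAlgebraic.isIntegral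
  have hfin : FiniteDimensional ℚ E :=
    IntermediateField.finiteDimensional_adjoin (fun x _ => Algebra.IsIntegral.isIntegral x)
  have h1 : IsOpen (E.fixingSubgroup : Set Gℚ) := IntermediateField.fixingSubgroup_isOpen E
  refine Subgroup.isOpen_mono ?_ h1
  intro σ hσ
  apply hS
  intro s hs
  exact hσ ⟨s, IntermediateField.subset_adjoin _ _ hs⟩

/-- The core of the argument, for an open normal subgroup. -/
theorem ut_eq_top_of_isOpen (H : Subgroup Gℚ) [H.Normal] (hHo : IsOpen (H : Set Gℚ))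
    (hin : ∀ ℓ : ℕ, ℓ.Prime → ∃ A : ValuationSubring ℚbar, A.LiesOverPrime ℓ ∧
      A.inertiaSubgroupIn ℚ ≤ H) : H = ⊤ := by
  have hHc : IsClosed (H : Set Gℚ) := Subgroup.isClosed_of_isOpen H hHo
  have hgal := ut_isGalois
  have halg' : Algebra.IsAlgebraic ℚ ℚbar := AlgebraicClosure.isAlgebraic ℚ
  have hint' : Algebra.IsIntegral ℚ ℚbar := Algebra.IsAlgebraic.isIntegral
  let K : IntermediateField ℚ ℚbar := IntermediateField.fixedField H
  have hfix : K.fixingSubgroup = H := InfiniteGalois.fixingSubgroup_fixedField ⟨H, hHc⟩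
  have hKfin : FiniteDimensional ℚ K :=
    (InfiniteGalois.isOpen_iff_finite K).mp (by rw [hfix]; exact hHo)
  have hKgal : IsGalois ℚ K :=
    (InfiniteGalois.normal_iff_isGalois K).mp (by rw [hfix]; infer_instance)
  have hKnf : NumberField K := ⟨⟩
  by_contra hne
  have hrank : 1 < Module.finrank ℚ K := by
    by_contra h
    have h0 := Module.finrank_pos (R := ℚ) (M := K)
    have h1 : Module.finrank ℚ K = 1 := by omega
    have h2 : K = ⊥ := IntermediateField.finrank_eq_one_iff.mp h1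
    apply hne
    rw [← hfix, h2]
    exact IntermediateField.fixingSubgroup_bot
  obtain ⟨p, hp, hP⟩ := ut_exists_inertia_ne_one K hrank
  obtain ⟨A, hA, hI⟩ := hin p hp
  have hA' : (p : ℚbar) ∈ A.nonunits := hA
  -- the prime of `ℤ̄` below `A`
  let ι : UtZbar →+* A :=
    { toFun := fun b => ⟨b.1, inertiaCrit_mem_of_isIntegral A b.2⟩
      map_one' := rfl
      map_mul' := fun _ _ => rfl
      map_zero' := rfl
      map_add' := fun _ _ => rfl }
  let Q : Ideal UtZbar := Ideal.comap ι (IsLocalRing.maximalIdeal A)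
  have hQmem : ∀ b : UtZbar, b ∈ Q ↔ (b : ℚbar) ∈ A.nonunits := by
    intro b
    rw [Ideal.mem_comap, ← ValuationSubring.coe_mem_nonunits_iff]
    rfl
  have hQprime : Q.IsPrime := Ideal.comap_isPrime ι _
  -- the prime of `𝓞 K` below `A`
  have hOint : ∀ x : 𝓞 K, IsIntegral ℤ (((x : K) : ℚbar)) := fun x =>
    (NumberField.RingOfIntegers.isIntegral_coe x).map (K.val.restrictScalars ℤ)
  let j : 𝓞 K →+* A :=
    { toFun := fun x => ⟨((x : K) : ℚbar), inertiaCrit_mem_of_isIntegral A (hOint x)⟩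
      map_one' := by ext; simp
      map_mul' := fun _ _ => by ext; simp
      map_zero' := by ext; simp
      map_add' := fun _ _ => by ext; simp }
  let P : Ideal (𝓞 K) := Ideal.comap j (IsLocalRing.maximalIdeal A)
  have hPmem : ∀ x : 𝓞 K, x ∈ P ↔ (((x : K) : ℚbar)) ∈ A.nonunits := by
    intro x
    rw [Ideal.mem_comap, ← ValuationSubring.coe_mem_nonunits_iff]
    rfl
  have hPprime : P.IsPrime := Ideal.comap_isPrime j _
  have hpP : (p : 𝓞 K) ∈ P := by
    rw [hPmem]
    simpa using hA'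
  obtain ⟨σbar, hσbar1, hσbar⟩ := hP P hPprime hpP
  -- lift `σbar` to the absolute Galois group
  obtain ⟨σ₁, hσ₁⟩ := AlgEquiv.restrictNormalHom_surjective ℚbar σbar
  have hres : ∀ k : K, ((σbar k : K) : ℚbar) = σ₁ (k : ℚbar) := by
    intro k
    rw [← hσ₁]
    exact AlgEquiv.restrictNormal_commutes σ₁ K k
  have hσ : ∀ a : UtZbar, (∀ h : H, h • a = a) → σ₁ • a - a ∈ Q := by
    intro a ha
    have hmem : (a : ℚbar) ∈ K := by
      rw [IntermediateField.mem_fixedField_iff]
      intro f hf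
      exact congrArg Subtype.val (ha ⟨f, hf⟩)
    have hintK : IsIntegral ℤ (⟨(a : ℚbar), hmem⟩ : K) := by
      have := a.2
      exact (isIntegral_algHom_iff (K.val.restrictScalars ℤ) Subtype.val_injective).mp this
    let x : 𝓞 K := ⟨⟨(a : ℚbar), hmem⟩, hintK⟩
    have h1 := hσbar x
    rw [hPmem] at h1
    rw [hQmem]
    have h2 : (((σbar • x - x : 𝓞 K) : K) : ℚbar) = σ₁ (a : ℚbar) - (a : ℚbar) := by
      have : ((σbar • x - x : 𝓞 K) : K) = σbar (x : K) - (x : K) := rfl
      rw [this]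
      show ((σbar (x : K) : K) : ℚbar) - ((x : K) : ℚbar) = _
      rw [hres]
      rfl
    rw [h2] at h1
    exact h1
  obtain ⟨τ, hτH, hτ⟩ := inertiaLift_exists (G := Gℚ) (B := UtZbar) H hHc Q σ₁ hσ
  have halg : ∀ x : ℚbar, IsAlgebraic ℤ x := fun x =>
    (IsFractionRing.isAlgebraic_iff ℤ ℚ ℚbar).mpr
      ((AlgebraicClosure.isAlgebraic ℚ).isAlgebraic x)
  have hmemI : τ * σ₁ ∈ A.inertiaSubgroupIn ℚ := by
    refine inertiaCrit_mem_inertia_of_forall_isIntegral A hp hA' halg (τ * σ₁) ?_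
    intro b hb
    have := hτ ⟨b, hb⟩
    rw [hQmem] at this
    exact this
  have hτσ : τ * σ₁ ∈ H := hI hmemI
  have hσ₁H : σ₁ ∈ H := by
    have := H.mul_mem (H.inv_mem hτH) hτσ
    simpa using this
  apply hσbar1
  ext k
  have h3 : σ₁ (k : ℚbar) = (k : ℚbar) := by
    have hk : (k : ℚbar) ∈ K := k.2
    rw [IntermediateField.mem_fixedField_iff] at hk
    exact hk σ₁ hσ₁H
  rw [AlgEquiv.one_apply]
  exact (hres k).trans h3

/-- **Block G1** in the generality of an arbitrary open normal subgroup. -/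
theorem ut_eq_top (H : Subgroup Gℚ) [H.Normal]
    (hopen : ∃ S : Finset ℚbar, ∀ σ : Gℚ, (∀ s ∈ S, σ s = s) → σ ∈ H)
    (hin : ∀ ℓ : ℕ, ℓ.Prime → ∃ A : ValuationSubring ℚbar, A.LiesOverPrime ℓ ∧
      A.inertiaSubgroupIn ℚ ≤ H) : H = ⊤ :=
  ut_eq_top_of_isOpen H (ut_isOpen H hopen) hin

end

end Fermat.Agent.Lib

namespace Fermat.Agent.S13

/-- Minkowski: an open normal subgroup of `Gal(ℚ̄/ℚ)` which for every prime `ℓ` contains the
inertia group of SOME valuation subring over `ℓ` is everything. -/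
theorem S13_unramified_trivial
    (H : Subgroup (AlgebraicClosure ℚ ≃ₐ[ℚ] AlgebraicClosure ℚ)) [H.Normal]
    (hopen : ∃ S : Finset (AlgebraicClosure ℚ),
      ∀ σ : (AlgebraicClosure ℚ ≃ₐ[ℚ] AlgebraicClosure ℚ), (∀ s ∈ S, σ s = s) → σ ∈ H)
    (hin : ∀ ℓ : ℕ, ℓ.Prime → ∃ A : ValuationSubring (AlgebraicClosure ℚ),
      A.LiesOverPrime ℓ ∧ A.inertiaSubgroupIn ℚ ≤ H) : H = ⊤ :=
  Fermat.Agent.Lib.ut_eq_top H hopen hin

end Fermat.Agent.S13
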