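import Mathlib


set_option autoImplicit false

open Polynomial

namespace Fermat.Agent.Lib

/-- Key lemma: if `B` is a subring of a valuation subring `A` of `L`, integrally closed in `L`,
`x ∈ A` is a root of a polynomial over `B` with a coefficient which is a unit of `A`, then
`x = (s x) / s` with `s, s x ∈ B` and `s` a unit of `A`. -/
theorem exists_unit_mul_mem_of_aeval_eq_zero {L : Type*} [Field L] (A : ValuationSubring L)
    (B : Subring L) (hB : ∀ y : L, IsIntegral B y → y ∈ B)
    (x : L) (hx : x ∈ A) :
    ∀ (n : ℕ) (p : B[X]), p.natDegree ≤ n → aeval x p = 0 →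
      (∃ i, ((p.coeff i : B) : L) ∉ A.nonunits) →
      ∃ s ∈ B, s ∉ A.nonunits ∧ s * x ∈ B := by
  have hvx : A.valuation x ≤ 1 := (A.valuation_le_one_iff _).mpr hx
  intro n
  induction n with
  | zero =>
    intro p hp h0 ⟨i, hi⟩
    exfalso
    rw [Nat.le_zero] at hp
    rw [eq_C_of_natDegree_eq_zero hp] at h0 hi
    simp only [aeval_C] at h0
    have h1 : (p.coeff 0 : L) = 0 := h0
    apply hi
    rw [A.mem_nonunits_iff, coeff_C]
    split_ifs
    · rw [h1]
      simp
    · simp
  | succ n ih =>
    intro p hp h0 ⟨i, hi⟩
    by_cases hpn : p.natDegree ≤ n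
    · exact ih p hpn h0 ⟨i, hi⟩
    have hdeg : p.natDegree = n + 1 := le_antisymm hp (by omega)
    -- leading coefficient times x is integral
    have hint : IsIntegral B ((p.leadingCoeff : B) • x) := isIntegral_leadingCoeff_smul p x h0
    have hax : ((p.leadingCoeff : B) : L) * x ∈ B := hB _ hint
    by_cases ha : ((p.leadingCoeff : B) : L) ∈ A.nonunits
    · -- leading coefficient is a nonunit: reduce the degree
      let c : B := ⟨((p.leadingCoeff : B) : L) * x, hax⟩
      have hcv : A.valuation (c : L) < 1 := by
        show A.valuation (((p.leadingCoeff : B) : L) * x) < 1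
        rw [map_mul]
        calc A.valuation ((p.leadingCoeff : B) : L) * A.valuation x
            ≤ A.valuation ((p.leadingCoeff : B) : L) * 1 := by gcongr
          _ < 1 := by rw [mul_one]; exact A.mem_nonunits_iff.mp ha
      let p' : B[X] := p.eraseLead + C c * X ^ n
      have hp'deg : p'.natDegree ≤ n := by
        apply (natDegree_add_le _ _).trans
        apply max_le
        · have := eraseLead_natDegree_le p
          omega
        · exact natDegree_C_mul_X_pow_le c n
      have hp'0 : aeval x p' = 0 := by
        have h1 : aeval x p = aeval x p.eraseLead + aeval x (C p.leadingCoeff * X ^ p.natDegree) := by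
          rw [← map_add, eraseLead_add_C_mul_X_pow]
        simp only [p', map_add, map_mul, aeval_C, map_pow, aeval_X]
        rw [h0, hdeg] at h1
        simp only [map_mul, aeval_C, map_pow, aeval_X] at h1
        have h2 : (algebraMap B L) c = (algebraMap B L) p.leadingCoeff * x := rfl
        rw [h2]
        rw [h1]
        ring
      have hcoeff : ∃ i, ((p'.coeff i : B) : L) ∉ A.nonunits := by
        by_cases hin : i = n
        · refine ⟨n, ?_⟩
          simp only [p', coeff_add, coeff_C_mul, coeff_X_pow, if_true, mul_one]
          rw [eraseLead_coeff_of_ne _ (by omega)]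
          intro hmem
          apply hi
          rw [hin]
          have h3 := A.mem_nonunits_iff.mp hmem
          rw [A.mem_nonunits_iff]
          have h4 : ((p.coeff n : B) : L) = ((p.coeff n + c : B) : L) - (c : L) := by
            push_cast; ring
          rw [h4]
          exact lt_of_le_of_lt (Valuation.map_sub _ _ _) (max_lt h3 hcv)
        · have hin' : i ≠ n + 1 := by
            rintro rfl
            apply hi
            rw [← hdeg]
            exact ha
          refine ⟨i, ?_⟩
          simp only [p', coeff_add, coeff_C_mul, coeff_X_pow, if_neg hin, mul_zero, add_zero]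
          rwa [eraseLead_coeff_of_ne _ (by omega)]
      exact ih p' hp'deg hp'0 hcoeff
    · exact ⟨_, p.leadingCoeff.2, ha, hax⟩

end Fermat.Agent.Lib
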